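import Mathlib

/-!
# The tree of `PGL₂` of a discretely valued field and spherical functions

Vertices are cosets of `GL₂(O) · scalars`; the distance between `g` and `h` is `cartan (g⁻¹ h)`.
A spherical function is a finitely supported function of the distance.
-/

noncomputable section

open Matrix
open scoped WithZero

namespace Fermat.Agent.ResidualThree

variable {F : Type*} [Field F] (v : Valuation F ℤᵐ⁰)

/-- `2 · max log |g i j| - log |det g|`. -/
def cartanInt (g : GL (Fin 2) F) : ℤ :=
  2 * WithZero.log (Finset.univ.sup fun p : Fin 2 × Fin 2 =>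
    v ((g : Matrix (Fin 2) (Fin 2) F) p.1 p.2))
    - WithZero.log (v (g : Matrix (Fin 2) (Fin 2) F).det)

/-- The distance in the tree between the vertices of `1` and `g`. -/
def cartan (g : GL (Fin 2) F) : ℕ := (cartanInt v g).toNat

/-- The distance between two vertices. -/
def treeDist (g h : GL (Fin 2) F) : ℕ := cartan v (g⁻¹ * h)

/-- Entries integral and determinant a unit. -/
def IsIntGL (g : GL (Fin 2) F) : Prop :=
  (∀ i j, v ((g : Matrix (Fin 2) (Fin 2) F) i j) ≤ 1) ∧ v (g : Matrix (Fin 2) (Fin 2) F).det = 1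

/-- Normalised constant term transform of a spherical function; `Q` is the residue cardinality. -/
def satake (Q : ℕ) (f : ℕ →₀ ℂ) (n : ℕ) : ℂ :=
  (Real.sqrt Q : ℂ) ^ n * f n +
    (1 - 1 / (Q : ℂ)) * ∑ m ∈ f.support, if n < m ∧ (m - n) % 2 = 0 then
      (Real.sqrt Q : ℂ) ^ m * f m else 0

/-- Inverse of `satake`. -/
def invSatakeFun (Q : ℕ) (G : ℕ →₀ ℂ) (n : ℕ) : ℂ :=
  ((Real.sqrt Q : ℂ) ^ n)⁻¹ * (G n -
    (1 - 1 / (Q : ℂ)) * ∑ m ∈ G.support, if n < m ∧ (m - n) % 2 = 0 then
      G m / (Q : ℂ) ^ ((m - n) / 2 - 1) else 0)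

/-- Inverse of `satake`, as a spherical function. -/
def invSatake (Q : ℕ) (G : ℕ →₀ ℂ) : ℕ →₀ ℂ :=
  Finsupp.onFinset (Finset.range (G.support.sup id + 1)) (invSatakeFun Q G) fun n hn => by
    rw [Finset.mem_range]
    by_contra h
    push Not at h
    have hG : ∀ m ∈ G.support, m < n := fun m hm =>
      lt_of_le_of_lt (Finset.le_sup (f := id) hm) (by omega)
    refine hn ?_
    have h0 : G n = 0 := Finsupp.notMem_support_iff.mp fun hm => lt_irrefl _ (hG n hm)
    have h1 : (∑ m ∈ G.support, if n < m ∧ (m - n) % 2 = 0 then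
        G m / (Q : ℂ) ^ ((m - n) / 2 - 1) else 0) = 0 :=
      Finset.sum_eq_zero fun m hm => if_neg fun h' => absurd (hG m hm) (by omega)
    rw [invSatakeFun, h0, h1]; simp

/-- The constant term transform pulled back along `n ↦ 3 n`. -/
def satakeTriple (Q : ℕ) (f : ℕ →₀ ℂ) : ℕ →₀ ℂ :=
  Finsupp.onFinset (Finset.range (3 * f.support.sup id + 1))
    (fun n => if 3 ∣ n then satake Q f (n / 3) else 0) fun n hn => by
    rw [Finset.mem_range]
    by_contra h
    push Not at h
    refine hn ?_
    split_ifs with h3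
    · have hf : ∀ m ∈ f.support, m < n / 3 := fun m hm =>
        lt_of_le_of_lt (Finset.le_sup (f := id) hm) (by omega)
      have h0 : f (n / 3) = 0 :=
        Finsupp.notMem_support_iff.mp fun hm => lt_irrefl _ (hf _ hm)
      have h1 : (∑ m ∈ f.support, if n / 3 < m ∧ (m - n / 3) % 2 = 0 then
          (Real.sqrt Q : ℂ) ^ m * f m else 0) = 0 :=
        Finset.sum_eq_zero fun m hm => if_neg fun h' => absurd (hf m hm) (by omega)
      rw [satake, h0, h1]; simp
    · rfl

/-- Base change of spherical functions for an unramified cubic extension (`q` downstairs). -/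
def sphericalBC (q : ℕ) (f : ℕ →₀ ℂ) : ℕ →₀ ℂ := invSatake q (satakeTriple (q ^ 3) f)

end Fermat.Agent.ResidualThree
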