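import Mathlib
import Fermat.Agent.ResidualThree.Tree.Defs

/-!
# Spherical functions on regular trees: the constant term transform and base change

The identities between branch sums, the Satake transform and its inverse which express that the
cubic base change of spherical functions has matching sums over minimal sets of valence zero, one
and two, and the eigenvalue of a spherical function on sphere eigenfunctions.
-/

noncomputable section

open Finset

namespace Fermat.Agent.ResidualThree.Tree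

/-- A number exceeding the support. -/
def spBound (f : ℕ →₀ ℂ) : ℕ := f.support.sup id + 1

theorem apply_eq_zero_of_spBound_le {f : ℕ →₀ ℂ} {n : ℕ} (h : spBound f ≤ n) : f n = 0 := by
  refine Finsupp.notMem_support_iff.mp fun hn => ?_
  have := Finset.le_sup (f := id) hn
  simp only [spBound, id] at *
  omega

/-- `∑_{r ≥ 1} Q^(r-1) f (l + 2 r)`. -/
def outBranch (Q : ℕ) (f : ℕ →₀ ℂ) (l : ℕ) : ℂ :=
  ∑ j ∈ range (spBound f), (Q : ℂ) ^ j * f (l + 2 * (j + 1))

/-- `∑_{r ≥ 1} r Q^(r-1) f (l + 2 r)`. -/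
def outBranchW (Q : ℕ) (f : ℕ →₀ ℂ) (l : ℕ) : ℂ :=
  ∑ j ∈ range (spBound f), ((j : ℂ) + 1) * ((Q : ℂ) ^ j * f (l + 2 * (j + 1)))

/-- The orbital sum over the points projecting to one point of valence `d` of the minimal set. -/
def outSum (Q : ℕ) (f : ℕ →₀ ℂ) (l d : ℕ) : ℂ := f l + ((Q : ℂ) + 1 - d) * outBranch Q f l

/-- The orbital sum weighted by the distance to the minimal set. -/
def outSumW (Q : ℕ) (f : ℕ →₀ ℂ) (l d : ℕ) : ℂ := ((Q : ℂ) + 1 - d) * outBranchW Q f l

/-- `√Q` as a complex number. -/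
def csqrtN (Q : ℕ) : ℂ := (Real.sqrt Q : ℂ)

theorem csqrtN_sq (Q : ℕ) : csqrtN Q ^ 2 = (Q : ℂ) := by
  rw [csqrtN, ← Complex.ofReal_pow, Real.sq_sqrt (Nat.cast_nonneg Q), Complex.ofReal_natCast]

theorem csqrtN_ne_zero {Q : ℕ} (hQ : Q ≠ 0) : csqrtN Q ≠ 0 := fun h => by
  have := csqrtN_sq Q
  rw [h, zero_pow two_ne_zero] at this
  exact hQ (by exact_mod_cast this.symm)

theorem csqrtN_cube (q : ℕ) : csqrtN (q ^ 3) = csqrtN q * (q : ℂ) := by
  rw [← csqrtN_sq q, csqrtN, csqrtN, ← Complex.ofReal_pow, ← Complex.ofReal_mul]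
  congr 1
  rw [Real.sq_sqrt (Nat.cast_nonneg q), Nat.cast_pow, show (q : ℝ) ^ 3 = (q : ℝ) ^ 2 * q by ring,
    Real.sqrt_mul (sq_nonneg _), Real.sqrt_sq (Nat.cast_nonneg q), mul_comm]

section Abstract

variable (s : ℂ) (φ : ℕ → ℂ) (N : ℕ)

/-- Sums over `n + 2 (j + 1)`. -/
def stepSum (w : ℕ → ℂ) (n : ℕ) : ℂ := ∑ j ∈ range N, w j * φ (n + 2 * (j + 1))

theorem stepSum_succ (hφ : ∀ m, N ≤ m → φ m = 0) (w : ℕ → ℂ) (n : ℕ) :
    stepSum φ N w n = w 0 * φ (n + 2) + stepSum φ N (fun j => w (j + 1)) (n + 2) := by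
  rw [stepSum, stepSum]
  rcases N with _ | M
  · simp [hφ (n + 2) (Nat.zero_le _)]
  rw [sum_range_succ']
  conv_rhs => rw [sum_range_succ]
  rw [hφ (n + 2 + 2 * (M + 1)) (by omega), mul_zero, add_zero, add_comm]
  simp [show ∀ j, n + 2 + 2 * (j + 1) = n + 2 * (j + 1 + 1) from fun j => by omega]

theorem stepSum_eq_zero (hφ : ∀ m, N ≤ m → φ m = 0) (w : ℕ → ℂ) {n : ℕ} (hn : N ≤ n) :
    stepSum φ N w n = 0 :=
  sum_eq_zero fun j _ => by rw [hφ _ (by omega), mul_zero]

theorem eq_of_step {A B : ℕ → ℂ} (hA : ∀ n, N ≤ n → A n = 0) (hB : ∀ n, N ≤ n → B n = 0)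
    (h : ∀ n, A (n + 2) = B (n + 2) → A n = B n) (n : ℕ) : A n = B n := by
  suffices H : ∀ k n, N ≤ n + k → A n = B n from H N n (by omega)
  intro k
  induction k with
  | zero => intro n hn; rw [hA n (by omega), hB n (by omega)]
  | succ k ih => intro n hn; exact h n (ih (n + 2) (by omega))

end Abstract

/-- `∑_{r ≥ 1} √Q^(n + 2 r) f (n + 2 r)`. -/
def satakeTail (Q : ℕ) (f : ℕ →₀ ℂ) (n : ℕ) : ℂ :=
  stepSum (fun m => csqrtN Q ^ m * f m) (spBound f) (fun _ => 1) n

theorem sum_parity_eq (φ : ℕ → ℂ) (S : Finset ℕ) {N : ℕ} (hS : ∀ m ∈ S, m < N)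
    (hφ : ∀ m, m ∉ S → φ m = 0) (n : ℕ) :
    (∑ m ∈ S, if n < m ∧ (m - n) % 2 = 0 then φ m else 0) =
      ∑ j ∈ range N, φ (n + 2 * (j + 1)) := by
  rw [← Finset.sum_image (g := fun j => n + 2 * (j + 1)) (f := φ) (fun a _ b _ h =>
    by dsimp only at h; omega),
    ← Finset.sum_filter]
  refine Finset.sum_subset (fun m hm => ?_) fun m _ hm => ?_
  · rw [mem_filter] at hm
    exact mem_image.mpr ⟨(m - n) / 2 - 1, mem_range.mpr (by have := hS m hm.1; omega), by omega⟩
  · by_cases hmS : m ∈ S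
    · obtain ⟨j, -, rfl⟩ := mem_image.mp ‹m ∈ _›
      exact absurd (mem_filter.mpr ⟨hmS, by omega, by omega⟩) hm
    · exact hφ m hmS

theorem lt_spBound {f : ℕ →₀ ℂ} : ∀ m ∈ f.support, m < spBound f := fun m hm => by
  have := Finset.le_sup (f := id) hm
  simp only [spBound, id] at *
  omega

theorem satake_eq (Q : ℕ) (f : ℕ →₀ ℂ) (n : ℕ) :
    satake Q f n = csqrtN Q ^ n * f n + (1 - 1 / (Q : ℂ)) * satakeTail Q f n := by
  rw [satake, sum_parity_eq (fun m => (Real.sqrt Q : ℂ) ^ m * f m) f.support (N := spBound f)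
    lt_spBound (fun m hm => by rw [Finsupp.notMem_support_iff.mp hm, mul_zero]) n]
  simp [satakeTail, stepSum, csqrtN]

theorem satakeTail_succ (Q : ℕ) (f : ℕ →₀ ℂ) (n : ℕ) :
    satakeTail Q f n = csqrtN Q ^ (n + 2) * f (n + 2) + satakeTail Q f (n + 2) := by
  rw [satakeTail, stepSum_succ (hφ := fun m hm => by
    rw [apply_eq_zero_of_spBound_le hm, mul_zero]), one_mul]
  rfl

theorem satakeTail_eq_zero (Q : ℕ) (f : ℕ →₀ ℂ) {n : ℕ} (hn : spBound f ≤ n) :
    satakeTail Q f n = 0 :=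
  stepSum_eq_zero _ _ (fun m hm => by rw [apply_eq_zero_of_spBound_le hm, mul_zero]) _ hn

theorem satake_eq_zero (Q : ℕ) (f : ℕ →₀ ℂ) {n : ℕ} (hn : spBound f ≤ n) : satake Q f n = 0 := by
  rw [satake_eq, satakeTail_eq_zero Q f hn, apply_eq_zero_of_spBound_le hn, mul_zero, mul_zero,
    add_zero]

theorem outBranch_eq {Q : ℕ} (f : ℕ →₀ ℂ) (l : ℕ) :
    (Q : ℂ) * csqrtN Q ^ l * outBranch Q f l = satakeTail Q f l := by
  rw [outBranch, satakeTail, stepSum, mul_sum]
  refine sum_congr rfl fun j _ => ?_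
  rw [one_mul, pow_add, pow_mul, csqrtN_sq, pow_succ]
  ring

/-- The orbital sum with two branches is the constant term. -/
theorem outSum_two {Q : ℕ} (hQ : Q ≠ 0) (f : ℕ →₀ ℂ) (l : ℕ) :
    csqrtN Q ^ l * outSum Q f l 2 = satake Q f l := by
  have hQ' : (Q : ℂ) ≠ 0 := Nat.cast_ne_zero.mpr hQ
  rw [satake_eq, ← outBranch_eq, outSum]
  push_cast
  field_simp
  ring

/-- `∑_{j} G (n + 2 (j + 1)) Q^(-j)`. -/
def geomTail (Q : ℕ) (G : ℕ → ℂ) (N n : ℕ) : ℂ := stepSum G N (fun j => ((Q : ℂ) ^ j)⁻¹) n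

theorem geomTail_succ (Q : ℕ) (G : ℕ → ℂ) {N : ℕ} (hG : ∀ m, N ≤ m → G m = 0) (n : ℕ) :
    geomTail Q G N n = G (n + 2) + geomTail Q G N (n + 2) / (Q : ℂ) := by
  rw [geomTail, stepSum_succ (hφ := hG), pow_zero, inv_one, one_mul]
  congr 1
  rw [geomTail, stepSum, stepSum, sum_div]
  refine sum_congr rfl fun j _ => ?_
  rw [pow_succ, mul_inv]
  ring

theorem geomTail_eq_zero (Q : ℕ) (G : ℕ → ℂ) {N : ℕ} (hG : ∀ m, N ≤ m → G m = 0) {n : ℕ}
    (hn : N ≤ n) : geomTail Q G N n = 0 := stepSum_eq_zero G N hG _ hn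

theorem satakeTail_eq_geomTail (Q : ℕ) (f : ℕ →₀ ℂ) {N : ℕ} (hN : spBound f ≤ N) (n : ℕ) :
    satakeTail Q f n = geomTail Q (satake Q f) N n := by
  refine eq_of_step N (fun m hm => satakeTail_eq_zero Q f (hN.trans hm))
    (fun m hm => geomTail_eq_zero Q _ (fun k hk => satake_eq_zero Q f (hN.trans hk)) hm)
    (fun m hm => ?_) n
  rw [geomTail_succ Q _ (fun k hk => satake_eq_zero Q f (hN.trans hk)), ← hm, satake_eq,
    satakeTail_succ]
  ring

/-- `invSatake` is a right inverse of `satake`. -/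
theorem satake_invSatake {Q : ℕ} (hQ : Q ≠ 0) (G : ℕ →₀ ℂ) (n : ℕ) :
    satake Q (invSatake Q G) n = G n := by
  set f := invSatake Q G with hf
  set N := max (spBound f) (spBound G)
  have hG : ∀ m, spBound G ≤ m → G m = 0 := fun m hm => apply_eq_zero_of_spBound_le hm
  have hs := csqrtN_ne_zero hQ
  have hval : ∀ m, csqrtN Q ^ m * f m =
      G m - (1 - 1 / (Q : ℂ)) * geomTail Q G (spBound G) m := fun m => by
    have e : (∑ k ∈ G.support, if m < k ∧ (k - m) % 2 = 0 then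
        G k / (Q : ℂ) ^ ((k - m) / 2 - 1) else 0) = geomTail Q G (spBound G) m := by
      rw [sum_parity_eq (fun k => G k / (Q : ℂ) ^ ((k - m) / 2 - 1)) G.support (N := spBound G)
        lt_spBound (fun k hk => by rw [Finsupp.notMem_support_iff.mp hk, zero_div]) m, geomTail,
        stepSum]
      refine sum_congr rfl fun j _ => ?_
      rw [show (m + 2 * (j + 1) - m) / 2 - 1 = j by omega, div_eq_inv_mul]
    rw [hf, invSatake, Finsupp.onFinset_apply, invSatakeFun, e, ← mul_assoc]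
    show csqrtN Q ^ m * (csqrtN Q ^ m)⁻¹ * _ = _
    rw [mul_inv_cancel₀ (pow_ne_zero _ hs), one_mul]
  have key : ∀ m, satakeTail Q f m = geomTail Q G (spBound G) m := fun m => by
    refine eq_of_step N (fun k hk => satakeTail_eq_zero Q f ((le_max_left _ _).trans hk))
      (fun k hk => geomTail_eq_zero Q G hG ((le_max_right _ _).trans hk)) (fun k hk => ?_) m
    rw [satakeTail_succ, hval, hk, geomTail_succ Q G hG k]
    ring
  rw [satake_eq, hval, key]
  ring

/-- The transform of the base change is the tripled transform. -/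
theorem satake_sphericalBC {q : ℕ} (hq : q ≠ 0) (f : ℕ →₀ ℂ) (n : ℕ) :
    satake q (sphericalBC q f) n = if 3 ∣ n then satake (q ^ 3) f (n / 3) else 0 := by
  rw [sphericalBC, satake_invSatake hq, satakeTriple, Finsupp.onFinset_apply]

theorem sum_triple (φ : ℕ → ℂ) (c : ℕ) (hc : c < 3) (hφ : ∀ j, j % 3 ≠ c → φ j = 0) (M : ℕ) :
    ∑ j ∈ range (3 * M), φ j = ∑ i ∈ range M, φ (3 * i + c) := by
  induction M with
  | zero => simp
  | succ M ih =>
    rw [show 3 * (M + 1) = 3 * M + 1 + 1 + 1 by ring, sum_range_succ, sum_range_succ,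
      sum_range_succ, sum_range_succ, ih]
    interval_cases c
    · simp [hφ (3 * M + 1) (by omega), hφ (3 * M + 1 + 1) (by omega)]
    · simp [hφ (3 * M) (by omega), hφ (3 * M + 1 + 1) (by omega)]
    · simp [hφ (3 * M) (by omega), hφ (3 * M + 1) (by omega)]

variable {q : ℕ}

/-- Hyperbolic classes which are not norms contribute zero. -/
theorem outSum_bc_two_of_not_dvd (hq : q ≠ 0) (f : ℕ →₀ ℂ) {l : ℕ} (hl : ¬ 3 ∣ l) :
    outSum q (sphericalBC q f) l 2 = 0 := by
  have h := outSum_two hq (sphericalBC q f) l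
  rw [satake_sphericalBC hq, if_neg hl] at h
  exact (mul_eq_zero.mp h).resolve_left (pow_ne_zero _ (csqrtN_ne_zero hq))

/-- Hyperbolic classes: `l` upstairs, `3 l` downstairs. -/
theorem outSum_bc_two (hq : q ≠ 0) (f : ℕ →₀ ℂ) (l : ℕ) :
    outSum q (sphericalBC q f) (3 * l) 2 = outSum (q ^ 3) f l 2 := by
  have h := outSum_two hq (sphericalBC q f) (3 * l)
  rw [satake_sphericalBC hq, if_pos (dvd_mul_right 3 l), Nat.mul_div_cancel_left _ (by norm_num),
    ← outSum_two (pow_ne_zero 3 hq) f, csqrtN_cube, ← csqrtN_sq q, ← pow_succ', ← pow_mul] at h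
  exact mul_left_cancel₀ (pow_ne_zero _ (csqrtN_ne_zero hq)) h

theorem satakeTail_bc (hq : q ≠ 0) (f : ℕ →₀ ℂ) (l : ℕ) :
    satakeTail q (sphericalBC q f) l =
      ∑ j ∈ range (3 * (spBound f + spBound (sphericalBC q f))), ((q : ℂ) ^ j)⁻¹ *
        (if 3 ∣ l + 2 * (j + 1) then satake (q ^ 3) f ((l + 2 * (j + 1)) / 3) else 0) := by
  rw [satakeTail_eq_geomTail q (sphericalBC q f)
    (N := 3 * (spBound f + spBound (sphericalBC q f))) (by omega) l, geomTail, stepSum]
  exact sum_congr rfl fun j _ => by rw [satake_sphericalBC hq]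

theorem satakeTail_cube (f : ℕ →₀ ℂ) {M : ℕ} (hM : spBound f ≤ M) (l : ℕ) :
    satakeTail (q ^ 3) f l =
      ∑ i ∈ range M, (((q : ℂ) ^ 3) ^ i)⁻¹ * satake (q ^ 3) f (l + 2 * (i + 1)) := by
  rw [satakeTail_eq_geomTail (q ^ 3) f hM l, geomTail, stepSum, Nat.cast_pow]

theorem outBranch_bc_zero (hq : q ≠ 0) (f : ℕ →₀ ℂ) :
    outBranch q (sphericalBC q f) 0 = outBranch (q ^ 3) f 0 := by
  have hq' : (q : ℂ) ≠ 0 := Nat.cast_ne_zero.mpr hq
  have h1 := outBranch_eq (Q := q) (sphericalBC q f) 0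
  have h2 := outBranch_eq (Q := q ^ 3) f 0
  rw [pow_zero, mul_one] at h1 h2
  set M := spBound f + spBound (sphericalBC q f)
  have h3 : satakeTail q (sphericalBC q f) 0 = ((q : ℂ) ^ 2)⁻¹ * satakeTail (q ^ 3) f 0 := by
    rw [satakeTail_bc hq, sum_triple _ 2 (by norm_num) (fun j hj => by
        rw [if_neg (fun h => hj (by omega)), mul_zero]),
      satakeTail_cube f (M := M) (Nat.le_add_right _ _), mul_sum]
    refine sum_congr rfl fun i _ => ?_
    rw [if_pos ⟨2 * (i + 1), by ring⟩, show (0 + 2 * (3 * i + 2 + 1)) / 3 =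
      0 + 2 * (i + 1) by omega,
      ← mul_assoc, ← mul_inv, ← pow_mul, ← pow_add, add_comm 2 (3 * i)]
  rw [← h1, ← h2, Nat.cast_pow] at h3
  refine mul_left_cancel₀ hq' (h3.trans ?_)
  field_simp

/-- Elliptic classes fixing a vertex of valence `d`. -/
theorem outSum_bc_zero (hq : q ≠ 0) (f : ℕ →₀ ℂ) (d : ℕ) :
    outSum q (sphericalBC q f) 0 d = outSum (q ^ 3) f 0 d := by
  have h2 := outSum_bc_two hq f 0
  simp only [mul_zero, outSum, outBranch_bc_zero hq] at h2 ⊢
  push_cast at h2 ⊢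
  linear_combination h2

/-- Elliptic classes inverting an edge. -/
theorem outSum_bc_one (hq : q ≠ 0) (f : ℕ →₀ ℂ) :
    outSum q (sphericalBC q f) 1 1 = outSum (q ^ 3) f 1 1 := by
  have hs := csqrtN_ne_zero hq
  have hs' := csqrtN_ne_zero (pow_ne_zero 3 hq)
  have hq' : (q : ℂ) ≠ 0 := Nat.cast_ne_zero.mpr hq
  have key : ∀ (Q : ℕ) (_ : Q ≠ 0) (g : ℕ →₀ ℂ), csqrtN Q * outSum Q g 1 1 =
      satake Q g 1 + satakeTail Q g 1 / (Q : ℂ) := fun Q hQ g => by
    have hQ' : (Q : ℂ) ≠ 0 := Nat.cast_ne_zero.mpr hQ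
    rw [outSum, satake_eq, ← outBranch_eq, pow_one]
    push_cast
    field_simp
    ring
  set M := spBound f + spBound (sphericalBC q f) with hM
  have hR : csqrtN (q ^ 3) * outSum (q ^ 3) f 1 1 =
      ∑ i ∈ range (M + 1), (((q : ℂ) ^ 3) ^ i)⁻¹ * satake (q ^ 3) f (2 * i + 1) := by
    rw [key _ (pow_ne_zero 3 hq), satakeTail_cube f (M := M) (Nat.le_add_right _ _),
      sum_range_succ', sum_div, add_comm, Nat.cast_pow]
    congr 1
    · refine sum_congr rfl fun i _ => ?_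
      rw [show 1 + 2 * (i + 1) = 2 * (i + 1) + 1 by ring, pow_succ ((q : ℂ) ^ 3) i]
      field_simp
    · simp
  have hL : satakeTail q (sphericalBC q f) 1 =
      ∑ i ∈ range M, (((q : ℂ) ^ 3) ^ i)⁻¹ * satake (q ^ 3) f (2 * i + 1) := by
    rw [satakeTail_bc hq, sum_triple _ 0 (by norm_num) (fun j hj => by
        rw [if_neg (fun h => hj (by omega)), mul_zero])]
    refine sum_congr rfl fun i _ => ?_
    rw [if_pos ⟨2 * i + 1, by ring⟩, show (1 + 2 * (3 * i + 0 + 1)) / 3 = 2 * i + 1 by omega,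
      add_zero, ← pow_mul]
  have hlast : satake (q ^ 3) f (2 * M + 1) = 0 := satake_eq_zero _ f (by omega)
  rw [sum_range_succ, hlast, mul_zero, add_zero, ← hL] at hR
  have h1 := key q hq (sphericalBC q f)
  rw [satake_sphericalBC hq, if_neg (by norm_num), zero_add] at h1
  rw [csqrtN_cube] at hR
  refine mul_left_cancel₀ (mul_ne_zero hs hq') ?_
  rw [hR, mul_right_comm, h1, div_mul_cancel₀ _ hq']

/-! ### Eigenvalues of spherical operators -/

/-- Eigenvalues of the sphere sums for the neighbour eigenvalue `√Q a`. -/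
def sphereEigen (Q : ℕ) (a : ℂ) : ℕ → ℂ
  | 0 => 1
  | 1 => csqrtN Q * a
  | 2 => csqrtN Q * a * (csqrtN Q * a) - ((Q : ℂ) + 1)
  | n + 3 => csqrtN Q * a * sphereEigen Q a (n + 2) - (Q : ℂ) * sphereEigen Q a (n + 1)

/-- `α^n + α^(-n)`, and `1` for `n = 0`. -/
def charPow (α : ℂ) (n : ℕ) : ℂ := if n = 0 then 1 else α ^ n + α⁻¹ ^ n

/-- Sum of `charPow` below `n` in the parity class of `n`. -/
def charLow (α : ℂ) : ℕ → ℂ
  | 0 => 0
  | 1 => 0
  | n + 2 => charLow α n + charPow α n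

theorem charPow_rec {α : ℂ} (hα : α ≠ 0) (n : ℕ) :
    (α + α⁻¹) * charPow α (n + 2) = charPow α (n + 3) + charPow α (n + 1) := by
  have h := mul_inv_cancel₀ hα
  simp only [charPow, if_neg (Nat.succ_ne_zero _)]
  linear_combination (α ^ (n + 1) + α⁻¹ ^ (n + 1)) * h

theorem charPow_one_mul {α : ℂ} (hα : α ≠ 0) :
    (α + α⁻¹) * charPow α 1 = charPow α 2 + 2 * charPow α 0 := by
  have h := mul_inv_cancel₀ hα
  simp only [charPow, one_ne_zero, OfNat.ofNat_ne_zero, if_false, if_true]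
  linear_combination 2 * h

theorem charLow_rec {α : ℂ} (hα : α ≠ 0) :
    ∀ n, (α + α⁻¹) * charLow α (n + 2) = charLow α (n + 3) + charLow α (n + 1)
  | 0 => by simp [charLow, charPow]
  | 1 => by
    simp only [charLow, zero_add, charPow_one_mul hα]
    ring
  | n + 2 => by
    have h1 := charLow_rec hα n
    have h2 := charPow_rec hα n
    simp only [charLow] at h1 ⊢
    linear_combination h1 + h2

theorem sphereEigen_eq {Q : ℕ} (hQ : Q ≠ 0) {α : ℂ} (hα : α ≠ 0) : ∀ n,
    sphereEigen Q (α + α⁻¹) n =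
      csqrtN Q ^ n * (charPow α n + (1 - 1 / (Q : ℂ)) * charLow α n)
  | 0 => by simp [sphereEigen, charPow, charLow]
  | 1 => by simp [sphereEigen, charPow, charLow]
  | 2 => by
    have hQ' : (Q : ℂ) ≠ 0 := Nat.cast_ne_zero.mpr hQ
    have h := charPow_one_mul hα
    simp only [charPow, one_ne_zero, OfNat.ofNat_ne_zero, if_false, if_true, pow_one] at h
    simp only [sphereEigen, charPow, charLow, OfNat.ofNat_ne_zero, if_false, if_true, zero_add,
      mul_one]
    rw [show csqrtN Q * (α + α⁻¹) * (csqrtN Q * (α + α⁻¹)) =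
      csqrtN Q ^ 2 * ((α + α⁻¹) * (α + α⁻¹)) by ring, h, csqrtN_sq]
    field_simp
    ring
  | n + 3 => by
    rw [sphereEigen, sphereEigen_eq hQ hα (n + 2), sphereEigen_eq hQ hα (n + 1), ← csqrtN_sq Q]
    have h1 := charPow_rec hα n
    have h2 := charLow_rec hα n
    linear_combination csqrtN Q ^ (n + 3) * h1 + csqrtN Q ^ (n + 3) * (1 - 1 / (csqrtN Q ^ 2)) * h2

theorem charLow_eq_sum (α : ℂ) : ∀ m {N : ℕ}, m ≤ N →
    charLow α m = ∑ n ∈ range N, if n < m ∧ (m - n) % 2 = 0 then charPow α n else 0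
  | 0, N, _ => by simp [charLow]
  | 1, N, _ => by
    rw [charLow, eq_comm]
    exact sum_eq_zero fun n _ => if_neg fun h => by omega
  | m + 2, N, hN => by
    rw [charLow, charLow_eq_sum α m (N := N) (by omega)]
    have : ∀ n ∈ range N, (if n < m + 2 ∧ (m + 2 - n) % 2 = 0 then charPow α n else 0) =
        (if n < m ∧ (m - n) % 2 = 0 then charPow α n else 0) +
          if n = m then charPow α n else 0 := by
      intro n _
      rcases lt_trichotomy n m with h | h | h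
      · rw [if_neg h.ne, add_zero]
        exact if_congr (by omega) rfl rfl
      · subst h; simp
      · rw [if_neg h.ne', if_neg (by omega), if_neg (by omega), add_zero]
    rw [sum_congr rfl this, sum_add_distrib, Finset.sum_ite_eq', if_pos (mem_range.mpr (by omega))]

/-- A spherical operator acts on an eigenfunction through its constant term. -/
theorem sum_sphereEigen {Q : ℕ} (hQ : Q ≠ 0) {α : ℂ} (hα : α ≠ 0) (f : ℕ →₀ ℂ) {N : ℕ}
    (hN : spBound f ≤ N) :
    f.sum (fun n c => c * sphereEigen Q (α + α⁻¹) n) =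
      ∑ n ∈ range N, satake Q f n * charPow α n := by
  have hsub : f.support ⊆ range N := fun m hm => mem_range.mpr ((lt_spBound m hm).trans_le hN)
  have hswap : ∑ n ∈ range N, satake Q f n * charPow α n =
      ∑ m ∈ f.support, csqrtN Q ^ m * f m * (charPow α m + (1 - 1 / (Q : ℂ)) * charLow α m) := by
    simp only [satake, csqrtN, add_mul, sum_add_distrib, mul_add]
    congr 1
    · rw [← Finset.sum_subset hsub fun m _ hm => by
        rw [Finsupp.notMem_support_iff.mp hm, mul_zero, zero_mul]]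
    · simp only [mul_sum, sum_mul]
      rw [sum_comm]
      refine sum_congr rfl fun m hm => ?_
      rw [charLow_eq_sum α m (N := N) ((lt_spBound m hm).le.trans hN), mul_sum, mul_sum]
      refine sum_congr rfl fun n _ => ?_
      split_ifs <;> ring
  rw [hswap, Finsupp.sum]
  refine sum_congr rfl fun m _ => ?_
  rw [sphereEigen_eq hQ hα]
  ring

end Fermat.Agent.ResidualThree.Tree
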