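import Mathlib
import Fermat.Agent.ResidualThree.Tree.SatakeAlg

/-!
# Regular trees given by their distance

Branches, convex sets and the projection onto them, the displacement of an isometry preserving a
convex set, and sums over spheres.  These reduce orbital sums of spherical functions to the
polynomial identities of `Tree/SatakeAlg`.
-/

noncomputable section

open Finset

namespace Fermat.Agent.ResidualThree.Tree

/-- A distance making `V` a tree of valence `Q + 1`. -/
structure IsRegTree {V : Type*} (d : V → V → ℕ) (Q : ℕ) : Prop where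
  dist_eq_zero : ∀ x y, d x y = 0 ↔ x = y
  comm : ∀ x y, d x y = d y x
  closer : ∀ p x, x ≠ p → ∃ y, d x y = 1 ∧ d p y + 1 = d p x ∧
    ∀ z, d x z = 1 → z ≠ y → d p z = d p x + 1
  card_nbhd : ∀ x, Nat.card {y // d x y = 1} = Q + 1

variable {V : Type*} {d : V → V → ℕ} {Q : ℕ}

namespace IsRegTree

variable (h : IsRegTree d Q)
include h

theorem dist_self (x : V) : d x x = 0 := (h.dist_eq_zero x x).mpr rfl

theorem ne_of_dist_pos {x y : V} (hxy : 0 < d x y) : x ≠ y := fun e => by
  rw [e, h.dist_self] at hxy; exact lt_irrefl _ hxy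

theorem finite_nbhd (x : V) : Finite {y // d x y = 1} :=
  Nat.finite_of_card_ne_zero (by rw [h.card_nbhd]; exact Nat.succ_ne_zero _)

/-- The neighbours. -/
def nbhd (x : V) : Finset V :=
  haveI : Finite ↥{y | d x y = 1} := h.finite_nbhd x
  (Set.toFinite {y | d x y = 1}).toFinset

theorem mem_nbhd {x y : V} : y ∈ h.nbhd x ↔ d x y = 1 := by
  simp [nbhd]

theorem card_nbhd' (x : V) : (h.nbhd x).card = Q + 1 := by
  have : Finite ↥{y | d x y = 1} := h.finite_nbhd x
  rw [nbhd, ← Nat.card_eq_card_finite_toFinset]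
  exact h.card_nbhd x

/-- The neighbour of `x` in the direction of `p`. -/
def toward (p x : V) : V :=
  open Classical in if hx : x ≠ p then (h.closer p x hx).choose else x

theorem dist_toward {p x : V} (hx : x ≠ p) :
    d x (h.toward p x) = 1 ∧ d p (h.toward p x) + 1 = d p x := by
  rw [toward, dif_pos hx]
  exact ⟨(h.closer p x hx).choose_spec.1, (h.closer p x hx).choose_spec.2.1⟩

theorem dist_of_ne_toward {p x z : V} (hx : x ≠ p) (hz : d x z = 1) (hne : z ≠ h.toward p x) :
    d p z = d p x + 1 := by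
  rw [toward, dif_pos hx] at hne
  exact (h.closer p x hx).choose_spec.2.2 z hz hne

theorem eq_toward {p x z : V} (hx : x ≠ p) (hz : d x z = 1) (hlt : d p z < d p x) :
    z = h.toward p x := by
  by_contra hne
  have := h.dist_of_ne_toward hx hz hne
  omega

theorem eq_of_lt {p x y z : V} (hy : d x y = 1) (hz : d x z = 1) (hy' : d p y < d p x)
    (hz' : d p z < d p x) : y = z := by
  have hx : x ≠ p := fun e => by rw [e, h.dist_self] at hy'; omega
  rw [h.eq_toward hx hy hy', h.eq_toward hx hz hz']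

/-- A step which does not go back increases the distance. -/
theorem dist_succ {p x w z : V} (hw : d x w = 1) (hlt : d p w < d p x) (hz : d x z = 1)
    (hne : z ≠ w) : d p z = d p x + 1 := by
  have hx : x ≠ p := fun e => by rw [e, h.dist_self] at hlt; omega
  exact h.dist_of_ne_toward hx hz (h.eq_toward hx hw hlt ▸ hne)

theorem dist_adj_le {p x y : V} (hy : d x y = 1) : d p y ≤ d p x + 1 := by
  rcases eq_or_ne x p with rfl | hx
  · rw [hy]; omega
  rcases eq_or_ne y (h.toward p x) with rfl | hne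
  · have := (h.dist_toward hx).2; omega
  · rw [h.dist_of_ne_toward hx hy hne]

open Classical in
/-- The points at distance `r` from `p` in the branches beginning in `S`. -/
def br (p : V) (S : V → Prop) : ℕ → Finset V
  | 0 => {p}
  | 1 => (h.nbhd p).filter S
  | r + 2 => (br p S (r + 1)).biUnion fun y => (h.nbhd y).filter fun z => d p z = r + 2

theorem br_zero (p : V) (S : V → Prop) : h.br p S 0 = {p} := rfl

theorem mem_br_one {p x : V} {S : V → Prop} : x ∈ h.br p S 1 ↔ d p x = 1 ∧ S x := by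
  classical
  simp [br, h.mem_nbhd]

theorem mem_br_succ {p x : V} {S : V → Prop} {r : ℕ} :
    x ∈ h.br p S (r + 2) ↔ ∃ y ∈ h.br p S (r + 1), d y x = 1 ∧ d p x = r + 2 := by
  classical
  simp [br, h.mem_nbhd]

theorem dist_br {p x : V} {S : V → Prop} : ∀ {r : ℕ}, x ∈ h.br p S r → d p x = r
  | 0, hx => by rw [h.br_zero, mem_singleton] at hx; rw [hx, h.dist_self]
  | 1, hx => (h.mem_br_one.mp hx).1
  | _ + 2, hx => (h.mem_br_succ.mp hx).choose_spec.2.2

theorem br_mono {p x : V} {S S' : V → Prop} (hS : ∀ y, d p y = 1 → S y → S' y) :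
    ∀ {r : ℕ}, x ∈ h.br p S r → x ∈ h.br p S' r
  | 0, hx => hx
  | 1, hx => by
    rw [h.mem_br_one] at hx ⊢
    exact ⟨hx.1, hS x hx.1 hx.2⟩
  | _ + 2, hx => by
    obtain ⟨y, hy, h1, h2⟩ := h.mem_br_succ.mp hx
    exact h.mem_br_succ.mpr ⟨y, br_mono hS hy, h1, h2⟩

/-- Decomposition of a branch at its first step. -/
theorem exists_root {p x : V} {S : V → Prop} : ∀ {r : ℕ}, x ∈ h.br p S (r + 1) →
    ∃ a, d p a = 1 ∧ S a ∧ x ∈ h.br p (fun y => y = a) (r + 1) ∧ x ∈ h.br a (fun y => y ≠ p) r
  | 0, hx => by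
    rw [h.mem_br_one] at hx
    exact ⟨x, hx.1, hx.2, h.mem_br_one.mpr ⟨hx.1, rfl⟩, by simp [h.br_zero]⟩
  | r + 1, hx => by
    obtain ⟨y, hy, h1, h2⟩ := h.mem_br_succ.mp hx
    obtain ⟨a, ha, hSa, hya, hyb⟩ := exists_root hy
    refine ⟨a, ha, hSa, h.mem_br_succ.mpr ⟨y, hya, h1, h2⟩, ?_⟩
    rcases r with _ | r
    · rw [h.br_zero, mem_singleton] at hyb
      subst hyb
      refine h.mem_br_one.mpr ⟨h1, fun e => ?_⟩
      rw [e, h.dist_self] at h2
      omega
    · refine h.mem_br_succ.mpr ⟨y, hyb, h1, ?_⟩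
      obtain ⟨w, hw, hwy, hwd⟩ : ∃ w, d a w = r ∧ d w y = 1 ∧ d p w = r + 1 := by
        rcases r with _ | r
        · exact ⟨a, h.dist_self a, (h.mem_br_one.mp hyb).1, ha⟩
        · obtain ⟨w, hw, hwy, -⟩ := h.mem_br_succ.mp hyb
          refine ⟨w, h.dist_br hw, hwy, ?_⟩
          have e1 := h.dist_adj_le (p := p) hwy
          have e2 : ∀ {s : ℕ} {z : V}, z ∈ h.br a (fun y => y ≠ p) s → d p z ≤ s + 1 := by
            intro s
            induction s with
            | zero => intro z hz; rw [h.br_zero, mem_singleton] at hz; rw [hz, ha]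
            | succ s ih =>
              intro z hz
              rcases s with _ | s
              · exact (h.dist_adj_le (h.mem_br_one.mp hz).1).trans (by rw [ha])
              · obtain ⟨u, hu, huz, -⟩ := h.mem_br_succ.mp hz
                exact (h.dist_adj_le huz).trans (Nat.add_le_add_right (ih hu) 1)
          have := e2 hw
          have := h.dist_br hy
          omega
      have hya' := h.dist_br hyb
      refine h.dist_succ (p := a) (x := y) (w := w) (by rw [h.comm]; exact hwy) (by omega) h1 ?_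
        |>.trans (by omega)
      intro e
      rw [e] at h2
      omega

/-- A set containing the geodesic between any two of its points. -/
def Convex (M : Set V) : Prop := ∀ m ∈ M, ∀ p ∈ M, p ≠ m → h.toward m p ∈ M

/-- The points at distance `r` from `p` which project to `p`. -/
def out (M : Set V) (p : V) (r : ℕ) : Finset V := h.br p (fun y => y ∉ M) r

theorem out_zero (M : Set V) (p : V) : h.out M p 0 = {p} := rfl

theorem mem_out_one {M : Set V} {p x : V} : x ∈ h.out M p 1 ↔ d p x = 1 ∧ x ∉ M := h.mem_br_one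

theorem out_pred {M : Set V} {p x : V} {r : ℕ} (hx : x ∈ h.out M p (r + 1)) :
    ∃ w ∈ h.out M p r, d w x = 1 := by
  rcases r with _ | r
  · exact ⟨p, by simp [h.out_zero], (h.mem_out_one.mp hx).1⟩
  · obtain ⟨w, hw, h1, -⟩ := h.mem_br_succ.mp hx
    exact ⟨w, hw, h1⟩

variable {M : Set V} (hM : h.Convex M)
include hM

theorem dist_out {p x m : V} (hp : p ∈ M) (hm : m ∈ M) : ∀ {r : ℕ}, x ∈ h.out M p r →
    d m x = d m p + r
  | 0, hx => by rw [h.out_zero, mem_singleton] at hx; rw [hx, add_zero]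
  | 1, hx => by
    obtain ⟨h1, h2⟩ := h.mem_out_one.mp hx
    rcases eq_or_ne p m with rfl | hne
    · rw [h1, h.dist_self]
    · exact h.dist_of_ne_toward hne h1 fun e => h2 (e ▸ hM m hm p hp hne)
  | r + 2, hx => by
    obtain ⟨y, hy, h1, h2⟩ := h.mem_br_succ.mp hx
    obtain ⟨w, hw, hwy⟩ := h.out_pred hy
    have ey := dist_out hp hm (r := r + 1) hy
    have ew := dist_out hp hm (r := r) hw
    rw [h.dist_succ (p := m) (by rw [h.comm]; exact hwy) (by omega) h1 ?_]
    · omega
    · intro e
      have := h.dist_br hw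
      rw [e] at h2
      omega

theorem out_inj {p p' x : V} (hp : p ∈ M) (hp' : p' ∈ M) {r r' : ℕ} (hx : x ∈ h.out M p r)
    (hx' : x ∈ h.out M p' r') : p = p' ∧ r = r' := by
  have e1 := h.dist_out hM hp hp' hx
  have e2 := h.dist_out hM hp' hp hx'
  rw [h.dist_br hx', h.comm p' p] at e1
  rw [h.dist_br hx] at e2
  exact ⟨(h.dist_eq_zero p p').mp (by omega), by omega⟩

theorem exists_out (hne : M.Nonempty) (x : V) : ∃ p ∈ M, ∃ r, x ∈ h.out M p r := by
  obtain ⟨m, hm⟩ := hne
  induction hk : d m x using Nat.strong_induction_on generalizing x with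
  | _ k ih =>
    by_cases hxM : x ∈ M
    · exact ⟨x, hxM, 0, by simp [h.out_zero]⟩
    have hxm : x ≠ m := fun e => hxM (e ▸ hm)
    obtain ⟨hy1, hy2⟩ := h.dist_toward hxm
    obtain ⟨p, hp, r, hr⟩ := ih _ (by omega) (h.toward m x) rfl
    refine ⟨p, hp, r + 1, ?_⟩
    have hyx : d (h.toward m x) x = 1 := by rw [h.comm]; exact hy1
    rcases r with _ | r
    · rw [h.out_zero, mem_singleton] at hr
      exact h.mem_out_one.mpr ⟨hr ▸ hyx, hxM⟩
    refine h.mem_br_succ.mpr ⟨_, hr, hyx, ?_⟩
    obtain ⟨w, hw, hwy⟩ := h.out_pred hr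
    have ey := h.dist_out hM hp hm hr
    have ew := h.dist_out hM hp hm hw
    have eyp := h.dist_br hr
    have ewp := h.dist_br hw
    rw [h.dist_succ (p := p) (by rw [h.comm]; exact hwy) (by omega) hyx fun e => by
      have := congrArg (d m) e; omega, eyp]

/-- Points projecting to different points of `M`. -/
theorem dist_out_out {p p' x x' : V} (hp : p ∈ M) (hp' : p' ∈ M) (hne : p ≠ p') {r : ℕ}
    (hx : x ∈ h.out M p r) : ∀ {r' : ℕ}, x' ∈ h.out M p' r' → d x x' = r + d p p' + r'
  | 0, hx' => by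
    rw [h.out_zero, mem_singleton] at hx'
    rw [hx', h.comm, h.dist_out hM hp hp' hx, h.comm p' p]
    omega
  | 1, hx' => by
    obtain ⟨h1, h2⟩ := h.mem_out_one.mp hx'
    obtain ⟨t1, t2⟩ := h.dist_toward (Ne.symm hne)
    have e1 : d x p' = r + d p p' := by
      rw [h.comm, h.dist_out hM hp hp' hx, h.comm p' p]; omega
    have e2 : d x (h.toward p p') = r + d p (h.toward p p') := by
      rw [h.comm, h.dist_out hM hp (hM p hp p' hp' (Ne.symm hne)) hx, h.comm _ p]; omega
    rw [h.dist_succ (p := x) t1 (by omega) h1 fun e => h2 (e ▸ hM p hp p' hp' (Ne.symm hne)), e1]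
  | r' + 2, hx' => by
    obtain ⟨y, hy, h1, h2⟩ := h.mem_br_succ.mp hx'
    obtain ⟨w, hw, hwy⟩ := h.out_pred hy
    have ey := dist_out_out hp hp' hne hx (r' := r' + 1) hy
    have ew := dist_out_out hp hp' hne hx (r' := r') hw
    rw [h.dist_succ (p := x) (by rw [h.comm]; exact hwy) (by omega) h1 fun e => ?_]
    · omega
    · have := h.dist_br hw
      rw [e] at h2
      omega

omit hM

theorem convex_pair {p a : V} (ha : d p a = 1) : h.Convex ({p, a} : Set V) := by
  have key : ∀ x y : V, d x y = 1 → h.toward x y = x := fun x y hxy => by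
    have := h.dist_toward (p := x) (x := y) (h.ne_of_dist_pos (by rw [h.comm]; omega))
    exact ((h.dist_eq_zero _ _).mp (by omega)).symm
  rintro m (rfl | rfl) x (rfl | rfl) hne
  · exact absurd rfl hne
  · rw [key _ _ ha]; exact Set.mem_insert _ _
  · rw [key _ _ (by rw [h.comm]; exact ha)]; exact Set.mem_insert_of_mem _ rfl
  · exact absurd rfl hne

/-- Points projecting to the same point through different branches. -/
theorem dist_br_br {p x x' a b : V} {r r' : ℕ} (hab : a ≠ b) (hpa : d p a = 1)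
    (hx : x ∈ h.br a (fun y => y ≠ p) r) (hx' : x' ∈ h.br p (fun y => y = b) r') :
    d x x' = r + 1 + r' := by
  have hC := h.convex_pair hpa
  have hb : ∀ y, d a y = 1 → y ≠ p → y ∉ ({p, a} : Set V) := fun y hy hyp he => by
    rcases he with rfl | rfl
    · exact hyp rfl
    · rw [h.dist_self] at hy; omega
  have hb' : ∀ y, d p y = 1 → y = b → y ∉ ({p, a} : Set V) := fun y hy hyb he => by
    rcases he with rfl | rfl
    · rw [h.dist_self] at hy; omega
    · exact hab hyb
  rw [h.dist_out_out hC (Set.mem_insert_of_mem _ rfl) (Set.mem_insert _ _)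
    (h.ne_of_dist_pos (by rw [h.comm]; omega)) (h.br_mono hb hx) (h.br_mono hb' hx'),
    h.comm a p, hpa]

/-! ### Isometries -/

variable (T : V ≃ V) (hT : ∀ x y, d (T x) (T y) = d x y)
include hT

theorem map_br {p x : V} {S S' : V → Prop} (hS : ∀ y, d p y = 1 → S y → S' (T y)) :
    ∀ {r : ℕ}, x ∈ h.br p S r → T x ∈ h.br (T p) S' r
  | 0, hx => by rw [h.br_zero, mem_singleton] at hx ⊢; rw [hx]
  | 1, hx => by
    rw [h.mem_br_one] at hx ⊢
    exact ⟨by rw [hT]; exact hx.1, hS x hx.1 hx.2⟩
  | _ + 2, hx => by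
    obtain ⟨y, hy, h1, h2⟩ := h.mem_br_succ.mp hx
    exact h.mem_br_succ.mpr ⟨T y, map_br hS hy, by rw [hT]; exact h1, by rw [hT]; exact h2⟩

theorem map_out (hTM : ∀ x, T x ∈ M ↔ x ∈ M) {p x : V} {r : ℕ} (hx : x ∈ h.out M p r) :
    T x ∈ h.out M (T p) r :=
  h.map_br T hT (fun _ _ hy => fun h' => hy ((hTM _).mp h')) hx

include hM in
/-- The displacement outside the minimal set. -/
theorem dist_displacement (hTM : ∀ x, T x ∈ M ↔ x ∈ M) {p : V} (hp : p ∈ M) {l : ℕ}
    (hl : d p (T p) = l) (hfix : l = 0 → ∀ y, d p y = 1 → y ∉ M → T y ≠ y) {x : V} :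
    ∀ {r : ℕ}, x ∈ h.out M p r → d x (T x) = l + 2 * r
  | 0, hx => by rw [h.out_zero, mem_singleton] at hx; rw [hx, hl]; omega
  | r + 1, hx => by
    rcases eq_or_ne l 0 with hl0 | hl0
    · have hTp : T p = p := ((h.dist_eq_zero _ _).mp (hl.trans hl0)).symm
      obtain ⟨a, ha, haM, hxp, hxa⟩ := h.exists_root hx
      have hTx : T x ∈ h.br p (fun y => y = T a) (r + 1) := by
        have := h.map_br T hT (S' := fun y => y = T a) (fun y _ hy => congrArg T hy) hxp
        rwa [hTp] at this
      rw [h.dist_br_br (Ne.symm (hfix hl0 a ha haM)) ha hxa hTx]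
      omega
    · rw [h.dist_out_out hM hp ((hTM p).mpr hp) (h.ne_of_dist_pos (by omega)) hx
        (h.map_out T hT hTM hx), hl]
      omega

omit hT

/-! ### Counting -/

theorem card_children {p y w : V} (hw : d y w = 1) (hlt : d p w < d p y) [DecidableEq V] :
    ((h.nbhd y).filter fun z => d p z = d p y + 1).card = Q := by
  have : (h.nbhd y).filter (fun z => d p z = d p y + 1) = (h.nbhd y).erase w := by
    ext z
    rw [mem_filter, mem_erase, h.mem_nbhd]
    refine ⟨fun ⟨h1, h2⟩ => ⟨fun e => by rw [e] at h2; omega, h1⟩, fun ⟨h1, h2⟩ => ⟨h2, ?_⟩⟩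
    exact h.dist_succ hw hlt h2 h1
  rw [this, card_erase_of_mem (h.mem_nbhd.mpr hw), h.card_nbhd']
  rfl

open Classical in
theorem sum_br_succ {A : Type*} [AddCommMonoid A] (F : V → A) (p : V) (S : V → Prop) (r : ℕ) :
    ∑ x ∈ h.br p S (r + 2), F x =
      ∑ y ∈ h.br p S (r + 1), ∑ z ∈ (h.nbhd y).filter (fun z => d p z = r + 2), F z := by
  rw [br, sum_biUnion]
  intro y hy y' hy' hne
  refine disjoint_left.mpr fun z hz hz' => hne ?_
  rw [mem_filter, h.mem_nbhd] at hz hz'
  refine h.eq_of_lt (p := p) (x := z) (by rw [h.comm]; exact hz.1) (by rw [h.comm]; exact hz'.1)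
    ?_ ?_
  · rw [h.dist_br hy, hz.2]; omega
  · rw [h.dist_br hy', hz.2]; omega

theorem card_br (p : V) (S : V → Prop) : ∀ r : ℕ,
    (h.br p S (r + 1)).card = (h.br p S 1).card * Q ^ r
  | 0 => by simp
  | r + 1 => by
    classical
    rw [card_eq_sum_ones, h.sum_br_succ, sum_congr rfl (g := fun _ => Q) fun y hy => ?_, sum_const,
      card_br p S r, smul_eq_mul, pow_succ, mul_assoc]
    rw [← card_eq_sum_ones]
    have hy' := h.dist_br hy
    obtain ⟨w, hw, hwy⟩ : ∃ w, d p w = r ∧ d w y = 1 := by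
      rcases r with _ | r
      · exact ⟨p, h.dist_self p, (h.mem_br_one.mp hy).1⟩
      · obtain ⟨w, hw, hwy, -⟩ := h.mem_br_succ.mp hy
        exact ⟨w, h.dist_br hw, hwy⟩
    rw [show r + 2 = d p y + 1 by omega]
    exact h.card_children (by rw [h.comm]; exact hwy) (by omega)

/-- The valence of a point inside a subset. -/
def valence (M : Set V) (p : V) : ℕ := (h.br p (fun y => y ∈ M) 1).card

theorem valence_le (M : Set V) (p : V) : h.valence M p ≤ Q + 1 := by
  classical
  rw [← h.card_nbhd' p, valence, br]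
  exact card_filter_le _ _

theorem card_out (M : Set V) (p : V) (r : ℕ) :
    (h.out M p (r + 1)).card = (Q + 1 - h.valence M p) * Q ^ r := by
  classical
  rw [out, h.card_br]
  congr 1
  rw [← h.card_nbhd' p, valence, br, br,
    ← card_filter_add_card_filter_not (s := h.nbhd p) (fun y => y ∈ M), Nat.add_sub_cancel_left]
  exact congrArg Finset.card (Finset.ext fun _ => by simp only [mem_filter])

/-- The points projecting to `p` at distance below `B`. -/
def outUpTo (M : Set V) (p : V) (B : ℕ) : Finset V :=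
  open Classical in (range B).biUnion fun r => h.out M p r

include hM hT in
theorem sum_outUpTo (hTM : ∀ x, T x ∈ M ↔ x ∈ M) {p : V} (hp : p ∈ M) {l : ℕ}
    (hl : d p (T p) = l) (hfix : l = 0 → ∀ y, d p y = 1 → y ∉ M → T y ≠ y)
    (F : ℕ → ℕ → ℂ) (B : ℕ) :
    ∑ x ∈ h.outUpTo M p (B + 1), F (d p x) (d x (T x)) =
      F 0 l + ((Q : ℂ) + 1 - h.valence M p) *
        ∑ j ∈ range B, (Q : ℂ) ^ j * F (j + 1) (l + 2 * (j + 1)) := by
  classical
  rw [outUpTo, sum_biUnion fun a _ b _ hne => disjoint_left.mpr fun x hxa hxb =>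
    hne (by rw [← h.dist_br hxa, ← h.dist_br hxb]), sum_range_succ', mul_sum, add_comm]
  congr 1
  · rw [h.out_zero, sum_singleton, h.dist_self, hl]
  · refine sum_congr rfl fun j _ => ?_
    rw [sum_congr rfl (g := fun _ => F (j + 1) (l + 2 * (j + 1))) fun x hx => by
      rw [h.dist_br hx, h.dist_displacement hM T hT hTM hp hl hfix hx], sum_const, h.card_out,
      nsmul_eq_mul, Nat.cast_mul, Nat.cast_sub (h.valence_le M p), Nat.cast_pow]
    push_cast
    ring

include hM hT in
/-- The orbital sum over the points projecting to `p`. -/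
theorem sum_eq_outSum (hTM : ∀ x, T x ∈ M ↔ x ∈ M) {p : V} (hp : p ∈ M) {l : ℕ}
    (hl : d p (T p) = l) (hfix : l = 0 → ∀ y, d p y = 1 → y ∉ M → T y ≠ y) (f : ℕ →₀ ℂ) :
    ∑ x ∈ h.outUpTo M p (spBound f + 1), f (d x (T x)) = outSum Q f l (h.valence M p) ∧
      ∑ x ∈ h.outUpTo M p (spBound f + 1), (d p x : ℂ) * f (d x (T x)) =
        outSumW Q f l (h.valence M p) := by
  refine ⟨h.sum_outUpTo hM T hT hTM hp hl hfix (fun _ n => f n) _, ?_⟩
  rw [h.sum_outUpTo hM T hT hTM hp hl hfix (fun r n => (r : ℂ) * f n) _, outSumW, outBranchW,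
    Nat.cast_zero, zero_mul, zero_add]
  congr 1
  refine sum_congr rfl fun j _ => ?_
  push_cast
  ring

/-! ### Sphere sums -/

/-- The sphere. -/
def sphere (p : V) (n : ℕ) : Finset V := h.br p (fun _ => True) n

theorem mem_sphere {p x : V} : ∀ {n : ℕ}, x ∈ h.sphere p n ↔ d p x = n := by
  refine fun {n} => ⟨h.dist_br, fun hx => ?_⟩
  induction n generalizing x with
  | zero => rw [sphere, h.br_zero, mem_singleton]; exact ((h.dist_eq_zero _ _).mp hx).symm
  | succ n ih =>
    rcases n with _ | n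
    · exact h.mem_br_one.mpr ⟨hx, trivial⟩
    · have hne : x ≠ p := fun e => by rw [e, h.dist_self] at hx; omega
      obtain ⟨h1, h2⟩ := h.dist_toward hne
      exact h.mem_br_succ.mpr ⟨_, ih (x := h.toward p x) (by omega), by rw [h.comm]; exact h1, hx⟩

/-- Sphere sums of an eigenfunction of the neighbour sum. -/
theorem sum_sphere {A : Type*} [AddCommGroup A] [Module ℂ A] (φ : V → A) (a : ℂ)
    (hφ : ∀ x, ∑ y ∈ h.nbhd x, φ y = (csqrtN Q * a) • φ x) (p : V) :
    ∀ n, ∑ x ∈ h.sphere p n, φ x = sphereEigen Q a n • φ p := by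
  classical
  have hone : ∑ x ∈ h.sphere p 1, φ x = (csqrtN Q * a) • φ p := by
    rw [← hφ p]
    exact sum_congr (ext fun x => by rw [h.mem_sphere, h.mem_nbhd]) fun _ _ => rfl
  have hstep : ∀ n : ℕ, (csqrtN Q * a) • ∑ x ∈ h.sphere p (n + 1), φ x =
      ∑ x ∈ h.sphere p (n + 2), φ x +
        (if n = 0 then ((Q + 1 : ℕ) : ℂ) else (Q : ℂ)) • ∑ x ∈ h.sphere p n, φ x := by
    intro n
    have hsplit : ∀ y ∈ h.sphere p (n + 1), ∑ z ∈ h.nbhd y, φ z =
        ∑ z ∈ (h.nbhd y).filter (fun z => d p z = n + 2), φ z +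
          ∑ z ∈ (h.nbhd y).filter (fun z => d p z = n), φ z := by
      intro y hy
      rw [h.mem_sphere] at hy
      have hne : y ≠ p := fun e => by rw [e, h.dist_self] at hy; omega
      rw [← sum_filter_add_sum_filter_not (s := h.nbhd y) (fun z => d p z = n + 2)]
      refine congrArg _ (sum_congr (filter_congr fun z hz => ?_) fun _ _ => rfl)
      rw [h.mem_nbhd] at hz
      obtain ⟨t1, t2⟩ := h.dist_toward hne
      rcases eq_or_ne z (h.toward p y) with rfl | hz'
      · omega
      · have := h.dist_of_ne_toward hne hz hz'; omega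
    rw [smul_sum, ← sum_congr rfl fun y _ => hφ y, sum_congr rfl hsplit, sum_add_distrib]
    congr 1
    · exact (h.sum_br_succ φ p _ n).symm
    · rw [sum_comm' (t' := h.sphere p n) (s' := fun z => (h.nbhd z).filter fun y => d p y = n + 1)]
      · rw [smul_sum]
        refine sum_congr rfl fun z hz => ?_
        rw [h.mem_sphere] at hz
        rw [sum_const, ← Nat.cast_smul_eq_nsmul ℂ]
        congr 1
        rcases eq_or_ne n 0 with rfl | hn
        · rw [if_pos rfl]
          obtain rfl := (h.dist_eq_zero _ _).mp hz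
          rw [filter_true_of_mem fun y hy => h.mem_nbhd.mp hy, h.card_nbhd']
        · rw [if_neg hn, ← hz]
          have hne : z ≠ p := fun e => by rw [e, h.dist_self] at hz; omega
          obtain ⟨t1, t2⟩ := h.dist_toward hne
          rw [h.card_children t1 (by omega)]
      · intro y z
        simp only [mem_filter, h.mem_sphere, h.mem_nbhd, h.comm z y]
        tauto
  intro n
  induction n using Nat.strong_induction_on with
  | _ n ih =>
    match n with
    | 0 => simp [sphere, h.br_zero, sphereEigen]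
    | 1 => rw [hone, sphereEigen]
    | 2 =>
      have e := hstep 0
      rw [if_pos rfl, hone, ih 0 (by omega), sphereEigen, one_smul, smul_smul, zero_add] at e
      rw [sphereEigen, sub_smul, eq_sub_iff_add_eq]
      push_cast at e
      exact e.symm
    | m + 3 =>
      have e := hstep (m + 1)
      rw [if_neg (by omega), ih (m + 1) (by omega), ih (m + 1 + 1) (by omega), smul_smul,
        smul_smul] at e
      rw [sphereEigen, sub_smul, eq_sub_iff_add_eq]
      exact e.symm

end IsRegTree

end Fermat.Agent.ResidualThree.Tree
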