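import Mathlib
import Fermat.Agent.ResidualThree.Tree.Graph

/-!
# Minimal sets of isometries of trees and the projection onto them

A minimal set of an isometry is a convex set on which it has constant displacement; every other
point is moved by twice its distance to the set more.  Sums of radial functions of the
displacement are then sums over the fibres of the projection (`finsum_proj`).
-/

noncomputable section

open Finset

namespace Fermat.Agent.ResidualThree.Tree

/-- A set on which the isometry `T` has displacement `l`, the displacement growing away from it. -/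
structure IsMinSet {V : Type*} {d : V → V → ℕ} {Q : ℕ} (h : IsRegTree d Q) (T : V ≃ V) (M : Set V)
    (l : ℕ) : Prop where
  isometry : ∀ x y, d (T x) (T y) = d x y
  nonempty : M.Nonempty
  convex : h.Convex M
  map_mem : ∀ x, T x ∈ M ↔ x ∈ M
  dist_eq : ∀ p ∈ M, d p (T p) = l
  fix_mem : l = 0 → ∀ p ∈ M, ∀ y, d p y = 1 → y ∉ M → T y ≠ y

namespace IsMinSet

variable {V : Type*} {d : V → V → ℕ} {Q : ℕ} {h : IsRegTree d Q} {T : V ≃ V} {M : Set V} {l : ℕ}
  (hm : IsMinSet h T M l)
include hm

/-- The projection onto the minimal set. -/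
def proj (x : V) : V := (h.exists_out hm.convex hm.nonempty x).choose

theorem proj_mem (x : V) : hm.proj x ∈ M :=
  (h.exists_out hm.convex hm.nonempty x).choose_spec.1

theorem mem_out_proj (x : V) : x ∈ h.out M (hm.proj x) (d (hm.proj x) x) := by
  obtain ⟨r, hr⟩ := (h.exists_out hm.convex hm.nonempty x).choose_spec.2
  have e : d (hm.proj x) x = r := h.dist_br hr
  rw [e]
  exact hr

theorem proj_eq {p x : V} {r : ℕ} (hp : p ∈ M) (hx : x ∈ h.out M p r) : hm.proj x = p :=
  ((h.out_inj hm.convex hp (hm.proj_mem x) hx (hm.mem_out_proj x)).1).symm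

theorem displacement (x : V) : d x (T x) = l + 2 * d (hm.proj x) x :=
  h.dist_displacement hm.convex T hm.isometry hm.map_mem (hm.proj_mem x)
    (hm.dist_eq _ (hm.proj_mem x)) (fun hl => hm.fix_mem hl _ (hm.proj_mem x)) (hm.mem_out_proj x)

theorem mem_iff (x : V) : x ∈ M ↔ d x (T x) = l := by
  refine ⟨hm.dist_eq x, fun hx => ?_⟩
  have e : d (hm.proj x) x = 0 := by have := hm.displacement x; omega
  rw [← (h.dist_eq_zero _ _).mp e]
  exact hm.proj_mem x

/-- The projection commutes with the isometries commuting with `T`. -/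
theorem proj_comm (g : V ≃ V) (hg : ∀ x y, d (g x) (g y) = d x y) (hgT : ∀ x, T (g x) = g (T x))
    (x : V) : hm.proj (g x) = g (hm.proj x) := by
  have hgM : ∀ y, g y ∈ M ↔ y ∈ M := fun y => by rw [hm.mem_iff, hm.mem_iff, hgT, hg]
  exact hm.proj_eq ((hgM _).mpr (hm.proj_mem x)) (h.map_out g hg hgM (hm.mem_out_proj x))

theorem fibre_subset {F : Type*} [Zero F] (f : ℕ → F) (B : ℕ) (hB : ∀ n, B ≤ n → f n = 0) (p : V) :
    {x | hm.proj x = p ∧ f (d x (T x)) ≠ 0} ⊆ ↑(h.outUpTo M p B) := by
  rintro x ⟨rfl, hx⟩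
  have hlt : d (hm.proj x) x < B := by
    by_contra hle
    exact hx (hB _ (by rw [hm.displacement]; omega))
  simp only [IsRegTree.outUpTo, Finset.coe_biUnion, Set.mem_iUnion, Finset.mem_coe,
    Finset.coe_range, Set.mem_Iio]
  exact ⟨_, hlt, hm.mem_out_proj x⟩

theorem fibre_finite (f : ℕ →₀ ℂ) (p : V) : {x | hm.proj x = p ∧ f (d x (T x)) ≠ 0}.Finite :=
  (Finset.finite_toSet _).subset
    (hm.fibre_subset (fun n => f n) (spBound f) (fun _ => apply_eq_zero_of_spBound_le) p)

/-- The sum over a fibre of the projection. -/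
theorem finsum_proj (f : ℕ →₀ ℂ) {p : V} (hp : p ∈ M) :
    ∑ᶠ x ∈ {x | hm.proj x = p}, f (d x (T x)) = outSum Q f l (h.valence M p) := by
  rw [← (h.sum_eq_outSum hm.convex T hm.isometry hm.map_mem hp (hm.dist_eq p hp)
    (fun hl => hm.fix_mem hl p hp) f).1]
  refine finsum_mem_eq_sum_of_inter_support_eq _ (Set.ext fun x => ?_)
  simp only [Set.mem_inter_iff, Set.mem_ofPred_eq, Function.mem_support, Finset.mem_coe]
  constructor
  · rintro ⟨h1, h2⟩
    exact ⟨hm.fibre_subset (fun n => f n) (spBound f + 1)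
      (fun n hn => apply_eq_zero_of_spBound_le (by omega)) p ⟨h1, h2⟩, h2⟩
  · rintro ⟨h1, h2⟩
    simp only [IsRegTree.outUpTo, Finset.mem_biUnion, Finset.mem_range] at h1
    obtain ⟨r, -, hr⟩ := h1
    exact ⟨hm.proj_eq hp hr, h2⟩

theorem finsum_proj_not_mem (f : ℕ →₀ ℂ) {p : V} (hp : p ∉ M) :
    ∑ᶠ x ∈ {x | hm.proj x = p}, f (d x (T x)) = 0 := by
  rw [show {x | hm.proj x = p} = ∅ from Set.eq_empty_iff_forall_notMem.mpr
    fun x hx => hp (hx ▸ hm.proj_mem x), finsum_mem_empty]

end IsMinSet

namespace IsRegTree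

variable {V : Type*} {d : V → V → ℕ} {Q : ℕ} (h : IsRegTree d Q)
include h

theorem toward_eq {p x z : V} (hz : d x z = 1) (hlt : d p z + 1 = d p x) : h.toward p x = z :=
  (h.eq_toward (fun e => by rw [e, h.dist_self] at hlt; omega) hz (by omega)).symm

/-- The fixed points of an isometry form a convex set. -/
theorem convex_fixed (T : V ≃ V) (hT : ∀ x y, d (T x) (T y) = d x y) :
    h.Convex {x | T x = x} := by
  intro m hm p hp hne
  obtain ⟨h1, h2⟩ := h.dist_toward hne
  refine (h.toward_eq ?_ ?_).symm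
  · have := hT p (h.toward m p); rw [hp] at this; rw [this]; exact h1
  · have := hT m (h.toward m p); rw [hm] at this; rw [this]; exact h2

theorem isMinSet_fixed (T : V ≃ V) (hT : ∀ x y, d (T x) (T y) = d x y)
    (hne : {x | T x = x}.Nonempty) : IsMinSet h T {x | T x = x} 0 where
  isometry := hT
  nonempty := hne
  convex := h.convex_fixed T hT
  map_mem x := by simp only [Set.mem_ofPred_eq]; exact T.injective.eq_iff
  dist_eq p hp := by rw [Set.mem_ofPred_eq] at hp; rw [hp, h.dist_self]
  fix_mem _ _ _ _ _ hy := hy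

variable {V' : Type*} {d' : V' → V' → ℕ} {Q' : ℕ} (h' : IsRegTree d' Q') (e : V → V')
  (he : ∀ x y, d' (e x) (e y) = d x y)
include he h'

theorem valence_image (M : Set V) (p : V) : h'.valence (e '' M) (e p) = h.valence M p := by
  classical
  have hinj : Function.Injective e := fun x y hxy => by
    rw [← h.dist_eq_zero, ← he, hxy, h'.dist_self]
  have hset : h'.br (e p) (fun y => y ∈ e '' M) 1 = (h.br p (fun y => y ∈ M) 1).image e := by
    ext z
    simp only [Finset.mem_image, h.mem_br_one, h'.mem_br_one, Set.mem_image]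
    constructor
    · rintro ⟨h1, y, hy, rfl⟩
      exact ⟨y, ⟨by rw [← he]; exact h1, hy⟩, rfl⟩
    · rintro ⟨y, ⟨h1, hy⟩, rfl⟩
      exact ⟨by rw [he]; exact h1, y, hy, rfl⟩
  rw [valence, valence, hset, Finset.card_image_of_injective _ hinj]

end IsRegTree

end Fermat.Agent.ResidualThree.Tree
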