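import Mathlib
import Fermat.Agent.ResidualThree.Tree.Defs

/-!
# Integral matrices, the Cartan decomposition and vertices of the tree of `PGL₂`

The maximum norm of matrices, `GL₂(O)`, the vertex stabiliser `GL₂(O) · scalars`, the distance
of two vertices with its invariance and symmetry, and the Cartan decomposition
(`exists_cartan_decomp`).
-/

noncomputable section

open Matrix
open scoped WithZero

namespace Fermat.Agent.ResidualThree.Tree

variable {F : Type*} [Field F] (v : Valuation F ℤᵐ⁰)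

/-- The largest valuation of an entry. -/
def nrm (A : Matrix (Fin 2) (Fin 2) F) : ℤᵐ⁰ :=
  Finset.univ.sup fun p : Fin 2 × Fin 2 => v (A p.1 p.2)

variable {v}

theorem le_nrm (A : Matrix (Fin 2) (Fin 2) F) (i j : Fin 2) : v (A i j) ≤ nrm v A :=
  Finset.le_sup (f := fun p : Fin 2 × Fin 2 => v (A p.1 p.2)) (Finset.mem_univ (i, j))

theorem nrm_le_iff {A : Matrix (Fin 2) (Fin 2) F} {a : ℤᵐ⁰} :
    nrm v A ≤ a ↔ ∀ i j, v (A i j) ≤ a := by
  refine ⟨fun h i j => (le_nrm A i j).trans h, fun h => Finset.sup_le fun p _ => h p.1 p.2⟩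

theorem exists_nrm_eq (A : Matrix (Fin 2) (Fin 2) F) : ∃ i j, nrm v A = v (A i j) := by
  obtain ⟨p, -, hp⟩ := Finset.exists_mem_eq_sup (Finset.univ : Finset (Fin 2 × Fin 2))
    Finset.univ_nonempty fun p => v (A p.1 p.2)
  exact ⟨p.1, p.2, hp⟩

theorem nrm_mul_le (A B : Matrix (Fin 2) (Fin 2) F) : nrm v (A * B) ≤ nrm v A * nrm v B := by
  refine nrm_le_iff.mpr fun i j => ?_
  rw [Matrix.mul_apply, Fin.sum_univ_two]
  refine v.map_add_le ?_ ?_ <;> rw [map_mul] <;> exact mul_le_mul' (le_nrm A _ _) (le_nrm B _ _)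

theorem nrm_add_le (A B : Matrix (Fin 2) (Fin 2) F) :
    nrm v (A + B) ≤ max (nrm v A) (nrm v B) :=
  nrm_le_iff.mpr fun i j =>
    (v.map_add _ _).trans (max_le_max (le_nrm A i j) (le_nrm B i j))

theorem nrm_smul (s : F) (A : Matrix (Fin 2) (Fin 2) F) : nrm v (s • A) = v s * nrm v A := by
  refine le_antisymm (nrm_le_iff.mpr fun i j => ?_) ?_
  · rw [Matrix.smul_apply, smul_eq_mul, map_mul]
    exact mul_le_mul' le_rfl (le_nrm A i j)
  · obtain ⟨i, j, h⟩ := exists_nrm_eq (v := v) A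
    rw [h, ← map_mul]
    exact le_nrm (s • A) i j

theorem det_le_nrm_sq (A : Matrix (Fin 2) (Fin 2) F) : v A.det ≤ nrm v A ^ 2 := by
  rw [Matrix.det_fin_two, sq]
  refine v.map_sub_le ?_ ?_ <;> rw [map_mul] <;> exact mul_le_mul' (le_nrm A _ _) (le_nrm A _ _)

theorem nrm_ne_zero (g : GL (Fin 2) F) : nrm v (g : Matrix (Fin 2) (Fin 2) F) ≠ 0 := fun h => by
  have := det_le_nrm_sq (v := v) (g : Matrix (Fin 2) (Fin 2) F)
  rw [h, zero_pow two_ne_zero] at this
  exact g.det_ne_zero ((map_eq_zero v).mp (le_zero_iff.mp this))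

theorem nrm_one : nrm v (1 : Matrix (Fin 2) (Fin 2) F) = 1 := by
  refine le_antisymm (nrm_le_iff.mpr fun i j => ?_) ?_
  · fin_cases i <;> fin_cases j <;> simp
  · simpa using le_nrm (v := v) (1 : Matrix (Fin 2) (Fin 2) F) 0 0

theorem coe_inv_eq (g : GL (Fin 2) F) :
    ((g⁻¹ : GL (Fin 2) F) : Matrix (Fin 2) (Fin 2) F) =
      (g : Matrix (Fin 2) (Fin 2) F).det⁻¹ • (g : Matrix (Fin 2) (Fin 2) F).adjugate := by
  rw [Matrix.coe_units_inv, Matrix.inv_def, Ring.inverse_eq_inv']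

theorem nrm_adjugate (A : Matrix (Fin 2) (Fin 2) F) : nrm v A.adjugate = nrm v A := by
  have h : ∀ B : Matrix (Fin 2) (Fin 2) F, nrm v B.adjugate ≤ nrm v B := fun B => by
    refine nrm_le_iff.mpr fun i j => ?_
    rw [Matrix.adjugate_fin_two]
    fin_cases i <;> fin_cases j <;> simp [le_nrm]
  refine le_antisymm (h A) ?_
  have := h A.adjugate
  rwa [Matrix.adjugate_adjugate _ (by simp), Fintype.card_fin, pow_zero, one_smul] at this

theorem nrm_inv (g : GL (Fin 2) F) :
    nrm v ((g⁻¹ : GL (Fin 2) F) : Matrix (Fin 2) (Fin 2) F) =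
      (v (g : Matrix (Fin 2) (Fin 2) F).det)⁻¹ * nrm v (g : Matrix (Fin 2) (Fin 2) F) := by
  rw [coe_inv_eq, nrm_smul, nrm_adjugate, map_inv₀]

variable (v)

/-- Integral matrices with unit determinant. -/
def intGL : Subgroup (GL (Fin 2) F) where
  carrier := {g | IsIntGL v g}
  one_mem' := ⟨nrm_le_iff.mp (by rw [Units.val_one, nrm_one]), by simp⟩
  mul_mem' {a b} ha hb := ⟨nrm_le_iff.mp ((nrm_mul_le _ _).trans
      (mul_le_one' (nrm_le_iff.mpr ha.1) (nrm_le_iff.mpr hb.1))), by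
    rw [Units.val_mul, Matrix.det_mul, map_mul, ha.2, hb.2, one_mul]⟩
  inv_mem' {a} ha := ⟨nrm_le_iff.mp (by
      rw [nrm_inv, ha.2, inv_one, one_mul]; exact nrm_le_iff.mpr ha.1), by
    rw [coe_inv_eq, Matrix.det_smul, Matrix.det_adjugate, map_mul, map_pow, map_pow, map_inv₀,
      ha.2]
    simp⟩

/-- Scalars times integral matrices with unit determinant. -/
def vertexSubgroup : Subgroup (GL (Fin 2) F) :=
  Subgroup.closure {g | IsIntGL v g ∨ g ∈ Subgroup.center (GL (Fin 2) F)}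

/-- Vertices of the tree. -/
abbrev Vert : Type _ := GL (Fin 2) F ⧸ vertexSubgroup v

variable {v}

theorem mem_intGL {g : GL (Fin 2) F} : g ∈ intGL v ↔ IsIntGL v g := Iff.rfl

theorem nrm_eq_one {k : GL (Fin 2) F} (hk : k ∈ intGL v) :
    nrm v (k : Matrix (Fin 2) (Fin 2) F) = 1 := by
  refine le_antisymm (nrm_le_iff.mpr hk.1) ?_
  have h := det_le_nrm_sq (v := v) (k : Matrix (Fin 2) (Fin 2) F)
  rw [hk.2] at h
  by_contra hlt
  exact absurd h (not_le.mpr (pow_lt_one₀ zero_le (not_le.mp hlt) two_ne_zero))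

theorem nrm_mul_left {k : GL (Fin 2) F} (hk : k ∈ intGL v) (A : Matrix (Fin 2) (Fin 2) F) :
    nrm v ((k : Matrix (Fin 2) (Fin 2) F) * A) = nrm v A := by
  refine le_antisymm ((nrm_mul_le _ _).trans (by rw [nrm_eq_one hk, one_mul])) ?_
  calc nrm v A = nrm v (((k⁻¹ : GL (Fin 2) F) : Matrix (Fin 2) (Fin 2) F) *
        ((k : Matrix (Fin 2) (Fin 2) F) * A)) := by
        rw [← Matrix.mul_assoc, ← Units.val_mul, inv_mul_cancel, Units.val_one, Matrix.one_mul]
    _ ≤ _ := (nrm_mul_le _ _).trans (by rw [nrm_eq_one (inv_mem hk), one_mul])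

theorem nrm_mul_right {k : GL (Fin 2) F} (hk : k ∈ intGL v) (A : Matrix (Fin 2) (Fin 2) F) :
    nrm v (A * (k : Matrix (Fin 2) (Fin 2) F)) = nrm v A := by
  refine le_antisymm ((nrm_mul_le _ _).trans (by rw [nrm_eq_one hk, mul_one])) ?_
  calc nrm v A = nrm v ((A * (k : Matrix (Fin 2) (Fin 2) F)) *
        ((k⁻¹ : GL (Fin 2) F) : Matrix (Fin 2) (Fin 2) F)) := by
        rw [Matrix.mul_assoc, ← Units.val_mul, mul_inv_cancel, Units.val_one, Matrix.mul_one]
    _ ≤ _ := (nrm_mul_le _ _).trans (by rw [nrm_eq_one (inv_mem hk), mul_one])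

/-! ### The distance -/

theorem cartanInt_eq (g : GL (Fin 2) F) :
    cartanInt v g = 2 * WithZero.log (nrm v (g : Matrix (Fin 2) (Fin 2) F))
      - WithZero.log (v (g : Matrix (Fin 2) (Fin 2) F).det) := rfl

theorem v_det_ne_zero (g : GL (Fin 2) F) : v (g : Matrix (Fin 2) (Fin 2) F).det ≠ 0 :=
  (map_ne_zero v).mpr g.det_ne_zero

theorem cartanInt_nonneg (g : GL (Fin 2) F) : 0 ≤ cartanInt v g := by
  have h := (WithZero.log_le_log (v_det_ne_zero g) (pow_ne_zero 2 (nrm_ne_zero g))).mpr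
    (det_le_nrm_sq (v := v) (g : Matrix (Fin 2) (Fin 2) F))
  rw [WithZero.log_pow, nsmul_eq_mul, Nat.cast_ofNat] at h
  rw [cartanInt_eq]
  omega

theorem coe_cartan (g : GL (Fin 2) F) : (cartan v g : ℤ) = cartanInt v g :=
  Int.toNat_of_nonneg (cartanInt_nonneg g)

theorem cartan_eq_iff {g : GL (Fin 2) F} {r : ℕ} : cartan v g = r ↔ cartanInt v g = r := by
  rw [← coe_cartan]; exact Nat.cast_inj.symm

theorem cartanInt_mul_left {k : GL (Fin 2) F} (hk : k ∈ intGL v) (g : GL (Fin 2) F) :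
    cartanInt v (k * g) = cartanInt v g := by
  rw [cartanInt_eq, cartanInt_eq, Units.val_mul, nrm_mul_left hk, Matrix.det_mul, map_mul, hk.2,
    one_mul]

theorem cartanInt_mul_right {k : GL (Fin 2) F} (hk : k ∈ intGL v) (g : GL (Fin 2) F) :
    cartanInt v (g * k) = cartanInt v g := by
  rw [cartanInt_eq, cartanInt_eq, Units.val_mul, nrm_mul_right hk, Matrix.det_mul, map_mul, hk.2,
    mul_one]

theorem scalar_mem_center (s : Fˣ) :
    Matrix.GeneralLinearGroup.scalar (Fin 2) s ∈ Subgroup.center (GL (Fin 2) F) := by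
  rw [Matrix.GeneralLinearGroup.center_eq_range_scalar]; exact ⟨s, rfl⟩

/-- A scalar moves to the front of a product. -/
theorem mul_scalar_mul (s : Fˣ) (a b : GL (Fin 2) F) :
    a * (Matrix.GeneralLinearGroup.scalar (Fin 2) s * b) =
      Matrix.GeneralLinearGroup.scalar (Fin 2) s * (a * b) := by
  rw [← mul_assoc, ← Matrix.GeneralLinearGroup.scalar_commute, mul_assoc]

theorem coe_scalar_eq_smul (s : Fˣ) :
    ((Matrix.GeneralLinearGroup.scalar (Fin 2) s : GL (Fin 2) F) : Matrix (Fin 2) (Fin 2) F) =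
      (s : F) • (1 : Matrix (Fin 2) (Fin 2) F) := by
  rw [Matrix.GeneralLinearGroup.coe_scalar, Matrix.scalar_apply, Matrix.smul_one_eq_diagonal]

theorem cartanInt_scalar_mul (s : Fˣ) (g : GL (Fin 2) F) :
    cartanInt v (Matrix.GeneralLinearGroup.scalar (Fin 2) s * g) = cartanInt v g := by
  have hs : v (s : F) ≠ 0 := (map_ne_zero v).mpr s.ne_zero
  rw [cartanInt_eq, cartanInt_eq, Units.val_mul, coe_scalar_eq_smul, Matrix.smul_mul,
    Matrix.one_mul, nrm_smul, Matrix.det_smul, Fintype.card_fin, map_mul, map_pow,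
    WithZero.log_mul hs (nrm_ne_zero g),
    WithZero.log_mul (pow_ne_zero 2 hs) (v_det_ne_zero g), WithZero.log_pow, nsmul_eq_mul,
    Nat.cast_ofNat]
  ring

theorem mul_mem_vertexSubgroup_iff {g : GL (Fin 2) F} :
    g ∈ vertexSubgroup v ↔ ∃ (s : Fˣ) (k : GL (Fin 2) F), k ∈ intGL v ∧
      g = Matrix.GeneralLinearGroup.scalar (Fin 2) s * k := by
  constructor
  · intro h
    induction h using Subgroup.closure_induction with
    | mem x hx =>
      rcases hx with hx | hx
      · exact ⟨1, x, hx, by rw [map_one, one_mul]⟩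
      · rw [Matrix.GeneralLinearGroup.center_eq_range_scalar] at hx
        obtain ⟨s, rfl⟩ := hx
        exact ⟨s, 1, one_mem _, (mul_one _).symm⟩
    | one => exact ⟨1, 1, one_mem _, by simp⟩
    | mul x y _ _ hx hy =>
      obtain ⟨s, k, hk, rfl⟩ := hx
      obtain ⟨t, l, hl, rfl⟩ := hy
      refine ⟨s * t, k * l, mul_mem hk hl, ?_⟩
      rw [map_mul, mul_assoc, mul_assoc, ← mul_assoc k, ← Matrix.GeneralLinearGroup.scalar_commute,
        mul_assoc]
    | inv x _ hx =>
      obtain ⟨s, k, hk, rfl⟩ := hx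
      refine ⟨s⁻¹, k⁻¹, inv_mem hk, ?_⟩
      rw [_root_.mul_inv_rev, ← map_inv, Matrix.GeneralLinearGroup.scalar_commute]
  · rintro ⟨s, k, hk, rfl⟩
    exact mul_mem (Subgroup.subset_closure (Or.inr (scalar_mem_center s)))
      (Subgroup.subset_closure (Or.inl hk))

theorem intGL_le_vertexSubgroup : intGL v ≤ vertexSubgroup v :=
  fun _ hk => Subgroup.subset_closure (Or.inl hk)

theorem cartan_eq_zero_iff {g : GL (Fin 2) F} : cartan v g = 0 ↔ g ∈ vertexSubgroup v := by
  rw [cartan_eq_iff, Nat.cast_zero, mul_mem_vertexSubgroup_iff]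
  constructor
  · intro h
    obtain ⟨i, j, hij⟩ := exists_nrm_eq (v := v) (g : Matrix (Fin 2) (Fin 2) F)
    have ha0 : (g : Matrix (Fin 2) (Fin 2) F) i j ≠ 0 := fun h0 =>
      nrm_ne_zero g (by rw [hij, h0, map_zero])
    set s : Fˣ := Units.mk0 _ ha0 with hs
    refine ⟨s, (Matrix.GeneralLinearGroup.scalar (Fin 2) s)⁻¹ * g, ⟨?_, ?_⟩,
      (mul_inv_cancel_left _ _).symm⟩
    · rw [← nrm_le_iff, ← map_inv, Units.val_mul, coe_scalar_eq_smul, Matrix.smul_mul,
        Matrix.one_mul, nrm_smul, Units.val_inv_eq_inv_val, map_inv₀, hs, Units.val_mk0, ← hij,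
        inv_mul_cancel₀ (nrm_ne_zero g)]
    · rw [cartanInt_eq, sub_eq_zero, hij] at h
      have h' : v (g : Matrix (Fin 2) (Fin 2) F).det =
          v ((g : Matrix (Fin 2) (Fin 2) F) i j) ^ 2 := by
        rw [← WithZero.exp_log (v_det_ne_zero g),
          ← WithZero.exp_log (pow_ne_zero 2 ((map_ne_zero v).mpr ha0)), ← h, WithZero.log_pow,
          nsmul_eq_mul, Nat.cast_ofNat]
      rw [← map_inv, Units.val_mul, coe_scalar_eq_smul, Matrix.smul_mul, Matrix.one_mul,
        Matrix.det_smul, Fintype.card_fin, map_mul, map_pow, Units.val_inv_eq_inv_val, map_inv₀, hs,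
        Units.val_mk0, h', inv_pow, inv_mul_cancel₀ (pow_ne_zero 2 ((map_ne_zero v).mpr ha0))]
  · rintro ⟨s, k, hk, rfl⟩
    rw [cartanInt_scalar_mul, cartanInt_eq, nrm_eq_one hk, hk.2]
    simp

theorem cartan_mul_left {a : GL (Fin 2) F} (ha : a ∈ vertexSubgroup v) (g : GL (Fin 2) F) :
    cartan v (a * g) = cartan v g := by
  obtain ⟨s, k, hk, rfl⟩ := mul_mem_vertexSubgroup_iff.mp ha
  rw [cartan, cartan, mul_assoc, cartanInt_scalar_mul, cartanInt_mul_left hk]

theorem cartan_mul_right {a : GL (Fin 2) F} (ha : a ∈ vertexSubgroup v) (g : GL (Fin 2) F) :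
    cartan v (g * a) = cartan v g := by
  obtain ⟨s, k, hk, rfl⟩ := mul_mem_vertexSubgroup_iff.mp ha
  rw [cartan, cartan, Matrix.GeneralLinearGroup.scalar_commute, ← mul_assoc,
    ← Matrix.GeneralLinearGroup.scalar_commute, cartanInt_scalar_mul, cartanInt_mul_right hk]

theorem cartan_inv (g : GL (Fin 2) F) : cartan v g⁻¹ = cartan v g := by
  rw [cartan, cartan, cartanInt_eq, cartanInt_eq, nrm_inv, coe_inv_eq, Matrix.det_smul,
    Matrix.det_adjugate, Fintype.card_fin, map_mul, map_pow, map_inv₀,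
    WithZero.log_mul (inv_ne_zero (v_det_ne_zero g)) (nrm_ne_zero g),
    WithZero.log_mul (pow_ne_zero 2 (inv_ne_zero (v_det_ne_zero g)))
      (by simpa using g.det_ne_zero), WithZero.log_pow, WithZero.log_inv, nsmul_eq_mul,
    Nat.cast_ofNat, pow_one]
  congr 1
  ring

/-- The distance between two vertices. -/
def vdist (x y : Vert v) : ℕ :=
  Quotient.liftOn₂' x y (fun g h => treeDist v g h) fun g h g' h' hg hh => by
    rw [QuotientGroup.leftRel_apply] at hg hh
    show cartan v (g⁻¹ * h) = cartan v (g'⁻¹ * h')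
    rw [show g'⁻¹ * h' = (g⁻¹ * g')⁻¹ * (g⁻¹ * h) * (h⁻¹ * h') by group,
      cartan_mul_right hh, cartan_mul_left (inv_mem hg)]

theorem vdist_mk (g h : GL (Fin 2) F) :
    vdist (QuotientGroup.mk g : Vert v) (QuotientGroup.mk h) = cartan v (g⁻¹ * h) := rfl

theorem vdist_comm (x y : Vert v) : vdist x y = vdist y x := by
  induction x using QuotientGroup.induction_on
  induction y using QuotientGroup.induction_on
  rw [vdist_mk, vdist_mk, ← cartan_inv, _root_.mul_inv_rev, inv_inv]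

theorem vdist_eq_zero {x y : Vert v} : vdist x y = 0 ↔ x = y := by
  induction x using QuotientGroup.induction_on
  induction y using QuotientGroup.induction_on
  rw [vdist_mk, cartan_eq_zero_iff, QuotientGroup.eq]

theorem vdist_smul (g : GL (Fin 2) F) (x y : Vert v) : vdist (g • x) (g • y) = vdist x y := by
  induction x using QuotientGroup.induction_on
  induction y using QuotientGroup.induction_on
  rw [MulAction.Quotient.smul_mk, MulAction.Quotient.smul_mk, vdist_mk, vdist_mk, smul_eq_mul,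
    smul_eq_mul]
  congr 1
  group

/-! ### The Cartan decomposition -/

/-- The matrix of the transposition. -/
def swapGL : GL (Fin 2) F :=
  Matrix.GeneralLinearGroup.mkOfDetNeZero !![0, 1; 1, 0] (by simp [Matrix.det_fin_two])

theorem swapGL_mem : (swapGL : GL (Fin 2) F) ∈ intGL v := by
  refine ⟨fun i j => ?_, ?_⟩
  · fin_cases i <;> fin_cases j <;> simp [swapGL]
  · simp [swapGL, Matrix.det_fin_two, Valuation.map_neg]

/-- An element with the largest valuation can be moved to the corner. -/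
theorem exists_corner (g : GL (Fin 2) F) :
    ∃ k l : GL (Fin 2) F, k ∈ intGL v ∧ l ∈ intGL v ∧
      v (((k * g * l : GL (Fin 2) F) : Matrix (Fin 2) (Fin 2) F) 1 1) =
        nrm v ((k * g * l : GL (Fin 2) F) : Matrix (Fin 2) (Fin 2) F) := by
  obtain ⟨i, j, hij⟩ := exists_nrm_eq (v := v) (g : Matrix (Fin 2) (Fin 2) F)
  refine ⟨if i = 1 then 1 else swapGL, if j = 1 then 1 else swapGL, ?_, ?_, ?_⟩
  · split_ifs
    · exact one_mem _
    · exact swapGL_mem
  · split_ifs
    · exact one_mem _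
    · exact swapGL_mem
  · rw [Units.val_mul, Units.val_mul, nrm_mul_right, nrm_mul_left, hij]
    · fin_cases i <;> fin_cases j <;>
        simp [swapGL, Matrix.mul_apply, Fin.sum_univ_two, Matrix.vecMul, dotProduct]
    · split_ifs
      · exact one_mem _
      · exact swapGL_mem
    · split_ifs
      · exact one_mem _
      · exact swapGL_mem

/-- A diagonal matrix. -/
def diagGL (a b : Fˣ) : GL (Fin 2) F :=
  Matrix.GeneralLinearGroup.mkOfDetNeZero !![(a : F), 0; 0, (b : F)]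
    (by simp [Matrix.det_fin_two])

@[simp] theorem coe_diagGL (a b : Fˣ) :
    (diagGL a b : Matrix (Fin 2) (Fin 2) F) = !![(a : F), 0; 0, (b : F)] := rfl

theorem diagGL_mul (a b c d : Fˣ) : diagGL a b * diagGL c d = diagGL (a * c) (b * d) := by
  refine Units.ext ?_
  ext i j
  fin_cases i <;> fin_cases j <;> simp [Matrix.mul_apply, Fin.sum_univ_two]

theorem exists_unit_mul_pow {π e : F} (hπ : v π = WithZero.exp (-1 : ℤ)) (he : e ≠ 0)
    (he1 : v e ≤ 1) : ∃ (r : ℕ) (u : F), v u = 1 ∧ e = π ^ r * u := by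
  have hπ0 : π ≠ 0 := fun h => by rw [h, map_zero] at hπ; exact WithZero.exp_ne_zero hπ.symm
  have hve := (map_ne_zero v).mpr he
  have hle : WithZero.log (v e) ≤ 0 := by
    simpa using (WithZero.log_le_log hve one_ne_zero).mpr he1
  refine ⟨(-WithZero.log (v e)).toNat, e / π ^ (-WithZero.log (v e)).toNat, ?_, by
    rw [mul_div_cancel₀]; exact pow_ne_zero _ hπ0⟩
  rw [map_div₀, map_pow, hπ, ← WithZero.exp_nsmul, nsmul_eq_mul, Int.toNat_of_nonneg (by omega)]
  simp [WithZero.exp_log hve, he]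

/-- The Cartan decomposition. -/
theorem exists_cartan_decomp {π : F} (hπ : v π = WithZero.exp (-1 : ℤ)) (g : GL (Fin 2) F) :
    ∃ (k l : GL (Fin 2) F) (s p : Fˣ), k ∈ intGL v ∧ l ∈ intGL v ∧ (p : F) = π ∧
      g = k * Matrix.GeneralLinearGroup.scalar (Fin 2) s * diagGL (p ^ cartan v g) 1 * l := by
  have hπ0 : π ≠ 0 := fun h => by rw [h, map_zero] at hπ; exact WithZero.exp_ne_zero hπ.symm
  obtain ⟨k₀, l₀, hk₀, hl₀, hmax⟩ := exists_corner (v := v) g
  obtain ⟨B, hB⟩ : ∃ B : GL (Fin 2) F, B = k₀ * g * l₀ := ⟨_, rfl⟩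
  rw [← hB] at hmax
  set b := (B : Matrix (Fin 2) (Fin 2) F)
  have ha : b 1 1 ≠ 0 := fun h => nrm_ne_zero B (by rw [← hmax, h, map_zero])
  set a := b 1 1 with hadef
  have hle : ∀ i j, v (b i j / a) ≤ 1 := fun i j => by
    rw [map_div₀, div_le_one₀ (zero_lt_iff.mpr ((map_ne_zero v).mpr ha)), hmax]
    exact le_nrm b i j
  set e := b 0 0 / a - (b 0 1 / a) * (b 1 0 / a) with he
  have hdet : b.det = a ^ 2 * e := by
    rw [Matrix.det_fin_two, he, ← hadef]; field_simp
  have he0 : e ≠ 0 := fun h => B.det_ne_zero (by show b.det = 0; rw [hdet, h, mul_zero])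
  obtain ⟨r, u, hu, heu⟩ := exists_unit_mul_pow hπ he0
    (v.map_sub_le (hle 0 0) (by rw [map_mul]; exact mul_le_one' (hle 0 1) (hle 1 0)))
  have hu0 : u ≠ 0 := fun h => by rw [h, map_zero] at hu; exact zero_ne_one hu
  let X : GL (Fin 2) F := Matrix.GeneralLinearGroup.mkOfDetNeZero !![1, b 0 1 / a; 0, 1]
    (by simp [Matrix.det_fin_two])
  let Y : GL (Fin 2) F := Matrix.GeneralLinearGroup.mkOfDetNeZero !![u, 0; b 1 0 / a, 1]
    (by simp [Matrix.det_fin_two, hu0])
  have hX : X ∈ intGL v := by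
    refine ⟨fun i j => ?_, by simp [X, Matrix.det_fin_two]⟩
    fin_cases i <;> fin_cases j <;> simp [X]
    simpa using hle 0 1
  have hY : Y ∈ intGL v := by
    refine ⟨fun i j => ?_, by simp [Y, Matrix.det_fin_two, hu]⟩
    fin_cases i <;> fin_cases j <;> simp [Y, hu]
    simpa using hle 1 0
  set p : Fˣ := Units.mk0 π hπ0
  have key : B = X * Matrix.GeneralLinearGroup.scalar (Fin 2) (Units.mk0 a ha) *
      diagGL (p ^ r) 1 * Y := by
    refine Units.ext ?_
    rw [Units.val_mul, Units.val_mul, Units.val_mul, coe_scalar_eq_smul, coe_diagGL]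
    show b = _
    ext i j
    fin_cases i <;> fin_cases j <;>
      simp [X, Y, p, Matrix.mul_apply, Fin.sum_univ_two, ← hadef]
    · rw [mul_assoc a, ← heu, he]; field_simp; ring
    · field_simp
    · field_simp
  have hg : g = k₀⁻¹ * B * l₀⁻¹ := by rw [hB]; group
  have hr : cartan v g = r := by
    rw [cartan_eq_iff, hg, cartanInt_mul_right (inv_mem hl₀), cartanInt_mul_left (inv_mem hk₀), key,
      cartanInt_mul_right hY, mul_assoc, cartanInt_mul_left hX, cartanInt_scalar_mul, cartanInt_eq,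
      coe_diagGL, Matrix.det_fin_two]
    have hn : nrm v !![((p ^ r : Fˣ) : F), 0; 0, ((1 : Fˣ) : F)] = 1 := by
      refine le_antisymm (nrm_le_iff.mpr fun i j => ?_) ?_
      · fin_cases i <;> fin_cases j <;> simp [p]
        rw [hπ]
        exact pow_le_one₀ zero_le (by
          rw [← WithZero.exp_zero, WithZero.exp_le_exp]; omega)
      · simpa using le_nrm (v := v) !![((p ^ r : Fˣ) : F), 0; 0, ((1 : Fˣ) : F)] 1 1
    rw [hn]
    simp [p, hπ]
  refine ⟨k₀⁻¹ * X, Y * l₀⁻¹, Units.mk0 a ha, p, mul_mem (inv_mem hk₀) hX,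
    mul_mem hY (inv_mem hl₀), rfl, ?_⟩
  rw [hr, hg, key]
  group

end Fermat.Agent.ResidualThree.Tree
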