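import Mathlib

/-!
# Semilinear descent for an automorphism of order three, and norms in finite groups

Fixed vectors span, nonzero quadratic forms have fixed nonzero values, and in a finite group
with trivial first cohomology the norm is surjective; used on residue fields.
-/

noncomputable section

namespace Fermat.Agent.ResidualThree.Tree

section Descent

variable {l : Type*} [Field l] (s : l ≃+* l)

/-- In a linear relation between `1, s, s²` the first coefficient is `0` if `s` has order three. -/
theorem linearIndependent_powers (hs3 : ∀ x, s (s (s x)) = x) (hs : ∃ x, s x ≠ x) :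
    ∀ a b c : l, (∀ x, a * x + b * s x + c * s (s x) = 0) → a = 0 := by
  classical
  obtain ⟨θ, hθ⟩ := hs
  let f : Fin 3 → (l →* l) :=
    ![MonoidHom.id l, s.toMonoidHom, s.toMonoidHom.comp s.toMonoidHom]
  have h2 : s (s θ) ≠ θ := fun h => hθ (by have := hs3 θ; rwa [h] at this)
  have h12 : s (s θ) ≠ s θ := fun h => hθ (s.injective h)
  have hf : Function.Injective f := by
    intro i j hij
    have e := congrArg (fun g : l →* l => g θ) hij
    fin_cases i <;> fin_cases j <;> first
      | rfl
      | exact absurd e (by simpa [f] using Ne.symm hθ)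
      | exact absurd e (by simpa [f] using hθ)
      | exact absurd e (by simpa [f] using h2)
      | exact absurd e (by simpa [f] using Ne.symm h2)
  intro a b c h
  have hli := (linearIndependent_monoidHom l l).comp f hf
  have := Fintype.linearIndependent_iff.mp hli ![a, b, c] (funext fun x => by
    simpa [f, Fin.sum_univ_three] using h x) 0
  simpa using this

/-- The fixed points of a semilinear automorphism of order three span. -/
theorem span_fixed_eq_top (hs3 : ∀ x, s (s (s x)) = x) (hs : ∃ x, s x ≠ x) {V : Type*}
    [AddCommGroup V] [Module l V] (T : V →+ V) (hT : ∀ (c : l) x, T (c • x) = s c • T x)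
    (hT3 : ∀ x, T (T (T x)) = x) : Submodule.span l {x | T x = x} = ⊤ := by
  by_contra hne
  obtain ⟨φ, hφ0, hφ⟩ := Submodule.exists_le_ker_of_lt_top _ (lt_top_iff_ne_top.mpr hne)
  refine hφ0 (LinearMap.ext fun w => ?_)
  have key : ∀ x : l, φ w * x + φ (T w) * s x + φ (T (T w)) * s (s x) = 0 := fun x => by
    have hfix : T (x • w + s x • T w + s (s x) • T (T w))
        = x • w + s x • T w + s (s x) • T (T w) := by
      rw [map_add, map_add, hT, hT, hT, hs3, hT3]; abel
    have := hφ (Submodule.subset_span hfix)
    rw [LinearMap.mem_ker, map_add, map_add, map_smul, map_smul, map_smul, smul_eq_mul,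
      smul_eq_mul, smul_eq_mul] at this
    linear_combination this
  exact linearIndependent_powers s hs3 hs _ _ _ key

/-- A quadratic form which is not identically zero does not vanish on all fixed vectors. -/
theorem exists_fixed_quadratic_ne_zero (hs3 : ∀ x, s (s (s x)) = x) (hs : ∃ x, s x ≠ x)
    {V : Type*} [AddCommGroup V] [Module l V] (T : V →+ V)
    (hT : ∀ (c : l) x, T (c • x) = s c • T x) (hT3 : ∀ x, T (T (T x)) = x)
    (Q : QuadraticForm l V) {v₀ : V} (hv₀ : Q v₀ ≠ 0) : ∃ x, T x = x ∧ Q x ≠ 0 := by
  by_contra hcon
  push Not at hcon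
  refine hv₀ ?_
  clear hv₀
  have hspan := span_fixed_eq_top s hs3 hs T hT hT3
  have hpol : ∀ x y, T x = x → T y = y → QuadraticMap.polar Q x y = 0 := fun x y hx hy => by
    rw [QuadraticMap.polar, hcon _ (by rw [map_add, hx, hy]), hcon x hx, hcon y hy]; simp
  have hp2 : ∀ x y, T x = x → QuadraticMap.polar Q x y = 0 := fun x y hx => by
    have hy : y ∈ Submodule.span l {x | T x = x} := hspan ▸ Submodule.mem_top
    induction hy using Submodule.span_induction with
    | mem z hz => exact hpol x z hx hz
    | zero => exact QuadraticMap.polar_zero_right Q x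
    | add a b _ _ ha hb => rw [QuadraticMap.polar_add_right, ha, hb, add_zero]
    | smul c a _ ha => rw [QuadraticMap.polar_smul_right, ha, smul_zero]
  have hmem : v₀ ∈ Submodule.span l {x | T x = x} := hspan ▸ Submodule.mem_top
  induction hmem using Submodule.span_induction with
  | mem z hz => exact hcon z hz
  | zero => exact QuadraticMap.map_zero Q
  | add a b ha _ hQa hQb =>
    have hab : QuadraticMap.polar Q a b = 0 := by
      clear hQa
      induction ha using Submodule.span_induction with
      | mem z hz => exact hp2 z b hz
      | zero => exact QuadraticMap.polar_zero_left Q b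
      | add p q _ _ hp hq => rw [QuadraticMap.polar_add_left, hp, hq, add_zero]
      | smul c p _ hp => rw [QuadraticMap.polar_smul_left, hp, smul_zero]
    rw [QuadraticMap.map_add Q, hQa, hQb, hab]; simp
  | smul c a _ hQa => rw [QuadraticMap.map_smul, hQa, smul_zero]

end Descent

section FiniteNorm

variable {G : Type*} [CommGroup G] [Finite G]

/-- In a finite group, the vanishing of `H¹` gives the surjectivity of the norm. -/
theorem norm_surjective_of_h90 (s : G ≃* G) (hs3 : ∀ x, s (s (s x)) = x)
    (h90 : ∀ c, c * s c * s (s c) = 1 → ∃ y, c * s y = y) {u : G} (hu : s u = u) :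
    ∃ y, y * s y * s (s y) = u := by
  let N : G →* G :=
    { toFun := fun x => x * s x * s (s x)
      map_one' := by simp
      map_mul' := fun a b => by simp only [map_mul]; ac_rfl }
  let D : G →* G :=
    { toFun := fun x => x / s x
      map_one' := by simp
      map_mul' := fun a b => by simp only [map_mul, mul_div_mul_comm] }
  have hle : N.range ≤ D.ker := by
    rintro _ ⟨x, rfl⟩
    show N x / s (N x) = 1
    rw [div_eq_one]
    simp only [N, MonoidHom.coe_mk, OneHom.coe_mk, map_mul, hs3]
    ac_rfl
  have hker : N.ker ≤ D.range := fun c hc => by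
    obtain ⟨y, hy⟩ := h90 c hc
    exact ⟨y, by show y / s y = c; rw [div_eq_iff_eq_mul, hy]⟩
  have h1 : Nat.card N.ker ≤ Nat.card D.range :=
    Nat.card_le_card_of_injective _ (Subgroup.inclusion_injective hker)
  have hN : Nat.card N.ker * Nat.card N.range = Nat.card G := by
    rw [← Subgroup.index_ker]; exact Subgroup.card_mul_index _
  have hD : Nat.card D.ker * Nat.card D.range = Nat.card G := by
    rw [← Subgroup.index_ker]; exact Subgroup.card_mul_index _
  have h2 : Nat.card D.ker ≤ Nat.card N.range := by
    refine Nat.le_of_mul_le_mul_right ?_ (Nat.card_pos (α := N.ker))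
    calc Nat.card D.ker * Nat.card N.ker ≤ Nat.card D.ker * Nat.card D.range :=
          Nat.mul_le_mul_left _ h1
      _ = Nat.card N.range * Nat.card N.ker := by rw [hD, ← hN, mul_comm]
  have hu' : u ∈ D.ker := show u / s u = 1 by rw [hu, div_self']
  rw [← Subgroup.eq_of_le_of_card_ge hle h2] at hu'
  exact hu'

end FiniteNorm

end Fermat.Agent.ResidualThree.Tree
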