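import Mathlib
import Fermat.Agent.ResidualThree.Tree.Basic
import Fermat.Agent.ResidualThree.Tree.Residual

/-!
# Local fields and unramified cubic extensions

The hypotheses `IsLocalVal` (completeness and finite residue field) and `IsInertCubic` under
which the local theory is developed, limits of Cauchy sequences of matrices, and an integral
element of trace one.
-/

noncomputable section

open Matrix
open scoped WithZero

namespace Fermat.Agent.ResidualThree.Tree

/-- A complete discretely valued field with residue field of `q` elements. -/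
structure IsLocalVal {F : Type*} [Field F] (v : Valuation F ℤᵐ⁰) (q : ℕ) : Prop where
  exists_unif : ∃ π, v π = WithZero.exp (-1 : ℤ)
  complete : ∀ a : ℕ → F, (∀ n, v (a (n + 1) - a n) ≤ WithZero.exp (-(n : ℤ))) →
    ∃ x, ∀ n, v (x - a n) ≤ WithZero.exp (-(n : ℤ))
  finite_residue : Finite (IsLocalRing.ResidueField v.valuationSubring)
  card_residue : Nat.card (IsLocalRing.ResidueField v.valuationSubring) = q

/-- An unramified cubic extension of local fields with a generator of the Galois group. -/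
structure IsInertCubic {K L : Type*} [Field K] [Field L] [Algebra K L] (vK : Valuation K ℤᵐ⁰)
    (vL : Valuation L ℤᵐ⁰) (σ : L ≃ₐ[K] L) (q : ℕ) : Prop where
  localK : IsLocalVal vK q
  localL : IsLocalVal vL (q ^ 3)
  v_algebraMap : ∀ x, vL (algebraMap K L x) = vK x
  v_sigma : ∀ x, vL (σ x) = vL x
  sigma_cube : ∀ x, σ (σ (σ x)) = x
  fixed : ∀ x, σ x = x → x ∈ Set.range (algebraMap K L)
  residual : ∃ θ, vL θ ≤ 1 ∧ vL (σ θ - θ) = 1

theorem lt_one_iff_le_exp {a : ℤᵐ⁰} : a < 1 ↔ a ≤ WithZero.exp (-1 : ℤ) := by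
  rcases eq_or_ne a 0 with rfl | ha
  · simp
  rw [← WithZero.exp_log ha, ← WithZero.exp_zero, WithZero.exp_lt_exp, WithZero.exp_le_exp]
  omega

section Local

variable {F : Type*} [Field F] {v : Valuation F ℤᵐ⁰} {q : ℕ}

theorem eq_zero_of_forall_le {x : F} (h : ∀ n : ℕ, v x ≤ WithZero.exp (-(n : ℤ))) : x = 0 := by
  by_contra hx
  have hv := (map_ne_zero v).mpr hx
  have := h ((-WithZero.log (v x)).toNat + 1)
  rw [← WithZero.log_le_log hv WithZero.exp_ne_zero, WithZero.log_exp] at this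
  omega

theorem exp_antitone {m n : ℕ} (h : m ≤ n) :
    WithZero.exp (-(n : ℤ)) ≤ WithZero.exp (-(m : ℤ)) := by
  rw [WithZero.exp_le_exp]; omega

theorem IsLocalVal.exists_limit (h : IsLocalVal v q) (n₀ : ℕ) (a : ℕ → F)
    (ha : ∀ n, v (a (n + 1) - a n) ≤ WithZero.exp (-((n₀ + n : ℕ) : ℤ))) :
    ∃ x, ∀ n, v (x - a n) ≤ WithZero.exp (-((n₀ + n : ℕ) : ℤ)) := by
  obtain ⟨x, hx⟩ := h.complete (fun n => a (n - n₀)) fun n => by
    rcases lt_or_ge n n₀ with hn | hn
    · rw [show n + 1 - n₀ = n - n₀ by omega, sub_self, map_zero]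
      exact zero_le
    · obtain ⟨m, rfl⟩ := Nat.exists_eq_add_of_le hn
      rw [show n₀ + m + 1 - n₀ = m + 1 by omega, show n₀ + m - n₀ = m by omega]
      exact ha m
  refine ⟨x, fun n => ?_⟩
  simpa using hx (n₀ + n)

/-- Limits of sequences of matrices. -/
theorem IsLocalVal.exists_matrix_limit (h : IsLocalVal v q) (n₀ : ℕ)
    (a : ℕ → Matrix (Fin 2) (Fin 2) F)
    (ha : ∀ n, nrm v (a (n + 1) - a n) ≤ WithZero.exp (-((n₀ + n : ℕ) : ℤ))) :
    ∃ x, ∀ n, nrm v (x - a n) ≤ WithZero.exp (-((n₀ + n : ℕ) : ℤ)) := by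
  choose x hx using fun i j => h.exists_limit n₀ (fun n => a n i j) fun n =>
    (le_nrm (a (n + 1) - a n) i j).trans (ha n)
  exact ⟨Matrix.of x, fun n => nrm_le_iff.mpr fun i j => hx i j n⟩

theorem matrix_eq_zero_of_forall_le {A : Matrix (Fin 2) (Fin 2) F}
    (h : ∀ n : ℕ, nrm v A ≤ WithZero.exp (-(n : ℤ))) : A = 0 :=
  Matrix.ext fun i j => eq_zero_of_forall_le fun n => (le_nrm A i j).trans (h n)

theorem residue_eq_zero_iff (x : v.valuationSubring) :
    IsLocalRing.residue v.valuationSubring x = 0 ↔ v (x : F) < 1 := by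
  rw [IsLocalRing.residue_eq_zero_iff, Valuation.mem_maximalIdeal_iff]

end Local

section Inert

variable {K L : Type*} [Field K] [Field L] [Algebra K L] {vK : Valuation K ℤᵐ⁰}
  {vL : Valuation L ℤᵐ⁰} {σ : L ≃ₐ[K] L} {q : ℕ} (h : IsInertCubic vK vL σ q)

/-- The trace to the fixed field. -/
def trace3 (σ : L ≃ₐ[K] L) (x : L) : L := x + σ x + σ (σ x)

/-- The norm to the fixed field. -/
def norm3 (σ : L ≃ₐ[K] L) (x : L) : L := x * σ x * σ (σ x)

include h

theorem IsInertCubic.sigma_fix_trace (x : L) : σ (trace3 σ x) = trace3 σ x := by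
  rw [trace3, map_add, map_add, h.sigma_cube]; ring

/-- `σ` on the ring of integers. -/
def IsInertCubic.sigmaInt : vL.valuationSubring ≃+* vL.valuationSubring where
  toFun x := ⟨σ x, by rw [Valuation.mem_valuationSubring_iff, h.v_sigma]; exact x.2⟩
  invFun x := ⟨σ (σ x), by
    rw [Valuation.mem_valuationSubring_iff, h.v_sigma, h.v_sigma]; exact x.2⟩
  left_inv x := Subtype.ext (h.sigma_cube x)
  right_inv x := Subtype.ext (h.sigma_cube x)
  map_mul' x y := Subtype.ext (map_mul σ (x : L) (y : L))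
  map_add' x y := Subtype.ext (map_add σ (x : L) (y : L))

theorem IsInertCubic.coe_sigmaInt (x : vL.valuationSubring) :
    ((h.sigmaInt x : vL.valuationSubring) : L) = σ x := rfl

/-- `σ` on the residue field. -/
def IsInertCubic.sigmaRes :
    IsLocalRing.ResidueField vL.valuationSubring ≃+* IsLocalRing.ResidueField vL.valuationSubring :=
  IsLocalRing.ResidueField.mapEquiv h.sigmaInt

theorem IsInertCubic.sigmaRes_residue (x : vL.valuationSubring) :
    h.sigmaRes (IsLocalRing.residue _ x) = IsLocalRing.residue _ (h.sigmaInt x) := by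
  rw [IsInertCubic.sigmaRes, IsLocalRing.ResidueField.mapEquiv_apply,
    IsLocalRing.ResidueField.map_residue]
  rfl

theorem IsInertCubic.sigmaRes_cube (x : IsLocalRing.ResidueField vL.valuationSubring) :
    h.sigmaRes (h.sigmaRes (h.sigmaRes x)) = x := by
  obtain ⟨y, rfl⟩ := IsLocalRing.residue_surjective x
  rw [h.sigmaRes_residue, h.sigmaRes_residue, h.sigmaRes_residue]
  exact congrArg _ (Subtype.ext (h.sigma_cube y))

theorem IsInertCubic.exists_sigmaRes_ne : ∃ x, h.sigmaRes x ≠ x := by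
  obtain ⟨θ, hθ, hθ'⟩ := h.residual
  refine ⟨IsLocalRing.residue _ ⟨θ, hθ⟩, fun he => ?_⟩
  rw [h.sigmaRes_residue, ← sub_eq_zero, ← map_sub, residue_eq_zero_iff] at he
  exact hθ'.not_lt he

/-- An integer of trace one. -/
theorem IsInertCubic.exists_trace_one : ∃ e, vL e ≤ 1 ∧ trace3 σ e = 1 := by
  have hne : ∃ x : IsLocalRing.ResidueField vL.valuationSubring,
      x + h.sigmaRes x + h.sigmaRes (h.sigmaRes x) ≠ 0 := by
    by_contra hcon
    push Not at hcon
    exact one_ne_zero (linearIndependent_powers h.sigmaRes h.sigmaRes_cube h.exists_sigmaRes_ne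
      1 1 1 fun x => by simpa using hcon x)
  obtain ⟨x, hx⟩ := hne
  obtain ⟨y, rfl⟩ := IsLocalRing.residue_surjective x
  rw [h.sigmaRes_residue, h.sigmaRes_residue, ← map_add, ← map_add, Ne, residue_eq_zero_iff] at hx
  have hval : vL (trace3 σ y) = 1 := by
    refine le_antisymm ?_ (not_lt.mp hx)
    rw [trace3]
    refine vL.map_add_le (vL.map_add_le y.2 ?_) ?_ <;> simp only [h.v_sigma] <;> exact y.2
  have ht0 : trace3 σ (y : L) ≠ 0 := fun h0 => by rw [h0, map_zero] at hval; exact zero_ne_one hval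
  refine ⟨(trace3 σ y)⁻¹ * y, ?_, ?_⟩
  · rw [map_mul, map_inv₀, hval, inv_one, one_mul]; exact y.2
  · rw [trace3, map_mul, map_mul, map_inv₀, h.sigma_fix_trace, map_inv₀, h.sigma_fix_trace,
      ← mul_add, ← mul_add]
    exact inv_mul_cancel₀ ht0

end Inert

end Fermat.Agent.ResidualThree.Tree
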