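import Mathlib
import Fermat.Agent.ResidualThree.Tree.Graph
import Fermat.Agent.ResidualThree.Tree.Local

/-!
# The vertices of `PGL₂` form a regular tree

For a discretely valued field with residue field of `q` elements the vertices with `vdist` form
a regular tree of degree `q + 1` (`isRegTree`); the neighbours are listed by the residue field
and one more point (`nbEquiv`).
-/

noncomputable section

open Matrix
open scoped WithZero

namespace Fermat.Agent.ResidualThree.Tree

variable {F : Type*} [Field F] {v : Valuation F ℤᵐ⁰} {p : Fˣ}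

/-- The matrix `!![p, u; 0, 1]`. -/
def stepGL (p : Fˣ) (u : F) : GL (Fin 2) F :=
  Matrix.GeneralLinearGroup.mkOfDetNeZero !![(p : F), u; 0, 1] (by simp [Matrix.det_fin_two])

@[simp] theorem coe_stepGL (p : Fˣ) (u : F) :
    (stepGL p u : Matrix (Fin 2) (Fin 2) F) = !![(p : F), u; 0, 1] := rfl

theorem cartan_eq_of_nrm {g : GL (Fin 2) F} {r : ℕ}
    (hn : nrm v (g : Matrix (Fin 2) (Fin 2) F) = 1)
    (hd : v (g : Matrix (Fin 2) (Fin 2) F).det = WithZero.exp (-(r : ℤ))) : cartan v g = r := by
  rw [cartan_eq_iff, cartanInt_eq, hn, hd, WithZero.log_one, WithZero.log_exp]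
  ring

theorem nrm_eq_one_of {A : Matrix (Fin 2) (Fin 2) F} (h : ∀ i j, v (A i j) ≤ 1) {i j : Fin 2}
    (hij : v (A i j) = 1) : nrm v A = 1 :=
  le_antisymm (nrm_le_iff.mpr h) (hij ▸ le_nrm A i j)

theorem v_coe_le_one (x : v.valuationSubring) : v (x : F) ≤ 1 := x.2

theorem mk_decomp {k D l : GL (Fin 2) F} (s : Fˣ) (hl : l ∈ intGL v) :
    (QuotientGroup.mk (k * Matrix.GeneralLinearGroup.scalar (Fin 2) s * D * l) : Vert v) =
      QuotientGroup.mk (k * D) := by
  rw [mul_assoc k, Matrix.GeneralLinearGroup.scalar_commute, ← mul_assoc k, mul_assoc (k * D)]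
  exact QuotientGroup.mk_mul_of_mem _ (mul_mem_vertexSubgroup_iff.mpr ⟨s, l, hl, rfl⟩)

variable (hp : v (p : F) = WithZero.exp (-1 : ℤ))
include hp

theorem v_unif_lt_one : v (p : F) < 1 := lt_one_iff_le_exp.mpr hp.le

theorem v_unif_pow (r : ℕ) : v ((p : F) ^ r) = WithZero.exp (-(r : ℤ)) := by
  rw [map_pow, hp, ← WithZero.exp_nsmul]; simp

theorem cartan_stepGL {u : F} (hu : v u ≤ 1) : cartan v (stepGL p u) = 1 := by
  refine cartan_eq_of_nrm (nrm_eq_one_of (fun i j => ?_) (i := 1) (j := 1) (by simp)) ?_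
  · fin_cases i <;> fin_cases j <;> simp [hu, (v_unif_lt_one hp).le]
  · simp [Matrix.det_fin_two, hp]

theorem cartan_diag_one_unif : cartan v (diagGL 1 p) = 1 := by
  refine cartan_eq_of_nrm (nrm_eq_one_of (fun i j => ?_) (i := 0) (j := 0) (by simp)) ?_
  · fin_cases i <;> fin_cases j <;> simp [(v_unif_lt_one hp).le]
  · simp [Matrix.det_fin_two, hp]

theorem cartan_diag_pow_mul_step (r : ℕ) {u : F} (hu : v u ≤ 1) :
    cartan v (diagGL (p ^ r) 1 * stepGL p u) = r + 1 := by
  have hpow : v ((p : F) ^ r) ≤ 1 := by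
    rw [map_pow]; exact pow_le_one₀ zero_le (v_unif_lt_one hp).le
  refine cartan_eq_of_nrm (nrm_eq_one_of (fun i j => ?_) (i := 1) (j := 1)
    (by simp [Matrix.mul_apply, Fin.sum_univ_two])) ?_
  · fin_cases i <;> fin_cases j <;>
      simp [Matrix.mul_apply, Fin.sum_univ_two] <;>
        first
          | exact mul_le_one' (by simpa using hpow) (v_unif_lt_one hp).le
          | exact mul_le_one' (by simpa using hpow) hu
  · rw [Units.val_mul, Matrix.det_mul, map_mul]
    simp [Matrix.det_fin_two, hp, ← WithZero.exp_nsmul]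
    rw [← WithZero.exp_neg, ← WithZero.exp_neg, ← WithZero.exp_add]
    congr 1
    simp only [toAdd_ofAdd]
    ring

theorem cartan_diag_pow_mul_inf (r : ℕ) : cartan v (diagGL (p ^ (r + 1)) 1 * diagGL 1 p) = r := by
  have e : diagGL (p ^ (r + 1)) 1 * diagGL 1 p =
      Matrix.GeneralLinearGroup.scalar (Fin 2) p * diagGL (p ^ r) 1 := by
    refine Units.ext ?_
    ext i j
    fin_cases i <;> fin_cases j <;>
      simp [Matrix.mul_apply, Fin.sum_univ_two, Matrix.GeneralLinearGroup.coe_scalar, pow_succ']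
  rw [e, cartan, cartanInt_scalar_mul]
  refine cartan_eq_of_nrm (nrm_eq_one_of (fun i j => ?_) (i := 1) (j := 1) (by simp)) ?_
  · have := pow_le_one₀ (n := r) zero_le (v_unif_lt_one hp).le
    fin_cases i <;> fin_cases j <;> simp [this]
  · simp [Matrix.det_fin_two, hp, ← WithZero.exp_nsmul]

/-- The neighbours of the base vertex. -/
def nbMap (v : Valuation F ℤᵐ⁰) (p : Fˣ) :
    Option (IsLocalRing.ResidueField v.valuationSubring) → Vert v
  | none => QuotientGroup.mk (diagGL 1 p)
  | some c => QuotientGroup.mk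
      (stepGL p ((IsLocalRing.residue_surjective c).choose : v.valuationSubring))

theorem stepGL_eq_iff {u u' : F} :
    (QuotientGroup.mk (stepGL p u) : Vert v) = QuotientGroup.mk (stepGL p u') ↔ v (u' - u) < 1 := by
  have hp0 : (p : F) ≠ 0 := p.ne_zero
  have e : (((stepGL p u)⁻¹ * stepGL p u' : GL (Fin 2) F) : Matrix (Fin 2) (Fin 2) F)
      = !![1, (u' - u) / (p : F); 0, 1] := by
    rw [Units.val_mul, coe_inv_eq]
    ext i j
    fin_cases i <;> fin_cases j <;>
      simp [Matrix.det_fin_two, Matrix.adjugate_fin_two, Matrix.mul_apply, Fin.sum_univ_two, hp0]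
    field_simp
    ring
  have hiff : v (u' - u) < 1 ↔ v ((u' - u) / (p : F)) ≤ 1 := by
    rw [map_div₀, div_le_one₀ (zero_lt_iff.mpr ((map_ne_zero v).mpr hp0)), hp, lt_one_iff_le_exp]
  rw [QuotientGroup.eq, ← cartan_eq_zero_iff, cartan_eq_iff, cartanInt_eq, e, Matrix.det_fin_two,
    hiff]
  simp only [Matrix.of_apply, Matrix.cons_val', Matrix.cons_val_zero, Matrix.cons_val_one,
    Matrix.cons_val_fin_one, mul_one, mul_zero, sub_zero, map_one, WithZero.log_one, Nat.cast_zero]
  constructor
  · intro h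
    refine (le_nrm (v := v) !![1, (u' - u) / (p : F); 0, 1] 0 1).trans ?_
    rw [← WithZero.log_le_log ?_ one_ne_zero, WithZero.log_one]
    · omega
    · intro h0
      have := le_nrm (v := v) !![1, (u' - u) / (p : F); 0, 1] 0 0
      rw [h0] at this
      simp at this
  · intro h
    rw [nrm_eq_one_of (v := v) (A := !![1, (u' - u) / (p : F); 0, 1]) (fun i j => by
      fin_cases i <;> fin_cases j <;> simp only [Matrix.of_apply] <;>
        first | exact h | simp) (i := 0) (j := 0) (by simp)]
    simp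

theorem step_ne_inf {u : F} :
    (QuotientGroup.mk (stepGL p u) : Vert v) ≠ QuotientGroup.mk (diagGL 1 p) := fun h => by
  have hp0 : (p : F) ≠ 0 := p.ne_zero
  rw [QuotientGroup.eq, ← cartan_eq_zero_iff, cartan_eq_iff, cartanInt_eq] at h
  have e : (((stepGL p u)⁻¹ * diagGL 1 p : GL (Fin 2) F) : Matrix (Fin 2) (Fin 2) F)
      = !![(p : F)⁻¹, -u; 0, (p : F)] := by
    rw [Units.val_mul, coe_inv_eq]
    ext i j
    fin_cases i <;> fin_cases j <;>
      simp [Matrix.det_fin_two, Matrix.adjugate_fin_two, Matrix.mul_apply, Fin.sum_univ_two, hp0]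
    field_simp
  rw [e, Matrix.det_fin_two] at h
  simp [hp0] at h
  have h1 := le_nrm (v := v) !![(p : F)⁻¹, -u; 0, (p : F)] 0 0
  have hne : nrm v !![(p : F)⁻¹, -u; 0, (p : F)] ≠ 0 := fun h0 => by
    rw [h0] at h1; simp [hp0] at h1
  rw [← WithZero.log_le_log (by simp [hp0]) hne] at h1
  simp [hp] at h1
  omega

theorem exists_nb {x : GL (Fin 2) F} (hx : cartan v x = 1) :
    ∃ o, nbMap v p o = QuotientGroup.mk x := by
  have hp0 : (p : F) ≠ 0 := p.ne_zero
  obtain ⟨k, l, s, q, hk, hl, hq, e⟩ := exists_cartan_decomp hp x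
  obtain rfl : q = p := Units.ext hq
  rw [hx, pow_one] at e
  have hxk : (QuotientGroup.mk x : Vert v) = QuotientGroup.mk (k * diagGL q 1) :=
    e ▸ mk_decomp s hl
  rw [hxk]
  set A := (k : Matrix (Fin 2) (Fin 2) F) with hA
  have hdet : v (A 0 0 * A 1 1 - A 0 1 * A 1 0) = 1 := by
    rw [← Matrix.det_fin_two]; exact hk.2
  by_cases hd : v (A 1 1) = 1
  · have hd0 : A 1 1 ≠ 0 := fun h0 => by rw [h0, map_zero] at hd; exact zero_ne_one hd
    have hb : v (A 0 1 / A 1 1) ≤ 1 := by rw [map_div₀, hd, div_one]; exact hk.1 0 1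
    refine ⟨some (IsLocalRing.residue _ ⟨_, hb⟩), ?_⟩
    show QuotientGroup.mk (stepGL q _) = _
    set c := (IsLocalRing.residue_surjective (IsLocalRing.residue v.valuationSubring
      ⟨A 0 1 / A 1 1, hb⟩)).choose with hc
    have hcs := (IsLocalRing.residue_surjective (IsLocalRing.residue v.valuationSubring
      ⟨A 0 1 / A 1 1, hb⟩)).choose_spec
    rw [← hc, eq_comm, ← sub_eq_zero, ← map_sub, residue_eq_zero_iff] at hcs
    rw [(stepGL_eq_iff hp).mpr hcs, QuotientGroup.eq]
    refine intGL_le_vertexSubgroup ?_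
    have e2 : (((stepGL q (A 0 1 / A 1 1))⁻¹ * (k * diagGL q 1) : GL (Fin 2) F) :
        Matrix (Fin 2) (Fin 2) F) =
        !![A 0 0 - A 0 1 / A 1 1 * A 1 0, 0; A 1 0 * (q : F), A 1 1] := by
      rw [Units.val_mul, Units.val_mul, coe_inv_eq, ← hA]
      ext i j
      fin_cases i <;> fin_cases j <;>
        simp [Matrix.det_fin_two, Matrix.adjugate_fin_two, Matrix.mul_apply, Fin.sum_univ_two] <;>
          field_simp <;> ring
    refine ⟨fun i j => ?_, ?_⟩
    · rw [e2]
      fin_cases i <;> fin_cases j <;> simp [hd, -map_div₀]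
      · refine v.map_sub_le (hk.1 0 0) ?_
        rw [map_mul]
        exact mul_le_one' hb (hk.1 1 0)
      · exact mul_le_one' (hk.1 1 0) (v_unif_lt_one hp).le
    · rw [e2, Matrix.det_fin_two]
      simp only [Matrix.of_apply, Matrix.cons_val', Matrix.cons_val_zero, Matrix.cons_val_one,
        Matrix.cons_val_fin_one, zero_mul, sub_zero]
      rw [← hdet]
      congr 1
      field_simp
  · refine ⟨none, ?_⟩
    show QuotientGroup.mk (diagGL 1 q) = _
    rw [QuotientGroup.eq]
    refine intGL_le_vertexSubgroup ?_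
    have hd' : v (A 1 1 / (q : F)) ≤ 1 := by
      rw [map_div₀, div_le_one₀ (zero_lt_iff.mpr ((map_ne_zero v).mpr hp0)), hp,
        ← lt_one_iff_le_exp]
      exact lt_of_le_of_ne (hk.1 1 1) hd
    have e2 : (((diagGL 1 q)⁻¹ * (k * diagGL q 1) : GL (Fin 2) F) :
        Matrix (Fin 2) (Fin 2) F) =
        !![A 0 0 * (q : F), A 0 1; A 1 0, A 1 1 / (q : F)] := by
      rw [Units.val_mul, Units.val_mul, coe_inv_eq, ← hA]
      ext i j
      fin_cases i <;> fin_cases j <;>
        simp [Matrix.det_fin_two, Matrix.adjugate_fin_two, Matrix.mul_apply, Fin.sum_univ_two,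
          hp0] <;> field_simp
    refine ⟨fun i j => ?_, ?_⟩
    · rw [e2]
      fin_cases i <;> fin_cases j <;> simp [hk.1 0 1, hk.1 1 0, hA, -map_div₀]
      · exact mul_le_one' (hk.1 0 0) (v_unif_lt_one hp).le
      · exact hd'
    · rw [e2, Matrix.det_fin_two]
      simp only [Matrix.of_apply, Matrix.cons_val', Matrix.cons_val_zero, Matrix.cons_val_one,
        Matrix.cons_val_fin_one]
      rw [← hdet]
      congr 1
      field_simp

omit hp in
theorem vdist_one_mk (g : GL (Fin 2) F) :
    vdist (QuotientGroup.mk 1 : Vert v) (QuotientGroup.mk g) = cartan v g := by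
  rw [vdist_mk, inv_one, one_mul]

theorem vdist_base_nb (o : Option (IsLocalRing.ResidueField v.valuationSubring)) :
    vdist (QuotientGroup.mk 1 : Vert v) (nbMap v p o) = 1 := by
  rcases o with _ | c
  · exact (vdist_one_mk _).trans (cartan_diag_one_unif hp)
  · exact (vdist_one_mk _).trans (cartan_stepGL hp (v_coe_le_one _))

theorem nbMap_injective : Function.Injective (nbMap v p) := by
  rintro (_ | c) (_ | c') h
  · rfl
  · exact absurd h.symm (step_ne_inf hp)
  · exact absurd h (step_ne_inf hp)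
  · refine congrArg some ?_
    have h1 := (IsLocalRing.residue_surjective c).choose_spec
    have h2 := (IsLocalRing.residue_surjective c').choose_spec
    have h3 := (stepGL_eq_iff hp).mp h
    rw [← h1, ← h2, eq_comm, ← sub_eq_zero, ← map_sub, residue_eq_zero_iff]
    exact h3

/-- The neighbours of the base vertex, counted. -/
def nbEquiv : Option (IsLocalRing.ResidueField v.valuationSubring) ≃
    {y : Vert v // vdist (QuotientGroup.mk 1 : Vert v) y = 1} :=
  Equiv.ofBijective (fun o => ⟨nbMap v p o, vdist_base_nb hp o⟩)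
    ⟨fun _ _ h => nbMap_injective hp (congrArg Subtype.val h), fun ⟨y, hy⟩ => by
      induction y using QuotientGroup.induction_on with
      | H g =>
        rw [vdist_one_mk] at hy
        obtain ⟨o, ho⟩ := exists_nb hp hy
        exact ⟨o, Subtype.ext ho⟩⟩

theorem closer_std (r : ℕ) :
    ∃ y : Vert v, vdist (QuotientGroup.mk (diagGL (p ^ (r + 1)) 1)) y = 1 ∧
      vdist (QuotientGroup.mk 1 : Vert v) y = r ∧
      ∀ z, vdist (QuotientGroup.mk (diagGL (p ^ (r + 1)) 1)) z = 1 → z ≠ y →
        vdist (QuotientGroup.mk 1 : Vert v) z = r + 2 := by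
  set D : GL (Fin 2) F := diagGL (p ^ (r + 1)) 1
  have key : ∀ g, vdist (QuotientGroup.mk D : Vert v) (QuotientGroup.mk g) =
      vdist (QuotientGroup.mk 1 : Vert v) (QuotientGroup.mk (D⁻¹ * g)) := fun g => by
    rw [vdist_mk, vdist_one_mk]
  refine ⟨D • nbMap v p none, ?_, ?_, fun z hz hne => ?_⟩
  · rw [nbMap, MulAction.Quotient.smul_mk, smul_eq_mul, key, inv_mul_cancel_left, vdist_one_mk,
      cartan_diag_one_unif hp]
  · rw [nbMap, MulAction.Quotient.smul_mk, smul_eq_mul, vdist_one_mk,
      cartan_diag_pow_mul_inf hp]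
  · induction z using QuotientGroup.induction_on with
    | H g =>
      rw [key, vdist_one_mk] at hz
      obtain ⟨o, ho⟩ := exists_nb hp hz
      have hg : (QuotientGroup.mk g : Vert v) = D • nbMap v p o := by
        rw [ho, MulAction.Quotient.smul_mk, smul_eq_mul, mul_inv_cancel_left]
      rcases o with _ | c
      · exact absurd hg hne
      · rw [hg, nbMap, MulAction.Quotient.smul_mk, smul_eq_mul, vdist_one_mk]
        exact cartan_diag_pow_mul_step hp (r + 1) (v_coe_le_one _)

omit hp

/-- The vertices form a regular tree. -/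
theorem isRegTree {q : ℕ} (h : IsLocalVal v q) : IsRegTree (vdist (v := v)) q where
  dist_eq_zero _ _ := vdist_eq_zero
  comm := vdist_comm
  card_nbhd x := by
    obtain ⟨π, hπ⟩ := h.exists_unif
    have hπ0 : π ≠ 0 := fun h0 => by
      rw [h0, map_zero] at hπ; exact WithZero.exp_ne_zero hπ.symm
    have := h.finite_residue
    rw [← h.card_residue, ← Finite.card_option,
      Nat.card_congr (nbEquiv (v := v) (p := Units.mk0 π hπ0) hπ)]
    induction x using QuotientGroup.induction_on with
    | H g =>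
      refine (Nat.card_congr (Equiv.subtypeEquiv (MulAction.toPerm g) fun y => ?_)).symm
      rw [MulAction.toPerm_apply, ← vdist_smul g, MulAction.Quotient.smul_mk, smul_eq_mul, mul_one]
  closer x y hne := by
    obtain ⟨π, hπ⟩ := h.exists_unif
    induction x using QuotientGroup.induction_on with
    | H a =>
      induction y using QuotientGroup.induction_on with
      | H b =>
        obtain ⟨k, l, s, q, hk, hl, hq, e⟩ := exists_cartan_decomp hπ (a⁻¹ * b)
        have hr : cartan v (a⁻¹ * b) ≠ 0 := fun h0 => hne (Eq.symm (by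
          rwa [QuotientGroup.eq, ← cartan_eq_zero_iff]))
        obtain ⟨r, hr'⟩ := Nat.exists_eq_succ_of_ne_zero hr
        obtain ⟨z, z1, z2, z3⟩ := closer_std (v := v) (p := q) (hq ▸ hπ) r
        have hb : (QuotientGroup.mk b : Vert v) =
            (a * k) • (QuotientGroup.mk (diagGL (q ^ (r + 1)) 1) : Vert v) := by
          rw [MulAction.Quotient.smul_mk, smul_eq_mul, ← mk_decomp (k := a * k) s hl,
            mul_assoc a k, mul_assoc a, mul_assoc a, ← Nat.succ_eq_add_one, ← hr', ← e,
            mul_inv_cancel_left]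
        have ha : (QuotientGroup.mk a : Vert v) = (a * k) • (QuotientGroup.mk 1 : Vert v) := by
          rw [MulAction.Quotient.smul_mk, smul_eq_mul, mul_one,
            QuotientGroup.mk_mul_of_mem _ (intGL_le_vertexSubgroup hk)]
        refine ⟨(a * k) • z, ?_, ?_, fun w hw hwne => ?_⟩
        · rw [hb, vdist_smul, z1]
        · rw [ha, vdist_smul, z2, ← ha, vdist_mk, hr']
        · obtain ⟨w', rfl⟩ := MulAction.surjective (α := GL (Fin 2) F) (a * k) w
          rw [hb, vdist_smul] at hw
          have hz3 := z3 w' hw fun e' => hwne (by rw [e'])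
          rw [ha, vdist_smul, hz3, ← ha, vdist_mk, hr']

end Fermat.Agent.ResidualThree.Tree
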