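import Mathlib
import Fermat.Agent.ResidualThree.Orbital.Classes
import Fermat.Agent.ResidualThree.Tree.GL2Tree

/-!
# Functoriality of vertices; twisted isometries

Maps of valued fields act on `GL₂` and on the vertices of the trees.  For a cubic extension with
automorphism `σ` we define `embGL`, `sigmaGL` and the twisted isometry `δσ`, and record descent
of fixed matrices and the commutation lemma used in all matching arguments.
-/

noncomputable section

open Matrix
open scoped WithZero

namespace Fermat.Agent.ResidualThree.Tree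

section Functor

variable {F F' : Type*} [Field F] [Field F'] {v : Valuation F ℤᵐ⁰} {v' : Valuation F' ℤᵐ⁰}
  (f : F →+* F')

theorem coe_glMap (g : GL (Fin 2) F) :
    (Matrix.GeneralLinearGroup.map f g : Matrix (Fin 2) (Fin 2) F') =
      (g : Matrix (Fin 2) (Fin 2) F).map f := rfl

theorem glMap_scalar (s : Fˣ) :
    Matrix.GeneralLinearGroup.map f (Matrix.GeneralLinearGroup.scalar (Fin 2) s) =
      Matrix.GeneralLinearGroup.scalar (Fin 2) (Units.map f.toMonoidHom s) := by
  refine Units.ext ?_
  rw [coe_glMap, coe_scalar_eq_smul, coe_scalar_eq_smul]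
  ext i j
  fin_cases i <;> fin_cases j <;> simp

theorem glMap_injective : Function.Injective (Matrix.GeneralLinearGroup.map (n := Fin 2) f) :=
  fun _ _ h => Units.ext (Matrix.map_injective f.injective (congrArg Units.val h))

variable (hf : ∀ x, v' (f x) = v x)
include hf

theorem nrm_map (A : Matrix (Fin 2) (Fin 2) F) : nrm v' (A.map f) = nrm v A := by
  refine le_antisymm (nrm_le_iff.mpr fun i j => ?_) (nrm_le_iff.mpr fun i j => ?_)
  · rw [Matrix.map_apply, hf]; exact le_nrm A i j
  · rw [← hf]; exact le_nrm (A.map f) i j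

theorem cartan_glMap (g : GL (Fin 2) F) :
    cartan v' (Matrix.GeneralLinearGroup.map f g) = cartan v g := by
  have hd : ((g : Matrix (Fin 2) (Fin 2) F).map f).det = f (g : Matrix (Fin 2) (Fin 2) F).det :=
    (RingHom.map_det f _).symm
  rw [cartan, cartan, cartanInt_eq, cartanInt_eq, coe_glMap, nrm_map f hf, hd, hf]

theorem glMap_mem_intGL {g : GL (Fin 2) F} :
    Matrix.GeneralLinearGroup.map f g ∈ intGL v' ↔ g ∈ intGL v := by
  have hd : ((g : Matrix (Fin 2) (Fin 2) F).map f).det = f (g : Matrix (Fin 2) (Fin 2) F).det :=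
    (RingHom.map_det f _).symm
  simp only [mem_intGL, IsIntGL, coe_glMap, Matrix.map_apply, hf, hd]

theorem glMap_mem_vertexSubgroup {g : GL (Fin 2) F} :
    Matrix.GeneralLinearGroup.map f g ∈ vertexSubgroup v' ↔ g ∈ vertexSubgroup v := by
  rw [← cartan_eq_zero_iff, ← cartan_eq_zero_iff, cartan_glMap f hf]

/-- The map of vertices of a valuation preserving homomorphism. -/
def mapVert : Vert v → Vert v' :=
  Quotient.map' (fun g => Matrix.GeneralLinearGroup.map f g) fun g h hgh => by
    rw [QuotientGroup.leftRel_apply] at hgh ⊢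
    rw [← map_inv, ← map_mul, glMap_mem_vertexSubgroup f hf]
    exact hgh

theorem mapVert_mk (g : GL (Fin 2) F) :
    mapVert f hf (QuotientGroup.mk g) = QuotientGroup.mk (Matrix.GeneralLinearGroup.map f g) := rfl

theorem mapVert_smul (g : GL (Fin 2) F) (x : Vert v) :
    mapVert f hf (g • x) = Matrix.GeneralLinearGroup.map f g • mapVert f hf x := by
  induction x using QuotientGroup.induction_on
  rw [MulAction.Quotient.smul_mk, mapVert_mk, mapVert_mk, MulAction.Quotient.smul_mk, smul_eq_mul,
    smul_eq_mul, map_mul]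

theorem vdist_mapVert (x y : Vert v) : vdist (mapVert f hf x) (mapVert f hf y) = vdist x y := by
  induction x using QuotientGroup.induction_on
  induction y using QuotientGroup.induction_on
  rw [mapVert_mk, mapVert_mk, vdist_mk, vdist_mk, ← map_inv, ← map_mul, cartan_glMap f hf]

theorem mapVert_injective : Function.Injective (mapVert f hf) := fun x y h => by
  rw [← vdist_eq_zero, ← vdist_mapVert f hf, h, vdist_eq_zero]

end Functor

theorem scalar_smul_vert {F : Type*} [Field F] {v : Valuation F ℤᵐ⁰} (s : Fˣ) (x : Vert v) :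
    Matrix.GeneralLinearGroup.scalar (Fin 2) s • x = x := by
  induction x using QuotientGroup.induction_on
  rw [MulAction.Quotient.smul_mk, smul_eq_mul, Matrix.GeneralLinearGroup.scalar_commute]
  exact QuotientGroup.mk_mul_of_mem _ (Subgroup.subset_closure (Or.inr (scalar_mem_center s)))

section Twist

variable {K L : Type*} [Field K] [Field L] [Algebra K L] {vK : Valuation K ℤᵐ⁰}
  {vL : Valuation L ℤᵐ⁰} {σ : L ≃ₐ[K] L} {q : ℕ} (h : IsInertCubic vK vL σ q)

/-- Extension of scalars. -/
def embGL (K L : Type*) [Field K] [Field L] [Algebra K L] : GL (Fin 2) K →* GL (Fin 2) L :=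
  Matrix.GeneralLinearGroup.map (algebraMap K L)

/-- The automorphism of matrices. -/
def sigmaGL (σ : L ≃ₐ[K] L) : GL (Fin 2) L →* GL (Fin 2) L :=
  Matrix.GeneralLinearGroup.map (σ : L →+* L)

@[simp] theorem coe_embGL (g : GL (Fin 2) K) :
    (embGL K L g : Matrix (Fin 2) (Fin 2) L) =
      (g : Matrix (Fin 2) (Fin 2) K).map (algebraMap K L) := rfl

@[simp] theorem coe_sigmaGL (g : GL (Fin 2) L) :
    (sigmaGL σ g : Matrix (Fin 2) (Fin 2) L) = (g : Matrix (Fin 2) (Fin 2) L).map σ := rfl

theorem sigmaGL_embGL (g : GL (Fin 2) K) : sigmaGL σ (embGL K L g) = embGL K L g := by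
  refine Units.ext (Matrix.ext fun i j => ?_)
  simp

/-- A matrix fixed by the automorphism is defined over the ground field when its fixed field is. -/
theorem exists_embGL_of_fixed (hfix : ∀ x : L, σ x = x → ∃ a, algebraMap K L a = x)
    {g : GL (Fin 2) L} (hg : sigmaGL σ g = g) : ∃ g₀ : GL (Fin 2) K, embGL K L g₀ = g := by
  choose a ha using fun i j => hfix ((g : Matrix (Fin 2) (Fin 2) L) i j)
    (by simpa using congrArg (fun x : GL (Fin 2) L => (x : Matrix (Fin 2) (Fin 2) L) i j) hg)
  have e : (Matrix.of a).map (algebraMap K L) = (g : Matrix (Fin 2) (Fin 2) L) := Matrix.ext ha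
  have hd : (Matrix.of a).det ≠ 0 := fun h0 => g.det_ne_zero (by
    rw [← e, ← RingHom.mapMatrix_apply, ← RingHom.map_det, h0, map_zero])
  exact ⟨Matrix.GeneralLinearGroup.mkOfDetNeZero _ hd, Units.ext e⟩

include h

theorem IsInertCubic.sigmaGL_cube (g : GL (Fin 2) L) :
    sigmaGL σ (sigmaGL σ (sigmaGL σ g)) = g := by
  refine Units.ext (Matrix.ext fun i j => ?_)
  simp [h.sigma_cube]

theorem IsInertCubic.exists_embGL {g : GL (Fin 2) L} (hg : sigmaGL σ g = g) :
    ∃ g₀ : GL (Fin 2) K, embGL K L g₀ = g :=
  exists_embGL_of_fixed h.fixed hg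

/-- Extension of scalars on vertices. -/
def IsInertCubic.embVert : Vert vK → Vert vL := mapVert (algebraMap K L) h.v_algebraMap

/-- The automorphism on vertices. -/
def IsInertCubic.sigmaVert : Vert vL → Vert vL := mapVert (σ : L →+* L) h.v_sigma

theorem IsInertCubic.embVert_smul (g : GL (Fin 2) K) (y : Vert vK) :
    h.embVert (g • y) = embGL K L g • h.embVert y := mapVert_smul _ _ g y

theorem IsInertCubic.sigmaVert_smul (g : GL (Fin 2) L) (x : Vert vL) :
    h.sigmaVert (g • x) = sigmaGL σ g • h.sigmaVert x := mapVert_smul _ _ g x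

theorem IsInertCubic.sigmaVert_cube (x : Vert vL) :
    h.sigmaVert (h.sigmaVert (h.sigmaVert x)) = x := by
  induction x using QuotientGroup.induction_on with
  | H g =>
    exact congrArg (QuotientGroup.mk (s := vertexSubgroup vL)) (h.sigmaGL_cube g)

theorem IsInertCubic.sigmaVert_embVert (y : Vert vK) :
    h.sigmaVert (h.embVert y) = h.embVert y := by
  induction y using QuotientGroup.induction_on with
  | H g => exact congrArg (QuotientGroup.mk (s := vertexSubgroup vL)) (sigmaGL_embGL g)

/-- The twisted isometry `x ↦ δ σ(x)`. -/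
def IsInertCubic.twist (δ : GL (Fin 2) L) : Vert vL ≃ Vert vL where
  toFun x := δ • h.sigmaVert x
  invFun x := h.sigmaVert (h.sigmaVert (δ⁻¹ • x))
  left_inv x := by simp [h.sigmaVert_cube]
  right_inv x := by simp [h.sigmaVert_cube]

theorem IsInertCubic.twist_apply (δ : GL (Fin 2) L) (x : Vert vL) :
    h.twist δ x = δ • h.sigmaVert x := rfl

theorem IsInertCubic.twist_mk (δ g : GL (Fin 2) L) :
    h.twist δ (QuotientGroup.mk g) = QuotientGroup.mk (δ * sigmaGL σ g) := rfl

theorem IsInertCubic.vdist_twist (δ : GL (Fin 2) L) (x y : Vert vL) :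
    vdist (h.twist δ x) (h.twist δ y) = vdist x y := by
  rw [h.twist_apply, h.twist_apply, vdist_smul]
  exact vdist_mapVert _ h.v_sigma x y

theorem IsInertCubic.twist_embVert_comm {δ : GL (Fin 2) L} {g : GL (Fin 2) K}
    (hc : δ * embGL K L g = embGL K L g * δ) (x : Vert vL) :
    h.twist δ (embGL K L g • x) = embGL K L g • h.twist δ x := by
  rw [h.twist_apply, h.twist_apply, h.sigmaVert_smul, sigmaGL_embGL, smul_smul, hc, ← smul_smul]

theorem IsInertCubic.twist_conj (δ t : GL (Fin 2) L) (s : Lˣ) (x : Vert vL) :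
    h.twist (Matrix.GeneralLinearGroup.scalar (Fin 2) s * (t⁻¹ * δ * sigmaGL σ t)) x =
      t⁻¹ • h.twist δ (t • x) := by
  rw [h.twist_apply, h.twist_apply, h.sigmaVert_smul, mul_smul, scalar_smul_vert, mul_smul,
    mul_smul]

end Twist

/-- What commutes with a regular `γ` commutes with everything over `K` commuting with `γ`. -/
theorem commute_embGL {K L : Type*} [Field K] [Field L] [Algebra K L] {γ : GL (Fin 2) K}
    (hγ : Orbital.CubicAut.NonScalar (γ : Matrix (Fin 2) (Fin 2) K)) {t : GL (Fin 2) L}
    (ht : t * embGL K L γ = embGL K L γ * t) {g : GL (Fin 2) K} (hg : g * γ = γ * g) :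
    t * embGL K L g = embGL K L g * t := by
  refine Units.ext (Orbital.CubicAut.commute_of_commute
    ((Orbital.CubicAut.nonScalar_map (L := L)).2 hγ) (congrArg Units.val ht) ?_).eq
  exact congrArg Units.val (show embGL K L g * embGL K L γ = embGL K L γ * embGL K L g by
    rw [← map_mul, hg, map_mul])

end Fermat.Agent.ResidualThree.Tree
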