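import Mathlib
import Fermat.Agent.ResidualThree.Tree.Residual

/-!
# Norm equations by successive approximation, and residually in quadratic algebras

For a ring with an automorphism of order three, elements congruent to one are norms when the
trace is surjective and Cauchy sequences converge (`exists_nm3_eq_of_one_mod`); over a finite
residue field the norm is surjective on units of quadratic algebras (`exists_quad_nm3_eq`).
-/

noncomputable section

namespace Fermat.Agent.ResidualThree.Tree

section Approx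

variable {A : Type*} [CommRing A] (s : A →+* A) (π e : A)

/-- The norm of an endomorphism of order three. -/
def nm3 (x : A) : A := x * s x * s (s x)

theorem map_nm3 (hs3 : ∀ x, s (s (s x)) = x) (x : A) : s (nm3 s x) = nm3 s x := by
  rw [nm3, map_mul, map_mul, hs3]; ring

theorem nm3_mul (x y : A) : nm3 s (x * y) = nm3 s x * nm3 s y := by
  simp only [nm3, map_mul]; ring

variable {s π e}

theorem dvd_mul_sub_mul {d a a' b b' : A} (ha : d ∣ a - a') (hb : d ∣ b - b') :
    d ∣ a * b - a' * b' := by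
  rw [show a * b - a' * b' = (a - a') * b + a' * (b - b') by ring]
  exact dvd_add (dvd_mul_of_dvd_left ha b) (dvd_mul_of_dvd_right hb a')

theorem dvd_map_sub (hπ : s π = π) {n : ℕ} {a a' : A} (h : π ^ n ∣ a - a') :
    π ^ n ∣ s a - s a' := by
  obtain ⟨c, hc⟩ := h
  exact ⟨s c, by rw [← map_sub, hc, map_mul, map_pow, hπ]⟩

theorem dvd_nm3_sub (hπ : s π = π) {n : ℕ} {a a' : A} (h : π ^ n ∣ a - a') :
    π ^ n ∣ nm3 s a - nm3 s a' :=
  dvd_mul_sub_mul (dvd_mul_sub_mul h (dvd_map_sub hπ h)) (dvd_map_sub hπ (dvd_map_sub hπ h))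

variable (hπ : s π = π) (hreg : ∀ x, π * x = 0 → x = 0) (he : e + s e + s (s e) = 1)
include hπ hreg he

theorem exists_step (hs3 : ∀ x, s (s (s x)) = x) {w y : A} {n : ℕ} (hn : 1 ≤ n) (hw : s w = w)
    (hy1 : π ∣ y - 1) (hy : π ^ n ∣ w - nm3 s y) :
    ∃ y', π ^ n ∣ y' - y ∧ π ∣ y' - 1 ∧ π ^ (n + 1) ∣ w - nm3 s y' := by
  obtain ⟨X, hX⟩ := hy
  have hsX : s X = X := by
    have h0 : π ^ n * (s X - X) = 0 := by
      have := congrArg s hX
      rw [map_sub, hw, map_nm3 s hs3, map_mul, map_pow, hπ] at this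
      rw [mul_sub, ← this, hX]; ring
    refine sub_eq_zero.mp ?_
    have : ∀ m, π ^ m * (s X - X) = 0 → s X - X = 0 := by
      intro m
      induction m with
      | zero => simp
      | succ m ih =>
        intro h
        refine ih (hreg _ ?_)
        rw [← h]; ring
    exact this n h0
  refine ⟨y * (1 + π ^ n * (e * X)), ⟨y * (e * X), by ring⟩, ?_, ?_⟩
  · obtain ⟨m, rfl⟩ := Nat.exists_eq_add_of_le hn
    obtain ⟨c, hc⟩ := hy1
    exact ⟨c + y * (π ^ m * (e * X)), by rw [mul_add π, ← hc, pow_add, pow_one]; ring⟩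
  · obtain ⟨c, hc⟩ : π ∣ nm3 s y - 1 := by
      have h1 := dvd_nm3_sub hπ (n := 1) (a := y) (a' := 1) (by rwa [pow_one])
      rw [pow_one, show nm3 s (1 : A) = 1 by simp [nm3]] at h1
      exact h1
    set z := e * X
    have hz : z + s z + s (s z) = X := by
      simp only [z, map_mul, hsX]
      linear_combination X * he
    set R := z * s z + z * s (s z) + s z * s (s z) + π ^ n * (z * s z * s (s z))
    have hN : nm3 s (1 + π ^ n * z) = 1 + π ^ n * X + π ^ n * π ^ n * R := by
      simp only [nm3, map_add, map_one, map_mul, map_pow, hπ, R]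
      rw [← hz]; ring
    rw [nm3_mul, hN]
    obtain ⟨m, rfl⟩ := Nat.exists_eq_add_of_le hn
    refine ⟨-(c * X) - nm3 s y * π ^ m * R, ?_⟩
    simp only [pow_add, pow_one] at hX ⊢
    linear_combination hX - (π * π ^ m * X) * hc

/-- An element fixed by `s` and congruent to one is a norm of such an element. -/
theorem exists_nm3_eq_of_one_mod (hs3 : ∀ x, s (s (s x)) = x)
    (hcomp : ∀ y : ℕ → A, (∀ k, π ^ k ∣ y (k + 1) - y k) → ∃ Y, ∀ k, π ^ k ∣ Y - y k)
    (hsep : ∀ x, (∀ n, π ^ n ∣ x) → x = 0) {w : A} (hw : s w = w) {m : ℕ} (hm : 1 ≤ m)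
    (hm' : π ^ m ∣ w - 1) : ∃ y, π ^ m ∣ y - 1 ∧ nm3 s y = w := by
  classical
  let Good : ℕ → A → Prop := fun k y => π ∣ y - 1 ∧ π ^ (m + k) ∣ w - nm3 s y
  have hstep : ∀ k y, Good k y → ∃ y', π ^ (m + k) ∣ y' - y ∧ Good (k + 1) y' := fun k y hy => by
    obtain ⟨y', h1, h2, h3⟩ := exists_step hπ hreg he hs3 (n := m + k) (by omega) hw hy.1 hy.2
    exact ⟨y', h1, h2, h3⟩
  have h0 : Good 0 1 := ⟨by simp, by simpa [nm3] using hm'⟩
  let seq : (k : ℕ) → {y // Good k y} := fun k => by
    induction k with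
    | zero => exact ⟨1, h0⟩
    | succ k ih => exact ⟨(hstep k ih.1 ih.2).choose, (hstep k ih.1 ih.2).choose_spec.2⟩
  have hseq : ∀ k, π ^ (m + k) ∣ (seq (k + 1)).1 - (seq k).1 := fun k =>
    (hstep k (seq k).1 (seq k).2).choose_spec.1
  have hseq0 : ∀ k, π ^ m ∣ (seq k).1 - 1 := by
    intro k
    induction k with
    | zero => simp [seq]
    | succ k ih =>
      have := dvd_add ((pow_dvd_pow π (Nat.le_add_right m k)).trans (hseq k)) ih
      rwa [sub_add_sub_cancel] at this
  obtain ⟨Y, hY⟩ := hcomp (fun k => (seq k).1) fun k =>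
    (pow_dvd_pow π (Nat.le_add_left k m)).trans (hseq k)
  refine ⟨Y, ?_, ?_⟩
  · have := dvd_add (hY m) (hseq0 m)
    rwa [sub_add_sub_cancel] at this
  · refine (sub_eq_zero.mp (hsep _ fun n => ?_)).symm
    rw [show w - nm3 s Y = (w - nm3 s (seq n).1) - (nm3 s Y - nm3 s (seq n).1) by ring]
    exact dvd_sub ((pow_dvd_pow π (Nat.le_add_left n m)).trans (seq n).2.2)
      (dvd_nm3_sub hπ (hY n))

end Approx

section Quad

/-- The functoriality of quadratic algebras. -/
def qaMap {R S : Type*} [CommRing R] [CommRing S] (f : R →+* S) {a b : R} {a' b' : S}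
    (ha : f a = a') (hb : f b = b') : QuadraticAlgebra R a b →+* QuadraticAlgebra S a' b' where
  toFun z := ⟨f z.re, f z.im⟩
  map_one' := by ext <;> simp [QuadraticAlgebra.re_one, QuadraticAlgebra.im_one]
  map_zero' := by ext <;> simp
  map_add' x y := by ext <;> simp
  map_mul' x y := by ext <;> simp [ha, hb]

@[simp] theorem qaMap_re {R S : Type*} [CommRing R] [CommRing S] (f : R →+* S) {a b : R}
    {a' b' : S} (ha : f a = a') (hb : f b = b') (z : QuadraticAlgebra R a b) :
    (qaMap f ha hb z).re = f z.re := rfl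

@[simp] theorem qaMap_im {R S : Type*} [CommRing R] [CommRing S] (f : R →+* S) {a b : R}
    {a' b' : S} (ha : f a = a') (hb : f b = b') (z : QuadraticAlgebra R a b) :
    (qaMap f ha hb z).im = f z.im := rfl

variable {l : Type*} [Field l] [Finite l] (s : l ≃+* l) {a b : l}

/-- The norm as a quadratic form. -/
def normQF (a b : l) : QuadraticForm l (QuadraticAlgebra l a b) :=
  QuadraticMap.linMulLin (QuadraticAlgebra.reₗ a b) (QuadraticAlgebra.reₗ a b) +
    b • QuadraticMap.linMulLin (QuadraticAlgebra.reₗ a b) (QuadraticAlgebra.imₗ a b) -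
    a • QuadraticMap.linMulLin (QuadraticAlgebra.imₗ a b) (QuadraticAlgebra.imₗ a b)

omit [Finite l] in
theorem normQF_apply (z : QuadraticAlgebra l a b) : normQF a b z = z.norm := by
  simp [normQF, QuadraticAlgebra.norm_def, QuadraticAlgebra.reₗ, QuadraticAlgebra.imₗ]
  ring

/-- The norm is surjective on the fixed units of a residual quadratic algebra. -/
theorem exists_quad_nm3_eq (hs3 : ∀ x, s (s (s x)) = x) (hs : ∃ x, s x ≠ x) (ha : s a = a)
    (hb : s b = b) {u : QuadraticAlgebra l a b} (hu : IsUnit u)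
    (hfix : qaMap s.toRingHom ha hb u = u) :
    ∃ z, IsUnit z ∧ nm3 (qaMap s.toRingHom ha hb) z = u := by
  set S := qaMap s.toRingHom ha hb
  have hS3 : ∀ z, S (S (S z)) = z := fun z => by ext <;> simp [S, hs3]
  let e : QuadraticAlgebra l a b ≃+* QuadraticAlgebra l a b :=
    { S with invFun := fun z => S (S z), left_inv := hS3, right_inv := hS3 }
  let G := (QuadraticAlgebra l a b)ˣ
  have : Finite (QuadraticAlgebra l a b) := Finite.of_equiv _ (QuadraticAlgebra.equivProd a b).symm
  let sG : G ≃* G := Units.mapEquiv e.toMulEquiv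
  have h90 : ∀ c : G, c * sG c * sG (sG c) = 1 → ∃ y, c * sG y = y := fun c hc => by
    let T : QuadraticAlgebra l a b →+ QuadraticAlgebra l a b :=
      { toFun := fun z => (c : QuadraticAlgebra l a b) * S z
        map_zero' := by simp
        map_add' := fun x y => by rw [map_add, mul_add] }
    obtain ⟨x, hx, hx0⟩ := exists_fixed_quadratic_ne_zero s hs3 hs T
      (fun r z => by
        show (c : QuadraticAlgebra l a b) * S (r • z) = s r • ((c : QuadraticAlgebra l a b) * S z)
        rw [show S (r • z) = s r • S z by ext <;> simp [S], mul_smul_comm])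
      (fun z => by
        have h1 : (c : QuadraticAlgebra l a b) * S c * S (S c) = 1 := congrArg Units.val hc
        show (c : QuadraticAlgebra l a b) * S ((c : QuadraticAlgebra l a b) * S ((c : _) * S z)) = z
        rw [map_mul, map_mul, map_mul, hS3, ← mul_assoc, ← mul_assoc, h1, one_mul])
      (normQF a b) (v₀ := 1) (by simp [normQF_apply])
    rw [normQF_apply] at hx0
    have hxu : IsUnit x := QuadraticAlgebra.isUnit_iff_norm_isUnit.mpr (isUnit_iff_ne_zero.mpr hx0)
    exact ⟨hxu.unit, Units.ext hx⟩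
  obtain ⟨y, hy⟩ := norm_surjective_of_h90 sG (fun x => Units.ext (hS3 _)) h90
    (u := hu.unit) (Units.ext hfix)
  exact ⟨y, y.isUnit, congrArg Units.val hy⟩

end Quad

end Fermat.Agent.ResidualThree.Tree
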