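import Mathlib
import Fermat.Agent.ResidualThree.Tree.Action
import Fermat.Agent.ResidualThree.Tree.NormAbstract

/-!
# Norm equations in the quadratic orders generated by integral matrices

In an unramified cubic extension units are norms, and an integral matrix of unit determinant has
a twisted norm root commuting with it (`exists_norm_root`, `exists_norm_root_odd`).  This builds
the twisted elements needed in the matching of the unit and ramified classes.
-/

noncomputable section

open Matrix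
open scoped WithZero

namespace Fermat.Agent.ResidualThree.Tree

section Local

variable {F : Type*} [Field F] {v : Valuation F ℤᵐ⁰}

theorem dvd_iff_v_le {x y : v.valuationSubring} (hy : (y : F) ≠ 0) :
    y ∣ x ↔ v (x : F) ≤ v (y : F) := by
  constructor
  · rintro ⟨c, rfl⟩
    rw [MulMemClass.coe_mul, map_mul]
    exact mul_le_of_le_one_right' c.2
  · intro h
    have hc : v ((x : F) / y) ≤ 1 := by
      rw [map_div₀, div_le_one₀ (zero_lt_iff.mpr ((map_ne_zero v).mpr hy))]; exact h
    exact ⟨⟨(x : F) / y, hc⟩, Subtype.ext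
      (by rw [MulMemClass.coe_mul]; exact (mul_div_cancel₀ _ hy).symm)⟩

theorem isUnit_iff_v_eq_one {x : v.valuationSubring} : IsUnit x ↔ v (x : F) = 1 := by
  rw [← not_iff_not, ← mem_nonunits_iff, ← IsLocalRing.mem_maximalIdeal,
    Valuation.mem_maximalIdeal_iff]
  exact ⟨fun h => h.ne, fun h => lt_of_le_of_ne x.2 h⟩

theorem unif_pow_dvd_iff {π : v.valuationSubring} (hπ : v (π : F) = WithZero.exp (-1 : ℤ))
    {x : v.valuationSubring} {k : ℕ} :
    π ^ k ∣ x ↔ v (x : F) ≤ WithZero.exp (-(k : ℤ)) := by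
  have h0 : (π : F) ≠ 0 := fun h => by rw [h, map_zero] at hπ; exact WithZero.exp_ne_zero hπ.symm
  rw [dvd_iff_v_le (by rw [SubmonoidClass.coe_pow]; exact pow_ne_zero k h0), SubmonoidClass.coe_pow,
    map_pow, hπ, ← WithZero.exp_nsmul]
  simp

end Local

/-- Evaluation of a quadratic algebra at a matrix satisfying the same equation. -/
def quadEval {R L : Type*} [CommRing R] [Field L] (f : R →+* L) {a b : R}
    (G : Matrix (Fin 2) (Fin 2) L) (hG : G * G = f b • G + f a • (1 : Matrix (Fin 2) (Fin 2) L)) :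
    QuadraticAlgebra R a b →+* Matrix (Fin 2) (Fin 2) L where
  toFun z := f z.re • (1 : Matrix (Fin 2) (Fin 2) L) + f z.im • G
  map_one' := by simp [QuadraticAlgebra.re_one, QuadraticAlgebra.im_one]
  map_zero' := by simp
  map_add' x y := by
    simp only [QuadraticAlgebra.re_add, QuadraticAlgebra.im_add, map_add, add_smul]
    abel
  map_mul' x y := by
    simp only [QuadraticAlgebra.re_mul, QuadraticAlgebra.im_mul, map_add, map_mul, Matrix.add_mul,
      Matrix.mul_add, Matrix.smul_mul, Matrix.mul_smul, Matrix.one_mul, Matrix.mul_one, hG]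
    module

theorem det_quadEval {R L : Type*} [CommRing R] [Field L] (f : R →+* L) {a b : R}
    (G : Matrix (Fin 2) (Fin 2) L) (hG : G * G = f b • G + f a • (1 : Matrix (Fin 2) (Fin 2) L))
    (hb : f b = G.trace) (ha : f a = -G.det) (z : QuadraticAlgebra R a b) :
    (quadEval f G hG z).det = f z.norm := by
  show (f z.re • (1 : Matrix (Fin 2) (Fin 2) L) + f z.im • G).det = _
  simp [QuadraticAlgebra.norm_def, hb, ha, Matrix.det_fin_two, Matrix.trace_fin_two]
  ring

theorem sq_eq_trace_det {L : Type*} [CommRing L] (G : Matrix (Fin 2) (Fin 2) L) :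
    G * G = G.trace • G + (-G.det) • (1 : Matrix (Fin 2) (Fin 2) L) := by
  ext i j
  fin_cases i <;> fin_cases j <;>
    simp [Matrix.mul_apply, Fin.sum_univ_two, Matrix.trace_fin_two, Matrix.det_fin_two] <;> ring

section Inert

variable {K L : Type*} [Field K] [Field L] [Algebra K L] {vK : Valuation K ℤᵐ⁰}
  {vL : Valuation L ℤᵐ⁰} {σ : L ≃ₐ[K] L} {q : ℕ} (h : IsInertCubic vK vL σ q)

include h

theorem IsInertCubic.exists_base_unif :
    ∃ π : vL.valuationSubring, h.sigmaInt π = π ∧ vL (π : L) = WithZero.exp (-1 : ℤ) := by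
  obtain ⟨p, hp⟩ := h.localK.exists_unif
  have hv : vL (algebraMap K L p) = WithZero.exp (-1 : ℤ) := by rw [h.v_algebraMap, hp]
  exact ⟨⟨algebraMap K L p, by
    rw [Valuation.mem_valuationSubring_iff, hv, ← WithZero.exp_zero, WithZero.exp_le_exp]; omega⟩,
    Subtype.ext (σ.commutes p), hv⟩

/-- Norms in the order `O_L[X]/(X² - bX - a)` with `a, b` fixed: fixed units are norms of units. -/
theorem IsInertCubic.exists_order_nm3_eq {a b : vL.valuationSubring} (ha : h.sigmaInt a = a)
    (hb : h.sigmaInt b = b) {u : QuadraticAlgebra vL.valuationSubring a b} (hu : IsUnit u)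
    (hfix : qaMap h.sigmaInt.toRingHom ha hb u = u) :
    ∃ z, IsUnit z ∧ nm3 (qaMap h.sigmaInt.toRingHom ha hb) z = u := by
  have := h.localL.finite_residue
  set S : (QuadraticAlgebra vL.valuationSubring a b) →+*
    (QuadraticAlgebra vL.valuationSubring a b) := qaMap h.sigmaInt.toRingHom ha hb
  have hS3 : ∀ x, S (S (S x)) = x := fun x => by
    ext <;> simp [S, IsInertCubic.coe_sigmaInt, h.sigma_cube]
  obtain ⟨π, hπσ, hπ⟩ := h.exists_base_unif
  have hπ0 : π ≠ 0 := fun h0 => by
    rw [h0, ZeroMemClass.coe_zero, map_zero] at hπ; exact WithZero.exp_ne_zero hπ.symm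
  have hres : ∀ x : vL.valuationSubring, IsLocalRing.residue vL.valuationSubring x = 0 ↔
    π ∣ x := fun x => by
    rw [residue_eq_zero_iff, ← pow_one π, unif_pow_dvd_iff hπ, lt_one_iff_le_exp, Nat.cast_one]
  have hdvd : ∀ (k : ℕ) (x : (QuadraticAlgebra vL.valuationSubring a b)),
    algebraMap vL.valuationSubring (QuadraticAlgebra vL.valuationSubring a b) π ^ k ∣ x ↔
      π ^ k ∣ x.re ∧ π ^ k ∣ x.im :=
    fun k x => by rw [← map_pow, QuadraticAlgebra.algebraMap_dvd_iff]
  -- the residual solution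
  set red : (QuadraticAlgebra vL.valuationSubring a b) →+* QuadraticAlgebra
    (IsLocalRing.ResidueField vL.valuationSubring) (IsLocalRing.residue vL.valuationSubring a)
    (IsLocalRing.residue vL.valuationSubring b) :=
      qaMap (IsLocalRing.residue vL.valuationSubring) rfl rfl
  have har : h.sigmaRes (IsLocalRing.residue vL.valuationSubring a) =
    IsLocalRing.residue vL.valuationSubring a := by
    rw [h.sigmaRes_residue, ha]
  have hbr : h.sigmaRes (IsLocalRing.residue vL.valuationSubring b) =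
    IsLocalRing.residue vL.valuationSubring b := by
    rw [h.sigmaRes_residue, hb]
  have hcomm : ∀ x, qaMap h.sigmaRes.toRingHom har hbr (red x) = red (S x) := fun x => by
    ext <;> simp [red, S, h.sigmaRes_residue]
  obtain ⟨zr, hzr, hN⟩ := exists_quad_nm3_eq h.sigmaRes h.sigmaRes_cube h.exists_sigmaRes_ne har hbr
    (hu.map red) (by rw [hcomm, hfix])
  obtain ⟨zre, hzre⟩ := IsLocalRing.residue_surjective zr.re
  obtain ⟨zim, hzim⟩ := IsLocalRing.residue_surjective zr.im
  obtain rfl : red ⟨zre, zim⟩ = zr := QuadraticAlgebra.ext hzre hzim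
  set z₀ : (QuadraticAlgebra vL.valuationSubring a b) := ⟨zre, zim⟩
  have hz₀ : IsUnit z₀ := by
    rw [QuadraticAlgebra.isUnit_iff_norm_isUnit] at hzr ⊢
    have e : (red z₀).norm = IsLocalRing.residue vL.valuationSubring z₀.norm := by
      simp [red, QuadraticAlgebra.norm_def]
    rw [e] at hzr
    exact IsLocalRing.residue_ne_zero_iff_isUnit _ |>.mp hzr.ne_zero
  set N := nm3 S z₀ with hNdef
  have hNu : IsUnit N := (hz₀.mul (hz₀.map S)).mul ((hz₀.map S).map S)
  obtain ⟨Ni, hNi⟩ := isUnit_iff_exists_inv.mp hNu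
  have hNiS : S Ni = Ni := by
    have e := congrArg S hNi
    rw [map_mul, map_one, hNdef, map_nm3 S hS3, ← hNdef] at e
    exact hNu.mul_left_cancel (e.trans hNi.symm)
  have hred : red (u * Ni) = 1 := by
    have e : red N = red u := by
      rw [← hN, hNdef]
      simp only [nm3, map_mul, hcomm]
    rw [map_mul, ← e, ← map_mul, hNi, map_one]
  have hmod : algebraMap vL.valuationSubring (QuadraticAlgebra vL.valuationSubring a b) π ^ 1 ∣
      u * Ni - 1 := by
    rw [hdvd, pow_one, ← hres, ← hres]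
    constructor
    · rw [show IsLocalRing.residue vL.valuationSubring (u * Ni - 1).re =
        (red (u * Ni - 1)).re from rfl, map_sub,
        hred, map_one, sub_self, QuadraticAlgebra.re_zero]
    · rw [show IsLocalRing.residue vL.valuationSubring (u * Ni - 1).im =
        (red (u * Ni - 1)).im from rfl, map_sub,
        hred, map_one, sub_self, QuadraticAlgebra.im_zero]
  obtain ⟨e, he, he1⟩ := h.exists_trace_one
  have hreg : ∀ x : (QuadraticAlgebra vL.valuationSubring a b),
    algebraMap vL.valuationSubring (QuadraticAlgebra vL.valuationSubring a b) π * x = 0 →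
      x = 0 := fun x hx => by
    have h1 := congrArg QuadraticAlgebra.re hx
    have h2 := congrArg QuadraticAlgebra.im hx
    simp [QuadraticAlgebra.algebraMap_eq] at h1 h2
    exact QuadraticAlgebra.ext (h1.resolve_left hπ0)
      (h2.resolve_left hπ0)
  have hlim : ∀ y : ℕ → vL.valuationSubring, (∀ k, π ^ k ∣ y (k + 1) - y k) → ∃ Y, ∀ k,
    π ^ k ∣ Y - y k := fun y hy => by
    obtain ⟨x, hx⟩ := h.localL.complete (fun n => (y n : L)) fun n => by
      simpa [unif_pow_dvd_iff hπ] using hy n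
    refine ⟨⟨x, ?_⟩, fun k => by simpa [unif_pow_dvd_iff hπ] using hx k⟩
    have := hx 0
    rw [Nat.cast_zero, neg_zero, WithZero.exp_zero] at this
    simpa using vL.map_add_le this (y 0).2
  obtain ⟨y, hy1, hy⟩ := exists_nm3_eq_of_one_mod (s := S)
    (π := algebraMap vL.valuationSubring (QuadraticAlgebra vL.valuationSubring a b) π)
    (e := algebraMap vL.valuationSubring (QuadraticAlgebra vL.valuationSubring a b) ⟨e, he⟩)
      (QuadraticAlgebra.ext (by simp [S, QuadraticAlgebra.algebraMap_eq, hπσ])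
        (by simp [S, QuadraticAlgebra.algebraMap_eq]))
    hreg
    (QuadraticAlgebra.ext (Subtype.ext (by
      simpa [S, QuadraticAlgebra.algebraMap_eq, trace3, QuadraticAlgebra.re_one,
        IsInertCubic.coe_sigmaInt] using he1)) (by simp [S, QuadraticAlgebra.algebraMap_eq,
          QuadraticAlgebra.im_one]))
    hS3
    (fun y hy => by
      choose hre him using fun k => (hdvd k _).mp (hy k)
      obtain ⟨Y₁, h₁⟩ := hlim (fun k => (y k).re) (fun k => by simpa using hre k)
      obtain ⟨Y₂, h₂⟩ := hlim (fun k => (y k).im) (fun k => by simpa using him k)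
      exact ⟨⟨Y₁, Y₂⟩, fun k => (hdvd k _).mpr ⟨by simpa using h₁ k, by simpa using h₂ k⟩⟩)
    (fun x hx => by
      have key : ∀ c : vL.valuationSubring, (∀ n, π ^ n ∣ c) → c = 0 := fun c hc =>
        Subtype.ext (eq_zero_of_forall_le (v := vL) fun n => (unif_pow_dvd_iff hπ).mp (hc n))
      exact QuadraticAlgebra.ext (key _ fun n => ((hdvd n x).mp (hx n)).1)
        (key _ fun n => ((hdvd n x).mp (hx n)).2))
    (w := u * Ni) (by rw [map_mul, hfix, hNiS]) le_rfl hmod
  have hnm : nm3 S (y * z₀) = u := by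
    rw [nm3_mul, hy, ← hNdef, mul_assoc, mul_comm Ni, hNi, mul_one]
  refine ⟨y * z₀, ?_, hnm⟩
  have hU : IsUnit (nm3 S (y * z₀)) := hnm ▸ hu
  rw [nm3, mul_assoc] at hU
  exact isUnit_of_mul_isUnit_left hU

/-- Fixed units are norms of units. -/
theorem IsInertCubic.exists_norm3_eq {c : K} (hc : vK c = 1) :
    ∃ x : L, vL x = 1 ∧ norm3 σ x = algebraMap K L c := by
  have hcL : vL (algebraMap K L c) = 1 := by rw [h.v_algebraMap, hc]
  set w : vL.valuationSubring := ⟨algebraMap K L c, hcL.le⟩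
  have hw : h.sigmaInt w = w := Subtype.ext (σ.commutes c)
  obtain ⟨z, hz, hN⟩ := h.exists_order_nm3_eq (a := 0) (b := 0) (map_zero _) (map_zero _)
    (u := algebraMap _ _ w) ((isUnit_iff_v_eq_one.mpr hcL).map _)
    (QuadraticAlgebra.ext (by simp [QuadraticAlgebra.algebraMap_eq, hw])
      (by simp [QuadraticAlgebra.algebraMap_eq]))
  refine ⟨z.re, isUnit_iff_v_eq_one.mp ?_, ?_⟩
  · have := QuadraticAlgebra.isUnit_iff_norm_isUnit.mp hz
    rw [QuadraticAlgebra.norm_def] at this
    simpa using this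
  · have := congrArg (fun x => ((QuadraticAlgebra.re x : vL.valuationSubring) : L)) hN
    simpa [nm3, QuadraticAlgebra.algebraMap_eq, norm3, IsInertCubic.coe_sigmaInt, w] using this

/-- Evaluation of the order at a matrix. -/
theorem IsInertCubic.exists_eval (γ : GL (Fin 2) K)
    (htr : vK (γ : Matrix (Fin 2) (Fin 2) K).trace ≤ 1)
    (hdet : vK (γ : Matrix (Fin 2) (Fin 2) K).det ≤ 1) :
    ∃ (a b : vL.valuationSubring) (ha : h.sigmaInt a = a) (hb : h.sigmaInt b = b)
      (ev : QuadraticAlgebra vL.valuationSubring a b →+* Matrix (Fin 2) (Fin 2) L),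
      (a : L) = algebraMap K L (-(γ : Matrix (Fin 2) (Fin 2) K).det) ∧
      (b : L) = algebraMap K L (γ : Matrix (Fin 2) (Fin 2) K).trace ∧
      (∀ z, ev z = (z.re : L) • (1 : Matrix (Fin 2) (Fin 2) L) +
        (z.im : L) • (embGL K L γ : Matrix (Fin 2) (Fin 2) L)) ∧
      (∀ z, (ev z).det = (z.norm : vL.valuationSubring)) ∧
      ∀ z, (ev z).map σ = ev (qaMap h.sigmaInt.toRingHom ha hb z) := by
  set G := (embGL K L γ : Matrix (Fin 2) (Fin 2) L) with hG
  have hGd : G.det = algebraMap K L (γ : Matrix (Fin 2) (Fin 2) K).det := by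
    rw [hG, coe_embGL]; exact (RingHom.map_det _ _).symm
  have hGt : G.trace = algebraMap K L (γ : Matrix (Fin 2) (Fin 2) K).trace := by
    simp [hG, Matrix.trace_fin_two]
  set a : vL.valuationSubring := ⟨algebraMap K L (-(γ : Matrix (Fin 2) (Fin 2) K).det), by
    rw [Valuation.mem_valuationSubring_iff, h.v_algebraMap, Valuation.map_neg]; exact hdet⟩
  set b : vL.valuationSubring := ⟨algebraMap K L (γ : Matrix (Fin 2) (Fin 2) K).trace, by
    rw [Valuation.mem_valuationSubring_iff, h.v_algebraMap]; exact htr⟩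
  have hsq : G * G = vL.valuationSubring.subtype b • G +
      vL.valuationSubring.subtype a • (1 : Matrix (Fin 2) (Fin 2) L) := by
    rw [sq_eq_trace_det G, hGd, hGt, ← map_neg]
    rfl
  refine ⟨a, b, Subtype.ext (σ.commutes _), Subtype.ext (σ.commutes _),
    quadEval vL.valuationSubring.subtype G hsq, rfl, rfl, fun z => rfl, fun z =>
      det_quadEval _ G hsq hGt.symm (by rw [hGd, ← map_neg]; rfl) z, fun z => ?_⟩
  ext i j
  simp [quadEval, hG, IsInertCubic.coe_sigmaInt, Matrix.one_apply, apply_ite σ]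

/-- A solution of the norm equation in the order generated by a matrix of unit determinant. -/
theorem IsInertCubic.exists_norm_root (γ : GL (Fin 2) K)
    (htr : vK (γ : Matrix (Fin 2) (Fin 2) K).trace ≤ 1)
    (hdet : vK (γ : Matrix (Fin 2) (Fin 2) K).det = 1) :
    ∃ (δ : GL (Fin 2) L) (x y : L), vL x ≤ 1 ∧ vL y ≤ 1 ∧
      vL (δ : Matrix (Fin 2) (Fin 2) L).det = 1 ∧
      (δ : Matrix (Fin 2) (Fin 2) L) = x • (1 : Matrix (Fin 2) (Fin 2) L) +
        y • (embGL K L γ : Matrix (Fin 2) (Fin 2) L) ∧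
      δ * sigmaGL σ δ * sigmaGL σ (sigmaGL σ δ) = embGL K L γ := by
  obtain ⟨a, b, ha, hb, ev, hva, hvb, hev, hdev, hσ⟩ := h.exists_eval γ htr hdet.le
  have hau : IsUnit a := isUnit_iff_v_eq_one.mpr (by
    rw [hva, h.v_algebraMap, Valuation.map_neg, hdet])
  obtain ⟨z, hz, hN⟩ := h.exists_order_nm3_eq ha hb (u := ⟨0, 1⟩)
    (QuadraticAlgebra.isUnit_iff_norm_isUnit.mpr (by
      simp [QuadraticAlgebra.norm_def]; exact hau))
    (QuadraticAlgebra.ext (by simp) (by simp))
  have hvd : vL (ev z).det = 1 := by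
    rw [hdev]; exact isUnit_iff_v_eq_one.mp (QuadraticAlgebra.isUnit_iff_norm_isUnit.mp hz)
  refine ⟨Matrix.GeneralLinearGroup.mkOfDetNeZero (ev z) fun h0 => ?_, z.re, z.im, z.re.2, z.im.2,
    hvd, hev z, ?_⟩
  · rw [h0, map_zero] at hvd; exact zero_ne_one hvd
  · refine Units.ext ?_
    show ev z * (ev z).map σ * ((ev z).map σ).map σ = _
    rw [hσ, hσ, ← map_mul, ← map_mul, ← nm3, hN, hev]
    simp

/-- A solution of the norm equation up to scalars for determinant of valuation one. -/
theorem IsInertCubic.exists_norm_root_odd (γ : GL (Fin 2) K)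
    (htr : vK (γ : Matrix (Fin 2) (Fin 2) K).trace ≤ WithZero.exp (-1 : ℤ))
    (hdet : vK (γ : Matrix (Fin 2) (Fin 2) K).det = WithZero.exp (-1 : ℤ)) :
    ∃ (w : GL (Fin 2) L) (x y : L) (s : Lˣ), vL x ≤ 1 ∧ vL y ≤ 1 ∧
      vL (w : Matrix (Fin 2) (Fin 2) L).det = 1 ∧
      (w : Matrix (Fin 2) (Fin 2) L) = x • (1 : Matrix (Fin 2) (Fin 2) L) +
        y • (embGL K L γ : Matrix (Fin 2) (Fin 2) L) ∧
      (embGL K L γ * w) * sigmaGL σ (embGL K L γ * w) *
          sigmaGL σ (sigmaGL σ (embGL K L γ * w)) =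
        Matrix.GeneralLinearGroup.scalar (Fin 2) s * embGL K L γ := by
  have hexp : (WithZero.exp (-1 : ℤ) : ℤᵐ⁰) ≤ 1 := by
    rw [← WithZero.exp_zero, WithZero.exp_le_exp]; omega
  obtain ⟨a, b, ha, hb, ev, hva, hvb, hev, hdev, hσ⟩ :=
    h.exists_eval γ (htr.trans hexp) (hdet.le.trans hexp)
  have hva0 : vL (a : L) = WithZero.exp (-1 : ℤ) := by
    rw [hva, h.v_algebraMap, Valuation.map_neg, hdet]
  have ha0 : (a : L) ≠ 0 := fun h0 => by
    rw [h0, map_zero] at hva0; exact WithZero.exp_ne_zero hva0.symm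
  obtain ⟨c, hc⟩ : a ∣ b := (dvd_iff_v_le ha0).mpr (by
    rw [hva0, hvb, h.v_algebraMap]; exact htr)
  have hcσ : h.sigmaInt c = c := by
    have e := congrArg h.sigmaInt hc
    rw [map_mul, ha, hb] at e
    exact mul_left_cancel₀ (fun e0 : a = 0 => ha0 (by rw [e0, ZeroMemClass.coe_zero]))
      (e.symm.trans hc)
  set W : QuadraticAlgebra vL.valuationSubring a b := ⟨1, c⟩
  have hW : W.norm = 1 := by
    simp only [QuadraticAlgebra.norm_def, W, hc]; ring
  have hWfix : qaMap h.sigmaInt.toRingHom ha hb W = W :=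
    QuadraticAlgebra.ext (by simp [W]) (by simp [W, hcσ])
  have hWu : IsUnit W := QuadraticAlgebra.isUnit_iff_norm_isUnit.mpr (hW ▸ isUnit_one)
  obtain ⟨Wi, hWi⟩ := isUnit_iff_exists_inv.mp hWu
  obtain ⟨z, hz, hN⟩ := h.exists_order_nm3_eq ha hb (u := Wi)
    (IsUnit.of_mul_eq_one_right W hWi)
    (hWu.mul_left_cancel (by
      conv_lhs => rw [← hWfix]
      rw [← map_mul, hWi, map_one]))
  set ω : QuadraticAlgebra vL.valuationSubring a b := ⟨0, 1⟩
  have hω : ev ω = (embGL K L γ : Matrix (Fin 2) (Fin 2) L) := by simp [hev, ω]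
  have hω3 : nm3 (qaMap h.sigmaInt.toRingHom ha hb) ω = algebraMap _ _ a * W * ω := by
    ext <;> simp [nm3, ω, W, QuadraticAlgebra.algebraMap_eq, hc]
  have hvd : vL (ev z).det = 1 := by
    rw [hdev]; exact isUnit_iff_v_eq_one.mp (QuadraticAlgebra.isUnit_iff_norm_isUnit.mp hz)
  refine ⟨Matrix.GeneralLinearGroup.mkOfDetNeZero (ev z) fun h0 => ?_, z.re, z.im, Units.mk0 _ ha0,
    z.re.2, z.im.2, hvd, hev z, ?_⟩
  · rw [h0, map_zero] at hvd; exact zero_ne_one hvd
  · refine Units.ext ?_
    show _ * ev z * (_ * ev z).map σ * ((_ * ev z).map σ).map σ = _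
    rw [← hω, ← map_mul ev, hσ, hσ, ← map_mul, ← map_mul, ← nm3, nm3_mul, hN, hω3,
      Units.val_mul, coe_scalar_eq_smul, Units.val_mk0, ← hω]
    rw [show algebraMap _ _ a * W * ω * Wi = algebraMap _ _ a * ω * (W * Wi) by ring, hWi,
      mul_one, map_mul]
    congr 1
    simp [hev, QuadraticAlgebra.algebraMap_eq]

end Inert

end Fermat.Agent.ResidualThree.Tree
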