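import Mathlib
import Fermat.Agent.ResidualThree.Tree.Norms

/-!
# Twisted fixed vertices; Hilbert 90 for integral matrices

Integral matrices of norm one for `σ` are `σ`-coboundaries (`exists_intGL_h90`), so the fixed
vertices of a twisted element are the translates of fixed vertices downstairs
(`twist_fixed_iff`).
-/

noncomputable section

open Matrix
open scoped WithZero

namespace Fermat.Agent.ResidualThree.Tree

/-- The determinant of a `2 × 2` matrix as a quadratic form. -/
def detQF (R : Type*) [CommRing R] : QuadraticForm R (Matrix (Fin 2) (Fin 2) R) :=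
  QuadraticMap.linMulLin (Matrix.entryLinearMap R R (0 : Fin 2) (0 : Fin 2))
      (Matrix.entryLinearMap R R (1 : Fin 2) (1 : Fin 2)) -
    QuadraticMap.linMulLin (Matrix.entryLinearMap R R (0 : Fin 2) (1 : Fin 2))
      (Matrix.entryLinearMap R R (1 : Fin 2) (0 : Fin 2))

theorem detQF_apply {R : Type*} [CommRing R] (A : Matrix (Fin 2) (Fin 2) R) :
    detQF R A = A.det := by
  simp [detQF, Matrix.det_fin_two]

variable {K L : Type*} [Field K] [Field L] [Algebra K L] {vK : Valuation K ℤᵐ⁰}
  {vL : Valuation L ℤᵐ⁰} {σ : L ≃ₐ[K] L} {q : ℕ} (h : IsInertCubic vK vL σ q)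

include h

theorem IsInertCubic.sigmaGL_mem_intGL {g : GL (Fin 2) L} :
    sigmaGL σ g ∈ intGL vL ↔ g ∈ intGL vL := glMap_mem_intGL (σ : L →+* L) h.v_sigma

/-- Hilbert 90 for integral matrices. -/
theorem IsInertCubic.exists_intGL_h90 {c : GL (Fin 2) L} (hc : c ∈ intGL vL)
    (hN : c * sigmaGL σ c * sigmaGL σ (sigmaGL σ c) = 1) :
    ∃ z ∈ intGL vL, c * sigmaGL σ z = z := by
  let C : Matrix (Fin 2) (Fin 2) vL.valuationSubring := Matrix.of fun i j => ⟨_, hc.1 i j⟩
  let S : Matrix (Fin 2) (Fin 2) vL.valuationSubring →+*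
      Matrix (Fin 2) (Fin 2) vL.valuationSubring := h.sigmaInt.toRingHom.mapMatrix
  let res : Matrix (Fin 2) (Fin 2) vL.valuationSubring →+*
      Matrix (Fin 2) (Fin 2) (IsLocalRing.ResidueField vL.valuationSubring) :=
    (IsLocalRing.residue _).mapMatrix
  let toL : Matrix (Fin 2) (Fin 2) vL.valuationSubring →+* Matrix (Fin 2) (Fin 2) L :=
    (vL.valuationSubring.subtype).mapMatrix
  have hS3 : ∀ M, S (S (S M)) = M := fun M => Matrix.ext fun i j =>
    Subtype.ext (h.sigma_cube (M i j))
  have htoL : Function.Injective toL := fun M M' e => Matrix.ext fun i j =>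
    Subtype.ext (congrArg (fun A : Matrix (Fin 2) (Fin 2) L => A i j) e)
  have hCL : toL C = (c : Matrix (Fin 2) (Fin 2) L) := rfl
  have hSL : ∀ M, toL (S M) = (toL M).map σ := fun M => rfl
  have hCN : C * S C * S (S C) = 1 := htoL (by
    rw [map_mul, map_mul, map_one, hSL, hSL, hCL]
    exact congrArg Units.val hN)
  have hres : ∀ M, res (S M) = (res M).map h.sigmaRes := fun M => Matrix.ext fun i j =>
    (h.sigmaRes_residue _).symm
  let T : Matrix (Fin 2) (Fin 2) (IsLocalRing.ResidueField vL.valuationSubring) →+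
      Matrix (Fin 2) (Fin 2) (IsLocalRing.ResidueField vL.valuationSubring) :=
    { toFun := fun M => res C * M.map h.sigmaRes
      map_zero' := by simp
      map_add' := fun M M' => by rw [Matrix.map_add _ (map_add _), Matrix.mul_add] }
  have hTres : ∀ M, T (res M) = res (C * S M) := fun M => by
    rw [map_mul, hres]; rfl
  have hsurj : Function.Surjective res := fun M => by
    choose f hf using fun i j => IsLocalRing.residue_surjective (M i j)
    exact ⟨Matrix.of f, Matrix.ext hf⟩
  obtain ⟨xb, hx, hx0⟩ := exists_fixed_quadratic_ne_zero h.sigmaRes h.sigmaRes_cube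
    h.exists_sigmaRes_ne T
    (fun r M => by
      show res C * (r • M).map h.sigmaRes = h.sigmaRes r • (res C * M.map h.sigmaRes)
      rw [← Matrix.mul_smul]
      congr 1
      ext i j
      simp)
    (fun M => by
      obtain ⟨M, rfl⟩ := hsurj M
      rw [hTres, hTres, hTres]
      congr 1
      rw [map_mul, map_mul, map_mul, hS3, ← Matrix.mul_assoc, ← Matrix.mul_assoc, hCN,
        Matrix.one_mul])
    (detQF _) (v₀ := 1) (by simp [detQF_apply])
  rw [detQF_apply] at hx0
  obtain ⟨e, he, he1⟩ := h.exists_trace_one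
  obtain ⟨M, rfl⟩ := hsurj xb
  rw [hTres] at hx
  set eO : vL.valuationSubring := ⟨e, he⟩
  have heS : eO + h.sigmaInt eO + h.sigmaInt (h.sigmaInt eO) = 1 := Subtype.ext he1
  have hsmul : ∀ (r : vL.valuationSubring) (N : Matrix (Fin 2) (Fin 2) vL.valuationSubring),
      C * S (r • N) = h.sigmaInt r • (C * S N) := fun r N => by
    rw [← Matrix.mul_smul]
    congr 1
    ext i j
    simp [S]
  have hres_smul : ∀ (r : vL.valuationSubring) (N : Matrix (Fin 2) (Fin 2) vL.valuationSubring),
      res (r • N) = IsLocalRing.residue _ r • res N := fun r N => by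
    ext i j
    simp [res]
  set Z := eO • M + h.sigmaInt eO • (C * S M) +
    h.sigmaInt (h.sigmaInt eO) • (C * S (C * S M)) with hZdef
  have hZ : C * S Z = Z := by
    rw [hZdef, map_add, map_add, Matrix.mul_add, Matrix.mul_add, hsmul, hsmul, hsmul,
      map_mul S C (S (C * S M)), map_mul S C (S M), map_mul S (S C) (S (S M)), hS3]
    have hcube : h.sigmaInt (h.sigmaInt (h.sigmaInt eO)) = eO := Subtype.ext (h.sigma_cube e)
    simp only [hcube, ← Matrix.mul_assoc, hCN,
      Matrix.one_mul]
    abel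
  have hZres : res Z = res M := by
    have hx2 : res (C * S (C * S M)) = res M := by rw [← hTres, hx, hTres, hx]
    rw [hZdef, map_add, map_add, hres_smul, hres_smul, hres_smul, hx2, hx, ← add_smul, ← add_smul,
      ← map_add, ← map_add, heS, map_one, one_smul]
  have hdet : IsUnit Z.det := by
    refine (IsLocalRing.residue_ne_zero_iff_isUnit _).mp ?_
    rw [RingHom.map_det]
    show (res Z).det ≠ 0
    rw [hZres]
    exact hx0
  have hvdet : vL (toL Z).det = 1 := by
    show vL ((vL.valuationSubring.subtype).mapMatrix Z).det = 1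
    rw [← RingHom.map_det]
    exact isUnit_iff_v_eq_one.mp hdet
  refine ⟨Matrix.GeneralLinearGroup.mkOfDetNeZero (toL Z)
    (fun h0 => by rw [h0, map_zero] at hvdet; exact zero_ne_one hvdet),
    ⟨fun i j => (Z i j).2, hvdet⟩, Units.ext ?_⟩
  show (c : Matrix (Fin 2) (Fin 2) L) * (toL Z).map σ = toL Z
  rw [← hCL, ← hSL, ← map_mul, hZ]

omit [Field K] [Algebra K L] h in
/-- A vertex moved trivially by an element of unit determinant. -/
theorem conj_mem_intGL_of_fix {g a b : GL (Fin 2) L}
    (hdet : vL (a : Matrix (Fin 2) (Fin 2) L).det = 1)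
    (hb : vL (b : Matrix (Fin 2) (Fin 2) L).det = vL (g : Matrix (Fin 2) (Fin 2) L).det)
    (hfix : (QuotientGroup.mk (a * b) : Vert vL) = QuotientGroup.mk g) :
    g⁻¹ * (a * b) ∈ intGL vL := by
  obtain ⟨s, k, hk, e⟩ := mul_mem_vertexSubgroup_iff.mp (QuotientGroup.eq.mp hfix.symm)
  have hg0 := v_det_ne_zero (v := vL) g
  have hs : vL (s : L) = 1 := by
    have e' := congrArg (fun x : GL (Fin 2) L => vL (x : Matrix (Fin 2) (Fin 2) L).det) e
    simp only [Units.val_mul, Matrix.det_mul, map_mul, coe_inv_eq, Matrix.det_smul,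
      Matrix.det_adjugate, coe_scalar_eq_smul, Matrix.det_one, hk.2, hdet, hb, mul_one,
      Fintype.card_fin, map_pow, map_inv₀, one_mul, Nat.add_one_sub_one, pow_one] at e'
    rw [show (vL (g : Matrix (Fin 2) (Fin 2) L).det)⁻¹ ^ 2 * vL (g : Matrix (Fin 2) (Fin 2) L).det *
      vL (g : Matrix (Fin 2) (Fin 2) L).det = 1 by field_simp] at e'
    exact (pow_eq_one_iff.mp e'.symm).resolve_right two_ne_zero
  rw [e]
  refine ⟨fun i j => ?_, ?_⟩
  · rw [Units.val_mul, coe_scalar_eq_smul, Matrix.smul_mul, Matrix.one_mul, Matrix.smul_apply,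
      smul_eq_mul, map_mul, hs, one_mul]
    exact hk.1 i j
  · rw [Units.val_mul, coe_scalar_eq_smul, Matrix.smul_mul, Matrix.one_mul, Matrix.det_smul,
      map_mul, map_pow, hs, one_pow, one_mul]
    exact hk.2

/-- The fixed vertices of `δσ` are the fixed vertices of its norm. -/
theorem IsInertCubic.twist_fixed_iff {γ : GL (Fin 2) K} {δ : GL (Fin 2) L} {x y : L}
    (hx : vL x ≤ 1) (hy : vL y ≤ 1) (hδd : vL (δ : Matrix (Fin 2) (Fin 2) L).det = 1)
    (hγd : vK (γ : Matrix (Fin 2) (Fin 2) K).det = 1)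
    (hδ : (δ : Matrix (Fin 2) (Fin 2) L) = x • (1 : Matrix (Fin 2) (Fin 2) L) +
        y • (embGL K L γ : Matrix (Fin 2) (Fin 2) L))
    (hN : δ * sigmaGL σ δ * sigmaGL σ (sigmaGL σ δ) = embGL K L γ) (X : Vert vL) :
    h.twist δ X = X ↔ ∃ y : Vert vK, γ • y = y ∧ h.embVert y = X := by
  have hγd' : vL (embGL K L γ : Matrix (Fin 2) (Fin 2) L).det = 1 := by
    rw [show (embGL K L γ : Matrix (Fin 2) (Fin 2) L).det =
      algebraMap K L (γ : Matrix (Fin 2) (Fin 2) K).det from (RingHom.map_det _ _).symm,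
      h.v_algebraMap, hγd]
  have hinner : ∀ g : GL (Fin 2) L, g⁻¹ * embGL K L γ * g ∈ intGL vL → g⁻¹ * δ * g ∈ intGL vL := by
    intro g hg
    have e : ((g⁻¹ * δ * g : GL (Fin 2) L) : Matrix (Fin 2) (Fin 2) L) =
        x • (1 : Matrix (Fin 2) (Fin 2) L) +
          y • ((g⁻¹ * embGL K L γ * g : GL (Fin 2) L) : Matrix (Fin 2) (Fin 2) L) := by
      rw [Units.val_mul, Units.val_mul, hδ, Matrix.mul_add, Matrix.add_mul, Matrix.mul_smul,
        Matrix.mul_smul, Matrix.smul_mul, Matrix.smul_mul, Matrix.mul_one, ← Units.val_mul,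
        inv_mul_cancel, Units.val_one, Units.val_mul, Units.val_mul]
    refine ⟨fun i j => ?_, ?_⟩
    · rw [e, Matrix.add_apply, Matrix.smul_apply, Matrix.smul_apply, smul_eq_mul, smul_eq_mul]
      refine vL.map_add_le ?_ ?_ <;> rw [map_mul]
      · exact mul_le_one' hx (by fin_cases i <;> fin_cases j <;> simp)
      · exact mul_le_one' hy (hg.1 i j)
    · rw [Units.val_mul, Units.val_mul, Matrix.det_units_conj', hδd]
  constructor
  · intro hX
    induction X using QuotientGroup.induction_on with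
    | H g =>
      rw [h.twist_mk] at hX
      have hb : vL (sigmaGL σ g : Matrix (Fin 2) (Fin 2) L).det =
          vL (g : Matrix (Fin 2) (Fin 2) L).det := by
        rw [show (sigmaGL σ g : Matrix (Fin 2) (Fin 2) L).det =
          σ (g : Matrix (Fin 2) (Fin 2) L).det from (RingHom.map_det (σ : L →+* L) _).symm,
          h.v_sigma]
      set c := g⁻¹ * (δ * sigmaGL σ g) with hcdef
      have hc : c ∈ intGL vL := conj_mem_intGL_of_fix hδd hb hX
      have hNc : c * sigmaGL σ c * sigmaGL σ (sigmaGL σ c) = g⁻¹ * embGL K L γ * g := by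
        rw [← hN, hcdef]
        simp only [map_mul, map_inv, h.sigmaGL_cube, mul_assoc, mul_inv_cancel_left]
      have hγg : g⁻¹ * embGL K L γ * g ∈ intGL vL := hNc ▸ mul_mem (mul_mem hc
        (h.sigmaGL_mem_intGL.mpr hc)) (h.sigmaGL_mem_intGL.mpr (h.sigmaGL_mem_intGL.mpr hc))
      set k := g⁻¹ * sigmaGL σ g with hkdef
      have hk : k ∈ intGL vL := by
        rw [show k = (g⁻¹ * δ * g)⁻¹ * c by rw [hkdef, hcdef]; group]
        exact mul_mem (inv_mem (hinner g hγg)) hc
      obtain ⟨z, hz, hkz⟩ := h.exists_intGL_h90 hk (by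
        rw [hkdef]
        simp only [map_mul, map_inv, h.sigmaGL_cube, mul_assoc, mul_inv_cancel_left]
        exact inv_mul_cancel g)
      obtain ⟨g₀, hg₀⟩ := h.exists_embGL (g := g * z) (by
        rw [map_mul, show sigmaGL σ g = g * k by rw [hkdef, mul_inv_cancel_left], mul_assoc, hkz])
      have hXe : h.embVert (QuotientGroup.mk g₀) = QuotientGroup.mk g := by
        show QuotientGroup.mk (embGL K L g₀) = _
        rw [hg₀]
        exact QuotientGroup.mk_mul_of_mem _ (intGL_le_vertexSubgroup hz)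
      refine ⟨QuotientGroup.mk g₀, mapVert_injective _ h.v_algebraMap ?_, hXe⟩
      show h.embVert (γ • _) = h.embVert _
      rw [h.embVert_smul, hXe, MulAction.Quotient.smul_mk, smul_eq_mul,
        show embGL K L γ * g = g * (g⁻¹ * embGL K L γ * g) by group]
      exact QuotientGroup.mk_mul_of_mem _ (intGL_le_vertexSubgroup hγg)
  · rintro ⟨Y, hY, rfl⟩
    induction Y using QuotientGroup.induction_on with
    | H g₀ =>
      have e1 : h.embVert (γ • QuotientGroup.mk g₀) = h.embVert (QuotientGroup.mk g₀) :=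
        congrArg _ hY
      rw [h.embVert_smul] at e1
      have e2 := conj_mem_intGL_of_fix (g := embGL K L g₀) hγd' rfl e1
      rw [h.twist_apply, h.sigmaVert_embVert]
      show QuotientGroup.mk (δ * embGL K L g₀) = QuotientGroup.mk (embGL K L g₀)
      rw [show δ * embGL K L g₀ = embGL K L g₀ * ((embGL K L g₀)⁻¹ * δ * embGL K L g₀) by group]
      exact QuotientGroup.mk_mul_of_mem _ (intGL_le_vertexSubgroup
        (hinner _ (by rwa [mul_assoc])))

end Fermat.Agent.ResidualThree.Tree
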