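import Mathlib
import Fermat.Agent.ResidualThree.Orbital.Classes
import Fermat.Agent.ResidualThree.Tree.Outward
import Fermat.Agent.ResidualThree.Tree.Twisted

/-!
# Local matching of orbital sums and twisted orbital sums

The predicate `HasLocalMatch`, its invariance under conjugation, the comparison of twisted
classes with equal norms, and the criterion `hasLocalMatch_of_minSets`: matching follows once
minimal sets and their displacements correspond.
-/

noncomputable section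

open Matrix
open scoped WithZero

namespace Fermat.Agent.ResidualThree.Tree

variable {K L : Type*} [Field K] [Field L] [Algebra K L] {vK : Valuation K ℤᵐ⁰}
  {vL : Valuation L ℤᵐ⁰} {σ : L ≃ₐ[K] L} {q : ℕ}

theorem infinite_of_local {F : Type*} [Field F] {v : Valuation F ℤᵐ⁰} (h : IsLocalVal v q) :
    Infinite F := by
  obtain ⟨p, hp⟩ := h.exists_unif
  refine Infinite.of_injective (fun n : ℕ => p ^ n) fun m n hmn => ?_
  have := congrArg v hmn
  simpa [hp, ← WithZero.exp_nsmul] using this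

/-- The residue field is not empty. -/
theorem IsLocalVal.card_ne_zero {F : Type*} [Field F] {v : Valuation F ℤᵐ⁰} (h : IsLocalVal v q) :
    q ≠ 0 := by
  have := h.finite_residue
  rw [← h.card_residue]
  exact Nat.card_pos.ne'

variable (h : IsInertCubic vK vL σ q)

/-- The norm `δ σ(δ) σ²(δ)` of a matrix. -/
def normGL (σ : L ≃ₐ[K] L) (δ : GL (Fin 2) L) : GL (Fin 2) L :=
  δ * sigmaGL σ δ * sigmaGL σ (sigmaGL σ δ)

include h in
theorem IsInertCubic.normGL_conj (t δ : GL (Fin 2) L) :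
    normGL σ (t⁻¹ * δ * sigmaGL σ t) = t⁻¹ * normGL σ δ * t := by
  simp only [normGL, map_mul, map_inv, h.sigmaGL_cube, mul_assoc, mul_inv_cancel_left]

/-- The matrix of `g` is not scalar. -/
def NonCentral {F : Type*} [Field F] (g : GL (Fin 2) F) : Prop :=
  Orbital.CubicAut.NonScalar (g : Matrix (Fin 2) (Fin 2) F)

/-- Along projections `pK`, `pL` commuting with the centraliser of `γ`, the orbital sums of
`sphericalBC q f` at `γ` match fibrewise the twisted orbital sums of `f` at the elements of norm `γ`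
up to scalars, and vanish if there is none. -/
def HasLocalMatch (γ : GL (Fin 2) K) : Prop :=
  ∃ pK : Vert vK → Vert vK,
    (∀ g : GL (Fin 2) K, g * γ = γ * g → ∀ y, pK (g • y) = g • pK y) ∧
    (∀ y, 2 * vdist (pK y) y ≤ vdist y (γ • y)) ∧
    (∀ (f : ℕ →₀ ℂ) m, {y | pK y = m ∧ f (vdist y (γ • y)) ≠ 0}.Finite) ∧
    (∀ (δ : GL (Fin 2) L) (c : Lˣ),
      normGL σ δ = Matrix.GeneralLinearGroup.scalar (Fin 2) c * embGL K L γ →
      ∃ pL : Vert vL → Vert vK,
        (∀ g : GL (Fin 2) K, g * γ = γ * g → ∀ x, pL (embGL K L g • x) = g • pL x) ∧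
        (∀ (f : ℕ →₀ ℂ) m, {x | pL x = m ∧ f (vdist x (h.twist δ x)) ≠ 0}.Finite) ∧
        ∀ (f : ℕ →₀ ℂ) m, ∑ᶠ x ∈ {x | pL x = m}, f (vdist x (h.twist δ x)) =
          ∑ᶠ y ∈ {y | pK y = m}, sphericalBC q f (vdist y (γ • y))) ∧
    ((∀ (δ : GL (Fin 2) L) (c : Lˣ),
      normGL σ δ ≠ Matrix.GeneralLinearGroup.scalar (Fin 2) c * embGL K L γ) →
      ∀ (f : ℕ →₀ ℂ) m, ∑ᶠ y ∈ {y | pK y = m}, sphericalBC q f (vdist y (γ • y)) = 0)

/-- The twisted isometry of a conjugate by an element of the ground field. -/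
theorem IsInertCubic.twist_embGL_conj (δ : GL (Fin 2) L) (g : GL (Fin 2) K) (x : Vert vL) :
    h.twist ((embGL K L g)⁻¹ * δ * embGL K L g) x =
      (embGL K L g)⁻¹ • h.twist δ (embGL K L g • x) := by
  rw [h.twist_apply, h.twist_apply, h.sigmaVert_smul, sigmaGL_embGL, mul_smul, mul_smul]

theorem finsum_mem_smul {G X M : Type*} [Group G] [MulAction G X] [AddCommMonoid M] (g : G)
    (s t : Set X) (F F' : X → M) (hst : ∀ x, x ∈ s ↔ g • x ∈ t) (hF : ∀ x, F x = F' (g • x)) :
    ∑ᶠ x ∈ s, F x = ∑ᶠ x ∈ t, F' x := by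
  refine finsum_mem_eq_of_bijOn (fun x => g • x)
    ⟨fun x hx => (hst x).mp hx, fun _ _ _ _ e => MulAction.injective g e, fun x hx => ?_⟩
    fun x _ => hF x
  exact ⟨g⁻¹ • x, (hst _).mpr (by rwa [smul_inv_smul]), smul_inv_smul g x⟩

/-- Matching is invariant under conjugation and scaling. -/
theorem HasLocalMatch.conj {γ₁ γ : GL (Fin 2) K} (H : HasLocalMatch h γ₁) (g : GL (Fin 2) K)
    (s : Kˣ) (e : γ = Matrix.GeneralLinearGroup.scalar (Fin 2) s * (g * γ₁ * g⁻¹)) :
    HasLocalMatch h γ := by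
  obtain ⟨pK, hK, hKd, hKf, hN, hNn⟩ := H
  have hdisp : ∀ y : Vert vK, vdist y (γ • y) = vdist (g⁻¹ • y) (γ₁ • g⁻¹ • y) := fun y => by
    rw [e, mul_smul, scalar_smul_vert, mul_smul, mul_smul]
    conv_rhs => rw [← vdist_smul g, smul_inv_smul]
  have hcomm : ∀ a : GL (Fin 2) K, a * γ = γ * a → g⁻¹ * a * g * γ₁ = γ₁ * (g⁻¹ * a * g) := by
    intro a ha
    rw [e, mul_scalar_mul, mul_assoc (Matrix.GeneralLinearGroup.scalar (Fin 2) s)] at ha
    have ha' := mul_left_cancel ha
    calc g⁻¹ * a * g * γ₁ = g⁻¹ * (a * (g * γ₁ * g⁻¹)) * g := by group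
      _ = g⁻¹ * (g * γ₁ * g⁻¹ * a) * g := by rw [ha']
      _ = γ₁ * (g⁻¹ * a * g) := by group
  set G := embGL K L g with hG
  have he : embGL K L γ =
      Matrix.GeneralLinearGroup.scalar (Fin 2) (Units.map (algebraMap K L).toMonoidHom s) *
        (G * embGL K L γ₁ * G⁻¹) := by
    rw [e, map_mul, map_mul, map_mul, map_inv, hG]
    exact congrArg (· * _) (glMap_scalar _ s)
  refine ⟨fun y => g • pK (g⁻¹ • y), fun a ha y => ?_, fun y => ?_, fun f m => ?_,
    fun δ c hδ => ?_, fun hno f m => ?_⟩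
  · dsimp only
    rw [smul_smul g⁻¹ a, show g⁻¹ * a = g⁻¹ * a * g * g⁻¹ by group, mul_smul,
      hK _ (hcomm a ha), smul_smul, show g * (g⁻¹ * a * g) = a * g by group, mul_smul]
  · dsimp only
    rw [hdisp]
    refine le_trans (le_of_eq ?_) (hKd (g⁻¹ • y))
    conv_lhs => rw [← smul_inv_smul g y, inv_smul_smul, vdist_smul]
  · refine ((hKf f (g⁻¹ • m)).image (g • ·)).subset fun y hy => ?_
    refine ⟨g⁻¹ • y, ⟨?_, ?_⟩, smul_inv_smul g y⟩
    · exact eq_inv_smul_iff.mpr hy.1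
    · rw [← hdisp]; exact hy.2
  · have hδ₁ : normGL σ (G⁻¹ * δ * G) = Matrix.GeneralLinearGroup.scalar (Fin 2)
        (c * Units.map (algebraMap K L).toMonoidHom s) * embGL K L γ₁ := by
      conv_lhs => rw [show G⁻¹ * δ * G = G⁻¹ * δ * sigmaGL σ G by rw [hG, sigmaGL_embGL],
        h.normGL_conj, hδ, he, mul_scalar_mul, mul_scalar_mul]
      rw [map_mul]
      group
    obtain ⟨pL, hL, hLf, hLs⟩ := hN _ _ hδ₁
    have hdispL : ∀ x : Vert vL, vdist x (h.twist δ x) =
        vdist (G⁻¹ • x) (h.twist (G⁻¹ * δ * G) (G⁻¹ • x)) := fun x => by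
      rw [hG, h.twist_embGL_conj, smul_inv_smul, vdist_smul]
    refine ⟨fun x => g • pL (G⁻¹ • x), fun a ha x => ?_, fun f m => ?_, fun f m => ?_⟩
    · dsimp only
      rw [hG, ← map_inv, smul_smul (embGL K L g⁻¹), ← map_mul,
        show g⁻¹ * a = g⁻¹ * a * g * g⁻¹ by group, map_mul, mul_smul,
        hL _ (hcomm a ha), smul_smul, show g * (g⁻¹ * a * g) = a * g by group, mul_smul]
    · refine ((hLf f (g⁻¹ • m)).image (G • ·)).subset fun x hx => ?_
      refine ⟨G⁻¹ • x, ⟨eq_inv_smul_iff.mpr hx.1, ?_⟩, smul_inv_smul G x⟩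
      rw [← hdispL]; exact hx.2
    · calc ∑ᶠ x ∈ {x | g • pL (G⁻¹ • x) = m}, f (vdist x (h.twist δ x))
          = ∑ᶠ x ∈ {x | pL x = g⁻¹ • m}, f (vdist x (h.twist (G⁻¹ * δ * G) x)) :=
            finsum_mem_smul G⁻¹ _ _ _ _ (fun x => eq_inv_smul_iff.symm) fun x => by rw [hdispL]
        _ = ∑ᶠ y ∈ {y | pK y = g⁻¹ • m}, sphericalBC q f (vdist y (γ₁ • y)) := hLs f _
        _ = _ := (finsum_mem_smul g⁻¹ _ _ _ _ (fun y => eq_inv_smul_iff.symm)
            fun y => by rw [hdisp]).symm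
  · have hno₁ : ∀ (δ : GL (Fin 2) L) (c : Lˣ),
        normGL σ δ ≠ Matrix.GeneralLinearGroup.scalar (Fin 2) c * embGL K L γ₁ := by
      intro δ c hδ
      refine hno (G * δ * G⁻¹) (c * (Units.map (algebraMap K L).toMonoidHom s)⁻¹) ?_
      conv_lhs => rw [show G * δ * G⁻¹ = G⁻¹⁻¹ * δ * sigmaGL σ G⁻¹ by
          rw [map_inv, hG, sigmaGL_embGL, inv_inv],
        h.normGL_conj, hδ, inv_inv, mul_scalar_mul, mul_assoc]
      rw [he, map_mul, map_inv, mul_assoc (Matrix.GeneralLinearGroup.scalar (Fin 2) c),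
        inv_mul_cancel_left]
    refine Eq.trans ?_ (hNn hno₁ f (g⁻¹ • m))
    exact finsum_mem_smul g⁻¹ _ _ _ _ (fun y => eq_inv_smul_iff.symm) fun y => by rw [hdisp]

/-- The automorphism as a `CubicAut`. -/
def IsInertCubic.cubicAut : Orbital.CubicAut K L where
  σ := σ
  pow_three := h.sigma_cube
  fixed := h.fixed
  ne_id := by
    obtain ⟨θ, -, hθ⟩ := h.residual
    exact ⟨θ, fun e => by rw [e, sub_self, map_zero] at hθ; exact zero_ne_one hθ⟩

include h in
theorem IsInertCubic.cubicAut_norm (δ : GL (Fin 2) L) :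
    h.cubicAut.norm (δ : Matrix (Fin 2) (Fin 2) L) = (normGL σ δ : Matrix (Fin 2) (Fin 2) L) := rfl

include h in
/-- Two solutions of the norm equation are twisted conjugate by the centraliser. -/
theorem IsInertCubic.exists_twisted_conj [CharZero L] {γ : GL (Fin 2) K} (hγ : NonCentral γ)
    {δ δ₀ : GL (Fin 2) L} {c c₀ : Lˣ}
    (e : normGL σ δ = Matrix.GeneralLinearGroup.scalar (Fin 2) c * embGL K L γ)
    (e₀ : normGL σ δ₀ = Matrix.GeneralLinearGroup.scalar (Fin 2) c₀ * embGL K L γ) :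
    ∃ (t : GL (Fin 2) L) (s : Lˣ), t * embGL K L γ = embGL K L γ * t ∧
      δ = Matrix.GeneralLinearGroup.scalar (Fin 2) s * (t⁻¹ * δ₀ * sigmaGL σ t) := by
  have := infinite_of_local h.localK
  have conv : ∀ (δ : GL (Fin 2) L) (c : Lˣ),
      normGL σ δ = Matrix.GeneralLinearGroup.scalar (Fin 2) c * embGL K L γ →
      h.cubicAut.norm (δ : Matrix (Fin 2) (Fin 2) L) =
        (c : L) • (γ : Matrix (Fin 2) (Fin 2) K).map (algebraMap K L) := by
    intro δ c e
    rw [h.cubicAut_norm, e, Units.val_mul, coe_scalar_eq_smul, Matrix.smul_mul, Matrix.one_mul,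
      coe_embGL]
  obtain ⟨x, x', μ, hμ, hxx', hxc, hδ⟩ := h.cubicAut.exists_twisted_of_norm δ₀.det_ne_zero
    δ.det_ne_zero hγ (conv _ _ e₀) (conv _ _ e)
  let X : GL (Fin 2) L := ⟨x, x', hxx', mul_eq_one_comm.mp hxx'⟩
  have hXc : X * embGL K L γ = embGL K L γ * X := Units.ext hxc.eq
  refine ⟨X⁻¹, Units.mk0 μ hμ, (eq_inv_mul_iff_mul_eq.mpr (by
    rw [← mul_assoc, hXc, mul_assoc, mul_inv_cancel, mul_one])).symm, Units.ext ?_⟩
  rw [inv_inv, Units.val_mul, coe_scalar_eq_smul, Matrix.smul_mul, Matrix.one_mul, hδ]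
  rfl

include h in
theorem IsInertCubic.norm_comm [CharZero L] {γ : GL (Fin 2) K} {δ : GL (Fin 2) L} {c : Lˣ}
    (e : normGL σ δ = Matrix.GeneralLinearGroup.scalar (Fin 2) c * embGL K L γ) :
    δ * embGL K L γ = embGL K L γ * δ := by
  refine Units.ext (h.cubicAut.commute_of_norm δ.det_ne_zero (c := (c : L))
    (γ := (γ : Matrix (Fin 2) (Fin 2) K)) ?_).1.eq
  rw [h.cubicAut_norm, e, Units.val_mul, coe_scalar_eq_smul, Matrix.smul_mul, Matrix.one_mul,
    coe_embGL]

/-- Matching from compatible minimal sets. -/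
theorem hasLocalMatch_of_minSets [CharZero L] {γ : GL (Fin 2) K} (hγ : NonCentral γ)
    {δ₀ : GL (Fin 2) L} {c₀ : Lˣ}
    (hN : normGL σ δ₀ = Matrix.GeneralLinearGroup.scalar (Fin 2) c₀ * embGL K L γ)
    {M : Set (Vert vK)} {lK lL : ℕ}
    (hmK : IsMinSet (isRegTree h.localK) (MulAction.toPerm γ) M lK)
    (hmL : IsMinSet (isRegTree h.localL) (h.twist δ₀) (h.embVert '' M) lL)
    (hsum : ∀ (f : ℕ →₀ ℂ), ∀ p ∈ M,
      outSum q (sphericalBC q f) lK ((isRegTree h.localK).valence M p) =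
        outSum (q ^ 3) f lL ((isRegTree h.localK).valence M p)) :
    HasLocalMatch h γ := by
  classical
  have hcl : ∀ g : GL (Fin 2) K, g * γ = γ * g → ∀ y : Vert vK,
      hmK.proj (g • y) = g • hmK.proj y := fun g hg y =>
    hmK.proj_comm (MulAction.toPerm g) (fun a b => vdist_smul g a b)
      (fun a => by simp [smul_smul, hg]) y
  have hex : ∀ x : Vert vL, ∃ y ∈ M, h.embVert y = hmL.proj x := fun x => hmL.proj_mem x
  choose pr hprM hpr using hex
  refine ⟨hmK.proj, hcl, fun y => ?_, fun f m => hmK.fibre_finite f m, fun δ c hδ => ?_,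
    fun hno => absurd hN (hno δ₀ c₀)⟩
  · have := hmK.displacement y
    rw [MulAction.toPerm_apply] at this
    omega
  obtain ⟨t, s, htc, hδt⟩ := h.exists_twisted_conj hγ hδ hN
  have hdisp : ∀ x : Vert vL, vdist x (h.twist δ x) = vdist (t • x) (h.twist δ₀ (t • x)) :=
    fun x => by
      rw [hδt, h.twist_conj, ← vdist_smul t, smul_inv_smul]
  refine ⟨fun x => pr (t • x), fun g hg x => ?_, fun f m => ?_, fun f m => ?_⟩
  · have h1 : t • embGL K L g • x = embGL K L g • t • x := by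
      rw [smul_smul, commute_embGL hγ htc hg, ← smul_smul]
    refine mapVert_injective _ h.v_algebraMap ?_
    show h.embVert _ = h.embVert _
    rw [hpr, h1, h.embVert_smul, hpr,
      show hmL.proj (embGL K L g • (t • x)) = embGL K L g • hmL.proj (t • x) from
        hmL.proj_comm (MulAction.toPerm (embGL K L g)) (fun a b => vdist_smul _ a b)
          (fun a => h.twist_embVert_comm (commute_embGL hγ (h.norm_comm hN) hg) a) (t • x)]
  · refine ((hmL.fibre_finite f (h.embVert m)).image (t⁻¹ • ·)).subset fun x hx => ?_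
    refine ⟨t • x, ⟨?_, ?_⟩, inv_smul_smul t x⟩
    · rw [← hpr, show pr (t • x) = m from hx.1]
    · rw [← hdisp]; exact hx.2
  · rw [finsum_mem_smul t {x | pr (t • x) = m} {x | pr x = m} _
      (fun x => f (vdist x (h.twist δ₀ x))) (fun x => Iff.rfl) fun x => by rw [hdisp]]
    by_cases hm : m ∈ M
    · rw [show {x | pr x = m} = {x | hmL.proj x = h.embVert m} from Set.ext fun x =>
        ⟨fun e => (hpr x).symm.trans (congrArg _ e), fun e =>
          mapVert_injective _ h.v_algebraMap ((hpr x).trans e)⟩,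
        hmL.finsum_proj f (Set.mem_image_of_mem _ hm)]
      have hval : (isRegTree h.localL).valence (h.embVert '' M) (h.embVert m) =
          (isRegTree h.localK).valence M m :=
        (isRegTree h.localK).valence_image (isRegTree h.localL) h.embVert
          (fun a b => vdist_mapVert _ _ a b) M m
      rw [hval, ← hsum f m hm]
      exact (hmK.finsum_proj (sphericalBC q f) hm).symm
    · rw [show {x | pr x = m} = ∅ from Set.eq_empty_iff_forall_notMem.mpr
        fun x e => hm (e ▸ hprM x), finsum_mem_empty]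
      exact (hmK.finsum_proj_not_mem (sphericalBC q f) hm).symm

end Fermat.Agent.ResidualThree.Tree
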