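import Mathlib
import Fermat.Agent.ResidualThree.Tree.Match

/-!
# Local matching: integral, ramified and hyperbolic elements

For the representatives of the conjugacy classes up to scalars (companion matrices with unit or
uniformiser determinant, and diagonal elements) we determine the minimal sets of `γ` and of the
twisted element downstairs and upstairs, and deduce `HasLocalMatch` in each case.
-/

noncomputable section

open Matrix
open scoped WithZero

namespace Fermat.Agent.ResidualThree.Tree

section Field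

variable {F : Type*} [Field F] {v : Valuation F ℤᵐ⁰} {q : ℕ}

/-- The companion matrix of `X² - t X + d`. -/
def compGL (t : F) (d : Fˣ) : GL (Fin 2) F :=
  Matrix.GeneralLinearGroup.mkOfDetNeZero !![0, -(d : F); 1, t] (by simp [Matrix.det_fin_two])

@[simp] theorem coe_compGL (t : F) (d : Fˣ) :
    (compGL t d : Matrix (Fin 2) (Fin 2) F) = !![0, -(d : F); 1, t] := rfl

theorem nonCentral_compGL (t : F) (d : Fˣ) : NonCentral (compGL t d) := fun c hc => by
  simpa using congrArg (fun m : Matrix (Fin 2) (Fin 2) F => m 1 0) hc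

theorem nonCentral_diagGL {a : Fˣ} (ha : (a : F) ≠ 1) : NonCentral (diagGL a 1) := fun c hc => by
  have h1 := congrArg (fun m : Matrix (Fin 2) (Fin 2) F => m 0 0) hc
  have h2 := congrArg (fun m : Matrix (Fin 2) (Fin 2) F => m 1 1) hc
  simp at h1 h2
  exact ha (h1.trans h2.symm)

/-- An edge inverted by an isometry is a minimal set of displacement one. -/
theorem isMinSet_pair {V : Type*} {d : V → V → ℕ} {Q : ℕ} (h : IsRegTree d Q) (T : V ≃ V)
    (hT : ∀ x y, d (T x) (T y) = d x y) {p a : V} (ha : T p = a) (hp : T a = p) (hd : d p a = 1) :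
    IsMinSet h T ({p, a} : Set V) 1 where
  isometry := hT
  nonempty := Set.insert_nonempty _ _
  convex := h.convex_pair hd
  map_mem x := by
    simp only [Set.mem_insert_iff, Set.mem_singleton_iff]
    rw [show T x = p ↔ x = a from hp ▸ T.injective.eq_iff,
      show T x = a ↔ x = p from ha ▸ T.injective.eq_iff, Or.comm]
  dist_eq := by
    rintro x (rfl | rfl)
    · rw [ha, hd]
    · rw [hp, h.comm, hd]
  fix_mem h0 := absurd h0 one_ne_zero

theorem valence_pair {V : Type*} {d : V → V → ℕ} {Q : ℕ} (h : IsRegTree d Q) {p a : V}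
    (hd : d p a = 1) : h.valence ({p, a} : Set V) p = 1 := by
  classical
  rw [IsRegTree.valence, show h.br p (fun y => y ∈ ({p, a} : Set V)) 1 = {a} from ?_,
    Finset.card_singleton]
  ext y
  simp only [h.mem_br_one, Finset.mem_singleton, Set.mem_insert_iff, Set.mem_singleton_iff]
  refine ⟨fun ⟨h1, h2⟩ => h2.resolve_left fun e => ?_, fun e => ⟨by rw [e]; exact hd, Or.inr e⟩⟩
  rw [e, h.dist_self] at h1
  exact zero_ne_one h1

/-- A vertex of the standard apartment. -/
def axisVert (v : Valuation F ℤᵐ⁰) (p : Fˣ) (i : ℤ) : Vert v := QuotientGroup.mk (diagGL (p ^ i) 1)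

theorem v_zpow {p : Fˣ} (hp : v (p : F) = WithZero.exp (-1 : ℤ)) (k : ℤ) :
    v ((p ^ k : Fˣ) : F) = WithZero.exp (-k) := by
  rw [Units.val_zpow_eq_zpow_val, map_zpow₀, hp, ← WithZero.exp_zsmul]
  simp

theorem diagGL_mem_intGL {a b : Fˣ} (ha : v (a : F) = 1) (hb : v (b : F) = 1) :
    diagGL a b ∈ intGL v := by
  refine ⟨fun i j => ?_, by simp [Matrix.det_fin_two, ha, hb]⟩
  fin_cases i <;> fin_cases j <;> simp [ha, hb]

theorem cartan_diag_zpow {p : Fˣ} (hp : v (p : F) = WithZero.exp (-1 : ℤ)) (k : ℤ) :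
    cartan v (diagGL (p ^ k) 1) = k.natAbs := by
  have hv := v_zpow hp k
  have hdet : v (diagGL (p ^ k) 1 : Matrix (Fin 2) (Fin 2) F).det = WithZero.exp (-k) := by
    simp [Matrix.det_fin_two, hv, -Units.val_zpow_eq_zpow_val, -WithZero.exp_neg]
  rw [cartan_eq_iff, cartanInt_eq, hdet, WithZero.log_exp]
  rcases le_or_gt 0 k with hk | hk
  · have hle : (WithZero.exp (-k) : ℤᵐ⁰) ≤ 1 := by
      rw [← WithZero.exp_zero, WithZero.exp_le_exp]; omega
    rw [nrm_eq_one_of (fun i j => by
      fin_cases i <;> fin_cases j <;> simp [hv, hle, -Units.val_zpow_eq_zpow_val,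
        -WithZero.exp_neg])
      (i := 1) (j := 1) (by simp), WithZero.log_one]
    omega
  · have hle : (1 : ℤᵐ⁰) ≤ WithZero.exp (-k) := by
      rw [← WithZero.exp_zero, WithZero.exp_le_exp]; omega
    have hn : nrm v (diagGL (p ^ k) 1 : Matrix (Fin 2) (Fin 2) F) = WithZero.exp (-k) := by
      refine le_antisymm (nrm_le_iff.mpr fun i j => ?_) ?_
      · fin_cases i <;> fin_cases j <;> simp [hv, hle, -Units.val_zpow_eq_zpow_val,
          -WithZero.exp_neg]
      · refine le_trans (le_of_eq ?_) (le_nrm _ 0 0)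
        simp [hv, -Units.val_zpow_eq_zpow_val, -WithZero.exp_neg]
    rw [hn, WithZero.log_exp]
    omega

theorem vdist_axis {p : Fˣ} (hp : v (p : F) = WithZero.exp (-1 : ℤ)) (i j : ℤ) :
    vdist (axisVert v p i) (axisVert v p j) = (j - i).natAbs := by
  have e : (diagGL (p ^ i) 1)⁻¹ * diagGL (p ^ j) (1 : Fˣ) = diagGL (p ^ (j - i)) 1 := by
    rw [inv_mul_eq_iff_eq_mul, diagGL_mul, ← _root_.zpow_add, mul_one,
      show i + (j - i) = j by ring]
  rw [axisVert, axisVert, vdist_mk, e, cartan_diag_zpow hp]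

theorem smul_axis {p a : Fˣ} (hp : v (p : F) = WithZero.exp (-1 : ℤ)) {n : ℤ}
    (ha : v (a : F) = WithZero.exp (-n)) (i : ℤ) :
    diagGL a 1 • axisVert v p i = axisVert v p (i + n) := by
  have hu : v ((a * (p ^ n)⁻¹ : Fˣ) : F) = 1 := by
    rw [Units.val_mul, map_mul, ha, Units.val_inv_eq_inv_val, map_inv₀, v_zpow hp,
      mul_inv_cancel₀ WithZero.exp_ne_zero]
  rw [axisVert, MulAction.Quotient.smul_mk, smul_eq_mul, diagGL_mul, mul_one,
    show a * p ^ i = p ^ (i + n) * (a * (p ^ n)⁻¹) by
      rw [_root_.zpow_add, mul_comm a (p ^ n)⁻¹, mul_assoc, mul_inv_cancel_left, mul_comm],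
    ← mul_one (1 : Fˣ), ← diagGL_mul]
  exact QuotientGroup.mk_mul_of_mem _ (intGL_le_vertexSubgroup (diagGL_mem_intGL hu (by simp)))

theorem convex_axis (h : IsRegTree (vdist (v := v)) q) {p : Fˣ}
    (hp : v (p : F) = WithZero.exp (-1 : ℤ)) : h.Convex (Set.range (axisVert v p)) := by
  rintro _ ⟨i, rfl⟩ _ ⟨j, rfl⟩ hne
  have hij : j ≠ i := fun e => hne (e ▸ rfl)
  refine ⟨if i < j then j - 1 else j + 1, (h.toward_eq ?_ ?_).symm⟩
  · rw [vdist_axis hp]; split_ifs <;> omega
  · rw [vdist_axis hp, vdist_axis hp]; split_ifs <;> omega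

theorem valence_axis (h : IsRegTree (vdist (v := v)) q) {p : Fˣ}
    (hp : v (p : F) = WithZero.exp (-1 : ℤ)) (i : ℤ) :
    h.valence (Set.range (axisVert v p)) (axisVert v p i) = 2 := by
  classical
  rw [IsRegTree.valence, show h.br (axisVert v p i) (fun y => y ∈ Set.range (axisVert v p)) 1 =
      {axisVert v p (i - 1), axisVert v p (i + 1)} from ?_, Finset.card_pair]
  · intro e
    have := congrArg (vdist (axisVert v p (i - 1))) e
    rw [vdist_axis hp, vdist_axis hp] at this
    omega
  · ext y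
    simp only [h.mem_br_one, Finset.mem_insert, Finset.mem_singleton]
    constructor
    · rintro ⟨h1, j, rfl⟩
      rw [vdist_axis hp] at h1
      rcases (show j = i - 1 ∨ j = i + 1 by omega) with rfl | rfl
      · exact Or.inl rfl
      · exact Or.inr rfl
    · rintro (rfl | rfl) <;> exact ⟨by rw [vdist_axis hp]; omega, Set.mem_range_self _⟩

theorem isMinSet_axis (h : IsRegTree (vdist (v := v)) q) {p : Fˣ}
    (hp : v (p : F) = WithZero.exp (-1 : ℤ)) (T : Vert v ≃ Vert v)
    (hT : ∀ x y, vdist (T x) (T y) = vdist x y) {n : ℕ} (hn : n ≠ 0)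
    (hTa : ∀ i : ℤ, T (axisVert v p i) = axisVert v p (i + n)) :
    IsMinSet h T (Set.range (axisVert v p)) n where
  isometry := hT
  nonempty := Set.range_nonempty _
  convex := convex_axis h hp
  map_mem x := by
    constructor
    · rintro ⟨i, hi⟩
      exact ⟨i - n, T.injective (by rw [hTa, ← hi]; congr 1; ring)⟩
    · rintro ⟨i, rfl⟩
      exact ⟨i + n, (hTa i).symm⟩
  dist_eq := by
    rintro _ ⟨i, rfl⟩
    rw [hTa, vdist_axis hp]
    omega
  fix_mem h0 := absurd h0 hn

end Field

variable {K L : Type*} [Field K] [Field L] [Algebra K L] {vK : Valuation K ℤᵐ⁰}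
  {vL : Valuation L ℤᵐ⁰} {σ : L ≃ₐ[K] L} {q : ℕ} (h : IsInertCubic vK vL σ q)

theorem scalar_one_mul {F : Type*} [Field F] (g : GL (Fin 2) F) :
    Matrix.GeneralLinearGroup.scalar (Fin 2) (1 : Fˣ) * g = g := by rw [map_one, one_mul]

include h in
/-- An element `x + y γ` of unit determinant is integral when `x`, `y` and `γ` are. -/
theorem IsInertCubic.mem_intGL_of_eq_add_smul {γ : GL (Fin 2) K}
    (hγ : ∀ i j, vK ((γ : Matrix (Fin 2) (Fin 2) K) i j) ≤ 1)
    {w : GL (Fin 2) L} {x y : L} (hx : vL x ≤ 1) (hy : vL y ≤ 1)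
    (hwd : vL (w : Matrix (Fin 2) (Fin 2) L).det = 1)
    (hw : (w : Matrix (Fin 2) (Fin 2) L) = x • (1 : Matrix (Fin 2) (Fin 2) L) +
      y • (embGL K L γ : Matrix (Fin 2) (Fin 2) L)) : w ∈ intGL vL := by
  refine ⟨fun i j => ?_, hwd⟩
  rw [hw, Matrix.add_apply, Matrix.smul_apply, Matrix.smul_apply, smul_eq_mul, smul_eq_mul]
  refine vL.map_add_le ?_ ?_ <;> rw [map_mul]
  · exact mul_le_one' hx (by fin_cases i <;> fin_cases j <;> simp)
  · refine mul_le_one' hy ?_
    rw [coe_embGL, Matrix.map_apply, h.v_algebraMap]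
    exact hγ i j

/-- Matching for companion matrices of unit determinant. -/
theorem hasLocalMatch_unit [CharZero L] {t : K} {d : Kˣ} (ht : vK t ≤ 1) (hd : vK (d : K) = 1) :
    HasLocalMatch h (compGL t d) := by
  have hint : ∀ i j, vK ((compGL t d : Matrix (Fin 2) (Fin 2) K) i j) ≤ 1 := fun i j => by
    fin_cases i <;> fin_cases j <;> simp [ht, hd, Valuation.map_neg]
  have hdet : vK (compGL t d : Matrix (Fin 2) (Fin 2) K).det = 1 := by
    simp [Matrix.det_fin_two, hd]
  obtain ⟨δ, x, y, hx, hy, hδd, hδ, hN⟩ := h.exists_norm_root (compGL t d)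
    (by simpa [Matrix.trace_fin_two] using ht) hdet
  have hN' : normGL σ δ = Matrix.GeneralLinearGroup.scalar (Fin 2) (1 : Lˣ) *
      embGL K L (compGL t d) := by rw [scalar_one_mul]; exact hN
  have hfix : h.embVert '' {z : Vert vK | MulAction.toPerm (compGL t d) z = z} =
      {X | h.twist δ X = X} := by
    ext X
    simp only [Set.mem_image, Set.mem_ofPred_eq, MulAction.toPerm_apply]
    exact (h.twist_fixed_iff hx hy hδd hdet hδ hN X).symm
  have hbase : compGL t d • (QuotientGroup.mk 1 : Vert vK) = QuotientGroup.mk 1 := by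
    rw [MulAction.Quotient.smul_mk, smul_eq_mul]
    exact QuotientGroup.eq.mpr (by
      simpa using inv_mem (intGL_le_vertexSubgroup (v := vK)
        (show compGL t d ∈ intGL vK from ⟨hint, hdet⟩)))
  have hmL : IsMinSet (isRegTree h.localL) (h.twist δ)
      (h.embVert '' {z : Vert vK | MulAction.toPerm (compGL t d) z = z}) 0 := by
    rw [hfix]
    refine (isRegTree h.localL).isMinSet_fixed _ (h.vdist_twist δ) ?_
    rw [← hfix]
    exact ⟨_, QuotientGroup.mk 1, hbase, rfl⟩
  exact hasLocalMatch_of_minSets h (nonCentral_compGL t d) hN'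
    ((isRegTree h.localK).isMinSet_fixed (MulAction.toPerm (compGL t d))
      (fun a b => vdist_smul _ a b) ⟨QuotientGroup.mk 1, hbase⟩) hmL
    fun f p _ => outSum_bc_zero h.localK.card_ne_zero f _

/-- Matching for companion matrices whose determinant is a uniformiser. -/
theorem hasLocalMatch_ramified [CharZero L] {t : K} {d : Kˣ}
    (ht : vK t ≤ WithZero.exp (-1 : ℤ)) (hd : vK (d : K) = WithZero.exp (-1 : ℤ)) :
    HasLocalMatch h (compGL t d) := by
  have hexp : (WithZero.exp (-1 : ℤ) : ℤᵐ⁰) ≤ 1 := by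
    rw [← WithZero.exp_zero, WithZero.exp_le_exp]; omega
  have hint : ∀ i j, vK ((compGL t d : Matrix (Fin 2) (Fin 2) K) i j) ≤ 1 := fun i j => by
    fin_cases i <;> fin_cases j <;> simp [ht.trans hexp, hd, hexp, Valuation.map_neg,
      -WithZero.exp_neg]
  have hdet : vK (compGL t d : Matrix (Fin 2) (Fin 2) K).det = WithZero.exp (-1 : ℤ) := by
    simp [Matrix.det_fin_two, hd]
  obtain ⟨w, x, y, s, hx, hy, hwd, hw, hN⟩ := h.exists_norm_root_odd (compGL t d)
    (by simpa [Matrix.trace_fin_two] using ht) hdet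
  set γ := compGL t d with hγdef
  set p : Vert vK := QuotientGroup.mk 1 with hpdef
  have hd1 : vdist p (γ • p) = 1 := by
    rw [hpdef, MulAction.Quotient.smul_mk, smul_eq_mul, vdist_mk, mul_one, inv_one, one_mul]
    exact cartan_eq_of_nrm (nrm_eq_one_of hint (i := 1) (j := 0) (by simp [hγdef]))
      (by rw [hdet]; rfl)
  have hsq : γ • γ • p = p := by
    have hu : vK (-(t / (d : K))) ≤ 1 := by
      rw [Valuation.map_neg, map_div₀, hd, div_le_one₀ (zero_lt_iff.mpr WithZero.exp_ne_zero)]
      exact ht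
    obtain ⟨k, hk, e⟩ : ∃ k ∈ intGL vK,
        γ * γ = Matrix.GeneralLinearGroup.scalar (Fin 2) (-d) * k := by
      refine ⟨(Matrix.GeneralLinearGroup.scalar (Fin 2) (-d))⁻¹ * (γ * γ), ?_,
        (mul_inv_cancel_left _ _).symm⟩
      have ek : (((Matrix.GeneralLinearGroup.scalar (Fin 2) (-d))⁻¹ * (γ * γ) : GL (Fin 2) K) :
          Matrix (Fin 2) (Fin 2) K) = !![1, t; -(t / (d : K)), 1 - t ^ 2 / (d : K)] := by
        rw [← map_inv, Units.val_mul, Units.val_mul, coe_scalar_eq_smul, Matrix.smul_mul,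
          Matrix.one_mul, Units.val_inv_eq_inv_val, Units.val_neg, hγdef, coe_compGL]
        ext i j
        fin_cases i <;> fin_cases j <;>
          simp <;> field_simp
        ring
      refine ⟨fun i j => ?_, ?_⟩
      · rw [ek]
        fin_cases i <;> fin_cases j
        · simp
        · simpa using ht.trans hexp
        · simpa using hu
        · show vK (1 - t ^ 2 / (d : K)) ≤ 1
          refine vK.map_sub_le (map_one vK).le ?_
          rw [sq, mul_div_assoc, map_mul]
          exact mul_le_one' (ht.trans hexp) (by rwa [Valuation.map_neg] at hu)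
      · rw [ek, Matrix.det_fin_two]
        simp only [Matrix.of_apply, Matrix.cons_val', Matrix.cons_val_zero, Matrix.cons_val_one,
          Matrix.cons_val_fin_one]
        rw [show (1 : K) * (1 - t ^ 2 / (d : K)) - t * -(t / (d : K)) = 1 by ring, map_one]
    rw [smul_smul, e, mul_smul, scalar_smul_vert, hpdef, MulAction.Quotient.smul_mk, smul_eq_mul,
      mul_one]
    exact QuotientGroup.eq.mpr (by simpa using inv_mem (intGL_le_vertexSubgroup hk))
  have hmK : IsMinSet (isRegTree h.localK) (MulAction.toPerm γ) {p, γ • p} 1 :=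
    isMinSet_pair _ _ (fun a b => vdist_smul _ a b) rfl hsq hd1
  have hwi := h.mem_intGL_of_eq_add_smul hint hx hy hwd hw
  have hT1 : h.twist (embGL K L γ * w) (h.embVert p) = h.embVert (γ • p) := by
    rw [h.twist_apply, h.sigmaVert_embVert, h.embVert_smul, mul_smul]
    congr 1
    show QuotientGroup.mk (w * embGL K L 1) = QuotientGroup.mk (embGL K L 1)
    rw [map_one, mul_one]
    exact QuotientGroup.eq.mpr (by simpa using inv_mem (intGL_le_vertexSubgroup hwi))
  have hwc : w * embGL K L γ = embGL K L γ * w := by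
    refine Units.ext ?_
    rw [Units.val_mul, Units.val_mul, hw, Matrix.add_mul, Matrix.mul_add]
    simp
  have hT2 : h.twist (embGL K L γ * w) (h.embVert (γ • p)) = h.embVert p := by
    have hc : embGL K L γ * w * embGL K L γ = embGL K L γ * (embGL K L γ * w) := by
      rw [mul_assoc, hwc]
    rw [h.embVert_smul, h.twist_embVert_comm hc, hT1, ← h.embVert_smul, hsq]
  refine hasLocalMatch_of_minSets h (nonCentral_compGL t d) (δ₀ := embGL K L γ * w) (c₀ := s)
    (lL := 1) hN
    (M := {p, γ • p}) hmK ?_ fun f m hm => ?_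
  · rw [Set.image_pair]
    exact isMinSet_pair _ _ (h.vdist_twist _) hT1 hT2 (by
      show vdist (mapVert _ _ p) (mapVert _ _ (γ • p)) = 1
      rw [vdist_mapVert]; exact hd1)
  · have hv : (isRegTree h.localK).valence ({p, γ • p} : Set (Vert vK)) m = 1 := by
      rcases hm with rfl | rfl
      · exact valence_pair _ hd1
      · rw [Set.pair_comm]; exact valence_pair _ (by rw [vdist_comm]; exact hd1)
    rw [hv]
    exact outSum_bc_one h.localK.card_ne_zero f

theorem embGL_diagGL (a b : Kˣ) : embGL K L (diagGL a b) =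
    diagGL (Units.map (algebraMap K L).toMonoidHom a)
      (Units.map (algebraMap K L).toMonoidHom b) := by
  refine Units.ext (Matrix.ext fun i j => ?_)
  fin_cases i <;> fin_cases j <;> simp

/-- Matching for hyperbolic diagonal elements. -/
theorem hasLocalMatch_hyperbolic [CharZero L] {a : Kˣ} {l : ℕ} (hl : l ≠ 0)
    (ha : vK (a : K) = WithZero.exp (-(l : ℤ))) : HasLocalMatch h (diagGL a 1) := by
  obtain ⟨π, hπ⟩ := h.localK.exists_unif
  have hπ0 : π ≠ 0 := fun h0 => by rw [h0, map_zero] at hπ; exact WithZero.exp_ne_zero hπ.symm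
  set p : Kˣ := Units.mk0 π hπ0
  set p' : Lˣ := Units.map (algebraMap K L).toMonoidHom p with hp'def
  have hp' : vL (p' : L) = WithZero.exp (-1 : ℤ) := (h.v_algebraMap π).trans hπ
  have ha1 : (a : K) ≠ 1 := fun e => by
    rw [e, map_one, ← WithZero.exp_zero, WithZero.exp_inj] at ha; omega
  have hγ := nonCentral_diagGL ha1
  have hmK : IsMinSet (isRegTree h.localK) (MulAction.toPerm (diagGL a 1))
      (Set.range (axisVert vK p)) l :=
    isMinSet_axis _ hπ _ (fun x y => vdist_smul _ x y) hl fun i => smul_axis hπ ha i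
  have himage : h.embVert '' Set.range (axisVert vK p) = Set.range (axisVert vL p') := by
    rw [← Set.range_comp]
    refine congrArg Set.range (funext fun i => ?_)
    show QuotientGroup.mk (embGL K L (diagGL (p ^ i) 1)) = _
    rw [embGL_diagGL, map_one, map_zpow]
    rfl
  by_cases h3 : 3 ∣ l
  · obtain ⟨m, rfl⟩ := h3
    have hc : vK ((a * (p ^ (3 * m))⁻¹ : Kˣ) : K) = 1 := by
      rw [Units.val_mul, map_mul, ha, Units.val_inv_eq_inv_val, map_inv₀, Units.val_pow_eq_pow_val,
        map_pow, show vK (p : K) = _ from hπ, ← WithZero.exp_nsmul, ← WithZero.exp_neg,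
        ← WithZero.exp_add]
      simp
    obtain ⟨x, hx, hxN⟩ := h.exists_norm3_eq hc
    have hx0 : x ≠ 0 := fun e => by rw [e, map_zero] at hx; exact zero_ne_one hx
    set b : Lˣ := p' ^ m * Units.mk0 x hx0
    have hb : vL (b : L) = WithZero.exp (-(m : ℤ)) := by
      rw [Units.val_mul, map_mul, Units.val_mk0, hx, mul_one, Units.val_pow_eq_pow_val, map_pow,
        hp', ← WithZero.exp_nsmul]
      simp
    have hN : normGL σ (diagGL b 1) =
        Matrix.GeneralLinearGroup.scalar (Fin 2) (1 : Lˣ) * embGL K L (diagGL a 1) := by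
      have e : norm3 σ (b : L) = algebraMap K L (a : K) := by
        rw [norm3] at hxN ⊢
        simp only [b, hp'def, Units.val_mul, Units.val_pow_eq_pow_val, Units.coe_map, map_mul,
          map_pow, Units.val_mk0, RingHom.toMonoidHom_eq_coe, MonoidHom.coe_coe, AlgEquiv.commutes]
        rw [show (algebraMap K L (p : K)) ^ m * x * ((algebraMap K L (p : K)) ^ m * σ x) *
          ((algebraMap K L (p : K)) ^ m * σ (σ x)) =
            algebraMap K L ((p : K) ^ (3 * m)) * (x * σ x * σ (σ x)) by rw [map_pow]; ring,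
          hxN, ← map_mul]
        have hp0 : algebraMap K L (p : K) ≠ 0 := by simp
        simp [Units.val_inv_eq_inv_val]
        field_simp
      refine Units.ext (Matrix.ext fun i j => ?_)
      rw [scalar_one_mul]
      simp only [normGL, Units.val_mul, coe_sigmaGL, coe_diagGL, coe_embGL]
      fin_cases i <;> fin_cases j <;>
        simp [Matrix.mul_apply, Fin.sum_univ_two, Matrix.vecMul, dotProduct]
      exact e
    have hm : m ≠ 0 := fun e => hl (by rw [e, mul_zero])
    refine hasLocalMatch_of_minSets h hγ hN hmK (lL := m) ?_ fun f y hy => ?_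
    · rw [himage]
      refine isMinSet_axis _ hp' _ (h.vdist_twist _) hm fun i => ?_
      rw [h.twist_apply]
      have hs : h.sigmaVert (axisVert vL p' i) = axisVert vL p' i := by
        obtain ⟨Y, -, e⟩ : axisVert vL p' i ∈ h.embVert '' Set.range (axisVert vK p) :=
          himage ▸ Set.mem_range_self i
        rw [← e, h.sigmaVert_embVert]
      rw [hs, smul_axis hp' hb]
    · obtain ⟨i, rfl⟩ := hy
      rw [valence_axis _ hπ]
      exact outSum_bc_two h.localK.card_ne_zero f m
  · refine ⟨hmK.proj, fun g hg y => hmK.proj_comm (MulAction.toPerm g) (fun x y => vdist_smul g x y)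
      (fun x => by simp [smul_smul, hg]) y, fun y => ?_, fun f m => hmK.fibre_finite f m,
      fun δ c hδ => False.elim (h3 ?_), fun _ f m => ?_⟩
    · have := hmK.displacement y
      rw [MulAction.toPerm_apply] at this
      omega
    · have hcomm := h.norm_comm hδ
      have e01 := congrArg (fun g : GL (Fin 2) L => (g : Matrix (Fin 2) (Fin 2) L) 0 1) hcomm
      have e10 := congrArg (fun g : GL (Fin 2) L => (g : Matrix (Fin 2) (Fin 2) L) 1 0) hcomm
      simp [Matrix.mul_apply, Fin.sum_univ_two] at e01 e10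
      have hne : algebraMap K L (a : K) ≠ 1 := fun e =>
        ha1 ((algebraMap K L).injective (e.trans (map_one _).symm))
      have h01 : (δ : Matrix (Fin 2) (Fin 2) L) 0 1 = 0 := by
        by_contra hz
        exact hne (mul_right_cancel₀ hz (by rw [one_mul]; exact e01.symm))
      have h10 : (δ : Matrix (Fin 2) (Fin 2) L) 1 0 = 0 := by
        by_contra hz
        exact hne (mul_left_cancel₀ hz (by rw [mul_one]; exact e10))
      have f00 := congrArg (fun g : GL (Fin 2) L => (g : Matrix (Fin 2) (Fin 2) L) 0 0) hδ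
      have f11 := congrArg (fun g : GL (Fin 2) L => (g : Matrix (Fin 2) (Fin 2) L) 1 1) hδ
      simp [normGL, Matrix.mul_apply, Fin.sum_univ_two, h01, h10] at f00 f11
      have g00 := congrArg vL f00
      have g11 := congrArg vL f11
      have hx0 : (δ : Matrix (Fin 2) (Fin 2) L) 0 0 ≠ 0 := fun h0 => δ.det_ne_zero (by
        rw [Matrix.det_fin_two, h0, h01, zero_mul, zero_mul, sub_zero])
      simp only [map_mul, h.v_sigma, h.v_algebraMap, ha] at g00 g11
      have hc0 : vL (c : L) ≠ 0 := (map_ne_zero vL).mpr c.ne_zero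
      have hy0 : vL ((δ : Matrix (Fin 2) (Fin 2) L) 1 1) ≠ 0 := fun h0 => hc0 (by
        rw [← g11, h0]; simp)
      have l00 := congrArg WithZero.log g00
      have l11 := congrArg WithZero.log g11
      have hxv := (map_ne_zero vL).mpr hx0
      rw [WithZero.log_mul (mul_ne_zero hxv hxv) hxv, WithZero.log_mul hxv hxv,
        WithZero.log_mul hc0 WithZero.exp_ne_zero, WithZero.log_exp] at l00
      rw [WithZero.log_mul (mul_ne_zero hy0 hy0) hy0, WithZero.log_mul hy0 hy0] at l11
      omega
    · by_cases hm : m ∈ Set.range (axisVert vK p)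
      · refine (hmK.finsum_proj (sphericalBC q f) hm).trans ?_
        obtain ⟨i, rfl⟩ := hm
        rw [valence_axis _ hπ]
        exact outSum_bc_two_of_not_dvd h.localK.card_ne_zero f h3
      · exact hmK.finsum_proj_not_mem (sphericalBC q f) hm

end Fermat.Agent.ResidualThree.Tree
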