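import Mathlib
import Fermat.Agent.ResidualThree.Tree.Cases

/-!
# The local matching theorem at an inert place

Every regular class is, up to conjugation and scalars, one of the model elements of `Tree/Cases`,
so the orbital sums of the base change of a spherical function match the twisted orbital sums
of the function (`hasLocalMatch`).
-/

noncomputable section

open Matrix
open scoped WithZero

namespace Fermat.Agent.ResidualThree.Tree

variable {K L : Type*} [Field K] [Field L] [Algebra K L] {vK : Valuation K ℤᵐ⁰}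
  {vL : Valuation L ℤᵐ⁰} {σ : L ≃ₐ[K] L} {q : ℕ}

/-- A root near zero of `X² - X + d`. -/
theorem IsLocalVal.exists_root {F : Type*} [Field F] {v : Valuation F ℤᵐ⁰} (h : IsLocalVal v q)
    {d : F} (hd : v d < 1) : ∃ r, r - r ^ 2 = d ∧ v r = v d := by
  let a : ℕ → F := fun n => Nat.rec 0 (fun _ x => d + x ^ 2) n
  have ha : ∀ n, a (n + 1) = d + a n ^ 2 := fun n => rfl
  have hd' : v d ≤ WithZero.exp (-1 : ℤ) := lt_one_iff_le_exp.mp hd
  have hexp : (WithZero.exp (-1 : ℤ) : ℤᵐ⁰) ≤ 1 := by
    rw [← WithZero.exp_zero, WithZero.exp_le_exp]; omega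
  have hsmall : ∀ n, v (a n) ≤ WithZero.exp (-1 : ℤ) := by
    intro n
    induction n with
    | zero => exact le_of_eq_of_le (map_zero v) zero_le
    | succ n ih =>
      rw [ha, sq]
      refine v.map_add_le hd' ?_
      rw [map_mul]
      exact (mul_le_of_le_one_right' (ih.trans hexp)).trans ih
  have hdiff : ∀ n, v (a (n + 1) - a n) ≤ WithZero.exp (-(n : ℤ)) := by
    intro n
    induction n with
    | zero => simpa [ha 0, a] using hd.le
    | succ n ih =>
      rw [ha (n + 1), ha n, show d + (d + a n ^ 2) ^ 2 - (d + a n ^ 2) =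
        ((d + a n ^ 2) - a n) * ((d + a n ^ 2) + a n) by ring, ← ha, map_mul,
        show (-((n + 1 : ℕ) : ℤ)) = -(n : ℤ) + -1 by push_cast; ring, WithZero.exp_add]
      exact mul_le_mul' ih (v.map_add_le (hsmall (n + 1)) (hsmall n))
  obtain ⟨r, hr⟩ := h.complete a hdiff
  have hr1 : v r ≤ WithZero.exp (-1 : ℤ) := by
    rw [← sub_add_cancel r (a 1)]
    exact v.map_add_le (by simpa using hr 1) (hsmall 1)
  have hroot : r - r ^ 2 = d := by
    refine sub_eq_zero.mp (eq_zero_of_forall_le (v := v) fun n => ?_)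
    rw [show r - r ^ 2 - d = (r - a (n + 1)) + (a n - r) * (a n + r) by rw [ha]; ring]
    refine v.map_add_le ((hr (n + 1)).trans (exp_antitone (by omega))) ?_
    rw [map_mul, Valuation.map_sub_swap]
    refine (mul_le_mul' (hr n) ((v.map_add_le (hsmall n) hr1).trans hexp)).trans ?_
    rw [mul_one]
  refine ⟨r, hroot, ?_⟩
  rw [← hroot, show r - r ^ 2 = r * (1 - r) by ring, map_mul,
    Valuation.map_one_sub_of_lt _ (lt_one_iff_le_exp.mpr hr1), mul_one]

variable (h : IsInertCubic vK vL σ q)

/-- Matching depends only on trace and determinant up to scaling. -/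
theorem HasLocalMatch.of_trace_det {γ₁ γ : GL (Fin 2) K} (H : HasLocalMatch h γ₁)
    (hγ₁ : NonCentral γ₁) (hγ : NonCentral γ) (s : Kˣ)
    (ht : (s : K) * (γ₁ : Matrix (Fin 2) (Fin 2) K).trace = (γ : Matrix (Fin 2) (Fin 2) K).trace)
    (hd : (s : K) ^ 2 * (γ₁ : Matrix (Fin 2) (Fin 2) K).det =
      (γ : Matrix (Fin 2) (Fin 2) K).det) : HasLocalMatch h γ := by
  have hns : Orbital.CubicAut.NonScalar ((s : K) • (γ₁ : Matrix (Fin 2) (Fin 2) K)) := fun c hc =>
    hγ₁ ((s : K)⁻¹ * c) (by rw [← smul_smul, ← hc, smul_smul, inv_mul_cancel₀ s.ne_zero, one_smul])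
  obtain ⟨g, g', hgg', e⟩ := Orbital.CubicAut.exists_conj_of_trace_det hns hγ
    (by rw [Matrix.trace_smul, smul_eq_mul, ht]) (by rw [Matrix.det_smul, Fintype.card_fin, hd])
  refine H.conj h ⟨g, g', hgg', mul_eq_one_comm.mp hgg'⟩ s (Units.ext ?_)
  rw [Units.val_mul, coe_scalar_eq_smul, Matrix.smul_mul, Matrix.one_mul, e, Matrix.mul_smul,
    Matrix.smul_mul]
  rfl

/-- **Local matching at an inert place**: for every non-scalar `γ` the orbital sums of
`sphericalBC q f` are the twisted orbital sums of `f` at any element of norm `γ`, fibrewise over an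
equivariant projection, and vanish when `γ` is no norm. -/
theorem hasLocalMatch [CharZero L] {γ : GL (Fin 2) K} (hγ : NonCentral γ) :
    HasLocalMatch h γ := by
  obtain ⟨π, hπ⟩ := h.localK.exists_unif
  have hπ0 : π ≠ 0 := fun h0 => by rw [h0, map_zero] at hπ; exact WithZero.exp_ne_zero hπ.symm
  set p : Kˣ := Units.mk0 π hπ0
  set A := (γ : Matrix (Fin 2) (Fin 2) K)
  have hd0 : A.det ≠ 0 := γ.det_ne_zero
  by_cases hT : vK A.trace ^ 2 ≤ vK A.det
  · -- scale to an integral element
    set D := WithZero.log (vK A.det) with hD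
    set k : ℤ := (D + 1) / 2
    have hk : D = 2 * k ∨ D = 2 * k - 1 := by omega
    have hs : vK ((p ^ (-k) : Kˣ) : K) = WithZero.exp k := by rw [v_zpow hπ, neg_neg]
    set s : Kˣ := p ^ (-k)
    set d : Kˣ := Units.mk0 (A.det / (s : K) ^ 2) (div_ne_zero hd0 (pow_ne_zero 2 s.ne_zero))
    have hvd : vK (d : K) = WithZero.exp (D - 2 * k) := by
      rw [Units.val_mk0, map_div₀, map_pow, hs, ← WithZero.exp_nsmul, hD,
        div_eq_mul_inv, ← WithZero.exp_neg]
      conv_lhs => rw [← WithZero.exp_log (v_det_ne_zero (v := vK) γ)]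
      rw [← WithZero.exp_add]
      congr 1
    have hvt : vK (A.trace / (s : K)) ^ 2 ≤ vK (d : K) := by
      rw [Units.val_mk0, map_div₀, map_div₀, div_pow, map_pow]
      exact div_le_div_of_nonneg_right hT zero_le
    have hmain : HasLocalMatch h (compGL (A.trace / (s : K)) d) := by
      rcases hk with hk | hk
      · refine hasLocalMatch_unit h ?_ (by rw [hvd, hk, sub_self, WithZero.exp_zero])
        rw [hvd, hk, sub_self, WithZero.exp_zero] at hvt
        exact (pow_le_one_iff two_ne_zero).mp hvt
      · refine hasLocalMatch_ramified h ?_ (by rw [hvd, hk, sub_sub_cancel_left])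
        rw [hvd, hk, sub_sub_cancel_left] at hvt
        refine lt_one_iff_le_exp.mp ?_
        by_contra hge
        have := (one_le_pow₀ (n := 2) (not_lt.mp hge)).trans hvt
        rw [← WithZero.exp_zero, WithZero.exp_le_exp] at this
        omega
    refine hmain.of_trace_det h (nonCentral_compGL _ _) hγ s ?_ ?_
    · simp [Matrix.trace_fin_two, mul_div_cancel₀, A]
    · simp [Matrix.det_fin_two, A, d]
      field_simp
  · -- hyperbolic
    have ht0 : A.trace ≠ 0 := fun e => hT (by rw [e, map_zero, zero_pow two_ne_zero]; exact zero_le)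
    have hlt : vK (A.det / A.trace ^ 2) < 1 := by
      rw [map_div₀, map_pow, div_lt_one₀ (zero_lt_iff.mpr
        (pow_ne_zero 2 ((map_ne_zero vK).mpr ht0)))]
      exact not_le.mp hT
    obtain ⟨r, hr, hvr⟩ := h.localK.exists_root hlt
    have hr0 : r ≠ 0 := fun e => div_ne_zero hd0 (pow_ne_zero 2 ht0) (by rw [← hr, e]; ring)
    have hr1 : 1 - r ≠ 0 := fun e => by
      rw [sub_eq_zero] at e
      rw [← e, map_one] at hvr
      exact hlt.ne hvr.symm
    set a : Kˣ := Units.mk0 (r / (1 - r)) (div_ne_zero hr0 hr1)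
    have hva : vK (a : K) = vK r := by
      rw [Units.val_mk0, map_div₀, Valuation.map_one_sub_of_lt _ (hvr ▸ hlt), div_one]
    set l := (-WithZero.log (vK r)).toNat
    have hlog : WithZero.log (vK r) < 0 := by
      rw [← WithZero.log_one, WithZero.log_lt_log ((map_ne_zero vK).mpr hr0) one_ne_zero, hvr]
      exact hlt
    have hal : vK (a : K) = WithZero.exp (-(l : ℤ)) := by
      rw [hva, Int.toNat_of_nonneg (by omega), neg_neg, WithZero.exp_log ((map_ne_zero vK).mpr hr0)]
    refine (hasLocalMatch_hyperbolic h (by omega) hal).of_trace_det h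
      (nonCentral_diagGL fun e => ?_) hγ (Units.mk0 (A.trace * (1 - r)) (mul_ne_zero ht0 hr1)) ?_ ?_
    · rw [e, map_one] at hva
      rw [← hva, WithZero.log_one] at hlog
      exact lt_irrefl _ hlog
    · simp [Matrix.trace_fin_two, A, a]
      field_simp
      ring
    · simp [Matrix.det_fin_two, A, a]
      have h2 : A.det = A.trace ^ 2 * (r - r ^ 2) := by rw [hr]; field_simp
      simp only [A, Matrix.trace_fin_two, Matrix.det_fin_two] at h2
      field_simp
      simp only [Matrix.trace_fin_two]
      linear_combination -h2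

end Fermat.Agent.ResidualThree.Tree
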