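import Mathlib
import Fermat.Agent.ResidualThree.Tree.Local

/-!
# Congruence subgroups and cube roots of matrices close to one

The levels `lev n`, the principal congruence subgroups and their products with the scalars, and
cube roots: near one cubing raises the level by the valuation `c` of three, is injective and
surjective there, and commutes with conjugation (`exists_cube_root`, `cube_root_conj`).
-/

noncomputable section

open Matrix
open scoped WithZero

namespace Fermat.Agent.ResidualThree.Tree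

variable {F : Type*} [Field F] (v : Valuation F ℤᵐ⁰)

/-- `exp (-n)`. -/
def lev (n : ℕ) : ℤᵐ⁰ := WithZero.exp (-(n : ℤ))

theorem lev_mul (m n : ℕ) : lev m * lev n = lev (m + n) := by
  rw [lev, lev, lev, ← WithZero.exp_add]; congr 1; push_cast; ring

theorem lev_le {m n : ℕ} (h : m ≤ n) : lev n ≤ lev m := exp_antitone h

theorem lev_lt {m n : ℕ} (h : m < n) : lev n < lev m := by
  rw [lev, lev, WithZero.exp_lt_exp]; omega

theorem lev_le_one (n : ℕ) : lev n ≤ 1 := by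
  rw [lev, ← WithZero.exp_zero, WithZero.exp_le_exp]; omega

theorem lev_ne_zero (n : ℕ) : lev n ≠ 0 := WithZero.exp_ne_zero

/-- Matrices congruent to one modulo the `n`-th power of the maximal ideal. -/
def Near (n : ℕ) (A : Matrix (Fin 2) (Fin 2) F) : Prop := nrm v (A - 1) ≤ lev n

variable {v}

theorem nrm_neg (A : Matrix (Fin 2) (Fin 2) F) : nrm v (-A) = nrm v A := by
  have h : ∀ B : Matrix (Fin 2) (Fin 2) F, nrm v (-B) ≤ nrm v B := fun B =>
    nrm_le_iff.mpr fun i j => by rw [Matrix.neg_apply, Valuation.map_neg]; exact le_nrm B i j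
  exact le_antisymm (h A) (by simpa using h (-A))

theorem nrm_sub_le (A B : Matrix (Fin 2) (Fin 2) F) :
    nrm v (A - B) ≤ max (nrm v A) (nrm v B) := by
  rw [sub_eq_add_neg]; exact (nrm_add_le _ _).trans_eq (by rw [nrm_neg])

theorem nrm_sub_comm (A B : Matrix (Fin 2) (Fin 2) F) : nrm v (A - B) = nrm v (B - A) := by
  rw [← nrm_neg, neg_sub]

theorem nrm_add_le' {A B : Matrix (Fin 2) (Fin 2) F} {a : ℤᵐ⁰} (hA : nrm v A ≤ a)
    (hB : nrm v B ≤ a) :
    nrm v (A + B) ≤ a := (nrm_add_le A B).trans (max_le hA hB)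

theorem nrm_sub_le' {A B : Matrix (Fin 2) (Fin 2) F} {a : ℤᵐ⁰} (hA : nrm v A ≤ a)
    (hB : nrm v B ≤ a) :
    nrm v (A - B) ≤ a := (nrm_sub_le A B).trans (max_le hA hB)

theorem nrm_mul_le' {A B : Matrix (Fin 2) (Fin 2) F} {a b : ℤᵐ⁰} (hA : nrm v A ≤ a)
    (hB : nrm v B ≤ b) :
    nrm v (A * B) ≤ a * b := (nrm_mul_le A B).trans (mul_le_mul' hA hB)

theorem nrm_zero : nrm v (0 : Matrix (Fin 2) (Fin 2) F) = 0 :=
  le_antisymm (nrm_le_iff.mpr fun i j => by simp) zero_le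

theorem nrm_eq_zero {A : Matrix (Fin 2) (Fin 2) F} (h : nrm v A ≤ 0) : A = 0 :=
  Matrix.ext fun i j => (map_eq_zero v).mp (le_zero_iff.mp ((le_nrm A i j).trans h))

theorem eq_zero_of_nrm_le_lev {A : Matrix (Fin 2) (Fin 2) F} (k₀ : ℕ)
    (h : ∀ k, nrm v A ≤ lev (k₀ + k)) : A = 0 :=
  matrix_eq_zero_of_forall_le (v := v) fun n => (h n).trans (lev_le (Nat.le_add_left n k₀))

namespace Near

variable {n m : ℕ} {A B : Matrix (Fin 2) (Fin 2) F}

theorem one : Near v n (1 : Matrix (Fin 2) (Fin 2) F) := by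
  rw [Near, sub_self, nrm_zero]; exact zero_le

theorem mono (h : m ≤ n) (hA : Near v n A) : Near v m A := le_trans hA (lev_le h)

theorem nrm_le_one (hA : Near v n A) : nrm v A ≤ 1 := by
  rw [← sub_add_cancel A 1]
  exact nrm_add_le' (le_trans hA (lev_le_one n)) nrm_one.le

theorem mul (hA : Near v n A) (hB : Near v n B) : Near v n (A * B) := by
  rw [Near, show A * B - 1 = (A - 1) * B + (B - 1) by rw [sub_mul, Matrix.one_mul]; abel]
  exact nrm_add_le' ((nrm_mul_le' hA hB.nrm_le_one).trans (by rw [mul_one])) hB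

theorem det (hn : 1 ≤ n) (hA : Near v n A) : v A.det = 1 := by
  have h : v (A.det - 1) ≤ lev n := by
    rw [show A.det - 1 = (A 0 0 - 1) * A 1 1 + (A 1 1 - 1) - A 0 1 * A 1 0 by
      rw [Matrix.det_fin_two]; ring]
    have h' : ∀ i j, v ((A - 1) i j) ≤ lev n := fun i j => (le_nrm _ i j).trans hA
    have h1 := hA.nrm_le_one
    refine v.map_sub_le (v.map_add_le ?_ (by simpa using h' 1 1)) ?_
    · rw [map_mul]
      exact (mul_le_mul' (by simpa using h' 0 0) ((le_nrm A 1 1).trans h1)).trans (by rw [mul_one])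
    · rw [map_mul]
      exact (mul_le_mul' (by simpa using h' 0 1) ((le_nrm A 1 0).trans h1)).trans (by rw [mul_one])
  have hlt : v (A.det - 1) < v (1 : F) := by
    rw [map_one]
    exact lt_of_le_of_lt h (by rw [lev, ← WithZero.exp_zero, WithZero.exp_lt_exp]; omega)
  have := v.map_add_eq_of_lt_left hlt
  rwa [add_sub_cancel, map_one] at this

theorem map {F' : Type*} [Field F'] {v' : Valuation F' ℤᵐ⁰} (f : F →+* F')
    (hf : ∀ x, v' (f x) = v x) (hA : Near v n A) : Near v' n (A.map f) := by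
  refine nrm_le_iff.mpr fun i j => ?_
  have e : (A.map f - 1) i j = f ((A - 1) i j) := by
    fin_cases i <;> fin_cases j <;> simp
  rw [e, hf]
  exact (le_nrm _ i j).trans hA

end Near

variable (v)

/-- The principal congruence subgroup. -/
def congGL (n : ℕ) : Subgroup (GL (Fin 2) F) where
  carrier := {g | g ∈ intGL v ∧ Near v n (g : Matrix (Fin 2) (Fin 2) F)}
  one_mem' := ⟨one_mem _, Near.one⟩
  mul_mem' {a b} ha hb := ⟨mul_mem ha.1 hb.1, ha.2.mul hb.2⟩
  inv_mem' {a} ha := by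
    refine ⟨inv_mem ha.1, ?_⟩
    have e : ((a⁻¹ : GL (Fin 2) F) : Matrix (Fin 2) (Fin 2) F) - 1 =
        ((a⁻¹ : GL (Fin 2) F) : Matrix (Fin 2) (Fin 2) F) *
          -((a : Matrix (Fin 2) (Fin 2) F) - 1) := by
      rw [neg_sub, Matrix.mul_sub, Matrix.mul_one, ← Units.val_mul, inv_mul_cancel, Units.val_one]
    show nrm v _ ≤ _
    rw [e, nrm_mul_left (inv_mem ha.1), nrm_neg]
    exact ha.2

/-- Scalars times the principal congruence subgroup. -/
def congZ (n : ℕ) : Subgroup (GL (Fin 2) F) :=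
  Subgroup.closure {g | (IsIntGL v g ∧ ∀ i j,
    v ((g : Matrix (Fin 2) (Fin 2) F) i j - (1 : Matrix (Fin 2) (Fin 2) F) i j) ≤
      WithZero.exp (-(n : ℤ))) ∨ g ∈ Subgroup.center (GL (Fin 2) F)}

variable {v}

theorem congGL_le {m n : ℕ} (h : m ≤ n) : congGL v n ≤ congGL v m :=
  fun _ hg => ⟨hg.1, hg.2.mono h⟩

theorem congGL_conj {n : ℕ} {a g : GL (Fin 2) F} (ha : a ∈ intGL v) (hg : g ∈ congGL v n) :
    a⁻¹ * g * a ∈ congGL v n := by
  refine ⟨mul_mem (mul_mem (inv_mem ha) hg.1) ha, ?_⟩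
  have e : ((a⁻¹ * g * a : GL (Fin 2) F) : Matrix (Fin 2) (Fin 2) F) - 1 =
      ((a⁻¹ : GL (Fin 2) F) : Matrix (Fin 2) (Fin 2) F) * ((g : Matrix (Fin 2) (Fin 2) F) - 1) *
        (a : Matrix (Fin 2) (Fin 2) F) := by
    rw [Units.val_mul, Units.val_mul, Matrix.mul_sub, Matrix.sub_mul, Matrix.mul_one,
      ← Units.val_mul a⁻¹ a, inv_mul_cancel, Units.val_one]
  show nrm v _ ≤ _
  rw [e, nrm_mul_right ha, nrm_mul_left (inv_mem ha)]
  exact hg.2

theorem mem_congGL_of_near {n : ℕ} (hn : 1 ≤ n) {g : GL (Fin 2) F}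
    (hg : Near v n (g : Matrix (Fin 2) (Fin 2) F)) : g ∈ congGL v n :=
  ⟨⟨nrm_le_iff.mp hg.nrm_le_one, hg.det hn⟩, hg⟩

theorem congZ_eq (n : ℕ) :
    congZ v n = congGL v n ⊔ Subgroup.center (GL (Fin 2) F) := by
  refine le_antisymm ((Subgroup.closure_le _).2 ?_) (sup_le ?_ ?_)
  · rintro g (⟨h1, h2⟩ | h1)
    · exact Subgroup.mem_sup_left ⟨h1, nrm_le_iff.mpr fun i j => by
        rw [Matrix.sub_apply]; exact h2 i j⟩
    · exact Subgroup.mem_sup_right h1
  · exact fun g hg => Subgroup.subset_closure (Or.inl ⟨hg.1, fun i j => by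
      have := (le_nrm (v := v) ((g : Matrix (Fin 2) (Fin 2) F) - 1) i j).trans hg.2
      rw [Matrix.sub_apply] at this
      exact this⟩)
  · exact fun g hg => Subgroup.subset_closure (Or.inr hg)

theorem mem_congZ {n : ℕ} {g : GL (Fin 2) F} :
    g ∈ congZ v n ↔ ∃ (s : Fˣ) (k : GL (Fin 2) F), k ∈ congGL v n ∧
      g = Matrix.GeneralLinearGroup.scalar (Fin 2) s * k := by
  rw [congZ_eq, sup_comm, Subgroup.mem_sup_of_normal_left]
  constructor
  · rintro ⟨z, hz, k, hk, rfl⟩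
    rw [Matrix.GeneralLinearGroup.center_eq_range_scalar] at hz
    obtain ⟨s, rfl⟩ := hz
    exact ⟨s, k, hk, rfl⟩
  · rintro ⟨s, k, hk, rfl⟩
    exact ⟨_, scalar_mem_center s, k, hk, rfl⟩

theorem congZ_le {m n : ℕ} (h : m ≤ n) : congZ v n ≤ congZ v m := by
  rw [congZ_eq, congZ_eq]
  exact sup_le_sup_right (congGL_le h) _

theorem congGL_le_congZ (n : ℕ) : congGL v n ≤ congZ v n := by
  rw [congZ_eq]; exact le_sup_left

theorem scalar_mem_congZ (s : Fˣ) (n : ℕ) :
    Matrix.GeneralLinearGroup.scalar (Fin 2) s ∈ congZ v n := by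
  rw [congZ_eq]; exact Subgroup.mem_sup_right (scalar_mem_center s)

theorem congZ_conj {n : ℕ} {a g : GL (Fin 2) F} (ha : a ∈ vertexSubgroup v) (hg : g ∈ congZ v n) :
    a⁻¹ * g * a ∈ congZ v n := by
  obtain ⟨s, k, hk, rfl⟩ := mem_congZ.mp hg
  obtain ⟨t, b, hb, rfl⟩ := mul_mem_vertexSubgroup_iff.mp ha
  refine mem_congZ.mpr ⟨s, b⁻¹ * k * b, congGL_conj hb hk, ?_⟩
  set S := Matrix.GeneralLinearGroup.scalar (Fin 2) s
  set T := Matrix.GeneralLinearGroup.scalar (Fin 2) t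
  rw [show (T * b)⁻¹ * (S * k) * (T * b) = b⁻¹ * (T⁻¹ * (S * k * T)) * b by group,
    ← Matrix.GeneralLinearGroup.scalar_commute t (S * k), inv_mul_cancel_left, ← mul_assoc b⁻¹,
    ← Matrix.GeneralLinearGroup.scalar_commute s b⁻¹]
  simp only [S, mul_assoc]

theorem congZ_le_vertexSubgroup (n : ℕ) : congZ v n ≤ vertexSubgroup v := fun g hg => by
  obtain ⟨s, k, hk, rfl⟩ := mem_congZ.mp hg
  exact mul_mem_vertexSubgroup_iff.mpr ⟨s, k, hk.1, rfl⟩

/-! ### Cubes -/

/-- The key estimate: cubing multiplies distances by `|3|` near one. -/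
theorem nrm_cube_sub_le {n : ℕ} {r r' : Matrix (Fin 2) (Fin 2) F} (hr : Near v n r)
    (hr' : Near v n r') :
    nrm v (r' ^ 3 - r ^ 3 - (3 : F) • (r' - r)) ≤ lev n * nrm v (r' - r) := by
  set D := r' - r
  have hsq : ∀ {x : Matrix (Fin 2) (Fin 2) F}, Near v n x → nrm v (x * x - 1) ≤ lev n :=
    fun hx => hx.mul hx
  have e : r' ^ 3 - r ^ 3 - (3 : F) • D =
      (r' * r' - 1) * D + ((r' - 1) * D * r + D * (r - 1)) + D * (r * r - 1) := by
    rw [show (3 : F) = 1 + 1 + 1 by norm_num, add_smul, add_smul, one_smul]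
    simp only [D, pow_succ, pow_zero, one_mul]
    noncomm_ring
  rw [e]
  refine nrm_add_le' (nrm_add_le' (nrm_mul_le' (hsq hr') le_rfl) (nrm_add_le' ?_ ?_)) ?_
  · exact (nrm_mul_le' (nrm_mul_le' hr' le_rfl) hr.nrm_le_one).trans (by rw [mul_one])
  · exact (nrm_mul_le' le_rfl hr).trans (by rw [mul_comm])
  · exact (nrm_mul_le' le_rfl (hsq hr)).trans (by rw [mul_comm])

section Cube

variable {n c : ℕ} (h3 : v (3 : F) = lev c) (hcn : c < n)
include h3 hcn

theorem nrm_cube_sub {r r' : Matrix (Fin 2) (Fin 2) F} (hr : Near v n r) (hr' : Near v n r') :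
    nrm v (r' ^ 3 - r ^ 3) = lev c * nrm v (r' - r) := by
  have h := nrm_cube_sub_le hr hr'
  set D := r' - r
  rcases eq_or_ne (nrm v D) 0 with hD | hD
  · rw [sub_eq_zero.mp (nrm_eq_zero hD.le : D = 0), sub_self, nrm_zero, hD, mul_zero]
  have hlt : lev n * nrm v D < lev c * nrm v D :=
    mul_lt_mul_of_pos_right (lev_lt hcn) (zero_lt_iff.mpr hD)
  have h3D : nrm v ((3 : F) • D) = lev c * nrm v D := by rw [nrm_smul, h3]
  refine le_antisymm ?_ ?_
  · rw [← sub_add_cancel (r' ^ 3 - r ^ 3) ((3 : F) • D)]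
    exact nrm_add_le' (h.trans hlt.le) h3D.le
  · by_contra hcon
    have hle : nrm v ((3 : F) • D) < lev c * nrm v D := by
      rw [show (3 : F) • D = (r' ^ 3 - r ^ 3) - (r' ^ 3 - r ^ 3 - (3 : F) • D) by abel]
      exact (nrm_sub_le _ _).trans_lt (max_lt (not_le.mp hcon) (h.trans_lt hlt))
    exact hle.ne h3D

theorem Near.cube {r : Matrix (Fin 2) (Fin 2) F} (hr : Near v n r) : Near v (n + c) (r ^ 3) := by
  have := nrm_cube_sub h3 hcn Near.one hr
  rw [one_pow] at this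
  rw [Near, this, add_comm n c, ← lev_mul]
  exact mul_le_mul' le_rfl hr

theorem cube_injective {r r' : Matrix (Fin 2) (Fin 2) F} (hr : Near v n r) (hr' : Near v n r')
    (h : r' ^ 3 = r ^ 3) : r' = r := by
  have := nrm_cube_sub h3 hcn hr hr'
  rw [h, sub_self, nrm_zero, eq_comm, mul_eq_zero] at this
  exact sub_eq_zero.mp (nrm_eq_zero (this.resolve_left (lev_ne_zero c)).le)

omit h3 hcn

/-- The iteration converging to the cube root. -/
def rootSeq (w : Matrix (Fin 2) (Fin 2) F) : ℕ → Matrix (Fin 2) (Fin 2) F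
  | 0 => 1
  | k + 1 => rootSeq w k - (3 : F)⁻¹ • (rootSeq w k ^ 3 - w)

include h3 hcn

theorem rootSeq_spec {w : Matrix (Fin 2) (Fin 2) F} (hw : Near v (n + c) w) : ∀ k,
    Near v n (rootSeq w k) ∧ nrm v (rootSeq w k ^ 3 - w) ≤ lev (n + c + k) ∧
      nrm v (rootSeq w (k + 1) - rootSeq w k) ≤ lev (n + k) := by
  have h30 : (3 : F) ≠ 0 := fun h0 => lev_ne_zero c (by rw [← h3, h0, map_zero])
  have step : ∀ {r : Matrix (Fin 2) (Fin 2) F} {k : ℕ}, nrm v (r ^ 3 - w) ≤ lev (n + c + k) →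
      nrm v ((3 : F)⁻¹ • (r ^ 3 - w)) ≤ lev (n + k) := by
    intro r k hr
    rw [nrm_smul, map_inv₀, h3, inv_mul_le_iff₀ (zero_lt_iff.mpr (lev_ne_zero c)), lev_mul,
      show c + (n + k) = n + c + k by omega]
    exact hr
  intro k
  induction k with
  | zero =>
    have h0 : nrm v (rootSeq w 0 ^ 3 - w) ≤ lev (n + c + 0) := by
      rw [rootSeq, one_pow, nrm_sub_comm]; exact hw
    refine ⟨Near.one, h0, ?_⟩
    show nrm v (rootSeq w 0 - (3 : F)⁻¹ • (rootSeq w 0 ^ 3 - w) - rootSeq w 0) ≤ _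
    rw [sub_sub_cancel_left, nrm_neg]
    exact step h0
  | succ k ih =>
    obtain ⟨h1, h2, h3'⟩ := ih
    have hnew : Near v n (rootSeq w (k + 1)) := by
      rw [Near, ← sub_add_sub_cancel _ (rootSeq w k)]
      exact nrm_add_le' (h3'.trans (lev_le (Nat.le_add_right n k))) h1
    have hE : nrm v (rootSeq w (k + 1) ^ 3 - w) ≤ lev (n + c + (k + 1)) := by
      set D := rootSeq w (k + 1) - rootSeq w k with hD
      have hD3 : (3 : F) • D = -(rootSeq w k ^ 3 - w) := by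
        rw [hD, show rootSeq w (k + 1) = rootSeq w k - (3 : F)⁻¹ • (rootSeq w k ^ 3 - w) from rfl,
          sub_sub_cancel_left, smul_neg, smul_smul, mul_inv_cancel₀ h30, one_smul]
      have := nrm_cube_sub_le h1 hnew
      rw [← hD, hD3, show rootSeq w (k + 1) ^ 3 - rootSeq w k ^ 3 - -(rootSeq w k ^ 3 - w) =
        rootSeq w (k + 1) ^ 3 - w by abel] at this
      refine this.trans ((mul_le_mul' le_rfl h3').trans ?_)
      rw [lev_mul]
      exact lev_le (by omega)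
    refine ⟨hnew, hE, ?_⟩
    rw [show rootSeq w (k + 1 + 1) = rootSeq w (k + 1) -
      (3 : F)⁻¹ • (rootSeq w (k + 1) ^ 3 - w) from rfl, sub_sub_cancel_left, nrm_neg]
    exact step hE

variable {q : ℕ} (hloc : IsLocalVal v q)
include hloc

/-- Matrices of level `n + c` have cube roots of level `n`. -/
theorem exists_cube_root {w : Matrix (Fin 2) (Fin 2) F} (hw : Near v (n + c) w) :
    ∃ r, Near v n r ∧ r ^ 3 = w ∧ ∀ k, nrm v (r - rootSeq w k) ≤ lev (n + k) := by
  obtain ⟨r, hr⟩ := hloc.exists_matrix_limit n (rootSeq w) fun k => (rootSeq_spec h3 hcn hw k).2.2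
  have hrn : Near v n r := by simpa [Near, rootSeq, lev] using hr 0
  refine ⟨r, hrn, ?_, hr⟩
  refine sub_eq_zero.mp (eq_zero_of_nrm_le_lev (v := v) (n + c) fun k => ?_)
  obtain ⟨h1, h2, -⟩ := rootSeq_spec h3 hcn hw k
  rw [← sub_add_sub_cancel (r ^ 3) (rootSeq w k ^ 3)]
  refine nrm_add_le' ?_ h2
  rw [nrm_cube_sub h3 hcn h1 hrn]
  refine (mul_le_mul' le_rfl (hr k)).trans ?_
  rw [show WithZero.exp (-((n + k : ℕ) : ℤ)) = lev (n + k) from rfl, lev_mul]
  exact lev_le (by omega)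

/-- Cube roots near one are compatible with conjugation by any invertible matrix. -/
theorem cube_root_conj {r r' : Matrix (Fin 2) (Fin 2) F} (hr : Near v n r) (hr' : Near v n r')
    (g : GL (Fin 2) F)
    (h : ((g⁻¹ : GL (Fin 2) F) : Matrix (Fin 2) (Fin 2) F) * r ^ 3 *
      (g : Matrix (Fin 2) (Fin 2) F) =
      r' ^ 3) :
    ((g⁻¹ : GL (Fin 2) F) : Matrix (Fin 2) (Fin 2) F) * r *
      (g : Matrix (Fin 2) (Fin 2) F) = r' := by
  set G := (g : Matrix (Fin 2) (Fin 2) F)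
  set Gi := ((g⁻¹ : GL (Fin 2) F) : Matrix (Fin 2) (Fin 2) F)
  have hGG : G * Gi = 1 := by rw [← Units.val_mul, mul_inv_cancel, Units.val_one]
  have hGiG : Gi * G = 1 := by rw [← Units.val_mul, inv_mul_cancel, Units.val_one]
  have hseq : ∀ k, Gi * rootSeq (r ^ 3) k * G = rootSeq (r' ^ 3) k := by
    intro k
    induction k with
    | zero => rw [rootSeq, rootSeq, Matrix.mul_one, hGiG]
    | succ k ih =>
      have h3k : Gi * rootSeq (r ^ 3) k ^ 3 * G = rootSeq (r' ^ 3) k ^ 3 := by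
        rw [← ih]; exact (Units.conj_pow' g _ 3).symm
      rw [rootSeq, rootSeq, Matrix.mul_sub, Matrix.sub_mul, ih, Matrix.mul_smul, Matrix.smul_mul,
        Matrix.mul_sub, Matrix.sub_mul, h3k, h]
  obtain ⟨s, hs, hs3, hsl⟩ := exists_cube_root h3 hcn hloc (hr.cube h3 hcn)
  obtain ⟨s', hs', hs3', hsl'⟩ := exists_cube_root h3 hcn hloc (hr'.cube h3 hcn)
  obtain rfl := cube_injective h3 hcn hs hr hs3.symm
  obtain rfl := cube_injective h3 hcn hs' hr' hs3'.symm
  refine sub_eq_zero.mp (matrix_eq_zero_of_forall_le (v := v) fun k => ?_)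
  set C := nrm v Gi * nrm v G
  have hC : C ≠ 0 := mul_ne_zero (nrm_ne_zero _) (nrm_ne_zero _)
  obtain ⟨d, hd⟩ : ∃ d : ℕ, C ≤ WithZero.exp (d : ℤ) :=
    ⟨(WithZero.log C).toNat, by
      conv_lhs => rw [← WithZero.exp_log hC]
      rw [WithZero.exp_le_exp]; exact Int.self_le_toNat _⟩
  rw [← sub_add_sub_cancel (Gi * r * G) (Gi * rootSeq (r ^ 3) (d + k) * G), hseq (d + k)]
  refine nrm_add_le' ?_ ?_
  · rw [← hseq (d + k), ← Matrix.sub_mul, ← Matrix.mul_sub]
    refine (nrm_mul_le _ _).trans ((mul_le_mul' (nrm_mul_le _ _) le_rfl).trans ?_)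
    rw [mul_right_comm]
    refine (mul_le_mul' hd (hsl (d + k))).trans ?_
    rw [lev, ← WithZero.exp_add, WithZero.exp_le_exp]
    push_cast
    omega
  · rw [nrm_sub_comm]
    exact (hsl' (d + k)).trans (lev_le (by omega))

end Cube

end Fermat.Agent.ResidualThree.Tree
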