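import Mathlib
import Fermat.Agent.ResidualThree.Tree.Action
import Fermat.Agent.ResidualThree.Tree.CongBasic

/-!
# Twisted classes in deep congruence subgroups contain fixed elements

For a cubic extension with three of valuation `c` and `c < n`, every element of level `n + c` is
a twisted conjugate by level `n` of an element of the ground field (`exists_descent`), by
successive approximation; no assumption on ramification is needed.
-/

noncomputable section

open Matrix
open scoped WithZero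

namespace Fermat.Agent.ResidualThree.Tree

/-- A cubic cyclic extension of local fields, ramified or not, with `|3| = exp (-c)` upstairs. -/
structure IsCubicLevel {K L : Type*} [Field K] [Field L] [Algebra K L] (vL : Valuation L ℤᵐ⁰)
    (σ : L ≃ₐ[K] L) (q c : ℕ) : Prop where
  localL : IsLocalVal vL q
  v_sigma : ∀ x, vL (σ x) = vL x
  sigma_cube : ∀ x, σ (σ (σ x)) = x
  fixed : ∀ x, σ x = x → x ∈ Set.range (algebraMap K L)
  ne_id : ∃ x, σ x ≠ x
  v_three : vL 3 = lev c

variable {K L : Type*} [Field K] [Field L] [Algebra K L] {vL : Valuation L ℤᵐ⁰} {σ : L ≃ₐ[K] L}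
  {q c n : ℕ} (h : IsCubicLevel vL σ q c)

include h

theorem IsCubicLevel.three_ne_zero : (3 : L) ≠ 0 := fun h0 =>
  lev_ne_zero c (by rw [← h.v_three, h0, map_zero])

theorem IsCubicLevel.nrm_sigma (A : Matrix (Fin 2) (Fin 2) L) : nrm vL (A.map σ) = nrm vL A :=
  nrm_map (σ : L →+* L) h.v_sigma A

theorem IsCubicLevel.sigmaGL_cube (g : GL (Fin 2) L) :
    sigmaGL σ (sigmaGL σ (sigmaGL σ g)) = g := by
  refine Units.ext (Matrix.ext fun i j => ?_)
  simp [h.sigma_cube]

theorem IsCubicLevel.sigmaGL_mem_congGL {g : GL (Fin 2) L} (hg : g ∈ congGL vL n) :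
    sigmaGL σ g ∈ congGL vL n :=
  ⟨(glMap_mem_intGL (σ : L →+* L) h.v_sigma).mpr hg.1, hg.2.map (σ : L →+* L) h.v_sigma⟩

theorem IsCubicLevel.sigmaGL_mem_congZ {g : GL (Fin 2) L} (hg : g ∈ congZ vL n) :
    sigmaGL σ g ∈ congZ vL n := by
  obtain ⟨s, k, hk, rfl⟩ := mem_congZ.mp hg
  refine mem_congZ.mpr ⟨Units.map (σ : L →+* L).toMonoidHom s, _, h.sigmaGL_mem_congGL hk, ?_⟩
  rw [map_mul]
  exact congrArg (· * _) (glMap_scalar (σ : L →+* L) s)

theorem IsCubicLevel.exists_embGL {g : GL (Fin 2) L} (hg : sigmaGL σ g = g) :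
    ∃ g₀ : GL (Fin 2) K, embGL K L g₀ = g :=
  exists_embGL_of_fixed h.fixed hg

/-- Splitting a matrix into a fixed part and `σ y - y`, losing at most `|3|`. -/
theorem IsCubicLevel.exists_split {m : ℕ} (X : Matrix (Fin 2) (Fin 2) L)
    (hX : nrm vL X ≤ lev (m + c)) :
    ∃ A y : Matrix (Fin 2) (Fin 2) L, nrm vL A ≤ lev m ∧ nrm vL y ≤ lev m ∧ A.map σ = A ∧
      y.map σ - y = X - A := by
  have h30 := h.three_ne_zero
  have hsm : ∀ Y : Matrix (Fin 2) (Fin 2) L, nrm vL Y ≤ lev (m + c) →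
      nrm vL ((3 : L)⁻¹ • Y) ≤ lev m := fun Y hY => by
    rw [nrm_smul, map_inv₀, h.v_three, inv_mul_le_iff₀ (zero_lt_iff.mpr (lev_ne_zero c)), lev_mul,
      add_comm c m]
    exact hY
  have hσ : ∀ {Y : Matrix (Fin 2) (Fin 2) L}, nrm vL Y ≤ lev (m + c) →
      nrm vL (Y.map σ) ≤ lev (m + c) := fun hY => by rwa [h.nrm_sigma]
  refine ⟨(3 : L)⁻¹ • (X + X.map σ + (X.map σ).map σ), (3 : L)⁻¹ • -(X + X + X.map σ), hsm _ ?_,
    hsm _ ?_, ?_, ?_⟩
  · exact nrm_add_le' (nrm_add_le' hX (hσ hX)) (hσ (hσ hX))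
  · rw [nrm_neg]; exact nrm_add_le' (nrm_add_le' hX hX) (hσ hX)
  · ext i j
    simp [h.sigma_cube, map_ofNat]
    ring
  · ext i j
    simp [map_ofNat]
    field_simp
    ring

/-- One step of the successive approximation. -/
theorem IsCubicLevel.descent_step (hcn : c < n) {j a u : Matrix (Fin 2) (Fin 2) L} {k : ℕ}
    (ha : Near vL n a) (hu : Near vL n u) (huσ : u.map σ = u)
    (hE : nrm vL (a * j - u * a.map σ) ≤ lev (n + c + k)) :
    ∃ a' u', Near vL n a' ∧ Near vL n u' ∧ u'.map σ = u' ∧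
      nrm vL (a' - a) ≤ lev (n + k) ∧ nrm vL (u' - u) ≤ lev (n + k) ∧
      nrm vL (a' * j - u' * a'.map σ) ≤ lev (n + c + (k + 1)) := by
  have hn : 1 ≤ n := by omega
  have haσ : Near vL n (a.map σ) := ha.map (σ : L →+* L) h.v_sigma
  set b : GL (Fin 2) L := Matrix.GeneralLinearGroup.mkOfDetNeZero (a.map σ) fun h0 => by
    have := haσ.det hn
    rw [h0, map_zero] at this
    exact zero_ne_one this
  have hb : b ∈ intGL vL := (mem_congGL_of_near hn (g := b) haσ).1
  set E := a * j - u * a.map σ with hEdef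
  set X := E * ((b⁻¹ : GL (Fin 2) L) : Matrix (Fin 2) (Fin 2) L)
  have hXb : X * a.map σ = E := by
    show E * _ * (b : Matrix (Fin 2) (Fin 2) L) = E
    rw [Matrix.mul_assoc, ← Units.val_mul, inv_mul_cancel, Units.val_one, Matrix.mul_one]
  have hX : nrm vL X ≤ lev (n + k + c) := by
    rw [nrm_mul_right (inv_mem hb), show n + k + c = n + c + k by omega]; exact hE
  obtain ⟨A, z, hA, hz, hAσ, hzA⟩ := h.exists_split X hX
  have hle : lev (n + k) ≤ lev n := lev_le (Nat.le_add_right n k)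
  refine ⟨(1 + z) * a, u + A, ?_, ?_, ?_, ?_, ?_, ?_⟩
  · refine Near.mul (show nrm vL (1 + z - 1) ≤ lev n by
      rw [add_sub_cancel_left]; exact hz.trans hle) ha
  · show nrm vL (u + A - 1) ≤ lev n
    rw [add_sub_right_comm]
    exact nrm_add_le' hu (hA.trans hle)
  · rw [Matrix.map_add _ (map_add σ), huσ, hAσ]
  · rw [show (1 + z) * a - a = z * a by rw [Matrix.add_mul, Matrix.one_mul, add_sub_cancel_left]]
    exact (nrm_mul_le' hz ha.nrm_le_one).trans (by rw [mul_one])
  · rwa [add_sub_cancel_left]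
  · have hmap : ((1 + z) * a).map σ = (1 + z.map σ) * a.map σ := by
      rw [Matrix.map_mul, Matrix.map_add _ (map_add σ), Matrix.map_one _ (map_zero σ) (map_one σ)]
    have e : (1 + z) * a * j - (u + A) * ((1 + z) * a).map σ =
        (z * (u - 1) - (u - 1) * z.map σ - A * z.map σ) * a.map σ + z * E := by
      rw [hmap, Matrix.mul_assoc (1 + z) a j,
        show a * j = u * a.map σ + E by rw [hEdef, add_sub_cancel]]
      have hS : z.map σ = z + (X - A) := by rw [← hzA, add_sub_cancel]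
      rw [hS]
      simp only [Matrix.mul_add, Matrix.add_mul, Matrix.mul_sub, Matrix.sub_mul, Matrix.one_mul,
        Matrix.mul_one, Matrix.mul_assoc, hXb]
      abel
    rw [e]
    have hzσ : nrm vL (z.map σ) ≤ lev (n + k) := by rwa [h.nrm_sigma]
    have hlt : lev (n + k) * lev n ≤ lev (n + c + (k + 1)) := by
      rw [lev_mul]; exact lev_le (by omega)
    refine nrm_add_le' ((nrm_mul_le' (nrm_sub_le' (nrm_sub_le' ?_ ?_) ?_) haσ.nrm_le_one).trans
      (by rw [mul_one])) ?_
    · exact (nrm_mul_le' hz hu).trans hlt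
    · exact (nrm_mul_le' hu hzσ).trans (by rw [mul_comm]; exact hlt)
    · refine (nrm_mul_le' hA hzσ).trans ?_
      rw [lev_mul]; exact lev_le (by omega)
    · refine (nrm_mul_le' hz hE).trans ?_
      rw [lev_mul]; exact lev_le (by omega)

/-- An element of a deep congruence subgroup is twisted conjugate to a fixed one. -/
theorem IsCubicLevel.exists_descent (hcn : c < n) {j : GL (Fin 2) L}
    (hj : j ∈ congGL vL (n + c)) :
    ∃ (a : GL (Fin 2) L) (u : GL (Fin 2) K), a ∈ congGL vL n ∧ embGL K L u ∈ congGL vL n ∧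
      j = a⁻¹ * embGL K L u * sigmaGL σ a := by
  classical
  have hn : 1 ≤ n := by omega
  let Good : ℕ → Matrix (Fin 2) (Fin 2) L × Matrix (Fin 2) (Fin 2) L → Prop := fun k p =>
    Near vL n p.1 ∧ Near vL n p.2 ∧ p.2.map σ = p.2 ∧
      nrm vL (p.1 * (j : Matrix (Fin 2) (Fin 2) L) - p.2 * p.1.map σ) ≤ lev (n + c + k)
  have hstep : ∀ k p, Good k p → ∃ p', Good (k + 1) p' ∧
      nrm vL (p'.1 - p.1) ≤ lev (n + k) ∧ nrm vL (p'.2 - p.2) ≤ lev (n + k) := fun k p hp => by
    obtain ⟨a', u', h1, h2, h3, h4, h5, h6⟩ := h.descent_step hcn hp.1 hp.2.1 hp.2.2.1 hp.2.2.2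
    exact ⟨(a', u'), ⟨h1, h2, h3, h6⟩, h4, h5⟩
  have h0 : Good 0 (1, 1) := by
    refine ⟨Near.one, Near.one, Matrix.map_one _ (map_zero σ) (map_one σ), ?_⟩
    rw [Matrix.map_one _ (map_zero σ) (map_one σ), Matrix.one_mul, Matrix.mul_one]
    exact hj.2
  let seq : (k : ℕ) → {p // Good k p} := fun k => by
    induction k with
    | zero => exact ⟨_, h0⟩
    | succ k ih => exact ⟨(hstep k ih.1 ih.2).choose, (hstep k ih.1 ih.2).choose_spec.1⟩
  have hseq : ∀ k, nrm vL ((seq (k + 1)).1.1 - (seq k).1.1) ≤ lev (n + k) ∧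
      nrm vL ((seq (k + 1)).1.2 - (seq k).1.2) ≤ lev (n + k) := fun k =>
    (hstep k (seq k).1 (seq k).2).choose_spec.2
  obtain ⟨A, hA⟩ := h.localL.exists_matrix_limit n (fun k => (seq k).1.1) fun k => (hseq k).1
  obtain ⟨U, hU⟩ := h.localL.exists_matrix_limit n (fun k => (seq k).1.2) fun k => (hseq k).2
  have hAn : Near vL n A := by simpa [Near, lev, seq] using hA 0
  have hUn : Near vL n U := by simpa [Near, lev, seq] using hU 0
  have hUσ : U.map σ = U := sub_eq_zero.mp (eq_zero_of_nrm_le_lev (v := vL) n fun k => by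
    rw [show U.map σ - U = (U - (seq k).1.2).map σ - (U - (seq k).1.2) by
      rw [Matrix.map_sub _ (map_sub σ), (seq k).2.2.2.1]; abel]
    exact nrm_sub_le' (by rw [h.nrm_sigma]; exact hU k) (hU k))
  have heq : A * (j : Matrix (Fin 2) (Fin 2) L) = U * A.map σ :=
    sub_eq_zero.mp (eq_zero_of_nrm_le_lev (v := vL) n fun k => by
      set a := (seq k).1.1
      set u := (seq k).1.2
      rw [show A * (j : Matrix (Fin 2) (Fin 2) L) - U * A.map σ =
        (A - a) * (j : Matrix (Fin 2) (Fin 2) L) +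
          (a * (j : Matrix (Fin 2) (Fin 2) L) - u * a.map σ) -
          ((U - u) * A.map σ + u * (A - a).map σ) by
        rw [Matrix.map_sub _ (map_sub σ), Matrix.sub_mul, Matrix.sub_mul, Matrix.mul_sub]; abel]
      refine nrm_sub_le' (nrm_add_le' ?_ ((seq k).2.2.2.2.trans (lev_le (by omega))))
        (nrm_add_le' ?_ ?_)
      · exact (nrm_mul_le' (hA k) hj.2.nrm_le_one).trans (by rw [mul_one]; rfl)
      · exact (nrm_mul_le' (hU k) (hAn.map (σ : L →+* L) h.v_sigma).nrm_le_one).trans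
          (by rw [mul_one]; rfl)
      · refine (nrm_mul_le' (seq k).2.2.1.nrm_le_one (b := lev (n + k)) ?_).trans (by rw [one_mul])
        rw [h.nrm_sigma]; exact hA k)
  let aG : GL (Fin 2) L := Matrix.GeneralLinearGroup.mkOfDetNeZero A fun h0 => by
    have := hAn.det hn; rw [h0, map_zero] at this; exact zero_ne_one this
  let uG : GL (Fin 2) L := Matrix.GeneralLinearGroup.mkOfDetNeZero U fun h0 => by
    have := hUn.det hn; rw [h0, map_zero] at this; exact zero_ne_one this
  obtain ⟨u, hu⟩ := h.exists_embGL (g := uG) (Units.ext hUσ)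
  refine ⟨aG, u, mem_congGL_of_near hn hAn, ?_, ?_⟩
  · rw [hu]; exact mem_congGL_of_near hn hUn
  · rw [hu, mul_assoc, eq_inv_mul_iff_mul_eq]
    exact Units.ext heq

end Fermat.Agent.ResidualThree.Tree
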