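import Mathlib
import Fermat.Agent.ResidualThree.Orbital.Classes
import Fermat.Agent.ResidualThree.Tree.CongDescent

/-!
# Local matching at level places

The twisted orbital counts of a congruence subgroup upstairs are the orbital values of an
explicit class function on cubes downstairs (`cubeWeight`), with no assumption on ramification:
`IsCubicLevel.exists_congMatch`.  The general steps (twisting up to scalars, cubes of twisted
conjugates, descent of centralisers) are separate lemmas, also used at the tame places.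
-/

noncomputable section

open Matrix
open scoped WithZero

namespace Fermat.Agent.ResidualThree.Tree

variable {K L : Type*} [Field K] [Field L] [Algebra K L] {vL : Valuation L ℤᵐ⁰} {σ : L ≃ₐ[K] L}
  {q c n : ℕ}

/-- A scalar of the ground field as a scalar upstairs. -/
theorem embGL_scalar (s : Kˣ) : embGL K L (Matrix.GeneralLinearGroup.scalar (Fin 2) s) =
    Matrix.GeneralLinearGroup.scalar (Fin 2) (Units.map (algebraMap K L).toMonoidHom s) :=
  glMap_scalar (algebraMap K L) s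

theorem scalar_mul_mem_congZ_iff {F : Type*} [Field F] {v : Valuation F ℤᵐ⁰} {k : ℕ} (s : Fˣ)
    {g : GL (Fin 2) F} :
    Matrix.GeneralLinearGroup.scalar (Fin 2) s * g ∈ congZ v k ↔ g ∈ congZ v k :=
  Subgroup.mul_mem_cancel_left _ (scalar_mem_congZ s k)

theorem scalar_mul_mul {F : Type*} [Field F] (a b : Fˣ) (x y : GL (Fin 2) F) :
    Matrix.GeneralLinearGroup.scalar (Fin 2) a * x *
      (Matrix.GeneralLinearGroup.scalar (Fin 2) b * y) =
      Matrix.GeneralLinearGroup.scalar (Fin 2) (a * b) * (x * y) := by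
  rw [mul_assoc, mul_scalar_mul, ← mul_assoc, ← map_mul]

/-- A twisted conjugate `(x a⁻¹)⁻¹ w S (x a⁻¹)` when `x⁻¹ w S x` is a twisted conjugate of `u`
by `a` up to a scalar. -/
theorem twist_mul_inv {F : Type*} [Field F] (S : GL (Fin 2) F →* GL (Fin 2) F) (r : Fˣ)
    {x w a u : GL (Fin 2) F}
    (e : x⁻¹ * w * S x = Matrix.GeneralLinearGroup.scalar (Fin 2) r * (a⁻¹ * u * S a)) :
    (x * a⁻¹)⁻¹ * w * S (x * a⁻¹) = Matrix.GeneralLinearGroup.scalar (Fin 2) r * u := by
  rw [_root_.mul_inv_rev, inv_inv, map_mul, map_inv,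
    show a * x⁻¹ * w * (S x * (S a)⁻¹) = a * (x⁻¹ * w * S x) * (S a)⁻¹ by group, e,
    mul_scalar_mul, mul_assoc (Matrix.GeneralLinearGroup.scalar (Fin 2) r)]
  group

/-- Comparing a twisted conjugation with a plain one: the twisting is by a scalar. -/
theorem twist_eq_scalar_mul {F : Type*} [Field F] {g g' u u' : GL (Fin 2) F} {r ρ : Fˣ}
    (e : g⁻¹ * u * g' = Matrix.GeneralLinearGroup.scalar (Fin 2) r * u')
    (hρ : g⁻¹ * u * g = Matrix.GeneralLinearGroup.scalar (Fin 2) ρ * u') :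
    g' = Matrix.GeneralLinearGroup.scalar (Fin 2) (r * ρ⁻¹) * g := by
  refine mul_left_cancel (a := g⁻¹ * u) ?_
  rw [e, mul_scalar_mul, hρ, map_mul, map_inv, mul_assoc, inv_mul_cancel_left]

theorem conj_cube {G : Type*} [Group G] (g a : G) : (g⁻¹ * a * g) ^ 3 = g⁻¹ * a ^ 3 * g := by
  simp [pow_three, mul_assoc]

theorem scalar_mul_pow {F : Type*} [Field F] (s : Fˣ) (a : GL (Fin 2) F) (m : ℕ) :
    (Matrix.GeneralLinearGroup.scalar (Fin 2) s * a) ^ m =
      Matrix.GeneralLinearGroup.scalar (Fin 2) (s ^ m) * a ^ m := by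
  have hc : Commute (Matrix.GeneralLinearGroup.scalar (Fin 2) s) a :=
    Matrix.GeneralLinearGroup.scalar_commute s a
  rw [hc.mul_pow, map_pow]

/-- The automorphism on scalar matrices. -/
theorem sigmaGL_scalar (σ : L ≃ₐ[K] L) (s : Lˣ) :
    sigmaGL σ (Matrix.GeneralLinearGroup.scalar (Fin 2) s) =
      Matrix.GeneralLinearGroup.scalar (Fin 2) (Units.map (σ : L →+* L).toMonoidHom s) :=
  glMap_scalar _ s

variable (h : IsCubicLevel vL σ q c)

/-- The automorphism as a `CubicAut`. -/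
def IsCubicLevel.cubicAut : Orbital.CubicAut K L where
  σ := σ
  pow_three := h.sigma_cube
  fixed := h.fixed
  ne_id := h.ne_id

/-- The classes of level `m` moved inside themselves by `δσ`. -/
def twistSet (vL : Valuation L ℤᵐ⁰) (σ : L ≃ₐ[K] L) (δ : GL (Fin 2) L) (m : ℕ) :
    Set (GL (Fin 2) L ⧸ congZ vL m) :=
  {x | x.out⁻¹ * δ * sigmaGL σ x.out ∈ congZ vL m}

/-- The classes of level `m` in the subgroup of level `n` moved inside themselves by `wσ`. -/
def descentSet (vL : Valuation L ℤᵐ⁰) (σ : L ≃ₐ[K] L) (n m : ℕ) (w : GL (Fin 2) L) :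
    Set (GL (Fin 2) L ⧸ congZ vL m) :=
  {x | ∃ a ∈ congZ vL n, (QuotientGroup.mk a : GL (Fin 2) L ⧸ congZ vL m) = x ∧
    a⁻¹ * w * sigmaGL σ a ∈ congZ vL m}

/-- The ground field part of the subgroup of level `n`. -/
def levelBase (vL : Valuation L ℤᵐ⁰) (n : ℕ) : Subgroup (GL (Fin 2) K) :=
  (congZ vL n).comap (embGL K L)

open Classical in
/-- The function downstairs matching the indicator of the subgroup of level `n + c` upstairs. -/
def cubeWeight (vL : Valuation L ℤᵐ⁰) (σ : L ≃ₐ[K] L) (n c : ℕ) (g : GL (Fin 2) K) : ℂ :=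
  if hg : ∃ v : GL (Fin 2) K, embGL K L v ∈ congZ vL n ∧
      ∃ s : Kˣ, v ^ 3 = Matrix.GeneralLinearGroup.scalar (Fin 2) s * g
  then ((descentSet vL σ n (n + c) (embGL K L hg.choose)).ncard : ℂ) else 0

theorem descentSet_scalar (m : ℕ) (s : Lˣ) (w : GL (Fin 2) L) :
    descentSet vL σ n m (Matrix.GeneralLinearGroup.scalar (Fin 2) s * w) =
      descentSet vL σ n m w := by
  ext x
  refine exists_congr fun a => and_congr_right fun _ => and_congr_right fun _ => ?_
  rw [mul_scalar_mul, mul_assoc (Matrix.GeneralLinearGroup.scalar (Fin 2) s),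
    scalar_mul_mem_congZ_iff]

include h

theorem IsCubicLevel.normGL_conj (t δ : GL (Fin 2) L) :
    (t⁻¹ * δ * sigmaGL σ t) * sigmaGL σ (t⁻¹ * δ * sigmaGL σ t) *
        sigmaGL σ (sigmaGL σ (t⁻¹ * δ * sigmaGL σ t)) =
      t⁻¹ * (δ * sigmaGL σ δ * sigmaGL σ (sigmaGL σ δ)) * t := by
  simp only [map_mul, map_inv, h.sigmaGL_cube, mul_assoc, mul_inv_cancel_left]

omit h in
theorem norm_embGL (σ : L ≃ₐ[K] L) (v : GL (Fin 2) K) :
    embGL K L v * sigmaGL σ (embGL K L v) * sigmaGL σ (sigmaGL σ (embGL K L v)) =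
      embGL K L (v ^ 3) := by
  rw [sigmaGL_embGL, sigmaGL_embGL, pow_three', map_mul, map_mul]

theorem IsCubicLevel.twistSet_mk (δ g : GL (Fin 2) L) (m : ℕ) :
    (QuotientGroup.mk g : GL (Fin 2) L ⧸ congZ vL m) ∈ twistSet vL σ δ m ↔
      g⁻¹ * δ * sigmaGL σ g ∈ congZ vL m := by
  obtain ⟨k, hk⟩ := QuotientGroup.mk_out_eq_mul (congZ vL m) g
  show (QuotientGroup.mk g : GL (Fin 2) L ⧸ congZ vL m).out⁻¹ * δ *
    sigmaGL σ (QuotientGroup.mk g : GL (Fin 2) L ⧸ congZ vL m).out ∈ congZ vL m ↔ _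
  rw [hk, map_mul, show (g * (k : GL (Fin 2) L))⁻¹ * δ * (sigmaGL σ g *
    sigmaGL σ (k : GL (Fin 2) L)) =
    (k : GL (Fin 2) L)⁻¹ * (g⁻¹ * δ * sigmaGL σ g) * sigmaGL σ (k : GL (Fin 2) L) by group,
    Subgroup.mul_mem_cancel_right _ (h.sigmaGL_mem_congZ k.2),
    Subgroup.mul_mem_cancel_left _ (inv_mem k.2)]

/-- Cube roots near one are unique up to scalars, compatibly with conjugation. -/
theorem IsCubicLevel.cube_unique (hcn : c < n) {u u' : GL (Fin 2) L} (hu : u ∈ congZ vL n)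
    (hu' : u' ∈ congZ vL n) (g : GL (Fin 2) L) (l : Lˣ)
    (e : g⁻¹ * u ^ 3 * g = Matrix.GeneralLinearGroup.scalar (Fin 2) l * u' ^ 3) :
    ∃ r : Lˣ, g⁻¹ * u * g = Matrix.GeneralLinearGroup.scalar (Fin 2) r * u' := by
  obtain ⟨s, k, hk, rfl⟩ := mem_congZ.mp hu
  obtain ⟨s', k', hk', rfl⟩ := mem_congZ.mp hu'
  set m := (s ^ 3)⁻¹ * l * s' ^ 3 with hm
  have e' : g⁻¹ * k ^ 3 * g = Matrix.GeneralLinearGroup.scalar (Fin 2) m * k' ^ 3 := by
    rw [scalar_mul_pow, scalar_mul_pow, mul_scalar_mul,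
      mul_assoc (Matrix.GeneralLinearGroup.scalar (Fin 2) (s ^ 3)),
      ← eq_inv_mul_iff_mul_eq] at e
    rw [e, hm, map_mul, map_mul, map_inv, mul_assoc, mul_assoc]
  have hlev : c + 1 ≤ n := hcn
  have hc1 : c < c + 1 := Nat.lt_succ_self c
  have hk1 := hk.2.mono hlev
  have hk1' := hk'.2.mono hlev
  have hA := hk1.cube h.v_three hc1
  have hB := hk1'.cube h.v_three hc1
  set A := (k : Matrix (Fin 2) (Fin 2) L) ^ 3
  set B := (k' : Matrix (Fin 2) (Fin 2) L) ^ 3
  have eM : ((g⁻¹ : GL (Fin 2) L) : Matrix (Fin 2) (Fin 2) L) * A * (g : Matrix (Fin 2) (Fin 2) L) =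
      (m : L) • B := by
    have := congrArg Units.val e'
    rw [Units.val_mul, Units.val_mul, Units.val_pow_eq_pow_val, Units.val_mul, coe_scalar_eq_smul,
      Matrix.smul_mul, Matrix.one_mul, Units.val_pow_eq_pow_val] at this
    exact this
  -- the scalar is close to one
  have htr : vL (A.trace - 2) ≤ lev (c + 1 + c) ∧ vL (B.trace - 2) ≤ lev (c + 1 + c) := by
    have key : ∀ {X : Matrix (Fin 2) (Fin 2) L}, Near vL (c + 1 + c) X →
        vL (X.trace - 2) ≤ lev (c + 1 + c) := fun {X} hX => by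
      rw [show X.trace - 2 = (X - 1) 0 0 + (X - 1) 1 1 by simp [Matrix.trace_fin_two]; ring]
      exact vL.map_add_le ((le_nrm _ 0 0).trans hX) ((le_nrm _ 1 1).trans hX)
    exact ⟨key hA, key hB⟩
  have hdet : A.det = (m : L) ^ 2 * B.det := by
    have := congrArg Matrix.det eM
    rwa [Matrix.det_units_conj', Matrix.det_smul, Fintype.card_fin] at this
  have htrace : A.trace = (m : L) * B.trace := by
    have := congrArg Matrix.trace eM
    rwa [Matrix.trace_mul_cycle, ← Units.val_mul, mul_inv_cancel, Units.val_one, Matrix.one_mul,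
      Matrix.trace_smul, smul_eq_mul] at this
  have hvm : vL (m : L) = 1 := by
    have := congrArg vL hdet
    rw [hA.det (by omega), map_mul, hB.det (by omega), mul_one, map_pow] at this
    exact (pow_eq_one_iff.mp this.symm).resolve_right two_ne_zero
  have h2m : vL ((2 : L) * ((m : L) - 1)) ≤ lev (c + 1 + c) := by
    rw [show (2 : L) * ((m : L) - 1) = (A.trace - 2) - (m : L) * (B.trace - 2) by rw [htrace]; ring]
    refine vL.map_sub_le htr.1 ?_
    rw [map_mul, hvm, one_mul]; exact htr.2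
  have hsmall : vL ((m : L) - 1) ≤ lev (c + 1 + c) := by
    by_cases h2 : vL (2 : L) = 1
    · rwa [map_mul, h2, one_mul] at h2m
    · have h2' : vL (2 : L) < 1 := lt_of_le_of_ne (by
        rw [show (2 : L) = 1 + 1 by norm_num]
        exact vL.map_add_le (map_one vL).le (map_one vL).le) h2
      have h3 : vL (3 : L) = 1 := by
        rw [show (3 : L) = 2 + 1 by norm_num]
        have := vL.map_add_eq_of_lt_left (x := (1 : L)) (y := 2) (by rwa [map_one])
        rwa [map_one, add_comm] at this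
      obtain rfl : c = 0 := by
        have := h.v_three.symm.trans h3
        rw [lev, ← WithZero.exp_zero, WithZero.exp_inj] at this
        omega
      have hd1 : ∀ {X : Matrix (Fin 2) (Fin 2) L}, Near vL (0 + 1 + 0) X → vL (X.det - 1) < 1 := by
        intro X hX
        have h' : ∀ i j, vL ((X - 1) i j) < 1 := fun i j =>
          lt_one_iff_le_exp.mpr (by simpa [lev] using (le_nrm _ i j).trans hX)
        rw [show X.det - 1 = (X - 1) 0 0 * (X - 1) 1 1 + (X - 1) 0 0 +
            ((X - 1) 1 1 - (X - 1) 0 1 * (X - 1) 1 0) by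
          simp [Matrix.det_fin_two]; ring]
        have hmul : ∀ {a b : L}, vL a < 1 → vL b < 1 → vL (a * b) < 1 := fun ha hb => by
          rw [map_mul]; exact mul_lt_one_of_nonneg_of_lt_one_left zero_le ha hb.le
        exact vL.map_add_lt (vL.map_add_lt (hmul (h' 0 0) (h' 1 1)) (h' 0 0))
          (vL.map_sub_lt (h' 1 1) (hmul (h' 0 1) (h' 1 0)))
      have hsq : vL (((m : L) - 1) ^ 2) < 1 := by
        rw [show ((m : L) - 1) ^ 2 = (A.det - 1) - (m : L) ^ 2 * (B.det - 1) - 2 * ((m : L) - 1) by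
          rw [hdet]; ring]
        refine vL.map_sub_lt (vL.map_sub_lt (hd1 hA) ?_) ?_
        · rw [map_mul, map_pow, hvm, one_pow, one_mul]; exact hd1 hB
        · refine lt_of_le_of_lt h2m ?_
          rw [lev, ← WithZero.exp_zero, WithZero.exp_lt_exp]; norm_num
      rw [map_pow] at hsq
      have : vL ((m : L) - 1) < 1 := by
        by_contra hge
        exact absurd (one_le_pow₀ (n := 2) (not_lt.mp hge)) (not_le.mpr hsq)
      simpa [lev] using lt_one_iff_le_exp.mp this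
  -- its cube root is a scalar
  have hw : Near vL (c + 1 + c) ((m : L) • (1 : Matrix (Fin 2) (Fin 2) L)) := by
    rw [Near, show (m : L) • (1 : Matrix (Fin 2) (Fin 2) L) - 1 = ((m : L) - 1) • 1 by
      rw [sub_smul, one_smul], nrm_smul, nrm_one, mul_one]
    exact hsmall
  obtain ⟨R, hR, hR3, -⟩ := exists_cube_root h.v_three hc1 h.localL hw
  set RG : GL (Fin 2) L := Matrix.GeneralLinearGroup.mkOfDetNeZero R fun h0 => by
    have := hR.det (by omega); rw [h0, map_zero] at this; exact zero_ne_one this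
  have hRc : RG ∈ Subgroup.center (GL (Fin 2) L) := Subgroup.mem_center_iff.mpr fun x => by
    have := cube_root_conj h.v_three hc1 h.localL hR hR x (by
      rw [hR3, Matrix.mul_smul, Matrix.mul_one, Matrix.smul_mul, ← Units.val_mul, inv_mul_cancel,
        Units.val_one])
    refine (inv_mul_eq_iff_eq_mul.mp ?_).symm
    exact Units.ext (by rw [Units.val_mul, Units.val_mul, ← Matrix.mul_assoc]; exact this)
  rw [Matrix.GeneralLinearGroup.center_eq_range_scalar] at hRc
  obtain ⟨r, hr⟩ := hRc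
  have hfin := cube_root_conj h.v_three hc1 h.localL hk1 (hR.mul hk1') g (r' := R * k') (by
    rw [eM]
    have hcomm : Commute R (k' : Matrix (Fin 2) (Fin 2) L) := by
      have : RG * k' = k' * RG := by rw [← hr]; exact Matrix.GeneralLinearGroup.scalar_commute r k'
      exact congrArg Units.val this
    rw [hcomm.mul_pow, hR3, Matrix.smul_mul, Matrix.one_mul])
  refine ⟨s * r * s'⁻¹, ?_⟩
  rw [mul_scalar_mul, mul_assoc (Matrix.GeneralLinearGroup.scalar (Fin 2) s),
    show g⁻¹ * k * g = Matrix.GeneralLinearGroup.scalar (Fin 2) r * k' from Units.ext (by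
      rw [Units.val_mul, Units.val_mul, hr]; exact hfin), map_mul, map_mul, map_inv]
  simp only [mul_assoc, inv_mul_cancel_left]

/-- Taking norms in a twisted conjugacy over the ground field gives a conjugacy of cubes. -/
theorem IsCubicLevel.cube_of_conj {g : GL (Fin 2) L} {u u' : GL (Fin 2) K} {r : Lˣ}
    (e : g⁻¹ * embGL K L u * sigmaGL σ g =
      Matrix.GeneralLinearGroup.scalar (Fin 2) r * embGL K L u') :
    g⁻¹ * (embGL K L u) ^ 3 * g = Matrix.GeneralLinearGroup.scalar (Fin 2)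
      (r * Units.map (σ : L →+* L).toMonoidHom r *
        Units.map (σ : L →+* L).toMonoidHom (Units.map (σ : L →+* L).toMonoidHom r)) *
      (embGL K L u') ^ 3 := by
  have := h.normGL_conj g (embGL K L u)
  rw [norm_embGL, e, map_mul, map_mul, sigmaGL_embGL, sigmaGL_embGL, sigmaGL_scalar,
    sigmaGL_scalar, scalar_mul_mul, scalar_mul_mul, ← pow_three', map_pow] at this
  exact this.symm

/-- A twisted conjugacy between elements of level `n` comes from the ground field. -/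
theorem IsCubicLevel.exists_base_of_conj [Infinite K] (hcn : c < n)
    {u u' : GL (Fin 2) K} (hu : embGL K L u ∈ congZ vL n) (hu' : embGL K L u' ∈ congZ vL n)
    (g : GL (Fin 2) L) (r : Lˣ)
    (e : g⁻¹ * embGL K L u * sigmaGL σ g =
      Matrix.GeneralLinearGroup.scalar (Fin 2) r * embGL K L u') :
    ∃ (t : Lˣ) (g₀ : GL (Fin 2) K),
      g = Matrix.GeneralLinearGroup.scalar (Fin 2) t * embGL K L g₀ := by
  obtain ⟨ρ, hρ⟩ := h.cube_unique hcn hu hu' g _ (h.cube_of_conj e)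
  have hσg := twist_eq_scalar_mul e hρ
  set l := r * ρ⁻¹
  have hl : h.cubicAut.nm (l : L) = 1 := by
    have h3 := h.sigmaGL_cube g
    simp only [hσg, map_mul (sigmaGL σ), sigmaGL_scalar, ← mul_assoc] at h3
    rw [← map_mul, ← map_mul] at h3
    have h4 := mul_eq_right.mp h3
    have h5 := congrArg (fun x : GL (Fin 2) L => (x : Matrix (Fin 2) (Fin 2) L) 0 0) h4
    simp at h5
    show (l : L) * σ l * σ (σ l) = 1
    rw [← h5]; ring
  obtain ⟨x, hx, hxσ⟩ := h.cubicAut.exists_eq_div hl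
  set X := Units.mk0 x hx
  obtain ⟨g₀, hg₀⟩ := h.exists_embGL (g := Matrix.GeneralLinearGroup.scalar (Fin 2) X * g) (by
    rw [map_mul, sigmaGL_scalar, hσg, ← mul_assoc, ← map_mul]
    congr 2
    exact Units.ext (by rw [Units.val_mul, mul_comm]; exact hxσ))
  exact ⟨X⁻¹, g₀, by rw [hg₀, map_inv, inv_mul_cancel_left]⟩

omit h in
theorem descentSet_conj (σ : L ≃ₐ[K] L) {a₀ : GL (Fin 2) K} (ha : embGL K L a₀ ∈ congZ vL n)
    (w : GL (Fin 2) L) (m : ℕ) :
    descentSet vL σ n m ((embGL K L a₀)⁻¹ * w * embGL K L a₀) =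
      ((embGL K L a₀)⁻¹ • ·) '' descentSet vL σ n m w := by
  ext x
  constructor
  · rintro ⟨a, han, rfl, hm⟩
    refine ⟨_, ⟨embGL K L a₀ * a, mul_mem ha han, rfl, ?_⟩, ?_⟩
    · rw [map_mul, sigmaGL_embGL]
      convert hm using 1
      group
    · show (embGL K L a₀)⁻¹ • (QuotientGroup.mk (embGL K L a₀ * a) : GL (Fin 2) L ⧸ congZ vL m) = _
      rw [MulAction.Quotient.smul_mk, smul_eq_mul, inv_mul_cancel_left]
  · rintro ⟨_, ⟨a, han, rfl, hm⟩, rfl⟩
    refine ⟨(embGL K L a₀)⁻¹ * a, mul_mem (inv_mem ha) han, rfl, ?_⟩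
    rw [map_mul, map_inv, sigmaGL_embGL]
    convert hm using 1
    group

omit h in
theorem finite_digits {F : Type*} [Field F] {v : Valuation F ℤᵐ⁰} {q : ℕ} (hl : IsLocalVal v q) :
    ∀ m : ℕ, ∃ D : Set F, D.Finite ∧ ∀ x, v x ≤ 1 → ∃ d ∈ D, v (x - d) ≤ lev m
  | 0 => ⟨{0}, Set.finite_singleton 0, fun x hx => ⟨0, rfl, by
      rw [sub_zero, lev, Nat.cast_zero, neg_zero, WithZero.exp_zero]; exact hx⟩⟩
  | m + 1 => by
    obtain ⟨D, hD, hDs⟩ := finite_digits hl m
    obtain ⟨π, hπ⟩ := hl.exists_unif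
    have := hl.finite_residue
    let rep : IsLocalRing.ResidueField v.valuationSubring → F := fun r =>
      ((IsLocalRing.residue_surjective r).choose : v.valuationSubring)
    refine ⟨Set.image2 (fun d r => d + π ^ m * rep r) D Set.univ, hD.image2 _ Set.finite_univ,
      fun x hx => ?_⟩
    obtain ⟨d, hd, hdx⟩ := hDs x hx
    have hπ0 : π ≠ 0 := fun h0 => by rw [h0, map_zero] at hπ; exact WithZero.exp_ne_zero hπ.symm
    have hπm : v (π ^ m) = lev m := by rw [map_pow, hπ, ← WithZero.exp_nsmul]; simp [lev]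
    have hy : v ((x - d) / π ^ m) ≤ 1 := by
      rw [map_div₀, hπm, div_le_one₀ (zero_lt_iff.mpr (lev_ne_zero m))]; exact hdx
    set y : v.valuationSubring := ⟨(x - d) / π ^ m, hy⟩
    set r := IsLocalRing.residue _ y with hr
    refine ⟨d + π ^ m * rep r, Set.mem_image2_of_mem hd (Set.mem_univ r), ?_⟩
    have hlt : v ((y : F) - rep r) < 1 := by
      have hs := (IsLocalRing.residue_surjective r).choose_spec
      have h0 : IsLocalRing.residue _ (y - (IsLocalRing.residue_surjective r).choose) = 0 := by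
        rw [map_sub, hs, hr, sub_self]
      simpa using (residue_eq_zero_iff _).mp h0
    rw [show x - (d + π ^ m * rep r) = π ^ m * ((y : F) - rep r) by
      simp only [y]; field_simp; ring, map_mul, hπm, ← lev_mul m 1]
    exact mul_le_mul' le_rfl (by simpa [lev] using lt_one_iff_le_exp.mp hlt)

omit h in
/-- Only finitely many classes of level `m` meet the integral matrices. -/
theorem finite_image_intGL {F : Type*} [Field F] {v : Valuation F ℤᵐ⁰} {q : ℕ} (hl : IsLocalVal v q)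
    (m : ℕ) : (QuotientGroup.mk '' (intGL v : Set (GL (Fin 2) F)) :
      Set (GL (Fin 2) F ⧸ congZ v m)).Finite := by
  classical
  obtain ⟨D, hD, hDs⟩ := finite_digits hl m
  have := hD.to_subtype
  choose dig hdigD hdig using hDs
  set S : Set (GL (Fin 2) F ⧸ congZ v m) := QuotientGroup.mk '' (intGL v : Set (GL (Fin 2) F))
  choose rep hrep using fun x : S => x.2
  refine Finite.of_injective (α := S)
    (fun x i j => (⟨dig _ ((hrep x).1.1 i j), hdigD _ ((hrep x).1.1 i j)⟩ : D))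
    fun x y e => Subtype.ext ?_
  rw [← (hrep x).2, ← (hrep y).2, QuotientGroup.eq]
  refine congGL_le_congZ m ⟨mul_mem (inv_mem (hrep x).1) (hrep y).1, ?_⟩
  show nrm v _ ≤ lev m
  rw [Units.val_mul, show ((rep x)⁻¹ : GL (Fin 2) F).val * (rep y).val - 1 =
    ((rep x)⁻¹ : GL (Fin 2) F).val * ((rep y).val - (rep x).val) by
      rw [Matrix.mul_sub, ← Units.val_mul (rep x)⁻¹ (rep x), inv_mul_cancel, Units.val_one],
    nrm_mul_left (inv_mem (hrep x).1)]
  refine nrm_le_iff.mpr fun i j => ?_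
  have e' : dig _ ((hrep x).1.1 i j) = dig _ ((hrep y).1.1 i j) :=
    congrArg Subtype.val (congrFun (congrFun e i) j)
  rw [Matrix.sub_apply, ← sub_sub_sub_cancel_right _ _ (dig _ ((hrep x).1.1 i j))]
  refine v.map_sub_le ?_ (hdig _ _)
  rw [e']
  exact hdig _ _

theorem IsCubicLevel.finite_descentSet (n m : ℕ) (w : GL (Fin 2) L) :
    (descentSet vL σ n m w).Finite := by
  refine (finite_image_intGL h.localL m).subset ?_
  rintro x ⟨a, ha, rfl, -⟩
  obtain ⟨s, k, hk, rfl⟩ := mem_congZ.mp ha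
  refine ⟨k, hk.1, ?_⟩
  rw [Matrix.GeneralLinearGroup.scalar_commute,
    QuotientGroup.mk_mul_of_mem _ (scalar_mem_congZ s m)]

/-- If a twisted conjugate of `δ` is defined over the ground field up to a scalar, its cube is
conjugate to the norm `γ` of `δ` up to a scalar. -/
theorem IsCubicLevel.exists_conj_of_base [CharZero L] {γ : GL (Fin 2) K}
    (hγ : Orbital.CubicAut.NonScalar (γ : Matrix (Fin 2) (Fin 2) K)) {δ : GL (Fin 2) L} {c₀ : Lˣ}
    (hδ : δ * sigmaGL σ δ * sigmaGL σ (sigmaGL σ δ) =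
      Matrix.GeneralLinearGroup.scalar (Fin 2) c₀ * embGL K L γ)
    {z : GL (Fin 2) L} {r : Lˣ} {u : GL (Fin 2) K}
    (ez : z⁻¹ * δ * sigmaGL σ z = Matrix.GeneralLinearGroup.scalar (Fin 2) r * embGL K L u) :
    ∃ (a : Kˣ) (k : GL (Fin 2) K),
      u ^ 3 = Matrix.GeneralLinearGroup.scalar (Fin 2) a * (k * γ * k⁻¹) := by
  obtain ⟨a₁, k, k', ha₁, hkk, hu3⟩ := h.cubicAut.exists_conj_of_twisted
    (δ₁ := (δ : Matrix (Fin 2) (Fin 2) L)) (δ₂ := (embGL K L u : Matrix (Fin 2) (Fin 2) L))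
    (γ₁ := (γ : Matrix (Fin 2) (Fin 2) K))
    (γ₂ := ((u ^ 3 : GL (Fin 2) K) : Matrix (Fin 2) (Fin 2) K))
    (c₁ := (c₀ : L)) (c₂ := 1) δ.det_ne_zero (embGL K L u).det_ne_zero hγ
    (by
      show ((δ * sigmaGL σ δ * sigmaGL σ (sigmaGL σ δ) : GL (Fin 2) L) :
        Matrix (Fin 2) (Fin 2) L) = _
      rw [hδ, Units.val_mul, coe_scalar_eq_smul, Matrix.smul_mul, Matrix.one_mul, coe_embGL])
    (by
      show ((embGL K L u * sigmaGL σ (embGL K L u) * sigmaGL σ (sigmaGL σ (embGL K L u)) :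
        GL (Fin 2) L) : Matrix (Fin 2) (Fin 2) L) = _
      rw [norm_embGL, one_smul, coe_embGL])
    (g := ((z⁻¹ : GL (Fin 2) L) : Matrix (Fin 2) (Fin 2) L)) (h := (z : Matrix (Fin 2) (Fin 2) L))
    (by rw [← Units.val_mul, inv_mul_cancel, Units.val_one]) (μ := ((r⁻¹ : Lˣ) : L))
    (r⁻¹).ne_zero
    (by
      show _ = _ • ((z⁻¹ * δ * sigmaGL σ z : GL (Fin 2) L) : Matrix (Fin 2) (Fin 2) L)
      rw [ez, Units.val_mul, coe_scalar_eq_smul, Matrix.smul_mul, Matrix.one_mul, smul_smul,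
        ← Units.val_mul, inv_mul_cancel, Units.val_one, one_smul])
  refine ⟨Units.mk0 a₁ ha₁, ⟨k, k', hkk, mul_eq_one_comm.mp hkk⟩, Units.ext ?_⟩
  rw [hu3, Units.val_mul, coe_scalar_eq_smul, Matrix.smul_mul, Matrix.one_mul]; rfl

/-- If the norm `γ` of `δ` is a cube of `v` up to a scalar, then `δ` is a twisted conjugate of `v`
up to a scalar by an element commuting with `γ`. -/
theorem IsCubicLevel.exists_twist_of_cube [CharZero L] [Infinite K] {γ : GL (Fin 2) K}
    (hγ : Orbital.CubicAut.NonScalar (γ : Matrix (Fin 2) (Fin 2) K)) {δ : GL (Fin 2) L} {c₀ : Lˣ}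
    (hδ : δ * sigmaGL σ δ * sigmaGL σ (sigmaGL σ δ) =
      Matrix.GeneralLinearGroup.scalar (Fin 2) c₀ * embGL K L γ)
    {v : GL (Fin 2) K} {s₀ : Kˣ}
    (hv3 : v ^ 3 = Matrix.GeneralLinearGroup.scalar (Fin 2) s₀ * γ) :
    ∃ (t : GL (Fin 2) L) (μ : Lˣ), t * embGL K L γ = embGL K L γ * t ∧
      ∀ x : GL (Fin 2) L, x⁻¹ * δ * sigmaGL σ x = Matrix.GeneralLinearGroup.scalar (Fin 2) μ *
        ((t * x)⁻¹ * embGL K L v * sigmaGL σ (t * x)) := by
  have hnsv : Orbital.CubicAut.NonScalar ((v ^ 3 : GL (Fin 2) K) : Matrix (Fin 2) (Fin 2) K) :=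
    fun a ha => hγ ((s₀ : K)⁻¹ * a) (by
      rw [hv3, Units.val_mul, coe_scalar_eq_smul, Matrix.smul_mul, Matrix.one_mul] at ha
      rw [← smul_smul, ← ha, smul_smul, inv_mul_cancel₀ s₀.ne_zero, one_smul])
  obtain ⟨X, X', μ, hμ, hXX, hXc, hδv⟩ := h.cubicAut.exists_twisted_of_norm
    (δ₁ := (embGL K L v : Matrix (Fin 2) (Fin 2) L)) (δ₂ := (δ : Matrix (Fin 2) (Fin 2) L))
    (γ := ((v ^ 3 : GL (Fin 2) K) : Matrix (Fin 2) (Fin 2) K)) (c₁ := 1)
    (c₂ := (c₀ : L) * (algebraMap K L (s₀ : K))⁻¹)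
    (embGL K L v).det_ne_zero δ.det_ne_zero hnsv
    (by
      show ((embGL K L v * sigmaGL σ (embGL K L v) * sigmaGL σ (sigmaGL σ (embGL K L v)) :
        GL (Fin 2) L) : Matrix (Fin 2) (Fin 2) L) = _
      rw [norm_embGL, one_smul, coe_embGL])
    (by
      show ((δ * sigmaGL σ δ * sigmaGL σ (sigmaGL σ δ) : GL (Fin 2) L) :
        Matrix (Fin 2) (Fin 2) L) = _
      rw [hδ, ← coe_embGL (L := L) (v ^ 3), hv3, map_mul, embGL_scalar, Units.val_mul,
        coe_scalar_eq_smul, Units.val_mul, coe_scalar_eq_smul, Matrix.smul_mul, Matrix.one_mul,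
        Matrix.smul_mul, Matrix.one_mul, smul_smul]
      simp)
  let t : GL (Fin 2) L := ⟨X', X, mul_eq_one_comm.mp hXX, hXX⟩
  refine ⟨t, Units.mk0 μ hμ, ?_, fun x => ?_⟩
  · have h1 : t⁻¹ * embGL K L (v ^ 3) = embGL K L (v ^ 3) * t⁻¹ := Units.ext hXc.eq
    rw [hv3, map_mul, embGL_scalar, mul_scalar_mul, mul_assoc _ (embGL K L γ),
      mul_left_cancel_iff, inv_mul_eq_iff_eq_mul] at h1
    exact (eq_mul_inv_iff_mul_eq.mp (h1.trans (mul_assoc _ _ _).symm)).symm
  · have hδt : δ = Matrix.GeneralLinearGroup.scalar (Fin 2) (Units.mk0 μ hμ) *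
        (t⁻¹ * embGL K L v * sigmaGL σ t) := Units.ext (by
      rw [hδv, Units.val_mul, coe_scalar_eq_smul, Matrix.smul_mul, Matrix.one_mul]; rfl)
    rw [hδt, mul_scalar_mul, mul_assoc (Matrix.GeneralLinearGroup.scalar (Fin 2) _), map_mul]
    simp only [_root_.mul_inv_rev, mul_assoc]

variable [CharZero L] [Infinite K] (hcn : c < n)
include hcn

omit [CharZero L] [Infinite K] in
/-- The weight of a conjugate of a cube root. -/
theorem IsCubicLevel.cubeWeight_eq {u₀ : GL (Fin 2) K} (hu₀ : embGL K L u₀ ∈ congZ vL n)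
    (g : GL (Fin 2) K) (s : Kˣ) (x : GL (Fin 2) K)
    (e : (g⁻¹ * u₀ * g) ^ 3 = Matrix.GeneralLinearGroup.scalar (Fin 2) s * x) :
    cubeWeight vL σ n c x = ((descentSet vL σ n (n + c) (embGL K L (g⁻¹ * u₀ * g))).ncard : ℂ) := by
  have e' : g⁻¹ * u₀ ^ 3 * g = Matrix.GeneralLinearGroup.scalar (Fin 2) s * x := by
    rw [← e, conj_cube ]
  have key : ∀ (b : GL (Fin 2) L) (u : GL (Fin 2) L) (l : Lˣ), u ∈ congZ vL n →
      (embGL K L g * b)⁻¹ * embGL K L u₀ ^ 3 * (embGL K L g * b) =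
        Matrix.GeneralLinearGroup.scalar (Fin 2) l * u ^ 3 →
      ∃ ρ : Lˣ, embGL K L (g⁻¹ * u₀ * g) =
        b * (Matrix.GeneralLinearGroup.scalar (Fin 2) ρ * u) * b⁻¹ := by
    intro b u l hu he
    obtain ⟨ρ, hρ⟩ := h.cube_unique hcn hu₀ hu _ l he
    exact ⟨ρ, by rw [← hρ, map_mul, map_mul, map_inv]; group⟩
  unfold cubeWeight
  split_ifs with hg
  · obtain ⟨hv, s', hs'⟩ := hg.choose_spec
    generalize hg.choose = v at hv hs' ⊢
    obtain ⟨ρ, hρ⟩ := key 1 (embGL K L v) (Units.map (algebraMap K L).toMonoidHom (s * s'⁻¹)) hv (by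
      rw [mul_one, ← map_pow, ← map_pow, ← map_inv, ← map_mul, ← map_mul, e', hs', ← embGL_scalar,
        ← map_mul, map_mul _ s, map_inv]
      group)
    rw [hρ, one_mul, inv_one, mul_one, descentSet_scalar]
  · rw [eq_comm, Nat.cast_eq_zero, Set.ncard_eq_zero (h.finite_descentSet _ _ _),
      Set.eq_empty_iff_forall_notMem]
    rintro _ ⟨a, ha, -, hm⟩
    refine hg ⟨g⁻¹ * u₀ * g, ?_, s, e⟩
    obtain ⟨r, j, hj, ej⟩ := mem_congZ.mp hm
    obtain ⟨a', u', ha', hu', rfl⟩ := h.exists_descent hcn hj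
    set b := a * a'⁻¹
    have hb : b ∈ congZ vL n := mul_mem ha (inv_mem (congGL_le_congZ n ha'))
    have eb : b⁻¹ * embGL K L (g⁻¹ * u₀ * g) * sigmaGL σ b =
        Matrix.GeneralLinearGroup.scalar (Fin 2) r * embGL K L u' := twist_mul_inv _ r ej
    obtain ⟨ρ, hρ⟩ := key b (embGL K L u') _ (congGL_le_congZ n hu')
      (Eq.trans (by rw [map_mul, map_mul, map_inv, conj_cube]; group) (h.cube_of_conj eb))
    rw [hρ]
    exact mul_mem (mul_mem hb ((scalar_mul_mem_congZ_iff ρ).mpr (congGL_le_congZ n hu')))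
      (inv_mem hb)

omit [Infinite K] in
/-- A class moved inside itself by `δσ` yields, up to conjugation and scalars, a cube root of the
norm of `δ` near one. -/
theorem IsCubicLevel.exists_root_of_mem_twistSet {γ : GL (Fin 2) K}
    (hγ : Orbital.CubicAut.NonScalar (γ : Matrix (Fin 2) (Fin 2) K)) {δ : GL (Fin 2) L} {c₀ : Lˣ}
    (hδ : δ * sigmaGL σ δ * sigmaGL σ (sigmaGL σ δ) =
      Matrix.GeneralLinearGroup.scalar (Fin 2) c₀ * embGL K L γ)
    {x : GL (Fin 2) L ⧸ congZ vL (n + c)} (hx : x ∈ twistSet vL σ δ (n + c)) :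
    ∃ (v y₀ : GL (Fin 2) K) (s : Kˣ), embGL K L (y₀⁻¹ * v * y₀) ∈ congZ vL n ∧
      v ^ 3 = Matrix.GeneralLinearGroup.scalar (Fin 2) s * γ := by
  obtain ⟨r, j, hj, ej⟩ := mem_congZ.mp
    (show x.out⁻¹ * δ * sigmaGL σ x.out ∈ congZ vL (n + c) from hx)
  obtain ⟨a, u, ha, hu, rfl⟩ := h.exists_descent hcn hj
  obtain ⟨a₁, k, hu3⟩ := h.exists_conj_of_base hγ hδ (twist_mul_inv _ r ej)
  refine ⟨k⁻¹ * u * k, k⁻¹, a₁, ?_, ?_⟩
  · rw [show k⁻¹⁻¹ * (k⁻¹ * u * k) * k⁻¹ = u by group]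
    exact congGL_le_congZ n hu
  · rw [conj_cube, hu3, mul_scalar_mul,
      mul_assoc (Matrix.GeneralLinearGroup.scalar (Fin 2) _)]
    group

omit h hcn [CharZero L] [Infinite K] in
/-- A map to the classes of the ground field inverse to the translation by `t`. -/
theorem exists_baseClassMap (t : GL (Fin 2) L) :
    ∃ pL : GL (Fin 2) L ⧸ congZ vL (n + c) →
        GL (Fin 2) K ⧸ (levelBase vL n : Subgroup (GL (Fin 2) K)),
      ∀ (x : GL (Fin 2) L) (y : GL (Fin 2) K), (embGL K L y)⁻¹ * (t * x) ∈ congZ vL n →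
        pL (QuotientGroup.mk x) = QuotientGroup.mk y := by
  classical
  refine ⟨fun x => if hx : ∃ y : GL (Fin 2) K, (embGL K L y)⁻¹ * (t * x.out) ∈ congZ vL n
    then QuotientGroup.mk hx.choose else QuotientGroup.mk 1, fun x y hy => ?_⟩
  obtain ⟨k, hk⟩ := QuotientGroup.mk_out_eq_mul (congZ vL (n + c)) x
  have hy' : (embGL K L y)⁻¹ * (t * (QuotientGroup.mk x : GL (Fin 2) L ⧸ congZ vL (n + c)).out) ∈
      congZ vL n := by
    rw [hk, show (embGL K L y)⁻¹ * (t * (x * (k : GL (Fin 2) L))) =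
      (embGL K L y)⁻¹ * (t * x) * k by group]
    exact mul_mem hy (congZ_le (Nat.le_add_right n c) k.2)
  have hx : ∃ y : GL (Fin 2) K,
    (embGL K L y)⁻¹ * (t * (QuotientGroup.mk x : GL (Fin 2) L ⧸ congZ vL (n + c)).out) ∈
      congZ vL n := ⟨y, hy'⟩
  dsimp only
  rw [dif_pos hx, QuotientGroup.eq]
  show embGL K L (hx.choose⁻¹ * y) ∈ congZ vL n
  have := mul_mem hx.choose_spec (inv_mem hy')
  rw [show (embGL K L hx.choose)⁻¹ * (t * (QuotientGroup.mk x : GL (Fin 2) L ⧸ congZ vL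
    (n + c)).out)
    * ((embGL K L y)⁻¹ * (t * (QuotientGroup.mk x : GL (Fin 2) L ⧸ congZ vL (n + c)).out))⁻¹ =
      (embGL K L hx.choose)⁻¹ * embGL K L y by group, ← map_inv, ← map_mul] at this
  exact this

omit [CharZero L] in
/-- An element moved inside the level by a cube root near one comes from the ground field. -/
theorem IsCubicLevel.exists_base_of_twist {v y₀ : GL (Fin 2) K}
    (hv₀ : embGL K L (y₀⁻¹ * v * y₀) ∈ congZ vL n) {z : GL (Fin 2) L}
    (hz : z⁻¹ * embGL K L v * sigmaGL σ z ∈ congZ vL (n + c)) :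
    ∃ y : GL (Fin 2) K, (embGL K L y)⁻¹ * z ∈ congZ vL n := by
  obtain ⟨r, j, hj, ej⟩ := mem_congZ.mp hz
  obtain ⟨a, u, ha, hu, rfl⟩ := h.exists_descent hcn hj
  obtain ⟨T, g₀, hg⟩ := h.exists_base_of_conj hcn hv₀ (congGL_le_congZ n hu)
    ((embGL K L y₀)⁻¹ * z * a⁻¹) r (twist_mul_inv _ r (by
      rw [← ej, map_mul (sigmaGL σ) (embGL K L y₀)⁻¹, map_inv (sigmaGL σ), sigmaGL_embGL,
        map_mul (embGL K L), map_mul (embGL K L), map_inv (embGL K L)]
      group))
  refine ⟨y₀ * g₀, ?_⟩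
  rw [map_mul, show (embGL K L y₀ * embGL K L g₀)⁻¹ * z =
    (embGL K L g₀)⁻¹ * ((embGL K L y₀)⁻¹ * z * a⁻¹) * a by group, hg,
    mul_scalar_mul, inv_mul_cancel, mul_one]
  exact mul_mem (scalar_mem_congZ T n) (congGL_le_congZ n ha)

/-- **Matching at level places.** The fibres are counted by the weight by cube roots, and their
elements are twisted conjugates of the cube root up to scalars. -/
theorem IsCubicLevel.exists_congMatch {γ : GL (Fin 2) K}
    (hγ : Orbital.CubicAut.NonScalar (γ : Matrix (Fin 2) (Fin 2) K)) {δ : GL (Fin 2) L} {c₀ : Lˣ}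
    (hδ : δ * sigmaGL σ δ * sigmaGL σ (sigmaGL σ δ) =
      Matrix.GeneralLinearGroup.scalar (Fin 2) c₀ * embGL K L γ) :
    ∃ pL : GL (Fin 2) L ⧸ congZ vL (n + c) →
      GL (Fin 2) K ⧸ (levelBase vL n : Subgroup (GL (Fin 2) K)),
      (∀ g : GL (Fin 2) K, g * γ = γ * g → ∀ x ∈ twistSet vL σ δ (n + c),
        embGL K L g • x ∈ twistSet vL σ δ (n + c) ∧ pL (embGL K L g • x) = g • pL x) ∧
      ∀ y : GL (Fin 2) K, {x ∈ twistSet vL σ δ (n + c) | pL x = QuotientGroup.mk y}.Finite ∧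
        ({x ∈ twistSet vL σ δ (n + c) | pL x = QuotientGroup.mk y}.ncard : ℂ) =
          cubeWeight vL σ n c (y⁻¹ * γ * y) ∧
        ∀ x ∈ twistSet vL σ δ (n + c), pL x = QuotientGroup.mk y →
          ∃ (r : GL (Fin 2) K) (s : Kˣ) (m : Lˣ), ∃ a ∈ congZ vL n, embGL K L r ∈ congZ vL n ∧
            r ^ 3 = Matrix.GeneralLinearGroup.scalar (Fin 2) s * (y⁻¹ * γ * y) ∧
            x.out⁻¹ * δ * sigmaGL σ x.out =
              Matrix.GeneralLinearGroup.scalar (Fin 2) m *
                (a⁻¹ * embGL K L r * sigmaGL σ a) := by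
  classical
  by_cases hbase : ∃ (v y₀ : GL (Fin 2) K) (s : Kˣ), embGL K L (y₀⁻¹ * v * y₀) ∈ congZ vL n ∧
      v ^ 3 = Matrix.GeneralLinearGroup.scalar (Fin 2) s * γ
  swap
  · have hX : ∀ x, x ∉ twistSet vL σ δ (n + c) := fun x hx =>
      hbase (h.exists_root_of_mem_twistSet hcn hγ hδ hx)
    refine ⟨fun _ => QuotientGroup.mk 1, fun g _ x hx => (hX x hx).elim, fun y => ?_⟩
    rw [show {x ∈ twistSet vL σ δ (n + c) | _} = (∅ : Set (GL (Fin 2) L ⧸ congZ vL (n + c))) from
      Set.eq_empty_iff_forall_notMem.mpr fun x hx => hX x hx.1]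
    refine ⟨Set.finite_empty, ?_, fun x hx _ => (hX x hx).elim⟩
    rw [Set.ncard_empty, Nat.cast_zero, cubeWeight, dif_neg]
    rintro ⟨v, hv, s, hs⟩
    refine hbase ⟨y * v * y⁻¹, y, s, ?_, ?_⟩
    · rwa [show y⁻¹ * (y * v * y⁻¹) * y = v by group]
    · rw [conj_pow, hs, mul_scalar_mul, mul_assoc (Matrix.GeneralLinearGroup.scalar (Fin 2) s)]
      group
  obtain ⟨v, y₀, s₀, hv₀, hv3⟩ := hbase
  obtain ⟨t, μ, htγ, hδt⟩ := h.exists_twist_of_cube hγ hδ hv3
  have hmem : ∀ x : GL (Fin 2) L, (QuotientGroup.mk x : GL (Fin 2) L ⧸ congZ vL (n + c)) ∈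
      twistSet vL σ δ (n + c) ↔
        (t * x)⁻¹ * embGL K L v * sigmaGL σ (t * x) ∈ congZ vL (n + c) :=
    fun x => by rw [h.twistSet_mk, hδt, scalar_mul_mem_congZ_iff]
  have hdec : ∀ x : GL (Fin 2) L, (QuotientGroup.mk x : GL (Fin 2) L ⧸ congZ vL (n + c)) ∈
      twistSet vL σ δ (n + c) →
      ∃ y : GL (Fin 2) K, (embGL K L y)⁻¹ * (t * x) ∈ congZ vL n :=
    fun x hx => h.exists_base_of_twist hcn hv₀ ((hmem x).mp hx)
  obtain ⟨pL, huniq⟩ := exists_baseClassMap (K := K) (vL := vL) (c := c) (n := n) t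
  refine ⟨pL, fun g hg x hx => ?_, fun y => ?_⟩
  · induction x using QuotientGroup.induction_on with
    | H x =>
      have htg := commute_embGL hγ htγ hg
      have hδg : δ * embGL K L g = embGL K L g * δ := by
        refine commute_embGL hγ (Units.ext ?_) hg
        exact (h.cubicAut.commute_of_norm δ.det_ne_zero (c := (c₀ : L))
          (γ := (γ : Matrix (Fin 2) (Fin 2) K)) (by
            show ((δ * sigmaGL σ δ * sigmaGL σ (sigmaGL σ δ) : GL (Fin 2) L) :
              Matrix (Fin 2) (Fin 2) L) = _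
            rw [hδ, Units.val_mul, coe_scalar_eq_smul, Matrix.smul_mul, Matrix.one_mul,
              coe_embGL])).1.eq
      rw [MulAction.Quotient.smul_mk, smul_eq_mul]
      refine ⟨?_, ?_⟩
      · rw [h.twistSet_mk] at hx ⊢
        rw [map_mul, sigmaGL_embGL, _root_.mul_inv_rev,
          show x⁻¹ * (embGL K L g)⁻¹ * δ * (embGL K L g * sigmaGL σ x) =
            x⁻¹ * ((embGL K L g)⁻¹ * (δ * embGL K L g)) * sigmaGL σ x by group, hδg,
          inv_mul_cancel_left]
        exact hx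
      · obtain ⟨y, hy⟩ := hdec x hx
        rw [huniq x y hy, MulAction.Quotient.smul_mk, smul_eq_mul]
        refine huniq _ _ ?_
        rw [map_mul, ← mul_assoc t, htg]
        simpa [mul_assoc] using hy
  · have hset : {x ∈ twistSet vL σ δ (n + c) | pL x = QuotientGroup.mk y} =
        ((t⁻¹ * embGL K L y) • ·) '' descentSet vL σ n (n + c) (embGL K L (y⁻¹ * v * y)) := by
      ext x
      induction x using QuotientGroup.induction_on with
      | H x =>
        constructor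
        · rintro ⟨hx, hp⟩
          obtain ⟨y', hy'⟩ := hdec x hx
          rw [huniq x y' hy', QuotientGroup.eq] at hp
          set a := (embGL K L y)⁻¹ * (t * x) with hadef
          have ha : a ∈ congZ vL n := by
            have := mul_mem (inv_mem (show embGL K L (y'⁻¹ * y) ∈ congZ vL n from hp)) hy'
            rwa [map_mul, map_inv, show ((embGL K L y')⁻¹ * embGL K L y)⁻¹ *
              ((embGL K L y')⁻¹ * (t * x)) = a by rw [hadef]; group] at this
          refine ⟨QuotientGroup.mk a, ⟨a, ha, rfl, ?_⟩, ?_⟩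
          · have := (hmem x).mp hx
            rw [hadef, map_mul (sigmaGL σ), map_inv (sigmaGL σ), sigmaGL_embGL, map_mul (embGL K L),
              map_mul (embGL K L), map_inv]
            convert this using 1
            rw [map_mul]; group
          · show (t⁻¹ * embGL K L y) • (QuotientGroup.mk a : GL (Fin 2) L ⧸ congZ vL (n + c)) = _
            rw [MulAction.Quotient.smul_mk, smul_eq_mul, hadef]
            congr 1
            group
        · rintro ⟨_, ⟨a, ha, rfl, hm⟩, hax⟩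
          change (t⁻¹ * embGL K L y) • (QuotientGroup.mk a : GL (Fin 2) L ⧸ congZ vL (n + c))
            = _ at hax
          rw [← hax, MulAction.Quotient.smul_mk, smul_eq_mul]
          refine ⟨(hmem _).mpr ?_, huniq _ _ ?_⟩
          · rw [show t * (t⁻¹ * embGL K L y * a) = embGL K L y * a by group, map_mul (sigmaGL σ),
              sigmaGL_embGL]
            convert hm using 1
            rw [map_mul, map_mul, map_inv]; group
          · rw [show (embGL K L y)⁻¹ * (t * (t⁻¹ * embGL K L y * a)) = a by group]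
            exact ha
    have hroot : (y⁻¹ * v * y) ^ 3 =
        Matrix.GeneralLinearGroup.scalar (Fin 2) s₀ * (y⁻¹ * γ * y) := by
      rw [conj_cube, hv3, mul_scalar_mul, mul_assoc (Matrix.GeneralLinearGroup.scalar (Fin 2) s₀)]
    refine ⟨?_, ?_, fun x hx hp => ?_⟩
    · rw [hset]
      exact (h.finite_descentSet _ _ _).image _
    · rw [hset, Set.ncard_image_of_injective _ (MulAction.injective _),
        h.cubeWeight_eq hcn hv₀ (y₀⁻¹ * y) s₀ (y⁻¹ * γ * y) (by
          rw [show (y₀⁻¹ * y)⁻¹ * (y₀⁻¹ * v * y₀) * (y₀⁻¹ * y) = y⁻¹ * v * y by group, hroot]),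
        show (y₀⁻¹ * y)⁻¹ * (y₀⁻¹ * v * y₀) * (y₀⁻¹ * y) = y⁻¹ * v * y by group]
    · obtain ⟨_, ⟨a, ha, rfl, hm⟩, hax⟩ := (Set.ext_iff.1 hset x).1 ⟨hx, hp⟩
      set w := embGL K L (y⁻¹ * v * y)
      have hw : w ∈ congZ vL n := by
        have := mul_mem (mul_mem ha (congZ_le (Nat.le_add_right n c) hm))
          (inv_mem (h.sigmaGL_mem_congZ ha))
        rwa [show a * (a⁻¹ * w * sigmaGL σ a) * (sigmaGL σ a)⁻¹ = w by group] at this
      obtain ⟨k, hk⟩ := QuotientGroup.mk_out_eq_mul (congZ vL (n + c)) (t⁻¹ * embGL K L y * a)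
      rw [show (QuotientGroup.mk (t⁻¹ * embGL K L y * a) : GL (Fin 2) L ⧸ congZ vL (n + c)) = x
        from hax] at hk
      refine ⟨y⁻¹ * v * y, s₀, μ, a * k,
        mul_mem ha (congZ_le (Nat.le_add_right n c) k.2), hw, hroot, ?_⟩
      rw [hδt, hk]
      congr 1
      simp only [map_mul, map_inv, sigmaGL_embGL, _root_.mul_inv_rev, inv_inv, mul_assoc]
      group

end Fermat.Agent.ResidualThree.Tree
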