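import Mathlib
import Fermat.Agent.ResidualThree.Tree.CongMatch

/-!
# Properties of the function matching a congruence subgroup

`cubeWeight` is invariant under conjugation by the base level, supported on it, invariant under
translation by a deeper level, and vanishes on classes which are no norms; so it is an admissible
local test function downstairs for the transfer at level places.
-/

noncomputable section

open Matrix
open scoped WithZero

namespace Fermat.Agent.ResidualThree.Tree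

variable {K L : Type*} [Field K] [Field L] [Algebra K L] {vL : Valuation L ℤᵐ⁰} {σ : L ≃ₐ[K] L}
  {q c n : ℕ}

theorem mem_levelBase {k : ℕ} {g : GL (Fin 2) K} :
    g ∈ levelBase vL k ↔ embGL K L g ∈ congZ vL k := Iff.rfl

/-- An element of the ground field in a congruence subgroup modulo scalars is so modulo scalars of
the ground field. -/
theorem exists_scalar_congGL {k : ℕ} (hk : 1 ≤ k) {g : GL (Fin 2) K}
    (hg : embGL K L g ∈ congZ vL k) :
    ∃ s : Kˣ, embGL K L (Matrix.GeneralLinearGroup.scalar (Fin 2) s * g) ∈ congGL vL k := by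
  obtain ⟨t, j, hj, e⟩ := mem_congZ.mp hg
  have h00 := congrArg (fun x : GL (Fin 2) L => (x : Matrix (Fin 2) (Fin 2) L) 0 0) e
  simp only [coe_embGL, Matrix.map_apply, Units.val_mul, coe_scalar_eq_smul, Matrix.smul_mul,
    Matrix.one_mul, Matrix.smul_apply, smul_eq_mul] at h00
  set a := (j : Matrix (Fin 2) (Fin 2) L) 0 0
  have ha : vL (a - 1) ≤ lev k := by
    have := (le_nrm (v := vL) ((j : Matrix (Fin 2) (Fin 2) L) - 1) 0 0).trans hj.2
    simpa using this
  have hlt : vL (a - 1) < vL (1 : L) := by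
    rw [map_one]
    exact lt_of_le_of_lt ha (by rw [lev, ← WithZero.exp_zero, WithZero.exp_lt_exp]; omega)
  have hva : vL a = 1 := by
    have := vL.map_add_eq_of_lt_left hlt
    rwa [add_sub_cancel, map_one] at this
  have ha0 : a ≠ 0 := fun h0 => by rw [h0, map_zero] at hva; exact zero_ne_one hva
  have hg0 : (g : Matrix (Fin 2) (Fin 2) K) 0 0 ≠ 0 := fun h0 => by
    rw [h0, map_zero] at h00
    exact mul_ne_zero t.ne_zero ha0 h00.symm
  refine ⟨(Units.mk0 _ hg0)⁻¹, mem_congGL_of_near hk ?_⟩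
  rw [map_mul, embGL_scalar, e, Units.val_mul, Units.val_mul, coe_scalar_eq_smul,
    coe_scalar_eq_smul, Matrix.smul_mul, Matrix.smul_mul, Matrix.one_mul, Matrix.one_mul, smul_smul]
  set r := ((Units.map (algebraMap K L).toMonoidHom (Units.mk0 _ hg0)⁻¹ : Lˣ) : L) * (t : L) with hr
  have hra : r = a⁻¹ := by
    rw [hr]
    simp [h00, _root_.mul_inv_rev, Units.val_inv_eq_inv_val]
  rw [Near, hra, show a⁻¹ • (j : Matrix (Fin 2) (Fin 2) L) - 1 =
    a⁻¹ • (((j : Matrix (Fin 2) (Fin 2) L) - 1) - (a - 1) • 1) by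
      rw [smul_sub, smul_sub, smul_smul, mul_sub, inv_mul_cancel₀ ha0, mul_one, sub_smul, one_smul]
      abel, nrm_smul, map_inv₀, hva, inv_one, one_mul]
  exact nrm_sub_le' hj.2 (by rw [nrm_smul, nrm_one, mul_one]; exact ha)

theorem descentSet_mul_right (σ : L ≃ₐ[K] L) (hσ : ∀ {g : GL (Fin 2) L}, g ∈ congZ vL n →
      sigmaGL σ g ∈ congZ vL n) (w : GL (Fin 2) L) {m : ℕ} {b : GL (Fin 2) L}
    (hb : b ∈ congZ vL m) : descentSet vL σ n m (w * b) = descentSet vL σ n m w := by
  ext x
  refine exists_congr fun a => and_congr_right fun ha => and_congr_right fun _ => ?_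
  rw [show a⁻¹ * (w * b) * sigmaGL σ a =
    (a⁻¹ * w * sigmaGL σ a) * ((sigmaGL σ a)⁻¹ * b * sigmaGL σ a) by group]
  exact Subgroup.mul_mem_cancel_right _
    (congZ_conj (congZ_le_vertexSubgroup n (hσ ha)) hb)

variable (h : IsCubicLevel vL σ q c) (hcn : c < n)
include h hcn

/-- The weight at a scalar multiple of a cube. -/
theorem IsCubicLevel.cubeWeight_cube {v : GL (Fin 2) K} (hv : embGL K L v ∈ congZ vL n) {s : Kˣ}
    {x : GL (Fin 2) K} (e : v ^ 3 = Matrix.GeneralLinearGroup.scalar (Fin 2) s * x) :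
    cubeWeight vL σ n c x = ((descentSet vL σ n (n + c) (embGL K L v)).ncard : ℂ) := by
  have := h.cubeWeight_eq hcn hv 1 s x (by simpa using e)
  simpa using this

omit h hcn in
/-- If nothing has norm `γ` up to scalars, the weights of the conjugates of `γ` vanish. -/
theorem cubeWeight_eq_zero_of_no_norm {γ : GL (Fin 2) K}
    (hno : ∀ (δ : GL (Fin 2) L) (c₀ : Lˣ), δ * sigmaGL σ δ * sigmaGL σ (sigmaGL σ δ) ≠
      Matrix.GeneralLinearGroup.scalar (Fin 2) c₀ * embGL K L γ) (y : GL (Fin 2) K) :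
    cubeWeight vL σ n c (y⁻¹ * γ * y) = 0 := by
  rw [cubeWeight, dif_neg]
  rintro ⟨v, -, s, hs⟩
  refine hno (embGL K L (y * v * y⁻¹)) (Units.map (algebraMap K L).toMonoidHom s) ?_
  rw [norm_embGL, conj_pow, hs, ← embGL_scalar, ← map_mul, mul_scalar_mul,
    mul_assoc (Matrix.GeneralLinearGroup.scalar (Fin 2) s)]
  congr 1
  group

/-- The weight is invariant under conjugation by the ground level. -/
theorem IsCubicLevel.cubeWeight_conj {a : GL (Fin 2) K} (ha : a ∈ levelBase vL n)
    (x : GL (Fin 2) K) : cubeWeight vL σ n c (a⁻¹ * x * a) = cubeWeight vL σ n c x := by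
  have key : ∀ {a : GL (Fin 2) K}, a ∈ levelBase vL n → ∀ {x : GL (Fin 2) K},
      (∃ v : GL (Fin 2) K, embGL K L v ∈ congZ vL n ∧
        ∃ s : Kˣ, v ^ 3 = Matrix.GeneralLinearGroup.scalar (Fin 2) s * x) →
      cubeWeight vL σ n c (a⁻¹ * x * a) = cubeWeight vL σ n c x := by
    rintro a ha x ⟨v, hv, s, hs⟩
    have hv' : embGL K L (a⁻¹ * v * a) ∈ congZ vL n := by
      rw [map_mul, map_mul, map_inv]; exact mul_mem (mul_mem (inv_mem ha) hv) ha
    rw [h.cubeWeight_cube hcn hv' (s := s) (x := a⁻¹ * x * a) (by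
        rw [conj_cube, hs, mul_scalar_mul, mul_assoc (Matrix.GeneralLinearGroup.scalar (Fin 2) s)]),
      h.cubeWeight_cube hcn hv hs, map_mul, map_mul, map_inv,
      descentSet_conj σ ha, Set.ncard_image_of_injective _ (MulAction.injective _)]
  by_cases hx : ∃ v : GL (Fin 2) K, embGL K L v ∈ congZ vL n ∧
      ∃ s : Kˣ, v ^ 3 = Matrix.GeneralLinearGroup.scalar (Fin 2) s * x
  · exact key ha hx
  by_cases hx' : ∃ v : GL (Fin 2) K, embGL K L v ∈ congZ vL n ∧
      ∃ s : Kˣ, v ^ 3 = Matrix.GeneralLinearGroup.scalar (Fin 2) s * (a⁻¹ * x * a)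
  · have := key (inv_mem ha) hx'
    rw [inv_inv, show a * (a⁻¹ * x * a) * a⁻¹ = x by group] at this
    exact this.symm
  · rw [cubeWeight, cubeWeight, dif_neg hx', dif_neg hx]

/-- The support of the weight. -/
theorem IsCubicLevel.mem_levelBase_of_cubeWeight {x : GL (Fin 2) K}
    (hx : cubeWeight vL σ n c x ≠ 0) : x ∈ levelBase vL (n + c) := by
  unfold cubeWeight at hx
  split_ifs at hx with hg
  · obtain ⟨hv, s, hs⟩ := hg.choose_spec
    generalize hg.choose = v at hv hs
    obtain ⟨t, k, hk, e⟩ := mem_congZ.mp hv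
    have h3 : embGL K L v ^ 3 ∈ congZ vL (n + c) := by
      rw [e, scalar_mul_pow, scalar_mul_mem_congZ_iff]
      refine congGL_le_congZ _ ⟨pow_mem hk.1 3, ?_⟩
      rw [Units.val_pow_eq_pow_val]
      exact hk.2.cube h.v_three hcn
    rw [← map_pow, hs, map_mul, embGL_scalar, scalar_mul_mem_congZ_iff] at h3
    exact h3
  · exact absurd rfl hx

/-- Multiplying a cube by an element of level `E + c` moves its root by level `E`. -/
theorem IsCubicLevel.exists_root_mul {E : ℕ} (hE : n + c ≤ E) {j : GL (Fin 2) K}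
    (hj : j ∈ levelBase vL (E + c)) {v x : GL (Fin 2) K} (hv : embGL K L v ∈ congZ vL n) {s : Kˣ}
    (hs : v ^ 3 = Matrix.GeneralLinearGroup.scalar (Fin 2) s * x) :
    ∃ (r : GL (Fin 2) K) (s' : Kˣ) (t : Lˣ) (b : GL (Fin 2) L), embGL K L r ∈ congZ vL n ∧
      r ^ 3 = Matrix.GeneralLinearGroup.scalar (Fin 2) s' * (x * j) ∧ b ∈ congZ vL E ∧
      embGL K L r = Matrix.GeneralLinearGroup.scalar (Fin 2) t * embGL K L v * b := by
  have hn : 1 ≤ n := by omega
  obtain ⟨sv, hsv⟩ := exists_scalar_congGL hn hv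
  obtain ⟨sj, hsj⟩ := exists_scalar_congGL (show 1 ≤ E + c by omega) (mem_levelBase.mp hj)
  set v' := Matrix.GeneralLinearGroup.scalar (Fin 2) sv * v with hv'
  set j' := Matrix.GeneralLinearGroup.scalar (Fin 2) sj * j
  set W := embGL K L (v' ^ 3 * j')
  have eW : W = embGL K L v' ^ 3 * embGL K L j' := by rw [← map_pow, ← map_mul]
  have hW : Near vL (n + c) (W : Matrix (Fin 2) (Fin 2) L) := by
    rw [eW, Units.val_mul, Units.val_pow_eq_pow_val]
    exact (hsv.2.cube h.v_three hcn).mul (hsj.2.mono (by omega))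
  obtain ⟨R, hR, hR3, -⟩ := exists_cube_root h.v_three hcn h.localL hW
  set RG : GL (Fin 2) L := Matrix.GeneralLinearGroup.mkOfDetNeZero R fun h0 => by
    have := hR.det hn; rw [h0, map_zero] at this; exact zero_ne_one this
  obtain ⟨r, hr⟩ := h.exists_embGL (g := RG) (Units.ext (by
    refine cube_injective h.v_three hcn hR (hR.map (σ : L →+* L) h.v_sigma) ?_
    show (σ : L →+* L).mapMatrix R ^ 3 = R ^ 3
    rw [← map_pow, hR3]
    exact congrArg Units.val (sigmaGL_embGL (σ := σ) _)))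
  have hr3 : r ^ 3 = v' ^ 3 * j' := glMap_injective _ (Units.ext (by
    show ((embGL K L (r ^ 3) : GL (Fin 2) L) : Matrix (Fin 2) (Fin 2) L) = _
    rw [map_pow, hr, Units.val_pow_eq_pow_val]; exact hR3))
  refine ⟨r, sv ^ 3 * s * sj, Units.map (algebraMap K L).toMonoidHom sv,
    (embGL K L v')⁻¹ * embGL K L r, hr ▸ congGL_le_congZ n (mem_congGL_of_near hn hR), ?_, ?_, ?_⟩
  · rw [hr3, scalar_mul_pow, hs, ← mul_assoc (Matrix.GeneralLinearGroup.scalar (Fin 2) (sv ^ 3)),
      ← map_mul, scalar_mul_mul]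
  · refine congGL_le_congZ _ ⟨mul_mem (inv_mem hsv.1) (hr ▸ (mem_congGL_of_near hn hR).1), ?_⟩
    have hd : nrm vL (R - (embGL K L v' : Matrix (Fin 2) (Fin 2) L)) ≤ lev E := by
      have := nrm_cube_sub h.v_three hcn hsv.2 hR
      have hle : nrm vL (R ^ 3 - (embGL K L v' : Matrix (Fin 2) (Fin 2) L) ^ 3) ≤ lev (E + c) := by
        rw [hR3, show (W : Matrix (Fin 2) (Fin 2) L) -
            (embGL K L v' : Matrix (Fin 2) (Fin 2) L) ^ 3 =
          (embGL K L v' : Matrix (Fin 2) (Fin 2) L) ^ 3 *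
            ((embGL K L j' : Matrix (Fin 2) (Fin 2) L) - 1) by
          rw [Matrix.mul_sub, Matrix.mul_one, eW, Units.val_mul, Units.val_pow_eq_pow_val]]
        exact (nrm_mul_le' (hsv.2.cube h.v_three hcn).nrm_le_one hsj.2).trans (by rw [one_mul])
      rw [this, add_comm E c, ← lev_mul] at hle
      exact le_of_mul_le_mul_left hle (zero_lt_iff.mpr (lev_ne_zero c))
    show nrm vL _ ≤ _
    rw [Units.val_mul, show ((embGL K L v')⁻¹ : GL (Fin 2) L).val * (embGL K L r).val - 1 =
      ((embGL K L v')⁻¹ : GL (Fin 2) L).val * ((embGL K L r).val - (embGL K L v').val) by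
        rw [Matrix.mul_sub, ← Units.val_mul (embGL K L v')⁻¹ (embGL K L v'), inv_mul_cancel,
          Units.val_one], nrm_mul_left (inv_mem hsv.1), hr]
    exact hd
  · rw [← embGL_scalar, ← map_mul, ← hv', mul_inv_cancel_left]

/-- The weight is invariant on the right under the deeper ground level. -/
theorem IsCubicLevel.cubeWeight_mul {j : GL (Fin 2) K} (hj : j ∈ levelBase vL (n + c + c))
    (x : GL (Fin 2) K) : cubeWeight vL σ n c (x * j) = cubeWeight vL σ n c x := by
  have key : ∀ {j : GL (Fin 2) K}, j ∈ levelBase vL (n + c + c) → ∀ {x : GL (Fin 2) K},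
      (∃ v : GL (Fin 2) K, embGL K L v ∈ congZ vL n ∧
        ∃ s : Kˣ, v ^ 3 = Matrix.GeneralLinearGroup.scalar (Fin 2) s * x) →
      cubeWeight vL σ n c (x * j) = cubeWeight vL σ n c x := by
    rintro j hj x ⟨v, hv, s, hs⟩
    obtain ⟨r, s', t, b, hr, hr3, hb, er⟩ := h.exists_root_mul hcn le_rfl hj hv hs
    rw [h.cubeWeight_cube hcn hr hr3, h.cubeWeight_cube hcn hv hs, er,
      descentSet_mul_right σ (fun hg => h.sigmaGL_mem_congZ hg) _ hb, descentSet_scalar]
  by_cases hx : ∃ v : GL (Fin 2) K, embGL K L v ∈ congZ vL n ∧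
      ∃ s : Kˣ, v ^ 3 = Matrix.GeneralLinearGroup.scalar (Fin 2) s * x
  · exact key hj hx
  by_cases hx' : ∃ v : GL (Fin 2) K, embGL K L v ∈ congZ vL n ∧
      ∃ s : Kˣ, v ^ 3 = Matrix.GeneralLinearGroup.scalar (Fin 2) s * (x * j)
  · have := key (inv_mem hj) hx'
    rw [mul_inv_cancel_right] at this
    exact this.symm
  · rw [cubeWeight, cubeWeight, dif_neg hx', dif_neg hx]

/-- The weight is invariant on the left under the deeper ground level. -/
theorem IsCubicLevel.cubeWeight_mul_left {j : GL (Fin 2) K} (hj : j ∈ levelBase vL (n + c + c))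
    (x : GL (Fin 2) K) : cubeWeight vL σ n c (j * x) = cubeWeight vL σ n c x := by
  have key : ∀ {j : GL (Fin 2) K}, j ∈ levelBase vL (n + c + c) → ∀ {x : GL (Fin 2) K},
      cubeWeight vL σ n c x ≠ 0 → cubeWeight vL σ n c (j * x) = cubeWeight vL σ n c x := by
    intro j hj x hx
    rw [show j * x = x * (x⁻¹ * j * x) by group, h.cubeWeight_mul hcn]
    have := congZ_conj (congZ_le_vertexSubgroup (n + c)
      (h.mem_levelBase_of_cubeWeight hcn hx)) (mem_levelBase.mp hj)
    rw [mem_levelBase, map_mul, map_mul, map_inv]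
    exact this
  by_cases hx : cubeWeight vL σ n c x = 0
  · by_contra hne
    rw [hx] at hne
    have := key (inv_mem hj) hne
    rw [inv_mul_cancel_left, hx] at this
    exact hne this.symm
  · exact key hj hx

end Fermat.Agent.ResidualThree.Tree
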