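import Fermat.Agent.ResidualThree.Automorphic.LocalVal
import Fermat.Agent.ResidualThree.Orbital.Places
import Fermat.Agent.ResidualThree.Tree.CongWeight
import Fermat.Agent.ResidualThree.Tree.LocalMatch

/-!
# Completions at a place fixed by the automorphism are cubic extensions of local fields

For a cyclic cubic extension of number fields and a place with a single place above, the
completions with the extended automorphism satisfy `IsCubicLevel`, and `IsInertCubic` when the
place is unramified; this feeds the global places into the local matching theorems.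
-/

noncomputable section

open IsDedekindDomain NumberField UniformSpace
open scoped WithZero Topology

namespace Fermat.Agent.ResidualThree.Tree

open Orbital (comapPlace below ram baseHom)

section CompletionHom

variable {K L : Type} [Field K] [NumberField K] [Field L] [NumberField L]
  {v : FPlace K} {w : FPlace L} (f : K →+* L) (e : ℕ) (he : 0 < e)
  (hf : ∀ x, w.valuation L (f x) = v.valuation K x ^ e)

theorem continuous_completionHom : Continuous (completionHom f e he hf) :=
  (Completion.continuous_extension).comp (Orbital.continuous_toCompletion' v)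

theorem valv_completionHom_le_one (z : v.adicCompletion K) (hz : valv v z ≤ 1) :
    valv w (completionHom f e he hf z) ≤ 1 := by
  have hclosed : IsClosed {y : w.adicCompletion L | valv w y ≤ 1} :=
    Valued.isClosed_integer (w.adicCompletion L)
  have hmem : z ∈ closure {y | y ∈ Set.range (algebraMap K (v.adicCompletion K)) ∧
      valv v y ≤ 1} := by
    have hopen : IsOpen {y : v.adicCompletion K | valv v y ≤ 1} :=
      Valued.isOpen_integer (v.adicCompletion K)
    have := (HeightOneSpectrum.denseRange_algebraMap (K := K) v).open_subset_closure_inter hopen hz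
    rwa [Set.inter_comm] at this
  refine hclosed.closure_subset (map_mem_closure (continuous_completionHom f e he hf) hmem ?_)
  rintro _ ⟨⟨x, rfl⟩, hx⟩
  show valv w (completionHom f e he hf _) ≤ 1
  rw [completionHom_coe, valv_algebraMap, hf]
  rw [valv_algebraMap] at hx
  exact pow_le_one₀ zero_le hx

theorem valv_completionHom (z : v.adicCompletion K) :
    valv w (completionHom f e he hf z) = valv v z ^ e := by
  rcases eq_or_ne z 0 with rfl | hz
  · simp [he.ne']
  obtain ⟨π, hπ⟩ := v.valuation_exists_uniformizer K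
  have hz0 : valv v z ≠ 0 := (map_ne_zero _).2 hz
  set x : K := π ^ (-WithZero.log (valv v z))
  have hx : valv v (algebraMap K (v.adicCompletion K) x) = valv v z := by
    rw [valv_algebraMap, map_zpow₀, hπ, ← WithZero.exp_zsmul]; simp [WithZero.exp_log hz0]
  set u := z / algebraMap K (v.adicCompletion K) x
  have hu : valv v u = 1 := by rw [map_div₀, hx, div_self hz0]
  have hu1 := valv_completionHom_le_one f e he hf u hu.le
  have hu2 := valv_completionHom_le_one f e he hf u⁻¹ (by rw [map_inv₀, hu, inv_one])
  have hu0 : u ≠ 0 := fun h0 => by rw [h0, map_zero] at hu; exact zero_ne_one hu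
  have huu : valv w (completionHom f e he hf u) = 1 := by
    refine le_antisymm hu1 ?_
    rw [map_inv₀, map_inv₀] at hu2
    exact (inv_le_one₀ (zero_lt_iff.2 ((map_ne_zero _).2 ((map_ne_zero _).2 hu0)))).1 hu2
  have hx0 : algebraMap K (v.adicCompletion K) x ≠ 0 := fun h0 => hz0 (by rw [← hx, h0, map_zero])
  conv_lhs => rw [show z = algebraMap K (v.adicCompletion K) x * u by
    rw [mul_div_cancel₀]; exact hx0]
  rw [map_mul, map_mul, huu, mul_one, completionHom_coe, valv_algebraMap, hf, ← valv_algebraMap, hx]

end CompletionHom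

/-! ### A place fixed by the automorphism -/

variable {K L : Type} [Field K] [NumberField K] [Field L] [NumberField L] [Algebra K L]
  (τ : Orbital.CubicAut K L) {v : FPlace K} (w : FPlace L) (hv : below K w = v)
  (hw : comapPlace τ.σ.toRingEquiv w = w)

/-- The completed automorphism at a fixed place. -/
def sigmaCompl : w.adicCompletion L →+* w.adicCompletion L :=
  completionHom (v := w) (w := w) (τ.σ.toRingEquiv : L →+* L) 1 one_pos fun x => by
    rw [pow_one]
    have h := Orbital.valuation_comapPlace τ.σ.toRingEquiv w x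
    rw [hw] at h
    exact h.symm

omit [NumberField K] in
theorem sigmaCompl_coe (x : L) :
    sigmaCompl τ w hw (algebraMap L (w.adicCompletion L) x) =
      algebraMap L (w.adicCompletion L) (τ.σ x) := completionHom_coe _ _ _ _ x

omit [NumberField K] in
theorem sigmaCompl_cube (z : w.adicCompletion L) :
    sigmaCompl τ w hw (sigmaCompl τ w hw (sigmaCompl τ w hw z)) = z := by
  have hc : Continuous (sigmaCompl τ w hw) := continuous_completionHom _ _ _ _
  refine congrFun ((HeightOneSpectrum.denseRange_algebraMap (K := L) w).equalizer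
    ((hc.comp hc).comp hc) continuous_id (funext fun x => ?_)) z
  simp [sigmaCompl_coe, τ.pow_three]

theorem sigmaCompl_baseHom (z : v.adicCompletion K) :
    sigmaCompl τ w hw (baseHom w hv z) = baseHom w hv z := by
  refine congrFun ((HeightOneSpectrum.denseRange_algebraMap (K := K) v).equalizer
    ((continuous_completionHom _ _ _ _).comp (continuous_completionHom _ _ _ _))
    (continuous_completionHom _ _ _ _) (funext fun x => ?_)) z
  show sigmaCompl τ w hw (baseHom w hv (algebraMap K _ x)) = baseHom w hv (algebraMap K _ x)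
  rw [Orbital.baseHom_coe, sigmaCompl_coe, τ.σ.commutes]

omit [NumberField K] in
theorem valv_sigmaCompl (z : w.adicCompletion L) : valv w (sigmaCompl τ w hw z) = valv w z := by
  rw [sigmaCompl, valv_completionHom, pow_one]

theorem valv_baseHom (z : v.adicCompletion K) : valv w (baseHom w hv z) = valv v z ^ ram K w := by
  rw [baseHom, valv_completionHom]

/-- The completion as an algebra over the completion below. -/
abbrev baseAlgebra : Algebra (v.adicCompletion K) (w.adicCompletion L) := (baseHom w hv).toAlgebra

/-- The completed automorphism as an algebra automorphism. -/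
def sigmaLocal : letI := baseAlgebra w hv
    w.adicCompletion L ≃ₐ[v.adicCompletion K] w.adicCompletion L :=
  letI := baseAlgebra w hv
  { sigmaCompl τ w hw with
    invFun := fun z => sigmaCompl τ w hw (sigmaCompl τ w hw z)
    left_inv := sigmaCompl_cube τ w hw
    right_inv := sigmaCompl_cube τ w hw
    commutes' := sigmaCompl_baseHom τ w hv hw }

/-- The order of vanishing of three. -/
def threeLev : ℕ := (-WithZero.log (valv w (3 : w.adicCompletion L))).toNat

theorem charZero_compl (F : Type) [Field F] [NumberField F] (u : FPlace F) :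
    CharZero (u.adicCompletion F) :=
  charZero_of_injective_algebraMap (algebraMap F (u.adicCompletion F)).injective

theorem valv_three : valv w (3 : w.adicCompletion L) = lev (threeLev w) := by
  have := charZero_compl L w
  have h0 : valv w (3 : w.adicCompletion L) ≠ 0 := (map_ne_zero _).2 (by norm_num)
  have h1 : valv w (3 : w.adicCompletion L) ≤ 1 := by
    rw [show (3 : w.adicCompletion L) = algebraMap L _ ((3 : 𝓞 L) : L) by
      simp [map_ofNat], valv_algebraMap]
    exact w.valuation_le_one _
  have hle : WithZero.log (valv w (3 : w.adicCompletion L)) ≤ 0 := by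
    rw [← WithZero.log_one, WithZero.log_le_log h0 one_ne_zero]; exact h1
  rw [threeLev, lev, Int.toNat_of_nonneg (by omega), neg_neg, WithZero.exp_log h0]

theorem exists_base_of_fixed {z : w.adicCompletion L} (hz : sigmaCompl τ w hw z = z) :
    ∃ y, baseHom w hv y = z := by
  have := charZero_compl L w
  set c := threeLev w
  set e := ram K w
  have he : 0 < e := Orbital.ram_pos w
  choose x hx using fun n : ℕ => exists_sub_le_exp w z (-((e * n + c : ℕ) : ℤ))
  have hfix : ∀ n, τ.σ (x n + τ.σ (x n) + τ.σ (τ.σ (x n))) =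
      x n + τ.σ (x n) + τ.σ (τ.σ (x n)) := fun n => by
    rw [map_add, map_add, τ.pow_three]; ring
  choose t ht using fun n => τ.fixed _ (hfix n)
  set y : ℕ → v.adicCompletion K := fun n => algebraMap K _ (t n / 3)
  have hy : ∀ n, valv w (baseHom w hv (y n) - z) ≤ lev (e * n) := by
    intro n
    set D := algebraMap L (w.adicCompletion L) (x n) - z with hD
    set s := sigmaCompl τ w hw
    have e3 : baseHom w hv (y n) - z = (3 : w.adicCompletion L)⁻¹ * (D + s D + s (s D)) := by
      have h1 : baseHom w hv (y n) = algebraMap L _ ((x n + τ.σ (x n) + τ.σ (τ.σ (x n))) / 3) := by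
        rw [Orbital.baseHom_coe, map_div₀, ht, map_ofNat]
      rw [h1, hD]
      simp only [map_sub, hz, s, sigmaCompl_coe, map_div₀, map_add, map_ofNat]
      field_simp
      ring
    have hDle : valv w D ≤ lev (e * n + c) := hx n
    rw [e3, map_mul, map_inv₀, valv_three, inv_mul_le_iff₀ (zero_lt_iff.2 (lev_ne_zero c)), lev_mul,
      show c + e * n = e * n + c by omega]
    refine (valv w).map_add_le ((valv w).map_add_le hDle ?_) ?_
    · rw [valv_sigmaCompl]; exact hDle
    · rw [valv_sigmaCompl, valv_sigmaCompl]; exact hDle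
  have hpow : ∀ {a : ℤᵐ⁰} {n : ℕ}, a ^ e ≤ lev (e * n) → a ≤ lev n := fun {a n} ha => by
    refine (pow_le_pow_iff_left₀ zero_le zero_le he.ne').1 (ha.trans (le_of_eq ?_))
    rw [lev, lev, ← WithZero.exp_nsmul]; simp
  obtain ⟨Y, hY⟩ := exists_limit_of_steps v y fun n => hpow (by
    rw [← valv_baseHom w hv, map_sub]
    rw [show baseHom w hv (y (n + 1)) - baseHom w hv (y n) =
      (baseHom w hv (y (n + 1)) - z) - (baseHom w hv (y n) - z) by ring]
    exact (valv w).map_sub_le ((hy _).trans (lev_le (Nat.mul_le_mul_left e (Nat.le_succ n))))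
      (hy n))
  refine ⟨Y, sub_eq_zero.1 (eq_zero_of_forall_le (v := valv w) fun n => ?_)⟩
  rw [show baseHom w hv Y - z = baseHom w hv (Y - y n) + (baseHom w hv (y n) - z) by
    rw [map_sub]; ring]
  refine (valv w).map_add_le ?_ ((hy n).trans (lev_le (Nat.le_mul_of_pos_left n he)))
  rw [valv_baseHom]
  refine (pow_le_pow_left₀ zero_le (hY n) e).trans ?_
  rw [← WithZero.exp_nsmul, WithZero.exp_le_exp]
  simp only [smul_neg, nsmul_eq_mul, neg_le_neg_iff]
  exact le_mul_of_one_le_left (by positivity) (by exact_mod_cast he)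

omit [NumberField K] in
theorem sigmaCompl_ne_id : ∃ x, sigmaCompl τ w hw x ≠ x := by
  obtain ⟨x, hx⟩ := τ.ne_id
  refine ⟨algebraMap L _ x, fun h => hx ?_⟩
  rw [sigmaCompl_coe] at h
  exact (algebraMap L (w.adicCompletion L)).injective h

/-- The completion at a fixed place is a cubic extension with known `|3|`. -/
theorem isCubicLevel_compl :
    letI := baseAlgebra w hv
    IsCubicLevel (valv w) (sigmaLocal τ w hv hw) (Ideal.absNorm w.asIdeal) (threeLev w) :=
  letI := baseAlgebra w hv
  { localL := isLocalVal_valv w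
    v_sigma := valv_sigmaCompl τ w hw
    sigma_cube := sigmaCompl_cube τ w hw
    fixed := fun _ hx => exists_base_of_fixed τ w hv hw hx
    ne_id := sigmaCompl_ne_id τ w hw
    v_three := valv_three w }

include τ in
omit [NumberField K] [NumberField L] in
theorem fixed_integer {x : L} (hx : τ.σ x = x) (hint : IsIntegral ℤ x) :
    ∃ k : 𝓞 K, algebraMap K L (k : K) = x := by
  obtain ⟨y, rfl⟩ := τ.fixed x hx
  exact ⟨⟨y, (isIntegral_algebraMap_iff (algebraMap K L).injective).1 hint⟩, rfl⟩

/-- The automorphism is non-trivial on the residue field at an inert place. -/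
theorem exists_residual_unit (hv : below K w = v)
    (hN : Ideal.absNorm w.asIdeal = Ideal.absNorm v.asIdeal ^ 3) :
    ∃ θ : w.adicCompletion L, valv w θ ≤ 1 ∧ valv w (sigmaCompl τ w hw θ - θ) = 1 := by
  by_contra hcon
  push Not at hcon
  have hint : ∀ x : 𝓞 L, valv w (algebraMap L (w.adicCompletion L) (x : L)) ≤ 1 := fun x => by
    rw [valv_algebraMap]; exact w.valuation_le_one _
  -- the automorphism is trivial modulo the prime
  have htriv : ∀ x : 𝓞 L, w.valuation L (τ.σ (x : L) - x) < 1 := fun x => by
    have h := hcon _ (hint x)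
    rw [sigmaCompl_coe, ← map_sub, valv_algebraMap] at h
    exact lt_of_le_of_ne ((w.valuation L).map_sub_le
      (w.valuation_le_one (RingOfIntegers.mapRingEquiv τ.σ.toRingEquiv x)) (w.valuation_le_one x)) h
  have hmem : ∀ x : 𝓞 L, RingOfIntegers.mapRingEquiv τ.σ.toRingEquiv x - x ∈ w.asIdeal :=
    fun x => by
    rw [← HeightOneSpectrum.valuation_lt_one_iff_mem (K := L)]
    exact htriv x
  set S := RingOfIntegers.mapRingEquiv τ.σ.toRingEquiv
  have hS3 : ∀ x, S (S (S x)) = x := fun x => RingOfIntegers.ext (τ.pow_three (x : L))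
  let π := Ideal.Quotient.mk w.asIdeal
  have hπS : ∀ x, π (S x) = π x := fun x => Ideal.Quotient.eq.2 (hmem x)
  have hfix : ∀ y : 𝓞 L, S y = y → ∃ k : 𝓞 K, algebraMap (𝓞 K) (𝓞 L) k = y := fun y hy => by
    obtain ⟨k, hk⟩ := fixed_integer τ (x := (y : L))
      (congrArg (fun z : 𝓞 L => (z : L)) hy) y.2
    exact ⟨k, RingOfIntegers.ext hk⟩
  have htr : ∀ x : 𝓞 L, ∃ k : 𝓞 K, algebraMap (𝓞 K) (𝓞 L) k = x + S x + S (S x) := fun x =>
    hfix _ (by rw [map_add, map_add, hS3]; ring)
  have hnm : ∀ x : 𝓞 L, ∃ k : 𝓞 K, algebraMap (𝓞 K) (𝓞 L) k = x * S x * S (S x) := fun x =>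
    hfix _ (by rw [map_mul, map_mul, hS3]; ring)
  choose kt hkt using htr
  choose kn hkn using hnm
  have hlies : v.asIdeal = w.asIdeal.comap (algebraMap (𝓞 K) (𝓞 L)) :=
    (congrArg HeightOneSpectrum.asIdeal hv).symm
  have hdown : ∀ a b : 𝓞 K, π (algebraMap _ _ a) = π (algebraMap _ _ b) ↔
      Ideal.Quotient.mk v.asIdeal a = Ideal.Quotient.mk v.asIdeal b := fun a b => by
    rw [Ideal.Quotient.eq, Ideal.Quotient.eq, hlies, Ideal.mem_comap, map_sub]
  have hw3 : ∀ a b : 𝓞 L ⧸ w.asIdeal, 3 * a = 3 * b → a ^ 3 = b ^ 3 → a = b := by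
    intro a b h3 hcube
    have : IsDomain (𝓞 L ⧸ w.asIdeal) := Ideal.Quotient.isDomain _
    rcases eq_or_ne (3 : 𝓞 L ⧸ w.asIdeal) 0 with h0 | h0
    · have h : (a - b) ^ 3 = 0 := by
        rw [show (a - b) ^ 3 = a ^ 3 - b ^ 3 - 3 * (a * b * (a - b)) by ring, hcube, h0]; ring
      exact sub_eq_zero.1 ((pow_eq_zero_iff three_ne_zero).1 h)
    · exact mul_left_cancel₀ h0 h3
  have hsur : Function.Surjective π := Ideal.Quotient.mk_surjective
  choose rep hrep using hsur
  let Φ : 𝓞 L ⧸ w.asIdeal → (𝓞 K ⧸ v.asIdeal) × (𝓞 K ⧸ v.asIdeal) := fun a =>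
    (Ideal.Quotient.mk _ (kt (rep a)), Ideal.Quotient.mk _ (kn (rep a)))
  have hΦ : Function.Injective Φ := by
    intro a b hab
    have h1 := (hdown _ _).2 (congrArg Prod.fst hab)
    have h2 := (hdown _ _).2 (congrArg Prod.snd hab)
    rw [hkt, hkt] at h1
    rw [hkn, hkn] at h2
    simp only [map_add, map_mul, hπS, hrep] at h1 h2
    exact hw3 a b (by linear_combination h1) (by linear_combination h2)
  have : Finite (𝓞 K ⧸ v.asIdeal) := Ideal.finiteQuotientOfFreeOfNeBot v.asIdeal v.ne_bot
  have hle := Nat.card_le_card_of_injective Φ hΦ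
  have hKc : Nat.card (𝓞 K ⧸ v.asIdeal) = Ideal.absNorm v.asIdeal := by
    rw [Ideal.absNorm_apply, Submodule.cardQuot_apply]
  have hLc : Nat.card (𝓞 L ⧸ w.asIdeal) = Ideal.absNorm w.asIdeal := by
    rw [Ideal.absNorm_apply, Submodule.cardQuot_apply]
  rw [Nat.card_prod, hKc, hLc, hN] at hle
  have : 2 ≤ Ideal.absNorm v.asIdeal := by
    have : Nontrivial (𝓞 K ⧸ v.asIdeal) := Ideal.Quotient.nontrivial_iff.2 v.isPrime.ne_top
    rw [← hKc]
    exact Finite.one_lt_card
  nlinarith

/-- The completion at an inert place is an unramified cubic extension. -/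
theorem isInertCubic_compl (hram : ram K w = 1)
    (hN : Ideal.absNorm w.asIdeal = Ideal.absNorm v.asIdeal ^ 3) :
    letI := baseAlgebra w hv
    IsInertCubic (valv v) (valv w) (sigmaLocal τ w hv hw) (Ideal.absNorm v.asIdeal) :=
  letI := baseAlgebra w hv
  { localK := isLocalVal_valv v
    localL := hN ▸ isLocalVal_valv w
    v_algebraMap := fun z => (valv_baseHom w hv z).trans (by rw [hram, pow_one])
    v_sigma := valv_sigmaCompl τ w hw
    sigma_cube := sigmaCompl_cube τ w hw
    fixed := fun _ hx => exists_base_of_fixed τ w hv hw hx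
    residual := exists_residual_unit τ w hw hv hN }

end Fermat.Agent.ResidualThree.Tree
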