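import Fermat.Agent.ResidualThree.Orbital.Target
import Fermat.Agent.ResidualThree.Tree.AdicInst

/-!
# A place with a single place above it

In the product over the places above `v` only one factor remains: the twisted terms, local norms
and elements of the group over `v` are those of that completion, and for an unramified place the
absolute norm upstairs is the cube of the one below.
-/

noncomputable section

open IsDedekindDomain NumberField
open scoped WithZero

namespace Fermat.Agent.ResidualThree.Tree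

theorem mem_center_iff_scalar {F : Type*} [Field F] {g : GL (Fin 2) F} :
    g ∈ Subgroup.center (GL (Fin 2) F) ↔
      ∃ c : Fˣ, g = Matrix.GeneralLinearGroup.scalar (Fin 2) c := by
  rw [Matrix.GeneralLinearGroup.center_eq_range_scalar, MonoidHom.mem_range]
  exact exists_congr fun c => eq_comm

variable {K L : Type} [Field K] [NumberField K] [Field L] [NumberField L] [Algebra K L]
  (τ : Orbital.CubicAut K L) {v : FPlace K} (w₀ : Orbital.Over L v)
    (huniq : ∀ w : Orbital.Over L v, w = w₀)

omit [NumberField K] in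
include huniq in
theorem comapPlace_eq_self : Orbital.comapPlace τ.σ.toRingEquiv w₀.1 = w₀.1 :=
  congrArg Subtype.val (huniq (Orbital.comapOver τ.σ w₀))

include huniq in
theorem autOver_single (x : Orbital.Gover L v) :
    letI := baseAlgebra w₀.1 w₀.2
    Orbital.autOver τ.σ x w₀ =
      sigmaGL (sigmaLocal τ w₀.1 w₀.2 (comapPlace_eq_self τ w₀ huniq)) (x w₀) := by
  let := baseAlgebra w₀.1 w₀.2
  have key : ∀ (u : Orbital.Over L v) (_ : u = Orbital.comapOver τ.σ w₀)
      (hf : ∀ z, w₀.1.valuation L ((τ.σ.toRingEquiv : L →+* L) z) = u.1.valuation L z ^ 1)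
      (i j : Fin 2),
      completionHom (τ.σ.toRingEquiv : L →+* L) 1 one_pos hf
          ((x u : Matrix (Fin 2) (Fin 2) (u.1.adicCompletion L)) i j) =
        Orbital.localAut τ.σ.toRingEquiv w₀.1
          ((x (Orbital.comapOver τ.σ w₀)).1 i j) := by
    rintro u rfl hf i j
    rfl
  refine Units.ext (Matrix.ext fun i j => ?_)
  exact (key w₀ (huniq _).symm (fun z => by
    rw [pow_one]
    exact (Orbital.valuation_comapPlace τ.σ.toRingEquiv w₀.1 z).symm.trans
      (congrArg (fun u : FPlace L => u.valuation L z) (comapPlace_eq_self τ w₀ huniq))) i j).symm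

/-- The norm at the single place above. -/
theorem normOver_single (δ : Orbital.Gover L v) :
    letI := baseAlgebra w₀.1 w₀.2
    Orbital.normOver τ.σ δ w₀ =
      normGL (sigmaLocal τ w₀.1 w₀.2 (comapPlace_eq_self τ w₀ huniq)) (δ w₀) := by
  let := baseAlgebra w₀.1 w₀.2
  show δ w₀ * Orbital.autOver τ.σ δ w₀ * Orbital.autOver τ.σ (Orbital.autOver τ.σ δ) w₀ = _
  rw [autOver_single τ w₀ huniq, autOver_single τ w₀ huniq, autOver_single τ w₀ huniq]
  rfl

theorem baseOver_single (γ : GLv v) :
    letI := baseAlgebra w₀.1 w₀.2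
    Orbital.baseOver L v γ w₀ = embGL (v.adicCompletion K) (w₀.1.adicCompletion L) γ := rfl

include huniq in
/-- Local norms over a single place are norms of that completion. -/
theorem isLocalNorm_iff (δ : Orbital.Gover L v) (γ : GLv v) :
    letI := baseAlgebra w₀.1 w₀.2
    Orbital.IsLocalNorm τ.σ δ γ ↔ ∃ c : (w₀.1.adicCompletion L)ˣ,
      normGL (sigmaLocal τ w₀.1 w₀.2 (comapPlace_eq_self τ w₀ huniq)) (δ w₀) =
        Matrix.GeneralLinearGroup.scalar (Fin 2) c *
          embGL (v.adicCompletion K) (w₀.1.adicCompletion L) γ := by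
  let := baseAlgebra w₀.1 w₀.2
  constructor
  · intro h
    obtain ⟨c, hc⟩ := mem_center_iff_scalar.1 (h w₀)
    rw [Pi.mul_apply, Pi.inv_apply, normOver_single τ w₀ huniq, baseOver_single w₀,
      mul_inv_eq_iff_eq_mul] at hc
    exact ⟨c, hc⟩
  · rintro ⟨c, hc⟩ w
    obtain rfl := huniq w
    refine mem_center_iff_scalar.2 ⟨c, ?_⟩
    rw [Pi.mul_apply, Pi.inv_apply, normOver_single τ w huniq, baseOver_single w,
      mul_inv_eq_iff_eq_mul]
    exact hc

omit [NumberField K] in
theorem exists_gover (g : GLv w₀.1) : ∃ δ : Orbital.Gover L v, δ w₀ = g := by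
  classical
  exact ⟨Function.update 1 w₀ g, Function.update_self _ _ _⟩

include huniq in
/-- The twisted term at the single place above. -/
theorem twistTerm_single {UL : Level L} (fL : ∀ w : FPlace L, GLv w → ℂ) (δ : Orbital.Gover L v)
    (X : Orbital.Ωover UL v) :
    letI := baseAlgebra w₀.1 w₀.2
    Orbital.twistTerm τ UL v fL δ X = fL w₀.1 ((X w₀).out⁻¹ * δ w₀ *
      sigmaGL (sigmaLocal τ w₀.1 w₀.2 (comapPlace_eq_self τ w₀ huniq)) (X w₀).out) := by
  let := baseAlgebra w₀.1 w₀.2
  rw [Orbital.twistTerm, Fintype.prod_eq_single w₀ fun w hw => absurd (huniq w) hw,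
    autOver_single τ w₀ huniq]

theorem nonCentral_of_isRegular {γ : GLv v} (hγ : Orbital.IsRegular γ) : NonCentral γ := fun c hc =>
  hγ (by rw [hc]; simp; ring)

include huniq in
theorem absNorm_eq_cube [Module.Finite (𝓞 K) (𝓞 L)] (hdeg : Module.finrank K L = 3)
    (hram : Orbital.ram K w₀.1 = 1) :
    Ideal.absNorm w₀.1.asIdeal = Ideal.absNorm v.asIdeal ^ 3 := by
  classical
  have hv : w₀.1.asIdeal.LiesOver v.asIdeal :=
    ⟨(congrArg HeightOneSpectrum.asIdeal w₀.2).symm⟩
  rw [Ideal.absNorm_eq_pow_inertiaDeg'_of_liesOver w₀.1.asIdeal v.asIdeal v.isPrime v.ne_bot]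
  congr 1
  have : v.asIdeal.IsMaximal := v.isPrime.isMaximal v.ne_bot
  have : w₀.1.asIdeal.IsMaximal := w₀.1.isPrime.isMaximal w₀.1.ne_bot
  have := Fintype.ofFinite (v.asIdeal.primesOver (𝓞 L))
  have huniq' : ∀ P : v.asIdeal.primesOver (𝓞 L), P = ⟨w₀.1.asIdeal, w₀.1.isPrime, hv⟩ := by
    rintro ⟨P, hP, hPv⟩
    have hP0 : P ≠ ⊥ := Ideal.ne_bot_of_liesOver_of_ne_bot v.ne_bot P
    have := huniq ⟨⟨P, hP, hP0⟩, HeightOneSpectrum.ext hPv.over.symm⟩
    exact Subtype.ext (congrArg (fun u : Orbital.Over L v => u.1.asIdeal) this)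
  have h := Ideal.sum_ramification_inertia_eq_finrank v.asIdeal (𝓞 L)
  rw [Fintype.sum_eq_single _ fun P hP => absurd (huniq' P) hP,
    ← IsFractionRing.finrank_eq (𝓞 K) K (𝓞 L) L, hdeg] at h
  rw [Orbital.ram, w₀.2, Ideal.ramificationIdx'_eq_ramificationIdx _ _ v.ne_bot] at hram
  rw [Ideal.inertiaDeg'_eq_inertiaDeg]
  simpa [hram] using h

end Fermat.Agent.ResidualThree.Tree
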