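import Fermat.Agent.ResidualThree.Tree.GL2Tree
import Fermat.Agent.ResidualThree.Tree.LocalMatch
import Fermat.Agent.ResidualThree.Tree.TransferBase

/-!
# The transfer of spherical functions at an inert place

`localMatch_inert` restates the local matching theorem on the tree in the language of the
comparison of trace formulas: levels are maximal and the functions are radial.
-/

noncomputable section

open IsDedekindDomain NumberField
open scoped WithZero

namespace Fermat.Agent.ResidualThree.Tree

section General

variable {F : Type} [Field F] [NumberField F] (u : FPlace F)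

theorem maxSubgroup_eq : maxSubgroup u = vertexSubgroup (valv u) := rfl

/-- A spherical function is bi-invariant. -/
theorem cartan_biinvariant {J : Subgroup (GLv u)} (hJ : J ≤ maxSubgroup u) (f : ℕ → ℂ)
    {j₁ j₂ : GLv u} (h₁ : j₁ ∈ J) (h₂ : j₂ ∈ J) (g : GLv u) :
    f (cartan (valv u) (j₁ * g * j₂)) = f (cartan (valv u) g) := by
  rw [cartan_mul_right (hJ h₂), cartan_mul_left (hJ h₁)]

/-- A spherical function of finite support is supported by finitely many classes. -/
theorem finite_support_cartan {J : Subgroup (GLv u)} (hJ : J = maxSubgroup u) (f : ℕ →₀ ℂ) :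
    {x : GLv u ⧸ J | f (cartan (valv u) x.out) ≠ 0}.Finite := by
  classical
  subst hJ
  have hT := isRegTree (isLocalVal_valv u)
  refine (Finset.finite_toSet
    (f.support.biUnion fun n => hT.sphere (QuotientGroup.mk 1 : Vert (valv u)) n)).subset
      fun x hx => ?_
  refine Finset.mem_coe.2 (Finset.mem_biUnion.2 ⟨_, Finsupp.mem_support_iff.2 hx,
    hT.mem_sphere.2 ?_⟩)
  have h := vdist_mk (v := valv u) 1 x.out
  rw [inv_one, one_mul] at h
  exact (congrArg _ (QuotientGroup.out_eq' x).symm).trans h

/-- The classes of a level equal to the maximal subgroup are the vertices. -/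
def levelVert {J : Subgroup (GLv u)} (hJ : J = maxSubgroup u) : GLv u ⧸ J ≃ Vert (valv u) :=
  Subgroup.quotientEquivOfEq hJ

theorem levelVert_out {J : Subgroup (GLv u)} (hJ : J = maxSubgroup u) (x : GLv u ⧸ J) :
    levelVert u hJ x = QuotientGroup.mk x.out := by
  conv_lhs => rw [← QuotientGroup.out_eq' x]
  rfl

theorem levelVert_smul {J : Subgroup (GLv u)} (hJ : J = maxSubgroup u) (g : GLv u) (x : GLv u ⧸ J) :
    levelVert u hJ (g • x) = g • levelVert u hJ x := by
  induction x using QuotientGroup.induction_on
  rfl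

theorem levelVert_symm_smul {J : Subgroup (GLv u)} (hJ : J = maxSubgroup u) (g : GLv u)
    (x : Vert (valv u)) :
    (levelVert u hJ).symm (g • x) = g • (levelVert u hJ).symm x := by
  rw [Equiv.symm_apply_eq, levelVert_smul, Equiv.apply_symm_apply]

end General

variable {K L : Type} [Field K] [NumberField K] [Field L] [NumberField L] [Algebra K L]
  {v : FPlace K}

omit [NumberField K] in
/-- A family of cosets over the places above `v` is its value at the single one of them. -/
theorem bijective_eval (UL : Level L) (w₀ : Orbital.Over L v) (huniq : ∀ w : Orbital.Over L v,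
    w = w₀) :
    Function.Bijective (fun X : Orbital.Ωover UL v => X w₀) := by
  classical
  refine ⟨fun X Y h => funext fun w => ?_, fun x =>
    ⟨Function.update (fun w => (QuotientGroup.mk 1 : GLv w.1 ⧸ UL.J w.1)) w₀ x,
      Function.update_self _ _ _⟩⟩
  obtain rfl := huniq w
  exact h

/-- **The transfer at an inert place**: the base change of a spherical function matches it. -/
theorem localMatch_inert [Module.Finite (𝓞 K) (𝓞 L)] (τ : Orbital.CubicAut K L)
    (hdeg : Module.finrank K L = 3) (w₀ : Orbital.Over L v) (huniq : ∀ w : Orbital.Over L v, w = w₀)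
    (hram : Orbital.ram K w₀.1 = 1) (UL : Level L) (UK : Level K)
    (hUL : UL.J w₀.1 = maxSubgroup w₀.1) (hUK : UK.J v = maxSubgroup v) (f : ℕ →₀ ℂ)
    (fL : ∀ w : FPlace L, GLv w → ℂ) (fK : GLv v → ℂ)
    (hfL : ∀ g, fL w₀.1 g = f (cartan (valv w₀.1) g))
    (hfK : ∀ g, fK g = sphericalBC (Ideal.absNorm v.asIdeal) f (cartan (valv v) g)) :
    Orbital.LocalMatch τ UL UK v fL fK := by
  classical
  let := baseAlgebra w₀.1 w₀.2
  have := charZero_compl L w₀.1
  have h := isInertCubic_compl τ w₀.1 w₀.2 (comapPlace_eq_self τ w₀ huniq) hram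
    (absNorm_eq_cube w₀ huniq hdeg hram)
  intro γ hγ
  obtain ⟨pK, hK, -, hKf, hN, hNn⟩ := hasLocalMatch h (nonCentral_of_isRegular hγ)
  set eK := levelVert v hUK
  set eL := levelVert w₀.1 hUL
  set f' := sphericalBC (Ideal.absNorm v.asIdeal) f
  have hbase : ∀ y, Orbital.baseTerm UK v fK γ y = f' (vdist (eK y) (γ • eK y)) := fun y => by
    rw [Orbital.baseTerm, hfK, levelVert_out]
    show f' _ = f' (vdist _ (QuotientGroup.mk (γ * y.out)))
    rw [vdist_mk, mul_assoc]
  let P : Orbital.LocalProj UK v fK γ {g | Commute g γ} :=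
    { proj := fun y => {eK.symm (pK (eK y))}
      smul := fun g hg y => by
        rw [Finset.image_singleton, levelVert_smul, hK g hg, levelVert_symm_smul]
      nonempty := fun y _ => Finset.singleton_nonempty _
      finite := fun q => by
        refine ((hKf f' (eK q)).preimage eK.injective.injOn).subset fun y hy => ?_
        obtain ⟨hy0, hyq⟩ := hy
        rw [Finset.mem_singleton] at hyq
        exact ⟨by rw [hyq, Equiv.apply_symm_apply], by rwa [← hbase]⟩ }
  have hpush : ∀ q, P.push UK v fK q =
      ∑ᶠ y ∈ {y | pK y = eK q}, f' (vdist y (γ • y)) := fun q => by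
    refine finsum_mem_eq_of_bijOn eK ⟨fun y hy => ?_, eK.injective.injOn, fun x hx => ?_⟩
      fun y hy => ?_
    · have hy' : q = eK.symm (pK (eK y)) := Finset.mem_singleton.1 hy
      show pK (eK y) = eK q
      rw [hy', Equiv.apply_symm_apply]
    · refine ⟨eK.symm x, Finset.mem_singleton.2 ?_, Equiv.apply_symm_apply _ _⟩
      rw [Equiv.apply_symm_apply, show pK x = eK q from hx, Equiv.symm_apply_apply]
    · rw [hbase, Finset.card_singleton, Nat.cast_one, div_one]
  refine ⟨fun δ hδ _ => ?_, fun hno _ => ⟨P, fun q => ?_⟩⟩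
  · obtain ⟨c, hc⟩ := (isLocalNorm_iff τ w₀ huniq δ γ).1 hδ
    obtain ⟨pL, hL, hLf, hLs⟩ := hN (δ w₀) c hc
    have hev := bijective_eval UL w₀ huniq
    have htw : ∀ X, Orbital.twistTerm τ UL v fL δ X =
        f (vdist (eL (X w₀)) (h.twist (δ w₀) (eL (X w₀)))) := fun X => by
      rw [twistTerm_single τ w₀ huniq, hfL, levelVert_out, h.twist_mk, vdist_mk, mul_assoc]
    refine ⟨{
      toLocalProj := P
      projL := fun X => {eK.symm (pL (eL (X w₀)))}
      smulL := fun g hg X => ?_
      nonemptyL := fun X _ => Finset.singleton_nonempty _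
      finiteL := fun q => ?_
      sum_eq := fun q => ?_ }⟩
    · dsimp only
      rw [Finset.image_singleton, baseOver_single w₀, levelVert_smul, hL g hg, levelVert_symm_smul]
    · refine ((hLf f (eK q)).preimage (eL.injective.comp hev.1).injOn).subset fun X hX => ?_
      obtain ⟨hX0, hXq⟩ := hX
      rw [Finset.mem_singleton] at hXq
      exact ⟨by rw [hXq, Equiv.apply_symm_apply]; rfl, by rw [htw] at hX0; exact hX0⟩
    · rw [hpush, ← hLs]
      refine finsum_mem_eq_of_bijOn (fun X => eL (X w₀))
        ⟨fun X hX => ?_, (eL.injective.comp hev.1).injOn, fun x hx => ?_⟩ fun X hX => ?_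
      · have hX' : q = eK.symm (pL (eL (X w₀))) := Finset.mem_singleton.1 hX
        show pL (eL (X w₀)) = eK q
        rw [hX', Equiv.apply_symm_apply]
      · obtain ⟨X, hX⟩ := hev.2 (eL.symm x)
        simp only at hX
        refine ⟨X, Finset.mem_singleton.2 ?_, by simp only [hX, Equiv.apply_symm_apply]⟩
        rw [hX, Equiv.apply_symm_apply, show pL x = eK q from hx, Equiv.symm_apply_apply]
      · rw [htw, Finset.card_singleton, Nat.cast_one, div_one]
  · rw [hpush]
    refine hNn (fun δ' c hc => hno ?_) f _
    obtain ⟨δ, rfl⟩ := exists_gover w₀ δ'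
    exact ⟨δ, (isLocalNorm_iff τ w₀ huniq δ γ).2 ⟨c, hc⟩⟩

end Fermat.Agent.ResidualThree.Tree
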