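import Fermat.Agent.ResidualThree.Tree.CharWeight
import Fermat.Agent.ResidualThree.Tree.TransferInert

/-!
# The transfer of small subgroups at a place which does not split

For a character `chi` of a small subgroup upstairs, `chi` times the indicator of that subgroup
matches `charLevelWeight` downstairs: the value of `chi` at a cube root times the number of classes
descending to it (`localMatch_char`).  The indicator itself is the case of the trivial character
(`localMatch_level`).
-/

noncomputable section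

open IsDedekindDomain NumberField
open scoped WithZero

namespace Fermat.Agent.ResidualThree.Tree

open Orbital (baseHom)

variable {K L : Type} [Field K] [NumberField K] [Field L] [NumberField L] [Algebra K L]
  {v : FPlace K} (w : FPlace L) (hv : Orbital.below K w = v)

/-- The elements of the base congruent to scalars at a level of the extension. -/
def baseLevel (n : ℕ) : Subgroup (GLv v) :=
  letI := baseAlgebra w hv
  levelBase (K := v.adicCompletion K) (valv w) n

theorem mem_baseLevel {n : ℕ} {g : GLv v} :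
    g ∈ baseLevel w hv n ↔
      (letI := baseAlgebra w hv; embGL (v.adicCompletion K) (w.adicCompletion L) g) ∈
        congZ (valv w) n := Iff.rfl

theorem baseLevel_antitone {m n : ℕ} (h : m ≤ n) : baseLevel w hv n ≤ baseLevel w hv m :=
  fun _ hg => congZ_le h hg

/-- Small subgroups of the base are inside small subgroups of the extension. -/
theorem congSubgroup_le_baseLevel (k : ℕ) : congSubgroup v k ≤ baseLevel w hv k := by
  let := baseAlgebra w hv
  intro g hg
  obtain ⟨s, j, hj, rfl⟩ := mem_congZ.1 (show g ∈ congZ (valv v) k from hg)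
  rw [mem_baseLevel, map_mul, embGL_scalar, scalar_mul_mem_congZ_iff]
  have hb : ∀ (x : v.adicCompletion K) (a : ℤᵐ⁰), valv v x ≤ a → a ≤ 1 →
      valv w (baseHom w hv x) ≤ a := fun x a hx ha => by
    rw [valv_baseHom]
    exact (pow_le_of_le_one zero_le (hx.trans ha) (Orbital.ram_pos w).ne').trans hx
  refine congGL_le_congZ k ⟨⟨fun i l => ?_, ?_⟩, nrm_le_iff.2 fun i l => ?_⟩
  · exact hb _ 1 (hj.1.1 i l) le_rfl
  · show valv w (Matrix.det _) = 1
    rw [coe_embGL, ← RingHom.mapMatrix_apply, ← RingHom.map_det]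
    show valv w (baseHom w hv _) = 1
    rw [valv_baseHom, hj.1.2, one_pow]
  · rw [coe_embGL, Matrix.sub_apply, Matrix.map_apply,
      show (1 : Matrix (Fin 2) (Fin 2) (w.adicCompletion L)) i l =
        baseHom w hv ((1 : Matrix (Fin 2) (Fin 2) (v.adicCompletion K)) i l) by
        rw [Matrix.one_apply, Matrix.one_apply, apply_ite (baseHom w hv), map_one, map_zero]]
    have h' := (le_nrm (v := valv v) _ i l).trans hj.2
    rw [Matrix.sub_apply] at h'
    have h'' := hb _ _ h' (lev_le_one k)
    rw [map_sub] at h''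
    exact h''

/-- Up to scalars the base level consists of integral matrices. -/
theorem exists_scalar_intGL {n : ℕ} (hn : 1 ≤ n) {g : GLv v} (hg : g ∈ baseLevel w hv n) :
    ∃ s : (v.adicCompletion K)ˣ,
      Matrix.GeneralLinearGroup.scalar (Fin 2) s * g ∈ intGL (valv v) := by
  let := baseAlgebra w hv
  obtain ⟨s, hs⟩ := exists_scalar_congGL hn ((mem_baseLevel w hv).1 hg)
  refine ⟨s, ⟨fun i l => ?_, ?_⟩⟩
  · have h : valv w (baseHom w hv _) ≤ 1 := hs.1.1 i l
    rw [valv_baseHom] at h
    exact (pow_le_one_iff (Orbital.ram_pos w).ne').1 h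
  · have h : valv w (Matrix.det _) = 1 := hs.1.2
    rw [coe_embGL, ← RingHom.mapMatrix_apply, ← RingHom.map_det] at h
    have h' : valv w (baseHom w hv _) = 1 := h
    rw [valv_baseHom] at h'
    exact (pow_eq_one_iff_of_nonneg zero_le (Orbital.ram_pos w).ne').1 h'

omit [NumberField L] in
/-- The image of a set of integral matrices up to scalars in the classes of a level is finite. -/
theorem finite_image_of_intGL {S : Set (GLv v)} (hS : ∀ g ∈ S, ∃ s : (v.adicCompletion K)ˣ,
      Matrix.GeneralLinearGroup.scalar (Fin 2) s * g ∈ intGL (valv v))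
    {J : Subgroup (GLv v)} (hJ : ∃ k, congSubgroup v k ≤ J) :
    (QuotientGroup.mk '' S : Set (GLv v ⧸ J)).Finite := by
  obtain ⟨k, hk⟩ := hJ
  refine ((finite_image_intGL (isLocalVal_valv v) k).image
    (Subgroup.quotientMapOfLE (show congZ (valv v) k ≤ J from hk))).subset ?_
  rintro x ⟨g, hg, rfl⟩
  obtain ⟨s, hs⟩ := hS g hg
  refine ⟨_, ⟨_, hs, rfl⟩, ?_⟩
  rw [Subgroup.quotientMapOfLE_apply_mk, Matrix.GeneralLinearGroup.scalar_commute,
    QuotientGroup.mk_mul_of_mem _ (hk (show _ ∈ congZ (valv v) k from scalar_mem_congZ s k))]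

/-- The image of the base level in the classes of a level is finite. -/
theorem finite_image_baseLevel {n : ℕ} (hn : 1 ≤ n) {J : Subgroup (GLv v)}
    (hJ : ∃ k, congSubgroup v k ≤ J) :
    (QuotientGroup.mk '' (baseLevel w hv n : Set (GLv v)) : Set (GLv v ⧸ J)).Finite :=
  finite_image_of_intGL (fun _ hg => exists_scalar_intGL w hv hn hg) hJ

/-- The image of a small subgroup in the classes of a level is finite. -/
theorem finite_image_congSubgroup (m : ℕ) {J : Subgroup (GLv w)}
    (hJ : ∃ k, congSubgroup w k ≤ J) :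
    (QuotientGroup.mk '' (congSubgroup w m : Set (GLv w)) : Set (GLv w ⧸ J)).Finite := by
  refine finite_image_of_intGL (fun g hg => ?_) hJ
  obtain ⟨s, j, hj, rfl⟩ := mem_congZ.1 (show g ∈ congZ (valv w) m from hg)
  exact ⟨s⁻¹, by rw [map_inv, inv_mul_cancel_left]; exact hj.1⟩

/-! ### The projection to the classes of a larger subgroup -/

section Classes

variable {G : Type*} [Group G] {J B : Subgroup G}

/-- The class modulo `B` of a representative of a class modulo `J ≤ B`. -/
theorem mk_out_of_le (hJ : J ≤ B) (g : G) :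
    (QuotientGroup.mk (QuotientGroup.mk g : G ⧸ J).out : G ⧸ B) = QuotientGroup.mk g := by
  obtain ⟨k, hk⟩ := QuotientGroup.mk_out_eq_mul J g
  rw [hk, QuotientGroup.mk_mul_of_mem _ (hJ k.2)]

/-- The projection to the classes of `B` is equivariant. -/
theorem smul_mk_out_of_le (hJ : J ≤ B) (g : G) (x : G ⧸ J) :
    (QuotientGroup.mk (g • x).out : G ⧸ B) = g • QuotientGroup.mk x.out := by
  induction x using QuotientGroup.induction_on with
  | H a =>
    rw [MulAction.Quotient.smul_mk, smul_eq_mul, mk_out_of_le hJ, mk_out_of_le hJ,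
      MulAction.Quotient.smul_mk, smul_eq_mul]

/-- The fibres of the projection are translates of the image of the larger subgroup. -/
theorem fibre_out_eq (hJ : J ≤ B) (m : G ⧸ B) :
    {x : G ⧸ J | (QuotientGroup.mk x.out : G ⧸ B) = m} =
      (fun x => m.out • x) '' (QuotientGroup.mk '' (B : Set G)) := by
  ext x
  induction x using QuotientGroup.induction_on with
  | H a =>
    constructor
    · intro hx
      have hx' : (QuotientGroup.mk a : G ⧸ B) = m := (mk_out_of_le hJ a).symm.trans hx
      refine ⟨_, ⟨m.out⁻¹ * a, ?_, rfl⟩, ?_⟩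
      · rw [← QuotientGroup.out_eq' m] at hx'
        exact QuotientGroup.eq.1 hx'.symm
      · dsimp only
        rw [MulAction.Quotient.smul_mk, smul_eq_mul, mul_inv_cancel_left]
    · rintro ⟨_, ⟨b, hb, rfl⟩, e⟩
      show (QuotientGroup.mk _ : G ⧸ B) = m
      rw [← e]
      dsimp only
      rw [MulAction.Quotient.smul_mk, smul_eq_mul, mk_out_of_le hJ,
        QuotientGroup.mk_mul_of_mem _ hb, QuotientGroup.out_eq']

/-- The fibres of the projection are finite. -/
theorem finite_fibre_out (hJ : J ≤ B)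
    (hB : (QuotientGroup.mk '' (B : Set G) : Set (G ⧸ J)).Finite) (m : G ⧸ B) :
    {x : G ⧸ J | (QuotientGroup.mk x.out : G ⧸ B) = m}.Finite := by
  rw [fibre_out_eq hJ]
  exact hB.image _

/-- The fibres of the projection have the size of the image of `B`. -/
theorem ncard_fibre_out (hJ : J ≤ B) (m : G ⧸ B) :
    {x : G ⧸ J | (QuotientGroup.mk x.out : G ⧸ B) = m}.ncard =
      (QuotientGroup.mk '' (B : Set G) : Set (G ⧸ J)).ncard := by
  rw [fibre_out_eq hJ, Set.ncard_image_of_injective _ (MulAction.injective _)]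

end Classes

/-- The class modulo the base level of level `n` of a class modulo `J`. -/
def levelClass (n : ℕ) {J : Subgroup (GLv v)} (x : GLv v ⧸ J) : GLv v ⧸ baseLevel w hv n :=
  QuotientGroup.mk x.out

/-- The number of classes of a level in the base level. -/
def levelIndex (n : ℕ) (J : Subgroup (GLv v)) : ℕ :=
  (QuotientGroup.mk '' (baseLevel w hv n : Set (GLv v)) : Set (GLv v ⧸ J)).ncard

/-- The number of classes of a level in a small subgroup. -/
def upIndex (m : ℕ) (J : Subgroup (GLv w)) : ℕ :=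
  (QuotientGroup.mk '' (congSubgroup w m : Set (GLv w)) : Set (GLv w ⧸ J)).ncard

/-- A small subgroup is one class of itself. -/
theorem upIndex_self (m : ℕ) : upIndex w m (congSubgroup w m) = 1 := by
  rw [upIndex, Set.ncard_eq_one]
  refine ⟨QuotientGroup.mk 1, Set.eq_singleton_iff_unique_mem.2 ⟨⟨1, one_mem _, rfl⟩, ?_⟩⟩
  rintro x ⟨g, hg, rfl⟩
  exact QuotientGroup.eq.2 (by rw [mul_one]; exact inv_mem hg)

theorem levelIndex_ne_zero {n : ℕ} (hn : 1 ≤ n) {J : Subgroup (GLv v)}
    (hJc : ∃ k, congSubgroup v k ≤ J) : levelIndex w hv n J ≠ 0 :=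
  (Set.ncard_ne_zero_of_mem (a := (QuotientGroup.mk 1 : GLv v ⧸ J))
    ⟨1, one_mem _, rfl⟩ (finite_image_baseLevel w hv hn hJc))

variable (τ : Orbital.CubicAut K L) (hw : Orbital.comapPlace τ.σ.toRingEquiv w = w)

/-- The function of the base matching the indicator of a small subgroup. -/
def levelWeight (n : ℕ) (J : Subgroup (GLv v)) (g : GLv v) : ℂ :=
  letI := baseAlgebra w hv
  cubeWeight (valv w) (sigmaLocal τ w hv hw) n (threeLev w) g / (levelIndex w hv n J : ℂ)

open Classical in
/-- The indicator of a small subgroup. -/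
def congInd (n : ℕ) (g : GLv w) : ℂ := if g ∈ congSubgroup w n then 1 else 0

/-- A character of a small subgroup at a place fixed by the automorphism. -/
def IsPlaceChar (n e : ℕ) (chi : GLv w → ℂ) : Prop :=
  letI := baseAlgebra w hv
  IsLevelChar (valv w) (sigmaLocal τ w hv hw) n e chi

/-- The function of the base matching a character times the indicator of a small subgroup. -/
def charLevelWeight (n : ℕ) (chi : GLv w → ℂ) (JL : Subgroup (GLv w)) (JK : Subgroup (GLv v))
    (g : GLv v) : ℂ :=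
  letI := baseAlgebra w hv
  charWeight (valv w) (sigmaLocal τ w hv hw) n (threeLev w) chi g *
    (upIndex w (n + threeLev w) JL : ℂ) / (levelIndex w hv n JK : ℂ)

/-- The weight is bi-invariant under deeper levels. -/
theorem levelWeight_biinvariant {n : ℕ} (hcn : threeLev w < n) (J₀ : Subgroup (GLv v))
    {J : Subgroup (GLv v)} (hJ : J ≤ baseLevel w hv (n + threeLev w + threeLev w))
    {j₁ j₂ : GLv v} (h₁ : j₁ ∈ J) (h₂ : j₂ ∈ J) (g : GLv v) :
    levelWeight w hv τ hw n J₀ (j₁ * g * j₂) = levelWeight w hv τ hw n J₀ g := by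
  let := baseAlgebra w hv
  have := charZero_compl L w
  have := infinite_of_local (isLocalVal_valv v)
  rw [levelWeight, levelWeight, (isCubicLevel_compl τ w hv hw).cubeWeight_mul hcn (hJ h₂),
    (isCubicLevel_compl τ w hv hw).cubeWeight_mul_left hcn (hJ h₁)]

theorem levelWeight_mem {n : ℕ} (hcn : threeLev w < n) {J : Subgroup (GLv v)} {g : GLv v}
    (hg : levelWeight w hv τ hw n J g ≠ 0) : g ∈ baseLevel w hv (n + threeLev w) := by
  let := baseAlgebra w hv
  have := charZero_compl L w
  have := infinite_of_local (isLocalVal_valv v)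
  exact (isCubicLevel_compl τ w hv hw).mem_levelBase_of_cubeWeight hcn (div_ne_zero_iff.1 hg).1

theorem levelWeight_finite_support {n : ℕ} (hcn : threeLev w < n) (J₀ : Subgroup (GLv v))
    {J : Subgroup (GLv v)} (hJc : ∃ k, congSubgroup v k ≤ J) :
    {x : GLv v ⧸ J | levelWeight w hv τ hw n J₀ x.out ≠ 0}.Finite :=
  (finite_image_baseLevel w hv (n := n) (by omega) hJc).subset fun x hx =>
    ⟨x.out, baseLevel_antitone w hv (Nat.le_add_right _ _) (levelWeight_mem w hv τ hw hcn hx),
      QuotientGroup.out_eq' x⟩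

/-- The weight of a character is bi-invariant under deeper levels. -/
theorem charLevelWeight_biinvariant {n e : ℕ} (hcn : threeLev w < n) {chi : GLv w → ℂ}
    (hχ : IsPlaceChar w hv τ hw n e chi) (JL : Subgroup (GLv w)) (J₀ : Subgroup (GLv v))
    {J : Subgroup (GLv v)} (hJ : J ≤ baseLevel w hv (e + 2 * threeLev w + n))
    {j₁ j₂ : GLv v} (h₁ : j₁ ∈ J) (h₂ : j₂ ∈ J) (g : GLv v) :
    charLevelWeight w hv τ hw n chi JL J₀ (j₁ * g * j₂) =
      charLevelWeight w hv τ hw n chi JL J₀ g := by
  let := baseAlgebra w hv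
  have := charZero_compl L w
  have := infinite_of_local (isLocalVal_valv v)
  have h := isCubicLevel_compl τ w hv hw
  have hJ' : ∀ {j}, j ∈ J → j ∈ baseLevel w hv (e + threeLev w + n + threeLev w) := fun hj =>
    baseLevel_antitone w hv (by omega) (hJ hj)
  rw [charLevelWeight, charLevelWeight,
    charWeight_mul h hcn hχ (E := e + threeLev w + n) (by omega) (by omega) (hJ' h₂),
    charWeight_mul_left h hcn hχ (E := e + threeLev w + n) (by omega) (by omega) (hJ' h₁)]

/-- The weight of a character is supported in the base level. -/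
theorem charLevelWeight_mem {n : ℕ} (hcn : threeLev w < n) {chi : GLv w → ℂ}
    {JL : Subgroup (GLv w)} {JK : Subgroup (GLv v)} {g : GLv v}
    (hg : charLevelWeight w hv τ hw n chi JL JK g ≠ 0) :
    g ∈ baseLevel w hv (n + threeLev w) := by
  let := baseAlgebra w hv
  have := charZero_compl L w
  have := infinite_of_local (isLocalVal_valv v)
  exact (isCubicLevel_compl τ w hv hw).mem_levelBase_of_cubeWeight hcn
    (mul_ne_zero_iff.1 (mul_ne_zero_iff.1 (div_ne_zero_iff.1 hg).1).1).2

/-- The weight of a character has finite support modulo an open subgroup. -/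
theorem charLevelWeight_finite_support {n : ℕ} (hcn : threeLev w < n) (chi : GLv w → ℂ)
    (JL : Subgroup (GLv w)) (J₀ : Subgroup (GLv v))
    {J : Subgroup (GLv v)} (hJc : ∃ k, congSubgroup v k ≤ J) :
    {x : GLv v ⧸ J | charLevelWeight w hv τ hw n chi JL J₀ x.out ≠ 0}.Finite :=
  (finite_image_baseLevel w hv (n := n) (by omega) hJc).subset fun x hx =>
    ⟨x.out, baseLevel_antitone w hv (Nat.le_add_right _ _) (charLevelWeight_mem w hv τ hw hcn hx),
      QuotientGroup.out_eq' x⟩

open Classical in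
/-- The fibres of the classes of a level over the classes of the base level. -/
theorem exists_levelFibre {n : ℕ} (hn : 1 ≤ n) {J : Subgroup (GLv v)}
    (hJ : J ≤ baseLevel w hv n) (hJc : ∃ k, congSubgroup v k ≤ J) :
    ∃ fib : GLv v ⧸ baseLevel w hv n → Finset (GLv v ⧸ J),
      (∀ y m, y ∈ fib m ↔ levelClass w hv n y = m) ∧
      (∀ m, (fib m).card = levelIndex w hv n J) ∧
      ∀ (g : GLv v) m, fib (g • m) = (fib m).image fun q => g • q := by
  let fib : GLv v ⧸ baseLevel w hv n → Finset (GLv v ⧸ J) := fun m =>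
    (finite_fibre_out hJ (finite_image_baseLevel w hv hn hJc) m).toFinset
  have hmem : ∀ y m, y ∈ fib m ↔ levelClass w hv n y = m := fun y m => Set.Finite.mem_toFinset _
  refine ⟨fib, hmem, fun m => (Set.ncard_eq_toFinset_card _ _).symm.trans (ncard_fibre_out hJ m),
    fun g m => ?_⟩
  ext y
  rw [hmem, Finset.mem_image]
  constructor
  · refine fun hy => ⟨g⁻¹ • y, (hmem _ _).2 ?_, smul_inv_smul g y⟩
    rw [levelClass, smul_mk_out_of_le hJ, ← levelClass, hy, inv_smul_smul]
  · rintro ⟨y, hy, rfl⟩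
    rw [levelClass, smul_mk_out_of_le hJ, ← levelClass, (hmem _ _).1 hy]

/-- The terms downstairs depend only on the class modulo the base level. -/
theorem baseTerm_charLevelWeight {n e : ℕ} (hcn : threeLev w < n) {chi : GLv w → ℂ}
    (hχ : IsPlaceChar w hv τ hw n e chi) (JL : Subgroup (GLv w)) (UK : Level K) {fK : GLv v → ℂ}
    (hfK : ∀ g, fK g = charLevelWeight w hv τ hw n chi JL (UK.J v) g) (γ : GLv v)
    (y : GLv v ⧸ UK.J v) :
    letI := baseAlgebra w hv
    Orbital.baseTerm UK v fK γ y =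
      charWeight (valv w) (sigmaLocal τ w hv hw) n (threeLev w) chi
          ((levelClass w hv n y).out⁻¹ * γ * (levelClass w hv n y).out) *
        (upIndex w (n + threeLev w) JL : ℂ) / (levelIndex w hv n (UK.J v) : ℂ) := by
  let := baseAlgebra w hv
  have := charZero_compl L w
  have := infinite_of_local (isLocalVal_valv v)
  obtain ⟨a, ha⟩ := QuotientGroup.mk_out_eq_mul (baseLevel w hv n) y.out
  rw [Orbital.baseTerm, hfK]
  show _ / _ = charWeight _ _ _ _ _ _ * _ / _
  rw [show (levelClass w hv n y).out = y.out * (a : GLv v) from ha,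
    show (y.out * (a : GLv v))⁻¹ * γ * (y.out * a) = (a : GLv v)⁻¹ * (y.out⁻¹ * γ * y.out) * a
      by group, charWeight_conj (isCubicLevel_compl τ w hv hw) hcn hχ a.2]

open Classical in
/-- The terms upstairs depend only on the class modulo the small subgroup. -/
theorem twistTerm_char (w₀ : Orbital.Over L v) (huniq : ∀ w : Orbital.Over L v, w = w₀)
    {n e : ℕ} {chi : GLv w₀.1 → ℂ}
    (hχ : IsPlaceChar w₀.1 w₀.2 τ (comapPlace_eq_self τ w₀ huniq) n e chi) (UL : Level L)
    (fL : ∀ w : FPlace L, GLv w → ℂ)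
    (hfL : ∀ g, fL w₀.1 g = chi g * congInd w₀.1 (n + threeLev w₀.1) g) (δ : Orbital.Gover L v)
    (X : Orbital.Ωover UL v) :
    letI := baseAlgebra w₀.1 w₀.2
    letI σ := sigmaLocal τ w₀.1 w₀.2 (comapPlace_eq_self τ w₀ huniq)
    letI z : GLv w₀.1 ⧸ congZ (valv w₀.1) (n + threeLev w₀.1) := QuotientGroup.mk (X w₀).out
    Orbital.twistTerm τ UL v fL δ X =
      if z ∈ twistSet (valv w₀.1) σ (δ w₀) (n + threeLev w₀.1) then
        chi (z.out⁻¹ * δ w₀ * sigmaGL σ z.out) else 0 := by
  let := baseAlgebra w₀.1 w₀.2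
  have := charZero_compl L w₀.1
  have := infinite_of_local (isLocalVal_valv v)
  set hw := comapPlace_eq_self τ w₀ huniq
  have h := isCubicLevel_compl τ w₀.1 w₀.2 hw
  set σ := sigmaLocal τ w₀.1 w₀.2 hw
  set c := threeLev w₀.1
  set T := twistSet (valv w₀.1) σ (δ w₀) (n + c)
  set z : GLv w₀.1 ⧸ congZ (valv w₀.1) (n + c) := QuotientGroup.mk (X w₀).out with hz
  have e' : (X w₀).out⁻¹ * δ w₀ * sigmaGL σ (X w₀).out ∈ congSubgroup w₀.1 (n + c) ↔ z ∈ T := by
    rw [hz, h.twistSet_mk]
    rfl
  rw [twistTerm_single τ w₀ huniq, hfL]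
  by_cases hT : z ∈ T
  · rw [if_pos hT, congInd, if_pos (e'.2 hT), mul_one]
    obtain ⟨k, hk⟩ := QuotientGroup.mk_out_eq_mul (congZ (valv w₀.1) (n + c)) (X w₀).out
    have hkn : (k : GLv w₀.1) ∈ congZ (valv w₀.1) n := congZ_le (Nat.le_add_right n c) k.2
    show _ = chi _
    rw [hz, hk, ← hχ.map_twist hkn (h.sigmaGL_mem_congZ hkn)
      (congZ_le (Nat.le_add_right n c) (e'.2 hT))]
    congr 1
    simp only [σ, map_mul, _root_.mul_inv_rev, mul_assoc]
  · rw [if_neg hT, congInd, if_neg fun hm => hT (e'.1 hm), mul_zero]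

/-- **The transfer at a place which does not split**: a character times the indicator of a small
subgroup matches `charLevelWeight`. -/
theorem localMatch_char (w₀ : Orbital.Over L v)
    (huniq : ∀ w : Orbital.Over L v, w = w₀) (n e : ℕ) (hcn : threeLev w₀.1 < n)
      (chi : GLv w₀.1 → ℂ)
    (hχ : IsPlaceChar w₀.1 w₀.2 τ (comapPlace_eq_self τ w₀ huniq) n e chi) (UL : Level L)
    (UK : Level K) (hUL : UL.J w₀.1 ≤ congSubgroup w₀.1 (n + threeLev w₀.1))
    (hUK : UK.J v ≤ baseLevel w₀.1 w₀.2 n)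
    (fL : ∀ w : FPlace L, GLv w → ℂ) (fK : GLv v → ℂ)
    (hfL : ∀ g, fL w₀.1 g = chi g * congInd w₀.1 (n + threeLev w₀.1) g)
    (hfK : ∀ g, fK g = charLevelWeight w₀.1 w₀.2 τ (comapPlace_eq_self τ w₀ huniq) n chi
      (UL.J w₀.1) (UK.J v) g) :
    Orbital.LocalMatch τ UL UK v fL fK := by
  classical
  let := baseAlgebra w₀.1 w₀.2
  have := charZero_compl L w₀.1
  have := infinite_of_local (isLocalVal_valv v)
  set hw := comapPlace_eq_self τ w₀ huniq
  have h := isCubicLevel_compl τ w₀.1 w₀.2 hw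
  set σ := sigmaLocal τ w₀.1 w₀.2 hw
  set c := threeLev w₀.1
  set I := upIndex w₀.1 (n + c) (UL.J w₀.1)
  have hn : 1 ≤ n := by omega
  set B := baseLevel w₀.1 w₀.2 n
  set N := levelIndex w₀.1 w₀.2 n (UK.J v)
  have hN : (N : ℂ) ≠ 0 :=
    Nat.cast_ne_zero.2 (levelIndex_ne_zero w₀.1 w₀.2 hn (UK.exists_cong v))
  obtain ⟨fib, hmem, hcard', hfsmul⟩ :=
    exists_levelFibre w₀.1 w₀.2 hn hUK (UK.exists_cong v)
  have hcard : ∀ m, (fib m).card = N := hcard'
  intro γ hγ
  let W : GLv v ⧸ B → ℂ := fun m =>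
    charWeight (valv w₀.1) σ n c chi (m.out⁻¹ * γ * m.out) * (I : ℂ)
  have hbase : ∀ y, Orbital.baseTerm UK v fK γ y = W (levelClass w₀.1 w₀.2 n y) / (N : ℂ) :=
    baseTerm_charLevelWeight w₀.1 w₀.2 τ hw hcn hχ (UL.J w₀.1) UK hfK γ
  let P : Orbital.LocalProj UK v fK γ {g | Commute g γ} :=
    { proj := fun y => fib (levelClass w₀.1 w₀.2 n y)
      smul := fun g _ y => by rw [levelClass, smul_mk_out_of_le hUK, hfsmul]; rfl
      nonempty := fun y _ => ⟨y, (hmem _ _).2 rfl⟩
      finite := fun q => (finite_fibre_out hUK (finite_image_baseLevel w₀.1 w₀.2 hn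
        (UK.exists_cong v)) (levelClass w₀.1 w₀.2 n q)).subset fun y hy =>
          ((hmem _ _).1 hy.2).symm }
  have hpush : ∀ q, P.push UK v fK q = W (levelClass w₀.1 w₀.2 n q) / (N : ℂ) := fun q => by
    have hset : {y | q ∈ P.proj y} = ↑(fib (levelClass w₀.1 w₀.2 n q)) := by
      ext y
      rw [Finset.mem_coe, hmem]
      show q ∈ fib _ ↔ _
      rw [hmem]
      exact eq_comm
    rw [Orbital.LocalProj.push, hset, finsum_mem_coe_finset,
      Finset.sum_congr rfl fun y hy => show _ = W (levelClass w₀.1 w₀.2 n q) / (N : ℂ) / (N : ℂ) by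
        show _ / ((fib _).card : ℂ) = _
        rw [hcard, hbase, (hmem _ _).1 hy],
      Finset.sum_const, hcard, nsmul_eq_mul]
    field_simp
  refine ⟨fun δ hδ _ => ?_, fun hno _ => ⟨P, fun q => ?_⟩⟩
  · obtain ⟨c₀, hc₀⟩ := (isLocalNorm_iff τ w₀ huniq δ γ).1 hδ
    obtain ⟨pL, hL, hLs⟩ := exists_charMatch h hcn hχ (nonCentral_of_isRegular hγ) hc₀
    set T := twistSet (valv w₀.1) σ (δ w₀) (n + c)
    have hev := bijective_eval UL w₀ huniq
    let π : GLv w₀.1 ⧸ UL.J w₀.1 → GLv w₀.1 ⧸ congZ (valv w₀.1) (n + c) :=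
      fun x => QuotientGroup.mk x.out
    have hπout : ∀ x, π x = QuotientGroup.mk x.out := fun _ => rfl
    have hπsmul : ∀ (g : GLv w₀.1) x, π (g • x) = g • π x := smul_mk_out_of_le hUL
    let R : GLv w₀.1 ⧸ congZ (valv w₀.1) (n + c) → ℂ := fun z =>
      chi (z.out⁻¹ * δ w₀ * sigmaGL σ z.out)
    have htw : ∀ X, Orbital.twistTerm τ UL v fL δ X = if π (X w₀) ∈ T then R (π (X w₀)) else 0 :=
      twistTerm_char τ w₀ huniq hχ UL fL hfL δ
    have hq : ∀ (X : Orbital.Ωover UL v) q,
        (q ∈ if π (X w₀) ∈ T then fib (pL (π (X w₀))) else ∅) ↔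
          π (X w₀) ∈ T ∧ pL (π (X w₀)) = levelClass w₀.1 w₀.2 n q := fun X q => by
      by_cases hT : π (X w₀) ∈ T
      · rw [if_pos hT]
        exact (hmem q _).trans ⟨fun e => ⟨hT, e.symm⟩, fun e => e.2.symm⟩
      · rw [if_neg hT]
        exact ⟨fun e => absurd e (Finset.notMem_empty _), fun e => absurd e.1 hT⟩
    let up : GLv w₀.1 ⧸ congZ (valv w₀.1) (n + c) → Finset (GLv w₀.1 ⧸ UL.J w₀.1) := fun z =>
      (finite_fibre_out hUL (finite_image_congSubgroup w₀.1 _ (UL.exists_cong w₀.1)) z).toFinset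
    have hup : ∀ x z, x ∈ up z ↔ π x = z := fun x z => Set.Finite.mem_toFinset _
    have hupcard : ∀ z, (up z).card = I := fun z =>
      (Set.ncard_eq_toFinset_card _ _).symm.trans (ncard_fibre_out hUL z)
    refine ⟨{
      toLocalProj := P
      projL := fun X => if π (X w₀) ∈ T then fib (pL (π (X w₀))) else ∅
      smulL := fun g hg X => ?_
      nonemptyL := fun X hX => ?_
      finiteL := fun q => ?_
      sum_eq := fun q => ?_ }⟩
    · have key : ∀ x x', x' = embGL (v.adicCompletion K) (w₀.1.adicCompletion L) g • x →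
          (if x' ∈ T then fib (pL x') else ∅) =
            (if x ∈ T then fib (pL x) else ∅).image fun q => g • q := by
        rintro x _ rfl
        by_cases hT : x ∈ T
        · rw [if_pos hT, if_pos (hL g hg _ hT).1, (hL g hg _ hT).2]
          exact hfsmul g (pL x)
        · rw [if_neg hT, if_neg, Finset.image_empty]
          intro hT'
          have := (hL g⁻¹ hg.inv_left _ hT').1
          rw [map_inv, inv_smul_smul] at this
          exact hT this
      exact key (π (X w₀)) _ (hπsmul _ _)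
    · rw [htw] at hX
      have hT : π (X w₀) ∈ T := by_contra fun hT => hX (if_neg hT)
      rw [if_pos hT, ← Finset.card_pos]
      exact Nat.pos_of_ne_zero fun h0 => hN (Nat.cast_eq_zero.2 ((hcard _).symm.trans h0))
    · refine (((hLs (levelClass w₀.1 w₀.2 n q).out).1.toFinset.biUnion up).finite_toSet.preimage
        hev.1.injOn).subset fun X hX => ?_
      obtain ⟨hT, hp⟩ := (hq X q).1 hX.2
      exact Finset.mem_coe.2 (Finset.mem_biUnion.2 ⟨π (X w₀), (Set.Finite.mem_toFinset _).2
        ⟨hT, hp.trans (QuotientGroup.out_eq' _).symm⟩, (hup _ _).2 rfl⟩)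
    · obtain ⟨hfin, hcw, hval⟩ := hLs (levelClass w₀.1 w₀.2 n q).out
      set ρ := rootChar (valv w₀.1) n chi
        ((levelClass w₀.1 w₀.2 n q).out⁻¹ * γ * (levelClass w₀.1 w₀.2 n q).out)
      rw [hpush, finsum_mem_eq_of_bijOn (g := fun _ => ρ / (N : ℂ))
        (t := ↑(hfin.toFinset.biUnion up)) (fun X => X w₀) ⟨fun X hX => ?_, hev.1.injOn,
          fun x hx => ?_⟩ fun X hX => ?_, finsum_mem_coe_finset, Finset.sum_const, nsmul_eq_mul,
        Finset.card_biUnion (fun z _ z' _ hzz => Finset.disjoint_left.2 fun x hx hx' =>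
          hzz (((hup x z).1 hx).symm.trans ((hup x z').1 hx'))),
        Finset.sum_congr rfl fun z _ => hupcard z, Finset.sum_const, smul_eq_mul, Nat.cast_mul,
        ← Set.ncard_eq_toFinset_card _ hfin]
      · rw [hcw]
        show _ = charWeight _ _ _ _ _ _ * (I : ℂ) / (N : ℂ)
        rw [charWeight]
        ring
      · obtain ⟨hT, hp⟩ := (hq X q).1 hX
        exact Finset.mem_coe.2 (Finset.mem_biUnion.2 ⟨π (X w₀), (Set.Finite.mem_toFinset _).2
          ⟨hT, hp.trans (QuotientGroup.out_eq' _).symm⟩, (hup _ _).2 rfl⟩)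
      · obtain ⟨z, hz, hxz⟩ := Finset.mem_biUnion.1 (Finset.mem_coe.1 hx)
        obtain ⟨hT, hp⟩ := (Set.Finite.mem_toFinset _).1 hz
        obtain ⟨X, hX⟩ := hev.2 x
        simp only at hX
        have hx' : π (X w₀) = z := by rw [hX]; exact (hup x z).1 hxz
        refine ⟨X, (hq X q).2 ?_, hX⟩
        rw [hx']
        exact ⟨hT, hp.trans (QuotientGroup.out_eq' _)⟩
      · obtain ⟨hT, hp⟩ := (hq X q).1 hX
        rw [htw, if_pos hT, if_pos hT, show (fib (pL (π (X w₀)))).card = N from hcard _]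
        show chi _ / _ = _
        rw [hval _ hT (hp.trans (QuotientGroup.out_eq' _).symm)]
  · rw [hpush]
    have hz : cubeWeight (valv w₀.1) σ n c ((levelClass w₀.1 w₀.2 n q).out⁻¹ * γ *
        (levelClass w₀.1 w₀.2 n q).out) = 0 :=
      cubeWeight_eq_zero_of_no_norm (fun δ' c₀ hc => hno ?_) _
    · show charWeight _ _ _ _ _ _ * (I : ℂ) / (N : ℂ) = 0
      rw [charWeight, hz, mul_zero, zero_mul, zero_div]
    · obtain ⟨δ, rfl⟩ := exists_gover w₀ δ'
      exact ⟨δ, (isLocalNorm_iff τ w₀ huniq δ γ).2 ⟨c₀, hc⟩⟩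

/-- `levelWeight` is the weight of the trivial character. -/
theorem charLevelWeight_one (n : ℕ) (J : Subgroup (GLv v)) (g : GLv v) :
    charLevelWeight w hv τ hw n (fun _ => 1) (congSubgroup w (n + threeLev w)) J g =
      levelWeight w hv τ hw n J g := by
  let := baseAlgebra w hv
  rw [charLevelWeight, levelWeight, upIndex_self, Nat.cast_one, mul_one, charWeight, rootChar,
    cubeWeight]
  split_ifs
  · rw [one_mul]
  · rw [zero_mul]

/-- **The transfer at a place which does not split**: the indicator of a small subgroup matches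
`levelWeight`. -/
theorem localMatch_level (w₀ : Orbital.Over L v)
    (huniq : ∀ w : Orbital.Over L v, w = w₀) (n : ℕ) (hcn : threeLev w₀.1 < n) (UL : Level L)
    (UK : Level K) (hUL : UL.J w₀.1 = congSubgroup w₀.1 (n + threeLev w₀.1))
    (hUK : UK.J v ≤ baseLevel w₀.1 w₀.2 n)
    (fL : ∀ w : FPlace L, GLv w → ℂ) (fK : GLv v → ℂ)
    (hfL : ∀ g, fL w₀.1 g = congInd w₀.1 (n + threeLev w₀.1) g)
    (hfK : ∀ g, fK g =
      levelWeight w₀.1 w₀.2 τ (comapPlace_eq_self τ w₀ huniq) n (UK.J v) g) :
    Orbital.LocalMatch τ UL UK v fL fK :=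
  localMatch_char τ w₀ huniq n 0 hcn (fun _ => 1)
    (by let := baseAlgebra w₀.1 w₀.2
        exact ⟨fun _ _ _ _ => (one_mul 1).symm, fun _ => rfl, fun _ _ _ => rfl, fun _ _ => rfl⟩)
    UL UK
    hUL.le hUK fL fK (fun g => by rw [hfL, one_mul])
    fun g => by rw [hfK, hUL, charLevelWeight_one _ _ τ _ n]

end Fermat.Agent.ResidualThree.Tree
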