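import Fermat.Agent.ResidualThree.Automorphic.Tame
import Fermat.Agent.ResidualThree.Tree.CongMatch
import Fermat.Agent.ResidualThree.Tree.TransferInert

/-!
# The transfer at a tame place

At a place prime to three with a single place above and equal residue fields the indicators of
the tame levels match (`localMatch_tame`): such a level has exponent prime to three modulo the
first congruence subgroup, so twisted classes descend and cube roots exist and are unique.
-/

noncomputable section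

open Matrix
open scoped WithZero

namespace Fermat.Agent.ResidualThree.Tree

/-! ### Integral matrices which are triangular with a tame ratio modulo the maximal ideal -/

section TameInt

variable {F : Type*} [Field F] (v : Valuation F ℤᵐ⁰) (d : ℕ)

/-- The generators of the tame level which are not central. -/
def IsTameInt (g : GL (Fin 2) F) : Prop :=
  IsIntGL v g ∧ v ((g : Matrix (Fin 2) (Fin 2) F) 1 0) < 1 ∧
    v ((g : Matrix (Fin 2) (Fin 2) F) 0 0 ^ d - (g : Matrix (Fin 2) (Fin 2) F) 1 1 ^ d) < 1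

variable {v d}

theorem mul_val_lt_one {a b : F} (ha : v a < 1) (hb : v b ≤ 1) : v (a * b) < 1 := by
  rw [map_mul]; exact mul_lt_one_of_nonneg_of_lt_one_left zero_le ha hb

theorem mul_val_le_one {a b : F} (ha : v a ≤ 1) (hb : v b ≤ 1) : v (a * b) ≤ 1 := by
  rw [map_mul]; exact mul_le_one' ha hb

theorem pow_val_le_one {a : F} (ha : v a ≤ 1) (m : ℕ) : v (a ^ m) ≤ 1 := by
  rw [map_pow]; exact pow_le_one₀ zero_le ha

theorem sub_val_trans {a b c : F} (hab : v (a - b) < 1) (hbc : v (b - c) < 1) :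
    v (a - c) < 1 := by
  rw [← sub_add_sub_cancel a b c]; exact v.map_add_lt hab hbc

theorem mul_congr_val {a a' b b' : F} (hb : v b ≤ 1) (ha' : v a' ≤ 1) (h : v (a - a') < 1)
    (h' : v (b - b') < 1) : v (a * b - a' * b') < 1 := by
  rw [show a * b - a' * b' = (a - a') * b + (b - b') * a' by ring]
  exact v.map_add_lt (mul_val_lt_one h hb) (mul_val_lt_one h' ha')

theorem pow_congr_val {a b : F} (ha : v a ≤ 1) (hb : v b ≤ 1) (h : v (a - b) < 1) :
    ∀ m : ℕ, v (a ^ m - b ^ m) < 1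
  | 0 => by simp
  | m + 1 => by
    rw [pow_succ, pow_succ]
    exact mul_congr_val ha (pow_val_le_one hb m) (pow_congr_val ha hb h m) h

theorem IsTameInt.unit_diag {g : GL (Fin 2) F} (hg : IsTameInt v d g) :
    v ((g : Matrix (Fin 2) (Fin 2) F) 0 0) = 1 ∧ v ((g : Matrix (Fin 2) (Fin 2) F) 1 1) = 1 := by
  have h2 := hg.2.1
  set a := (g : Matrix (Fin 2) (Fin 2) F) 0 0
  set b := (g : Matrix (Fin 2) (Fin 2) F) 1 1
  have ha : v a ≤ 1 := hg.1.1 0 0
  have hb : v b ≤ 1 := hg.1.1 1 1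
  have h : v (a * b) = 1 := by
    have hlt : v (-((g : Matrix (Fin 2) (Fin 2) F) 1 0 * (g : Matrix (Fin 2) (Fin 2) F) 0 1)) <
        v (g : Matrix (Fin 2) (Fin 2) F).det := by
      rw [Valuation.map_neg, hg.1.2]; exact mul_val_lt_one h2 (hg.1.1 0 1)
    rw [← hg.1.2, show a * b = (g : Matrix (Fin 2) (Fin 2) F).det +
      -(-((g : Matrix (Fin 2) (Fin 2) F) 1 0 * (g : Matrix (Fin 2) (Fin 2) F) 0 1)) by
        rw [Matrix.det_fin_two]; ring]
    exact v.map_add_eq_of_lt_left (by rwa [Valuation.map_neg])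
  rw [map_mul] at h
  refine ⟨le_antisymm ha ?_, le_antisymm hb ?_⟩
  · exact h ▸ mul_le_of_le_one_right zero_le hb
  · exact h ▸ mul_le_of_le_one_left zero_le ha

theorem IsTameInt.mul_entries {g g' : GL (Fin 2) F} (hg : IsIntGL v g) (hg' : IsIntGL v g')
    (h : v ((g : Matrix (Fin 2) (Fin 2) F) 1 0) < 1)
    (h' : v ((g' : Matrix (Fin 2) (Fin 2) F) 1 0) < 1) :
    v (((g * g' : GL (Fin 2) F) : Matrix (Fin 2) (Fin 2) F) 1 0) < 1 ∧
      ∀ i, v (((g * g' : GL (Fin 2) F) : Matrix (Fin 2) (Fin 2) F) i i -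
        (g : Matrix (Fin 2) (Fin 2) F) i i * (g' : Matrix (Fin 2) (Fin 2) F) i i) < 1 := by
  simp only [Units.val_mul, Matrix.mul_apply, Fin.sum_univ_two]
  refine ⟨v.map_add_lt (mul_val_lt_one h (hg'.1 0 0)) ?_, fun i => ?_⟩
  · rw [mul_comm]; exact mul_val_lt_one h' (hg.1 1 1)
  · fin_cases i
    · simp only [Fin.zero_eta, add_sub_cancel_left]
      rw [mul_comm]; exact mul_val_lt_one h' (hg.1 0 1)
    · simp only [Fin.mk_one, add_sub_cancel_right]
      exact mul_val_lt_one h (hg'.1 0 1)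

theorem IsTameInt.mul {g g' : GL (Fin 2) F} (hg : IsTameInt v d g) (hg' : IsTameInt v d g') :
    IsTameInt v d (g * g') := by
  have hint : IsIntGL v (g * g') := (mul_mem (s := intGL v) hg.1 hg'.1 : _)
  obtain ⟨h10, hii⟩ := IsTameInt.mul_entries hg.1 hg'.1 hg.2.1 hg'.2.1
  refine ⟨hint, h10, ?_⟩
  have key : ∀ i, v (((g * g' : GL (Fin 2) F) : Matrix (Fin 2) (Fin 2) F) i i ^ d -
      (g : Matrix (Fin 2) (Fin 2) F) i i ^ d * (g' : Matrix (Fin 2) (Fin 2) F) i i ^ d) < 1 :=
    fun i => by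
      rw [← mul_pow]
      exact pow_congr_val (hint.1 i i) (mul_val_le_one (hg.1.1 i i) (hg'.1.1 i i)) (hii i) d
  refine sub_val_trans (key 0) (sub_val_trans ?_ (by rw [Valuation.map_sub_swap]; exact key 1))
  exact mul_congr_val (pow_val_le_one (hg'.1.1 0 0) d) (pow_val_le_one (hg.1.1 1 1) d) hg.2.2
    hg'.2.2

theorem IsTameInt.one : IsTameInt v d (1 : GL (Fin 2) F) :=
  ⟨(one_mem (intGL v) : _), by simp, by simp⟩

theorem IsTameInt.inv {g : GL (Fin 2) F} (hg : IsTameInt v d g) : IsTameInt v d g⁻¹ := by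
  have hint : IsIntGL v g⁻¹ := ((intGL v).inv_mem hg.1 : _)
  have hdet := hg.1.2
  set D := (g : Matrix (Fin 2) (Fin 2) F).det
  have hD : v D⁻¹ = 1 := by rw [map_inv₀, hdet, inv_one]
  have hentry : ((g⁻¹ : GL (Fin 2) F) : Matrix (Fin 2) (Fin 2) F) = D⁻¹ •
      !![(g : Matrix (Fin 2) (Fin 2) F) 1 1, -(g : Matrix (Fin 2) (Fin 2) F) 0 1;
        -(g : Matrix (Fin 2) (Fin 2) F) 1 0, (g : Matrix (Fin 2) (Fin 2) F) 0 0] := by
    rw [Matrix.coe_units_inv, Matrix.inv_def, Matrix.adjugate_fin_two, Ring.inverse_eq_inv']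
  refine ⟨hint, ?_, ?_⟩
  · rw [hentry]
    simp [map_mul, hD, hg.2.1]
  · rw [hentry]
    simp only [Matrix.smul_apply, smul_eq_mul, Matrix.of_apply, Matrix.cons_val',
      Matrix.cons_val_zero,
      Matrix.cons_val_one, Matrix.empty_val', Matrix.cons_val_fin_one, mul_pow, ← mul_sub]
    rw [map_mul, map_pow, hD, one_pow, one_mul, Valuation.map_sub_swap]
    exact hg.2.2

theorem mem_closure_tameInt {g : GL (Fin 2) F}
    (hg : g ∈ Subgroup.closure {g | IsTameInt v d g ∨ g ∈ Subgroup.center (GL (Fin 2) F)}) :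
    ∃ (s : Fˣ) (k : GL (Fin 2) F), IsTameInt v d k ∧
      g = Matrix.GeneralLinearGroup.scalar (Fin 2) s * k := by
  induction hg using Subgroup.closure_induction with
  | mem g hg =>
    rcases hg with hg | hg
    · exact ⟨1, g, hg, by rw [map_one, one_mul]⟩
    · obtain ⟨c, rfl⟩ := mem_center_iff_scalar.1 hg
      exact ⟨c, 1, IsTameInt.one, (mul_one _).symm⟩
  | one => exact ⟨1, 1, IsTameInt.one, by rw [map_one, mul_one]⟩
  | mul a b _ _ ha hb =>
    obtain ⟨s, k, hk, rfl⟩ := ha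
    obtain ⟨t, l, hl, rfl⟩ := hb
    exact ⟨s * t, k * l, hk.mul hl, scalar_mul_mul s t k l⟩
  | inv a _ ha =>
    obtain ⟨s, k, hk, rfl⟩ := ha
    refine ⟨s⁻¹, k⁻¹, hk.inv, ?_⟩
    rw [_root_.mul_inv_rev, ← map_inv, ← Matrix.GeneralLinearGroup.scalar_commute]

/-- A power of a tame matrix prime to three is near a scalar. -/
theorem IsTameInt.pow_mem_congZ {q : ℕ} (hq : v (q : F) < 1) {g : GL (Fin 2) F}
    (hg : IsTameInt v d g) : g ^ (d * q) ∈ congZ v 1 := by
  have hpow : ∀ m : ℕ, IsIntGL v (g ^ m) ∧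
      v (((g ^ m : GL (Fin 2) F) : Matrix (Fin 2) (Fin 2) F) 1 0) < 1 ∧
      ∀ i, v (((g ^ m : GL (Fin 2) F) : Matrix (Fin 2) (Fin 2) F) i i -
        (g : Matrix (Fin 2) (Fin 2) F) i i ^ m) < 1 := by
    intro m
    induction m with
    | zero => exact ⟨(pow_zero g).symm ▸ (IsTameInt.one (d := d)).1, by simp, fun i => by simp⟩
    | succ m ih =>
      obtain ⟨hi, h10, hii⟩ := ih
      obtain ⟨e10, eii⟩ := IsTameInt.mul_entries hi hg.1 h10 hg.2.1
      rw [pow_succ]
      refine ⟨(mul_mem (s := intGL v) hi hg.1 : _), e10, fun i => sub_val_trans (eii i) ?_⟩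
      rw [pow_succ]
      exact mul_congr_val (hg.1.1 i i) (pow_val_le_one (hg.1.1 i i) m) (hii i) (by simp)
  obtain ⟨hi, h10, hii⟩ := hpow d
  set M := ((g ^ d : GL (Fin 2) F) : Matrix (Fin 2) (Fin 2) F) with hM
  set α := M 0 0 with hα
  have hα1 : v α = 1 := by
    have h1 : v ((g : Matrix (Fin 2) (Fin 2) F) 0 0 ^ d) = 1 := by
      rw [map_pow, hg.unit_diag.1, one_pow]
    have := v.map_add_eq_of_lt_left (x := (g : Matrix (Fin 2) (Fin 2) F) 0 0 ^ d)
      (y := α - (g : Matrix (Fin 2) (Fin 2) F) 0 0 ^ d) (by rw [h1]; exact hii 0)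
    rwa [add_sub_cancel, h1] at this
  have hα0 : α ≠ 0 := fun h0 => by rw [h0, map_zero] at hα1; exact zero_ne_one hα1
  have hdiag : v (M 1 1 - α) < 1 :=
    sub_val_trans (hii 1) (sub_val_trans (by rw [Valuation.map_sub_swap]; exact hg.2.2)
      (by rw [Valuation.map_sub_swap]; exact hii 0))
  set N := α⁻¹ • M - 1 with hN
  have hN00 : N 0 0 = 0 := by simp [hN, ← hα, hα0]
  have hN01 : v (N 0 1) ≤ 1 := by
    simp [hN, map_mul, map_inv₀, hα1]
    exact hi.1 0 1
  have hN1 : ∀ j, v (N 1 j) < 1 := by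
    intro j
    fin_cases j
    · simp [hN, map_mul, map_inv₀, hα1, h10]
    · have e : N 1 1 = α⁻¹ * (M 1 1 - α) := by simp [hN, mul_sub, hα0]
      show v (N 1 1) < 1
      rw [e, map_mul, map_inv₀, hα1, inv_one, one_mul]
      exact hdiag
  have hN1' : nrm v N ≤ 1 := nrm_le_iff.2 fun i j => by
    fin_cases i <;> fin_cases j
    exacts [by simp [hN00], hN01, (hN1 0).le, (hN1 1).le]
  have hNN : nrm v (N * N) ≤ lev 1 := nrm_le_iff.2 fun i j => by
    rw [show lev 1 = WithZero.exp (-1 : ℤ) by simp [lev]]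
    refine lt_one_iff_le_exp.1 ?_
    rw [Matrix.mul_apply, Fin.sum_univ_two]
    refine v.map_add_lt ?_ ?_
    · fin_cases i
      · simp [hN00]
      · exact mul_val_lt_one (hN1 0) ((le_nrm N _ _).trans hN1')
    · rw [mul_comm]
      exact mul_val_lt_one (hN1 j) ((le_nrm N _ _).trans hN1')
  have hnat : ∀ m : ℕ, v (m : F) ≤ 1 := fun m => by
    induction m with
    | zero => simp
    | succ m ih => rw [Nat.cast_succ]; exact v.map_add_le ih (map_one v).le
  have hexp : ∀ m : ℕ, nrm v ((1 + N) ^ m - 1 - (m : F) • N) ≤ lev 1 := by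
    intro m
    induction m with
    | zero => simp [nrm_zero]
    | succ m ih =>
      have e : (1 + N) ^ (m + 1) - 1 - ((m + 1 : ℕ) : F) • N =
          ((1 + N) ^ m - 1 - (m : F) • N) * (1 + N) + (m : F) • (N * N) := by
        rw [pow_succ, Nat.cast_succ, add_smul, one_smul, ← Matrix.smul_mul]
        generalize (1 + N) ^ m = P
        noncomm_ring
      rw [e]
      refine nrm_add_le' ((nrm_mul_le' ih (nrm_add_le' nrm_one.le hN1')).trans (by rw [mul_one])) ?_
      rw [nrm_smul]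
      exact (mul_le_mul' (hnat m) hNN).trans (by rw [one_mul])
  have hnear : Near v 1 ((1 + N) ^ q) := by
    rw [Near, show (1 + N) ^ q - 1 = ((1 + N) ^ q - 1 - (q : F) • N) + (q : F) • N by abel]
    refine nrm_add_le' (hexp q) ?_
    rw [nrm_smul]
    refine (mul_le_mul' ?_ hN1').trans (by rw [mul_one])
    rw [show lev 1 = WithZero.exp (-1 : ℤ) by simp [lev]]
    exact lt_one_iff_le_exp.1 hq
  set S := Matrix.GeneralLinearGroup.scalar (Fin 2) (Units.mk0 α hα0 ^ q)
  refine mem_congZ.2 ⟨Units.mk0 α hα0 ^ q, S⁻¹ * g ^ (d * q), mem_congGL_of_near le_rfl ?_,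
    (mul_inv_cancel_left _ _).symm⟩
  have e : ((S⁻¹ * g ^ (d * q) : GL (Fin 2) F) : Matrix (Fin 2) (Fin 2) F) = (1 + N) ^ q := by
    rw [show (S⁻¹ : GL (Fin 2) F) = Matrix.GeneralLinearGroup.scalar (Fin 2)
      (Units.mk0 α hα0 ^ q)⁻¹ from (map_inv _ _).symm, Units.val_mul, coe_scalar_eq_smul, pow_mul,
      Units.val_pow_eq_pow_val, hN, add_sub_cancel, smul_pow, Matrix.smul_mul, Matrix.one_mul]
    simp [hM, inv_pow]
  rw [e]
  exact hnear

end TameInt

/-! ### Descent and uniqueness of cube roots in a tame group -/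

/-- The square of a number prime to three is one modulo three. -/
theorem exists_sq_eq_three_mul_add_one {D : ℕ} (hD : ¬ 3 ∣ D) : ∃ t, D * D = 3 * t + 1 := by
  refine ⟨D * D / 3, ?_⟩
  have h0 : D % 3 = 1 ∨ D % 3 = 2 := by omega
  have h1 : D * D % 3 = 1 := by rcases h0 with h0 | h0 <;> simp [Nat.mul_mod, h0]
  omega

/-- The properties of a tame level upstairs used by the matching. -/
structure IsTameGroup {K L : Type*} [Field K] [Field L] [Algebra K L] (vL : Valuation L ℤᵐ⁰)
    (σ : L ≃ₐ[K] L) (J : Subgroup (GL (Fin 2) L)) (D : ℕ) : Prop where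
  cong_le : congZ vL 1 ≤ J
  normal : ∀ j ∈ J, ∀ a ∈ congZ vL 1, j⁻¹ * a * j ∈ congZ vL 1
  residual : ∀ j ∈ J, j⁻¹ * sigmaGL σ j ∈ congZ vL 1
  pow_cong : ∀ j ∈ J, j ^ D ∈ congZ vL 1
  not_dvd : ¬ 3 ∣ D
  root : ∀ b : GL (Fin 2) K, embGL K L b ∈ J →
    ∃ (r : GL (Fin 2) K) (s : Kˣ), embGL K L r ∈ J ∧
      r ^ 3 = Matrix.GeneralLinearGroup.scalar (Fin 2) s * b

section TameGroup

variable {K L : Type*} [Field K] [Field L] [Algebra K L] {vL : Valuation L ℤᵐ⁰} {σ : L ≃ₐ[K] L}
  {q D : ℕ} {J : Subgroup (GL (Fin 2) L)} (h : IsCubicLevel vL σ q 0)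
  (hJ : IsTameGroup vL σ J D)

include hJ

theorem IsTameGroup.scalar_mem (s : Lˣ) : Matrix.GeneralLinearGroup.scalar (Fin 2) s ∈ J :=
  hJ.cong_le (scalar_mem_congZ s 1)

theorem IsTameGroup.scalar_mul_mem_iff (s : Lˣ) (g : GL (Fin 2) L) :
    Matrix.GeneralLinearGroup.scalar (Fin 2) s * g ∈ J ↔ g ∈ J :=
  Subgroup.mul_mem_cancel_left _ (hJ.scalar_mem s)

theorem IsTameGroup.sigma_mem {j : GL (Fin 2) L} (hj : j ∈ J) : sigmaGL σ j ∈ J := by
  simpa using mul_mem hj (hJ.cong_le (hJ.residual j hj))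

/-- Whether a twisted conjugate lies in a tame group depends only on the class of the conjugator. -/
theorem IsTameGroup.twist_mul_mem_iff {j : GL (Fin 2) L} (hj : j ∈ J) (x δ : GL (Fin 2) L) :
    (x * j)⁻¹ * δ * sigmaGL σ (x * j) ∈ J ↔ x⁻¹ * δ * sigmaGL σ x ∈ J := by
  rw [map_mul, _root_.mul_inv_rev, show j⁻¹ * x⁻¹ * δ * (sigmaGL σ x * sigmaGL σ j) =
      j⁻¹ * (x⁻¹ * δ * sigmaGL σ x) * sigmaGL σ j by group,
    Subgroup.mul_mem_cancel_right _ (hJ.sigma_mem hj),
    Subgroup.mul_mem_cancel_left _ (inv_mem hj)]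

theorem IsTameGroup.pow_sq_mem {j : GL (Fin 2) L} (hj : j ∈ J) : j ^ (D * D) ∈ congZ vL 1 := by
  rw [pow_mul]; exact _root_.pow_mem (hJ.pow_cong j hj) D

theorem IsTameGroup.sigma_pow {j : GL (Fin 2) L} (hj : j ∈ J) :
    ∀ m : ℕ, (j ^ m)⁻¹ * sigmaGL σ (j ^ m) ∈ congZ vL 1 := fun m =>
  hJ.residual _ (_root_.pow_mem hj m)

include h

/-- Uniqueness of cube roots up to scalars. -/
theorem IsTameGroup.cube_unique {u u' : GL (Fin 2) L} (hu : u ∈ J) (hu' : u' ∈ J)
    (g : GL (Fin 2) L) (l : Lˣ)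
    (e : g⁻¹ * u ^ 3 * g = Matrix.GeneralLinearGroup.scalar (Fin 2) l * u' ^ 3) :
    ∃ r : Lˣ, g⁻¹ * u * g = Matrix.GeneralLinearGroup.scalar (Fin 2) r * u' := by
  obtain ⟨t, ht⟩ := exists_sq_eq_three_mul_add_one hJ.not_dvd
  set A := g⁻¹ * u * g with hA
  have hA3 : A ^ 3 = Matrix.GeneralLinearGroup.scalar (Fin 2) l * u' ^ 3 := by
    rw [hA, conj_cube]; exact e
  have hconj : ∀ (x : GL (Fin 2) L) (m : ℕ), (g⁻¹ * x * g) ^ m = g⁻¹ * x ^ m * g := fun x m => by
    induction m with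
    | zero => simp
    | succ m ih => rw [pow_succ, pow_succ, ih]; group
  obtain ⟨ρ, hρ⟩ := h.cube_unique zero_lt_one (hJ.pow_sq_mem hu) (hJ.pow_sq_mem hu') g
    (l ^ (D * D)) (by
      rw [← pow_mul, mul_comm, pow_mul, ← hconj, e, scalar_mul_pow, ← pow_mul, ← pow_mul,
        mul_comm 3])
  have e1 : ∀ x : GL (Fin 2) L, x ^ (3 * t + 1) = (x ^ 3) ^ t * x := fun x => by
    rw [pow_succ, pow_mul]
  rw [← hconj u, ← hA, ht, e1, e1, hA3, scalar_mul_pow, mul_assoc] at hρ
  refine ⟨(l ^ t)⁻¹ * ρ, mul_left_cancel (a := (u' ^ 3) ^ t) ?_⟩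
  rw [mul_scalar_mul, map_mul, mul_assoc, ← hρ, map_inv, inv_mul_cancel_left]

/-- A twisted class in a tame group is a twisted conjugate of a fixed element up to scalars. -/
theorem IsTameGroup.descent {j : GL (Fin 2) L} (hj : j ∈ J) :
    ∃ (a : GL (Fin 2) L) (s : Lˣ) (b : GL (Fin 2) K), a ∈ congGL vL 1 ∧ embGL K L b ∈ J ∧
      j = a⁻¹ * (Matrix.GeneralLinearGroup.scalar (Fin 2) s * embGL K L b) * sigmaGL σ a := by
  obtain ⟨t, ht⟩ := exists_sq_eq_three_mul_add_one hJ.not_dvd
  set S : GL (Fin 2) L →* GL (Fin 2) L := sigmaGL σ with hS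
  let X : ℕ → GL (Fin 2) L := fun m => Nat.rec 1 (fun _ x => j * S x) m
  have hXs : ∀ m, X (m + 1) = j * S (X m) := fun _ => rfl
  have hcomm : ∀ m, X m * (S^[m]) j = j * S (X m) := by
    intro m
    induction m with
    | zero => show 1 * j = j * S 1; rw [map_one, one_mul, mul_one]
    | succ m ih => rw [hXs, Function.iterate_succ_apply', mul_assoc, ← map_mul, ih]
  have hX : ∀ m, (j ^ m)⁻¹ * X m ∈ congZ vL 1 := by
    intro m
    induction m with
    | zero => show (j ^ 0)⁻¹ * 1 ∈ _; rw [pow_zero, inv_one, one_mul]; exact one_mem _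
    | succ m ih =>
      rw [hXs, show (j ^ (m + 1))⁻¹ * (j * S (X m)) =
        ((j ^ m)⁻¹ * S (j ^ m)) * S ((j ^ m)⁻¹ * X m) by
          rw [pow_succ', map_mul S, map_inv S]; group]
      exact mul_mem (hJ.sigma_pow hj m) (h.sigmaGL_mem_congZ ih)
  set N := D * D with hN
  have hXN : X N ∈ congZ vL 1 := by
    have := mul_mem (hJ.pow_sq_mem hj) (hX N)
    rwa [mul_inv_cancel_left] at this
  have hiter : (S^[N]) j = S j := by
    have h3 : S^[3] = id := funext fun g => h.sigmaGL_cube g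
    rw [ht, Function.iterate_add_apply, Function.iterate_mul, h3, Function.iterate_id]
    rfl
  have hrel : X N * S j = j * S (X N) := by rw [← hiter]; exact hcomm N
  obtain ⟨s, k, hk, hXk⟩ := mem_congZ.1 hXN
  obtain ⟨a, u, ha, hu, rfl⟩ := h.exists_descent zero_lt_one (c := 0) (n := 1) hk
  set U := embGL K L u
  set j' := a * j * (S a)⁻¹ with hj'
  have hj'J : j' ∈ J := mul_mem (mul_mem (hJ.cong_le (congGL_le_congZ 1 ha)) hj)
    (inv_mem (hJ.sigma_mem (hJ.cong_le (congGL_le_congZ 1 ha))))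
  have hSU : S U = U := sigmaGL_embGL u
  set s' := Units.map (σ : L →+* L).toMonoidHom s
  have hSs : ∀ r : Lˣ, S (Matrix.GeneralLinearGroup.scalar (Fin 2) r) =
      Matrix.GeneralLinearGroup.scalar (Fin 2) (Units.map (σ : L →+* L).toMonoidHom r) := fun r =>
    glMap_scalar _ r
  have hrel' : Matrix.GeneralLinearGroup.scalar (Fin 2) s * (U * S j') =
      Matrix.GeneralLinearGroup.scalar (Fin 2) s' * (j' * U) := by
    have e1 : Matrix.GeneralLinearGroup.scalar (Fin 2) s * U = a * X N * (S a)⁻¹ := by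
      rw [hXk, mul_scalar_mul, mul_assoc (Matrix.GeneralLinearGroup.scalar (Fin 2) s), ← hS]
      group
    have e2 : Matrix.GeneralLinearGroup.scalar (Fin 2) s' * U = S (a * X N * (S a)⁻¹) := by
      rw [← e1, map_mul S, hSs, hSU]
    rw [← mul_assoc, e1, ← mul_scalar_mul, e2, hj', map_mul S, map_mul S, map_mul S, map_mul S,
      map_inv S, show a * X N * (S a)⁻¹ * (S a * S j * (S (S a))⁻¹) =
        a * (X N * S j) * (S (S a))⁻¹ by group, hrel]
    group
  set y := (Matrix.GeneralLinearGroup.scalar (Fin 2) s)⁻¹ * j' with hy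
  have hz : ∀ (r : Lˣ) (g : GL (Fin 2) L), Matrix.GeneralLinearGroup.scalar (Fin 2) r * g =
      g * Matrix.GeneralLinearGroup.scalar (Fin 2) r := fun r g =>
    Matrix.GeneralLinearGroup.scalar_commute r g
  have hSy : S y = U⁻¹ * y * U := by
    set Z := Matrix.GeneralLinearGroup.scalar (Fin 2) s with hZ
    rw [hz s'] at hrel'
    set Z' := Matrix.GeneralLinearGroup.scalar (Fin 2) s' with hZ'
    have hSZ : S Z = Z' := hSs s
    have e : S j' = U⁻¹ * y * U * Z' := by
      rw [show S j' = U⁻¹ * Z⁻¹ * (Z * (U * S j')) by group, hrel', hy]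
      group
    rw [show S y = (S Z)⁻¹ * S j' by rw [hy, map_mul S, map_inv S], hSZ, e, ← hz s',
      inv_mul_cancel_left]
  have hU : y⁻¹ * U * y = U := by
    have h3 : (U ^ 3)⁻¹ * y * U ^ 3 = y := by
      conv_rhs => rw [← h.sigmaGL_cube y]
      simp only [← hS, hSy, map_mul, map_inv, hSU]
      simp only [pow_three, _root_.mul_inv_rev, mul_assoc]
    have hn : ∀ {g : GL (Fin 2) L}, g ∈ congGL vL 1 →
        Near vL 1 (g : Matrix (Fin 2) (Fin 2) L) := fun hg => hg.2
    refine Units.ext ?_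
    rw [Units.val_mul, Units.val_mul]
    refine cube_root_conj h.v_three zero_lt_one h.localL (hn hu) (hn hu) y ?_
    rw [← Units.val_pow_eq_pow_val, ← Units.val_mul, ← Units.val_mul]
    refine congrArg Units.val ?_
    rw [mul_assoc, inv_mul_eq_iff_eq_mul]
    conv_lhs => rw [← h3]
    group
  have hfix : S y = y := by
    rw [hSy, mul_assoc, inv_mul_eq_iff_eq_mul]
    calc y * U = y * (y⁻¹ * U * y) := by rw [hU]
      _ = U * y := by group
  obtain ⟨b, hb⟩ := h.exists_embGL hfix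
  refine ⟨a, s, b, ha, ?_, ?_⟩
  · rw [hb, hy, Subgroup.mul_mem_cancel_left _ (inv_mem (hJ.scalar_mem s))]; exact hj'J
  · rw [hb, hy, hj', hS]
    group

/-- **Matching of the indicators of a tame group**: the twisted classes are those downstairs. -/
theorem IsTameGroup.exists_tame_match [CharZero L] [Infinite K] {γ : GL (Fin 2) K}
    (hγ : Orbital.CubicAut.NonScalar (γ : Matrix (Fin 2) (Fin 2) K)) {δ : GL (Fin 2) L} {c₀ : Lˣ}
    (hδ : δ * sigmaGL σ δ * sigmaGL σ (sigmaGL σ δ) =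
      Matrix.GeneralLinearGroup.scalar (Fin 2) c₀ * embGL K L γ) :
    ((∀ y : GL (Fin 2) K, embGL K L (y⁻¹ * γ * y) ∉ J) ∧
        ∀ x : GL (Fin 2) L, x⁻¹ * δ * sigmaGL σ x ∉ J) ∨
      ∃ t : GL (Fin 2) L, (∀ g : GL (Fin 2) K, g * γ = γ * g → t * embGL K L g = embGL K L g * t) ∧
        (∀ y : GL (Fin 2) K, embGL K L (y⁻¹ * γ * y) ∈ J ↔
          (t⁻¹ * embGL K L y)⁻¹ * δ * sigmaGL σ (t⁻¹ * embGL K L y) ∈ J) ∧
        ∀ x : GL (Fin 2) L, x⁻¹ * δ * sigmaGL σ x ∈ J →
          ∃ y : GL (Fin 2) K, (t⁻¹ * embGL K L y)⁻¹ * x ∈ J := by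
  classical
  have hdec : ∀ x : GL (Fin 2) L, ∀ w : GL (Fin 2) L, x⁻¹ * w * sigmaGL σ x ∈ J →
      ∃ (a : GL (Fin 2) L) (s : Lˣ) (b : GL (Fin 2) K), a ∈ J ∧ embGL K L b ∈ J ∧
        (x * a⁻¹)⁻¹ * w * sigmaGL σ (x * a⁻¹) =
          Matrix.GeneralLinearGroup.scalar (Fin 2) s * embGL K L b := by
    intro x w hx
    obtain ⟨a, s, b, ha, hb, e⟩ := hJ.descent h hx
    refine ⟨a, s, b, hJ.cong_le (congGL_le_congZ 1 ha), hb, twist_mul_inv _ s ?_⟩
    rw [e, mul_scalar_mul, mul_assoc (Matrix.GeneralLinearGroup.scalar (Fin 2) s)]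
  by_cases hbase : ∃ y₀ : GL (Fin 2) K, embGL K L (y₀⁻¹ * γ * y₀) ∈ J
  swap
  · refine Or.inl ⟨fun y hy => hbase ⟨y, hy⟩, fun x hx => ?_⟩
    obtain ⟨a, r, u, -, hu, ez⟩ := hdec x δ hx
    obtain ⟨a₁, k, hu3⟩ := h.exists_conj_of_base hγ hδ ez
    refine hbase ⟨k⁻¹, ?_⟩
    rw [inv_inv, ← hJ.scalar_mul_mem_iff (Units.map (algebraMap K L).toMonoidHom a₁),
      ← embGL_scalar, ← map_mul, ← hu3, map_pow]
    exact _root_.pow_mem hu 3
  obtain ⟨y₀, hy₀⟩ := hbase
  obtain ⟨r, s₀, hr, hr3⟩ := hJ.root _ hy₀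
  set v := y₀ * r * y₀⁻¹ with hv
  have hv3 : v ^ 3 = Matrix.GeneralLinearGroup.scalar (Fin 2) s₀ * γ := by
    rw [hv, conj_pow, hr3, mul_scalar_mul, mul_assoc (Matrix.GeneralLinearGroup.scalar (Fin 2) s₀)]
    group
  obtain ⟨t, μ, htγ, hδt⟩ := h.exists_twist_of_cube hγ hδ hv3
  have hmem : ∀ x : GL (Fin 2) L, x⁻¹ * δ * sigmaGL σ x ∈ J ↔
      (t * x)⁻¹ * embGL K L v * sigmaGL σ (t * x) ∈ J :=
    fun x => by rw [hδt, hJ.scalar_mul_mem_iff]
  have hconjv : ∀ g : GL (Fin 2) K, (y₀⁻¹ * g)⁻¹ * r * (y₀⁻¹ * g) = g⁻¹ * v * g := fun g => by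
    rw [hv]; group
  refine Or.inr ⟨t, fun g hg => commute_embGL hγ htγ hg, fun y => ?_, fun x hx => ?_⟩
  · rw [hmem, mul_inv_cancel_left, sigmaGL_embGL, ← map_inv, ← map_mul, ← map_mul]
    constructor
    · intro hy
      obtain ⟨r', s', hr', hr3'⟩ := hJ.root _ hy
      obtain ⟨ρ, hρ⟩ := hJ.cube_unique h hr hr' (embGL K L (y₀⁻¹ * y))
        (Units.map (algebraMap K L).toMonoidHom (s₀ * s'⁻¹)) (by
          rw [← map_pow, ← map_pow, ← map_inv, ← map_mul, ← map_mul, ← conj_cube, hconjv,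
            conj_cube, hv3, ← embGL_scalar, ← map_mul, hr3', map_mul _ s₀, map_inv,
            mul_scalar_mul, mul_assoc (Matrix.GeneralLinearGroup.scalar (Fin 2) s₀)]
          group)
      rw [← map_inv, ← map_mul, ← map_mul, hconjv] at hρ
      rw [hρ, hJ.scalar_mul_mem_iff]
      exact hr'
    · intro hy
      have := _root_.pow_mem hy 3
      rwa [← map_pow, conj_cube, hv3, mul_scalar_mul,
        mul_assoc (Matrix.GeneralLinearGroup.scalar (Fin 2) s₀), map_mul _ _ (y⁻¹ * γ * y),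
        embGL_scalar, hJ.scalar_mul_mem_iff] at this
  · obtain ⟨a, s', b, ha, hb, ez⟩ := hdec (t * x) (embGL K L v) ((hmem x).mp hx)
    set z := t * x * a⁻¹ with hz
    set g := embGL K L y₀⁻¹ * z with hg
    have e1 : g⁻¹ * embGL K L r * sigmaGL σ g =
        Matrix.GeneralLinearGroup.scalar (Fin 2) s' * embGL K L b := by
      rw [← ez]
      simp only [hg, hv, map_mul, map_inv, sigmaGL_embGL]
      group
    obtain ⟨ρ, hρ⟩ := hJ.cube_unique h hr hb g _ (h.cube_of_conj e1)
    have hσg := twist_eq_scalar_mul e1 hρ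
    obtain ⟨T, g₀, hg₀⟩ := h.exists_base_of_conj zero_lt_one (u := r ^ (D * D)) (u' := b ^ (D * D))
      (by rw [map_pow]; exact hJ.pow_sq_mem hr) (by rw [map_pow]; exact hJ.pow_sq_mem hb) g
      (s' * ρ⁻¹ * ρ ^ (D * D)) (by
        rw [hσg, mul_scalar_mul, map_pow, map_pow,
          show g⁻¹ * embGL K L r ^ (D * D) * g = (g⁻¹ * embGL K L r * g) ^ (D * D) by
            rw [show g⁻¹ * embGL K L r * g = g⁻¹ * embGL K L r * g⁻¹⁻¹ by rw [inv_inv], conj_pow,
              inv_inv],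
          hρ, scalar_mul_pow, ← mul_assoc, ← map_mul])
    refine ⟨y₀ * g₀, ?_⟩
    rw [map_mul, show t⁻¹ * (embGL K L y₀ * embGL K L g₀) =
      t⁻¹ * (embGL K L y₀ * g) * (g⁻¹ * embGL K L g₀) by group,
      show embGL K L y₀ * g = z by rw [hg, ← mul_assoc, ← map_mul, mul_inv_cancel, map_one,
        one_mul],
      show g⁻¹ * embGL K L g₀ = (Matrix.GeneralLinearGroup.scalar (Fin 2) T)⁻¹ by
        rw [hg₀, _root_.mul_inv_rev, mul_assoc,
          ← map_inv (Matrix.GeneralLinearGroup.scalar (Fin 2)),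
            Matrix.GeneralLinearGroup.scalar_commute,
          inv_mul_cancel_left],
      hz, show (t⁻¹ * (t * x * a⁻¹) * (Matrix.GeneralLinearGroup.scalar (Fin 2) T)⁻¹)⁻¹ * x =
        Matrix.GeneralLinearGroup.scalar (Fin 2) T * a by group]
    exact mul_mem (hJ.scalar_mem T) ha

end TameGroup

/-! ### The tame level at a place with equal residue fields -/

section Place

open IsDedekindDomain NumberField
open Orbital (below baseHom)

variable {F : Type} [Field F] [NumberField F]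

theorem natCast_absNorm_lt_one (u : FPlace F) :
    valv u ((Ideal.absNorm u.asIdeal : ℕ) : u.adicCompletion F) < 1 := by
  rw [← map_natCast (algebraMap F (u.adicCompletion F)), valv_algebraMap,
    show ((Ideal.absNorm u.asIdeal : ℕ) : F) = algebraMap (𝓞 F) F (Ideal.absNorm u.asIdeal : ℕ) from
      (map_natCast _ _).symm, HeightOneSpectrum.valuation_lt_one_iff_mem]
  exact Ideal.absNorm_mem _

/-- Membership in the tame level. -/
theorem mem_tameSubgroup {u : FPlace F} {g : GLv u} :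
    g ∈ tameSubgroup u ↔ ∃ (s : (u.adicCompletion F)ˣ) (k : GLv u),
      IsTameInt (valv u) (primeToThreeOrder u) k ∧
        g = Matrix.GeneralLinearGroup.scalar (Fin 2) s * k := by
  refine ⟨fun hg => mem_closure_tameInt hg, ?_⟩
  rintro ⟨s, k, hk, rfl⟩
  exact mul_mem (Subgroup.subset_closure (Or.inr (mem_center_iff_scalar.2 ⟨s, rfl⟩)))
    (Subgroup.subset_closure (Or.inl hk))

theorem tame_pow_cong {u : FPlace F} {g : GLv u} (hg : g ∈ tameSubgroup u) :
    g ^ (primeToThreeOrder u * Ideal.absNorm u.asIdeal) ∈ congZ (valv u) 1 := by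
  obtain ⟨s, k, hk, rfl⟩ := mem_tameSubgroup.1 hg
  rw [scalar_mul_pow, scalar_mul_mem_congZ_iff]
  exact hk.pow_mem_congZ (natCast_absNorm_lt_one u)

theorem not_three_dvd_tameExponent {u : FPlace F} (h3 : valv u (3 : u.adicCompletion F) = 1) :
    ¬ 3 ∣ primeToThreeOrder u * Ideal.absNorm u.asIdeal := by
  have hcard : Nat.card (𝓞 F ⧸ u.asIdeal) = Ideal.absNorm u.asIdeal := by
    rw [Ideal.absNorm_apply, Submodule.cardQuot_apply]
  have : Finite (𝓞 F ⧸ u.asIdeal) := Ideal.finiteQuotientOfFreeOfNeBot u.asIdeal u.ne_bot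
  have : Nontrivial (𝓞 F ⧸ u.asIdeal) := Ideal.Quotient.nontrivial_iff.2 u.isPrime.ne_top
  have hq : 2 ≤ Ideal.absNorm u.asIdeal := hcard ▸ Finite.one_lt_card
  intro h
  rcases Nat.prime_three.dvd_mul.1 h with h | h
  · exact Nat.not_dvd_ordCompl Nat.prime_three (by omega) h
  · have : IsDomain (𝓞 F ⧸ u.asIdeal) := Ideal.Quotient.isDomain _
    have : Fact (Nat.Prime 3) := ⟨Nat.prime_three⟩
    obtain ⟨x, hx⟩ := exists_prime_addOrderOf_dvd_card' (G := 𝓞 F ⧸ u.asIdeal) 3 (hcard ▸ h)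
    have h0 : ((3 : ℕ) : 𝓞 F ⧸ u.asIdeal) = 0 := by
      have h3x : (3 : ℕ) • x = 0 := hx ▸ addOrderOf_nsmul_eq_zero x
      rw [nsmul_eq_mul, mul_eq_zero] at h3x
      refine h3x.resolve_right fun hx0 => ?_
      rw [hx0, addOrderOf_zero] at hx
      omega
    rw [← map_natCast (Ideal.Quotient.mk u.asIdeal), Ideal.Quotient.eq_zero_iff_mem,
      ← HeightOneSpectrum.valuation_lt_one_iff_mem (K := F)] at h0
    have hh : valv u (algebraMap F (u.adicCompletion F) ((3 : ℕ) : F)) < 1 := by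
      rw [valv_algebraMap, ← map_natCast (algebraMap (𝓞 F) F)]; exact h0
    rw [map_natCast, Nat.cast_ofNat, h3] at hh
    exact lt_irrefl _ hh

/-- Cube roots exist in the tame level up to scalars. -/
theorem tame_exists_root {u : FPlace F} (h3 : valv u (3 : u.adicCompletion F) = 1) {b : GLv u}
    (hb : b ∈ tameSubgroup u) :
    ∃ (r : GLv u) (s : (u.adicCompletion F)ˣ), r ∈ tameSubgroup u ∧
      r ^ 3 = Matrix.GeneralLinearGroup.scalar (Fin 2) s * b := by
  set D := primeToThreeOrder u * Ideal.absNorm u.asIdeal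
  obtain ⟨t, ht⟩ := exists_sq_eq_three_mul_add_one (D := D) (not_three_dvd_tameExponent h3)
  obtain ⟨s, k, hk, e⟩ := mem_congZ.1
    (show b ^ (D * D) ∈ congZ (valv u) 1 by rw [pow_mul]; exact pow_mem (tame_pow_cong hb) D)
  have hlev : valv u (3 : u.adicCompletion F) = lev 0 := by rw [h3, lev]; simp
  have hl := isLocalVal_valv u
  obtain ⟨R, hR, hR3, -⟩ := exists_cube_root hlev zero_lt_one hl
    (show Near (valv u) (1 + 0) (k : Matrix (Fin 2) (Fin 2) (u.adicCompletion F)) from hk.2)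
  set k₀ : GLv u := Matrix.GeneralLinearGroup.mkOfDetNeZero R fun h0 => by
    have := hR.det le_rfl; rw [h0, map_zero] at this; exact zero_ne_one this
  have hk₀ : k₀ ^ 3 = k := Units.ext (by rw [Units.val_pow_eq_pow_val]; exact hR3)
  have hbk : b⁻¹ * k * b = k := by
    have hkb : k = Matrix.GeneralLinearGroup.scalar (Fin 2) s⁻¹ * b ^ (D * D) := by
      rw [e, ← mul_assoc, ← map_mul, inv_mul_cancel, map_one, one_mul]
    rw [hkb, mul_scalar_mul, mul_assoc (Matrix.GeneralLinearGroup.scalar (Fin 2) s⁻¹)]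
    group
  have hbk₀ : b⁻¹ * k₀ * b = k₀ := Units.ext (cube_root_conj hlev zero_lt_one hl hR hR b (by
    rw [hR3, ← Units.val_mul, ← Units.val_mul, hbk]))
  have hc : Commute k₀ b := by
    show k₀ * b = b * k₀
    conv_rhs => rw [← hbk₀]
    group
  refine ⟨(b ^ t)⁻¹ * k₀, s⁻¹, mul_mem (inv_mem (pow_mem hb t))
    (congSubgroup_one_le_tame u (show k₀ ∈ congZ (valv u) 1 from congGL_le_congZ 1
      (mem_congGL_of_near le_rfl hR))), ?_⟩
  rw [((hc.symm.pow_left t).inv_left).mul_pow, hk₀, inv_pow, ← pow_mul, mul_comm t,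
    inv_mul_eq_iff_eq_mul, mul_scalar_mul, ← pow_succ, ← ht, e, ← mul_assoc, ← map_mul,
    inv_mul_cancel, map_one, one_mul]

variable {K L : Type} [Field K] [NumberField K] [Field L] [NumberField L] [Algebra K L]
  (τ : Orbital.CubicAut K L) {v : FPlace K} (w : FPlace L) (hv : below K w = v)
  (hN : Ideal.absNorm w.asIdeal = Ideal.absNorm v.asIdeal)

include hv in
theorem valv_three_base (h3 : valv w (3 : w.adicCompletion L) = 1) :
    valv v (3 : v.adicCompletion K) = 1 := by
  have := valv_baseHom w hv (3 : v.adicCompletion K)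
  rw [map_ofNat, h3] at this
  exact (pow_eq_one_iff_of_nonneg zero_le (Orbital.ram_pos w).ne').1 this.symm

include hN in
/-- With equal residue fields every integer is congruent to one of the base. -/
theorem exists_base_congr {x : w.adicCompletion L} (hx : valv w x ≤ 1) :
    ∃ y : v.adicCompletion K, valv v y ≤ 1 ∧ valv w (x - baseHom w hv y) < 1 := by
  set Rv := IsLocalRing.ResidueField (valv v).valuationSubring
  set Rw := IsLocalRing.ResidueField (valv w).valuationSubring
  have := (isLocalVal_valv v).finite_residue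
  have := (isLocalVal_valv w).finite_residue
  have hle : ∀ y : (valv v).valuationSubring, valv w (baseHom w hv y) ≤ 1 := fun y => by
    rw [valv_baseHom]; exact pow_le_one₀ zero_le y.2
  choose rep hrep using fun r : Rv => IsLocalRing.residue_surjective r
  let Φ : Rv → Rw := fun r => IsLocalRing.residue _ ⟨baseHom w hv (rep r), hle (rep r)⟩
  have hΦ : Function.Injective Φ := by
    intro a b hab
    rw [← hrep a, ← hrep b, ← sub_eq_zero, ← map_sub, residue_eq_zero_iff]
    have hab' := sub_eq_zero.2 hab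
    rw [← map_sub, residue_eq_zero_iff, AddSubgroupClass.coe_sub] at hab'
    replace hab : valv w (baseHom w hv ((rep a : v.adicCompletion K) - rep b)) < 1 := by
      rw [map_sub]; exact hab'
    rw [valv_baseHom] at hab
    by_contra hge
    exact absurd (one_le_pow₀ (n := Orbital.ram K w) (not_lt.1 hge)) (not_le.2 hab)
  have hbij : Function.Bijective Φ := (Nat.bijective_iff_injective_and_card Φ).2 ⟨hΦ, by
    rw [(isLocalVal_valv v).card_residue, (isLocalVal_valv w).card_residue, hN]⟩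
  obtain ⟨a, ha⟩ := hbij.2 (IsLocalRing.residue _ ⟨x, hx⟩)
  refine ⟨rep a, (rep a).2, ?_⟩
  have ha' := sub_eq_zero.2 ha
  rw [← map_sub, residue_eq_zero_iff, AddSubgroupClass.coe_sub] at ha'
  rw [Valuation.map_sub_swap]
  exact ha'

include hv hN in
theorem sigmaLocal_residual (hw : Orbital.comapPlace τ.σ.toRingEquiv w = w) {x : w.adicCompletion L}
    (hx : valv w x ≤ 1) : valv w (sigmaCompl τ w hw x - x) < 1 := by
  obtain ⟨y, -, hy⟩ := exists_base_congr w hv hN hx
  have hy' : valv w (sigmaCompl τ w hw x - baseHom w hv y) < 1 := by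
    rw [← sigmaCompl_baseHom τ w hv hw y, ← map_sub, valv_sigmaCompl]; exact hy
  exact sub_val_trans hy' (by rw [Valuation.map_sub_swap]; exact hy)

include hN in
omit [Algebra K L] in
theorem primeToThreeOrder_eq : primeToThreeOrder w = primeToThreeOrder v := by
  rw [primeToThreeOrder, primeToThreeOrder, hN]

include hN in
/-- The tame levels of the two completions agree on the ground field. -/
theorem mem_tame_embGL_iff (b : GLv v) :
    letI := baseAlgebra w hv
    embGL (v.adicCompletion K) (w.adicCompletion L) b ∈ tameSubgroup w ↔ b ∈ tameSubgroup v := by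
  let := baseAlgebra w hv
  set d := primeToThreeOrder v
  have he : Orbital.ram K w ≠ 0 := (Orbital.ram_pos w).ne'
  have hle : ∀ y, valv w (baseHom w hv y) ≤ 1 ↔ valv v y ≤ 1 := fun y => by
    rw [valv_baseHom]; exact pow_le_one_iff he
  have hlt : ∀ y, valv w (baseHom w hv y) < 1 ↔ valv v y < 1 := fun y => by
    rw [valv_baseHom]; exact pow_lt_one_iff he
  have key : ∀ k : GLv v, IsTameInt (valv w) (primeToThreeOrder w)
      (embGL (v.adicCompletion K) (w.adicCompletion L) k) ↔ IsTameInt (valv v) d k := fun k => by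
    rw [IsTameInt, IsTameInt, primeToThreeOrder_eq w hN, IsIntGL, IsIntGL, coe_embGL,
      ← RingHom.mapMatrix_apply, ← RingHom.map_det]
    simp only [RingHom.mapMatrix_apply, Matrix.map_apply]
    refine and_congr (and_congr (forall_congr' fun i => forall_congr' fun j => hle _) ?_)
      (and_congr (hlt _) ?_)
    · show valv w (baseHom w hv _) = 1 ↔ _
      rw [valv_baseHom, pow_eq_one_iff_of_nonneg zero_le he]
    · rw [← map_pow, ← map_pow, ← map_sub]
      exact hlt _
  constructor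
  · intro hb
    obtain ⟨s, k, hk, e⟩ := mem_tameSubgroup.1 hb
    set b0 := (b : Matrix (Fin 2) (Fin 2) (v.adicCompletion K)) 0 0
    set k0 := (k : Matrix (Fin 2) (Fin 2) (w.adicCompletion L)) 0 0
    have e0 : baseHom w hv b0 = (s : w.adicCompletion L) * k0 := by
      have := congrArg (fun g : GLv w => (g : Matrix (Fin 2) (Fin 2) (w.adicCompletion L)) 0 0) e
      simp only [Units.val_mul, coe_scalar_eq_smul, Matrix.smul_mul, Matrix.one_mul,
        Matrix.smul_apply, smul_eq_mul, coe_embGL, Matrix.map_apply] at this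
      exact this
    have hk0 : k0 ≠ 0 := fun h0 => by
      have := hk.unit_diag.1
      change valv w k0 = 1 at this
      rw [h0, map_zero] at this
      exact zero_ne_one this
    have hb0 : b0 ≠ 0 := fun h0 => by
      rw [h0, map_zero, eq_comm, mul_eq_zero] at e0
      exact e0.elim s.ne_zero hk0
    refine mem_tameSubgroup.2 ⟨Units.mk0 b0 hb0,
      Matrix.GeneralLinearGroup.scalar (Fin 2) (Units.mk0 b0 hb0)⁻¹ * b, (key _).1 ?_,
      by rw [← mul_assoc, ← map_mul, mul_inv_cancel, map_one, one_mul]⟩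
    have hu : Units.map (baseHom w hv).toMonoidHom (Units.mk0 b0 hb0)⁻¹ * s =
      (Units.mk0 k0 hk0)⁻¹ := by
      apply Units.ext
      simp only [Units.val_mul, Units.coe_map, Units.val_inv_eq_inv_val, Units.val_mk0]
      show baseHom w hv b0⁻¹ * _ = _
      rw [map_inv₀, e0, mul_inv, mul_comm (s : w.adicCompletion L)⁻¹, mul_assoc,
        inv_mul_cancel₀ s.ne_zero, mul_one]
    rw [map_mul, embGL_scalar, e, ← mul_assoc, ← map_mul,
      show (algebraMap (v.adicCompletion K) (w.adicCompletion L)).toMonoidHom =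
        (baseHom w hv).toMonoidHom from rfl, hu]
    have hunit : valv w k0⁻¹ = 1 := by rw [map_inv₀, hk.unit_diag.1, inv_one]
    obtain ⟨⟨h1, h2⟩, h10, hd⟩ := hk
    have hcoe : ((Matrix.GeneralLinearGroup.scalar (Fin 2) (Units.mk0 k0 hk0)⁻¹ * k : GLv w) :
        Matrix (Fin 2) (Fin 2) (w.adicCompletion L)) =
          k0⁻¹ • (k : Matrix (Fin 2) (Fin 2) (w.adicCompletion L)) := by
      rw [Units.val_mul, coe_scalar_eq_smul, Matrix.smul_mul, Matrix.one_mul]; simp
    refine ⟨⟨fun i j => ?_, ?_⟩, ?_, ?_⟩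
    · rw [hcoe, Matrix.smul_apply, smul_eq_mul, map_mul, hunit, one_mul]; exact h1 i j
    · rw [hcoe, Matrix.det_smul, map_mul, map_pow, hunit, one_pow, one_mul]; exact h2
    · rw [hcoe, Matrix.smul_apply, smul_eq_mul, map_mul, hunit, one_mul]; exact h10
    · rw [hcoe, Matrix.smul_apply, Matrix.smul_apply, smul_eq_mul, smul_eq_mul, mul_pow, mul_pow,
        ← mul_sub, map_mul, map_pow, hunit, one_pow, one_mul]
      exact hd
  · intro hb
    obtain ⟨s, k, hk, rfl⟩ := mem_tameSubgroup.1 hb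
    exact mem_tameSubgroup.2 ⟨_, _, (key k).2 hk, by rw [map_mul, embGL_scalar]⟩

include hN in
/-- The tame level upstairs is a tame group. -/
theorem isTameGroup_tame (hw : Orbital.comapPlace τ.σ.toRingEquiv w = w)
    (h3 : valv w (3 : w.adicCompletion L) = 1) :
    letI := baseAlgebra w hv
    IsTameGroup (valv w) (sigmaLocal τ w hv hw) (tameSubgroup w)
      (primeToThreeOrder w * Ideal.absNorm w.asIdeal) := by
  let := baseAlgebra w hv
  refine ⟨fun g hg => congSubgroup_one_le_tame w hg, ?_, ?_, fun j hj => tame_pow_cong hj,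
    not_three_dvd_tameExponent h3, ?_⟩
  · intro j hj a ha
    obtain ⟨s, k, hk, rfl⟩ := mem_tameSubgroup.1 hj
    exact congZ_conj (mul_mem_vertexSubgroup_iff.2 ⟨s, k, hk.1, rfl⟩) ha
  · intro j hj
    obtain ⟨s, k, hk, rfl⟩ := mem_tameSubgroup.1 hj
    set S := sigmaGL (sigmaLocal τ w hv hw)
    rw [map_mul, show S (Matrix.GeneralLinearGroup.scalar (Fin 2) s) = _ from glMap_scalar _ s,
      _root_.mul_inv_rev, ← map_inv (Matrix.GeneralLinearGroup.scalar (Fin 2)) s, mul_assoc,
      ← mul_assoc (Matrix.GeneralLinearGroup.scalar (Fin 2) s⁻¹), ← map_mul, mul_scalar_mul,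
      scalar_mul_mem_congZ_iff]
    refine congGL_le_congZ 1 ⟨mul_mem (inv_mem (show k ∈ intGL (valv w) from hk.1))
      ((glMap_mem_intGL (v := valv w) (v' := valv w)
        ((sigmaLocal τ w hv hw : w.adicCompletion L →+* w.adicCompletion L))
        (valv_sigmaCompl τ w hw)).mpr hk.1), ?_⟩
    show nrm (valv w) _ ≤ lev 1
    rw [Units.val_mul, show ((k⁻¹ : GLv w) : Matrix (Fin 2) (Fin 2) (w.adicCompletion L)) *
      (S k : GLv w).val - 1 = ((k⁻¹ : GLv w) : Matrix (Fin 2) (Fin 2) (w.adicCompletion L)) *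
        ((S k : GLv w).val - k.val) by
        rw [Matrix.mul_sub, ← Units.val_mul k⁻¹ k, inv_mul_cancel, Units.val_one],
      nrm_mul_left (inv_mem (show k ∈ intGL (valv w) from hk.1))]
    refine nrm_le_iff.2 fun i l => ?_
    rw [show lev 1 = WithZero.exp (-1 : ℤ) by simp [lev]]
    exact lt_one_iff_le_exp.1 (sigmaLocal_residual τ w hv hN hw (hk.1.1 i l))
  · intro b hb
    obtain ⟨r, s, hr, e⟩ := tame_exists_root (valv_three_base w hv h3)
      ((mem_tame_embGL_iff w hv hN b).1 hb)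
    exact ⟨r, s, (mem_tame_embGL_iff w hv hN r).2 hr, e⟩

end Place

/-! ### The transfer -/

open IsDedekindDomain NumberField

variable {K L : Type} [Field K] [NumberField K] [Field L] [NumberField L] [Algebra K L]

open Classical in
/-- The indicator of the tame level. -/
def tameInd {F : Type} [Field F] [NumberField F] (u : FPlace F) (g : GLv u) : ℂ :=
  if g ∈ tameSubgroup u then 1 else 0

/-- **The transfer at a tame place**: with a single place above, three a unit and equal residue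
fields, the indicators of the tame levels match. -/
theorem localMatch_tame (τ : Orbital.CubicAut K L) {v : FPlace K} (w₀ : Orbital.Over L v)
    (huniq : ∀ w : Orbital.Over L v, w = w₀) (hN : Ideal.absNorm w₀.1.asIdeal =
      Ideal.absNorm v.asIdeal)
    (h3 : valv w₀.1 (3 : w₀.1.adicCompletion L) = 1) (UL : Level L) (UK : Level K)
    (hUL : UL.J w₀.1 = tameSubgroup w₀.1) (hUK : UK.J v = tameSubgroup v)
    (fL : ∀ w : FPlace L, GLv w → ℂ) (fK : GLv v → ℂ)
    (hfL : ∀ g, fL w₀.1 g = tameInd w₀.1 g) (hfK : ∀ g, fK g = tameInd v g) :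
    Orbital.LocalMatch τ UL UK v fL fK := by
  classical
  let := baseAlgebra w₀.1 w₀.2
  have := charZero_compl L w₀.1
  have := infinite_of_local (isLocalVal_valv v)
  set hw := comapPlace_eq_self τ w₀ huniq
  have hc : threeLev w₀.1 = 0 := by
    rw [threeLev, h3, WithZero.log_one]; rfl
  have h := isCubicLevel_compl τ w₀.1 w₀.2 hw
  rw [hc] at h
  have hJ := isTameGroup_tame τ w₀.1 w₀.2 hN hw h3
  have hemb := mem_tame_embGL_iff w₀.1 w₀.2 hN
  set σ := sigmaLocal τ w₀.1 w₀.2 hw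
  intro γ hγ
  have hbase : ∀ y, Orbital.baseTerm UK v fK γ y = if embGL (v.adicCompletion K)
      (w₀.1.adicCompletion L) (y.out⁻¹ * γ * y.out) ∈ tameSubgroup w₀.1 then 1 else 0 := fun y => by
    rw [Orbital.baseTerm, hfK, tameInd]
    exact if_congr (hemb _).symm rfl rfl
  let P : Orbital.LocalProj UK v fK γ {g | Commute g γ} :=
    { proj := fun y => {y}
      smul := fun g _ y => by simp
      nonempty := fun y _ => Finset.singleton_nonempty y
      finite := fun q => (Set.finite_singleton q).subset fun y hy =>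
        (Finset.mem_singleton.1 hy.2).symm }
  have hpush : ∀ q, P.push UK v fK q = Orbital.baseTerm UK v fK γ q := fun q => by
    rw [Orbital.LocalProj.push, show {y | q ∈ P.proj y} = {q} by
      ext y; exact Finset.mem_singleton.trans eq_comm, finsum_mem_singleton]
    simp [P]
  refine ⟨fun δ hδ _ => ?_, fun hno _ => ⟨P, fun q => ?_⟩⟩
  · obtain ⟨c₀, hc₀⟩ := (isLocalNorm_iff τ w₀ huniq δ γ).1 hδ
    have htw : ∀ X, Orbital.twistTerm τ UL v fL δ X = if (X w₀).out⁻¹ * δ w₀ *
        sigmaGL σ (X w₀).out ∈ tameSubgroup w₀.1 then 1 else 0 := fun X => by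
      rw [twistTerm_single τ w₀ huniq, hfL]
      rfl
    rcases hJ.exists_tame_match h (nonCentral_of_isRegular hγ) hc₀ with
      ⟨hB, hT⟩ | ⟨t, ht, hiff, hdec⟩
    · refine ⟨{
        toLocalProj := P
        projL := fun _ => ∅
        smulL := fun g _ X => (Finset.image_empty _).symm
        nonemptyL := fun X hX => absurd (by rw [htw, if_neg (hT _)]) hX
        finiteL := fun q => Set.finite_empty.subset fun X hX => absurd hX.2 (Finset.notMem_empty q)
        sum_eq := fun q => ?_ }⟩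
      rw [hpush, hbase, if_neg (hB _)]
      exact finsum_mem_eq_zero_of_forall_eq_zero fun X hX => absurd hX (Finset.notMem_empty q)
    · let e : GLv v ⧸ UK.J v → GLv w₀.1 ⧸ UL.J w₀.1 := fun y =>
        QuotientGroup.mk (t⁻¹ * embGL (v.adicCompletion K) (w₀.1.adicCompletion L) y.out)
      have hemk : ∀ a : GLv v, e (QuotientGroup.mk a) =
          QuotientGroup.mk (t⁻¹ * embGL (v.adicCompletion K) (w₀.1.adicCompletion L) a) :=
        fun a => by
        obtain ⟨k, hk⟩ := QuotientGroup.mk_out_eq_mul (UK.J v) a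
        show QuotientGroup.mk _ = _
        rw [hk, map_mul, ← mul_assoc, QuotientGroup.mk_mul_of_mem]
        rw [hUL, hemb, ← hUK]
        exact k.2
      have hinj : Function.Injective e := by
        intro y y' hyy
        rw [← QuotientGroup.out_eq' y, ← QuotientGroup.out_eq' y', QuotientGroup.eq]
        refine (SetLike.ext_iff.1 hUK _).2 ((hemb _).1 ?_)
        have := (SetLike.ext_iff.1 hUL _).1 (QuotientGroup.eq.1 hyy)
        rwa [_root_.mul_inv_rev, inv_inv, mul_assoc, mul_inv_cancel_left, ← map_inv,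
          ← map_mul] at this
      have hesmul : ∀ g : GLv v, Commute g γ → ∀ y, e (g • y) =
          embGL (v.adicCompletion K) (w₀.1.adicCompletion L) g • e y := fun g hg y => by
        induction y using QuotientGroup.induction_on with
        | H a =>
          rw [MulAction.Quotient.smul_mk, smul_eq_mul, hemk, hemk, MulAction.Quotient.smul_mk,
            smul_eq_mul]
          congr 1
          rw [map_mul, ← mul_assoc, ← mul_assoc]
          congr 1
          rw [eq_comm, eq_inv_mul_iff_mul_eq, ← mul_assoc, ht g hg.eq, mul_inv_cancel_right]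
      have hstab : ∀ j ∈ UL.J w₀.1, ∀ x : GLv w₀.1,
          (x * j)⁻¹ * δ w₀ * sigmaGL σ (x * j) ∈ tameSubgroup w₀.1 ↔
            x⁻¹ * δ w₀ * sigmaGL σ x ∈ tameSubgroup w₀.1 := fun j hj x =>
        hJ.twist_mul_mem_iff (hUL ▸ hj) x (δ w₀)
      have hterm : ∀ X y, X w₀ = e y →
          Orbital.twistTerm τ UL v fL δ X = Orbital.baseTerm UK v fK γ y := fun X y hX => by
        rw [htw, hbase]
        refine if_congr ((hiff y.out).trans ?_).symm rfl rfl
        obtain ⟨j, hj⟩ := QuotientGroup.mk_out_eq_mul (UL.J w₀.1)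
          (t⁻¹ * embGL (v.adicCompletion K) (w₀.1.adicCompletion L) y.out)
        rw [hX, show (e y).out = _ from hj, hstab _ j.2]
      have hev := bijective_eval UL w₀ huniq
      let pr : GLv w₀.1 ⧸ UL.J w₀.1 → Finset (GLv v ⧸ UK.J v) := fun x =>
        if hx : ∃ y, e y = x then {hx.choose} else ∅
      have hpr : ∀ x q, q ∈ pr x ↔ e q = x := fun x q => by
        by_cases hx : ∃ y, e y = x
        · rw [show pr x = {hx.choose} from dif_pos hx, Finset.mem_singleton]
          exact ⟨fun e' => e' ▸ hx.choose_spec, fun e' => hinj (e'.trans hx.choose_spec.symm)⟩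
        · rw [show pr x = ∅ from dif_neg hx]
          exact ⟨fun e' => absurd e' (Finset.notMem_empty q), fun e' => (hx ⟨q, e'⟩).elim⟩
      refine ⟨{
        toLocalProj := P
        projL := fun X => pr (X w₀)
        smulL := fun g hg X => ?_
        nonemptyL := fun X hX => ?_
        finiteL := fun q => (((Set.finite_singleton (e q)).preimage hev.1.injOn)).subset
          fun X hX => ((hpr _ q).1 hX.2).symm
        sum_eq := fun q => ?_ }⟩
      · ext q
        rw [Finset.mem_image, hpr]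
        show e q = embGL (v.adicCompletion K) (w₀.1.adicCompletion L) g • X w₀ ↔ _
        constructor
        · intro hq
          refine ⟨g⁻¹ • q, (hpr _ _).2 ?_, smul_inv_smul g q⟩
          rw [hesmul g⁻¹ hg.inv_left, hq, map_inv, inv_smul_smul]
        · rintro ⟨y, hy, rfl⟩
          rw [hesmul g hg, (hpr _ _).1 hy]
      · rw [htw] at hX
        have hT := by_contra fun hT => hX (if_neg hT)
        obtain ⟨y, hy⟩ := hdec _ hT
        refine ⟨QuotientGroup.mk y, (hpr _ _).2 ?_⟩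
        rw [hemk, ← QuotientGroup.out_eq' (X w₀), QuotientGroup.eq]
        exact (SetLike.ext_iff.1 hUL _).2 hy
      · obtain ⟨X₀, hX₀⟩ := hev.2 (e q)
        have hX₀' : X₀ w₀ = e q := hX₀
        have hset : {X : Orbital.Ωover UL v | q ∈ pr (X w₀)} = {X₀} := by
          ext X
          rw [Set.mem_ofPred_eq, hpr, Set.mem_singleton_iff]
          exact ⟨fun e' => hev.1 (show X w₀ = X₀ w₀ by rw [hX₀', e']), fun e' => by rw [e', hX₀']⟩
        have hcard : pr (X₀ w₀) = {q} := by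
          ext p
          rw [hpr, Finset.mem_singleton, hX₀']
          exact hinj.eq_iff
        show ∑ᶠ X ∈ {X : Orbital.Ωover UL v | q ∈ pr (X w₀)}, _ = _
        rw [hpush, hset, finsum_mem_singleton, hterm X₀ q hX₀']
        show _ / ((pr (X₀ w₀)).card : ℂ) = _
        rw [hcard, Finset.card_singleton, Nat.cast_one, div_one]
  · rw [hpush, hbase, if_neg]
    intro hy
    set a := q.out
    obtain ⟨r, s, -, e⟩ := hJ.root _ hy
    obtain ⟨δ, hδ⟩ := exists_gover w₀
      (embGL (v.adicCompletion K) (w₀.1.adicCompletion L) (a * r * a⁻¹))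
    refine hno ⟨δ, (isLocalNorm_iff τ w₀ huniq δ γ).2
      ⟨Units.map (algebraMap (v.adicCompletion K) (w₀.1.adicCompletion L)).toMonoidHom s, ?_⟩⟩
    rw [hδ, show normGL σ (embGL _ _ (a * r * a⁻¹)) = _ from norm_embGL σ _, conj_pow, e,
      mul_scalar_mul, mul_assoc (Matrix.GeneralLinearGroup.scalar (Fin 2) s),
      show a * (a⁻¹ * γ * a) * a⁻¹ = γ by group, map_mul, embGL_scalar]

end Fermat.Agent.ResidualThree.Tree
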