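import Fermat.Agent.ResidualThree.Tree.CongWeight

/-!
# The function downstairs matching a character of a small subgroup

A character of the subgroup of level `n` upstairs which is trivial on scalars and invariant under
the automorphism takes the same value on all twisted conjugates inside that subgroup.  So the
matching function `charWeight` downstairs is, at a cube, the value at its root times `cubeWeight`,
and it has the invariance properties of `cubeWeight`.
-/

noncomputable section

open Matrix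
open scoped WithZero

namespace Fermat.Agent.ResidualThree.Tree

variable {K L : Type*} [Field K] [Field L] [Algebra K L] {vL : Valuation L ℤᵐ⁰} {σ : L ≃ₐ[K] L}
  {q c n e : ℕ} {chi : GL (Fin 2) L → ℂ}

/-- A character of the subgroup of level `n`, trivial on scalars and at level `e`, invariant under
the automorphism. -/
structure IsLevelChar (vL : Valuation L ℤᵐ⁰) (σ : L ≃ₐ[K] L) (n e : ℕ)
    (chi : GL (Fin 2) L → ℂ) : Prop where
  map_mul : ∀ a ∈ congZ vL n, ∀ b ∈ congZ vL n, chi (a * b) = chi a * chi b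
  map_scalar : ∀ s : Lˣ, chi (Matrix.GeneralLinearGroup.scalar (Fin 2) s) = 1
  map_deep : ∀ g ∈ congZ vL n, g ∈ congZ vL e → chi g = 1
  map_sigma : ∀ g ∈ congZ vL n, chi (sigmaGL σ g) = chi g

namespace IsLevelChar

variable (hχ : IsLevelChar vL σ n e chi)
include hχ

/-- The value at one. -/
theorem map_one : chi 1 = 1 := by
  simpa using hχ.map_scalar 1

/-- Scalars do not change the value. -/
theorem map_scalar_mul (s : Lˣ) {g : GL (Fin 2) L} (hg : g ∈ congZ vL n) :
    chi (Matrix.GeneralLinearGroup.scalar (Fin 2) s * g) = chi g := by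
  rw [hχ.map_mul _ (scalar_mem_congZ s n) _ hg, hχ.map_scalar, one_mul]

/-- The value at an inverse is inverse to the value. -/
theorem inv_mul {a : GL (Fin 2) L} (ha : a ∈ congZ vL n) : chi a⁻¹ * chi a = 1 := by
  rw [← hχ.map_mul _ (inv_mem ha) _ ha, inv_mul_cancel, hχ.map_one]

/-- The value is invariant under conjugation. -/
theorem map_conj {a w : GL (Fin 2) L} (ha : a ∈ congZ vL n) (hw : w ∈ congZ vL n) :
    chi (a⁻¹ * w * a) = chi w := by
  rw [hχ.map_mul _ (mul_mem (inv_mem ha) hw) _ ha, hχ.map_mul _ (inv_mem ha) _ hw, mul_right_comm,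
    hχ.inv_mul ha, one_mul]

/-- The value does not change under twisted conjugation. -/
theorem map_twist {a w : GL (Fin 2) L} (ha : a ∈ congZ vL n) (hσa : sigmaGL σ a ∈ congZ vL n)
    (hw : w ∈ congZ vL n) : chi (a⁻¹ * w * sigmaGL σ a) = chi w := by
  rw [hχ.map_mul _ (mul_mem (inv_mem ha) hw) _ hσa, hχ.map_mul _ (inv_mem ha) _ hw,
    hχ.map_sigma _ ha, mul_right_comm, hχ.inv_mul ha, one_mul]

end IsLevelChar

open Classical in
/-- The value of the character at a cube root. -/
def rootChar (vL : Valuation L ℤᵐ⁰) (n : ℕ) (chi : GL (Fin 2) L → ℂ) (g : GL (Fin 2) K) : ℂ :=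
  if hg : ∃ v : GL (Fin 2) K, embGL K L v ∈ congZ vL n ∧
      ∃ s : Kˣ, v ^ 3 = Matrix.GeneralLinearGroup.scalar (Fin 2) s * g
  then chi (embGL K L hg.choose) else 0

/-- The function downstairs matching the character on the subgroup of level `n + c` upstairs. -/
def charWeight (vL : Valuation L ℤᵐ⁰) (σ : L ≃ₐ[K] L) (n c : ℕ) (chi : GL (Fin 2) L → ℂ)
    (g : GL (Fin 2) K) : ℂ :=
  rootChar vL n chi g * cubeWeight vL σ n c g

variable (h : IsCubicLevel vL σ q c) (hcn : c < n)
  (hχ : IsLevelChar vL σ n e chi)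
include h hcn hχ

/-- The value at any cube root. -/
theorem rootChar_eq {v : GL (Fin 2) K} (hv : embGL K L v ∈ congZ vL n) {s : Kˣ}
    {x : GL (Fin 2) K} (hs : v ^ 3 = Matrix.GeneralLinearGroup.scalar (Fin 2) s * x) :
    rootChar vL n chi x = chi (embGL K L v) := by
  have hg : ∃ v : GL (Fin 2) K, embGL K L v ∈ congZ vL n ∧
      ∃ s : Kˣ, v ^ 3 = Matrix.GeneralLinearGroup.scalar (Fin 2) s * x := ⟨v, hv, s, hs⟩
  rw [rootChar, dif_pos hg]
  obtain ⟨hv₁, s₁, hs₁⟩ := hg.choose_spec
  generalize hg.choose = v₁ at hv₁ hs₁ ⊢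
  obtain ⟨ρ, hρ⟩ := h.cube_unique hcn hv₁ hv 1 (Units.map (algebraMap K L).toMonoidHom (s₁ * s⁻¹))
    (by
      rw [inv_one, one_mul, mul_one, ← map_pow, ← map_pow, hs₁, hs, ← embGL_scalar, ← map_mul,
        map_mul _ s₁, map_inv]
      group)
  rw [inv_one, one_mul, mul_one] at hρ
  rw [hρ, hχ.map_scalar_mul ρ hv]

/-- The value at the root is invariant under conjugation by the ground level. -/
theorem rootChar_conj {a : GL (Fin 2) K} (ha : a ∈ levelBase vL n) (x : GL (Fin 2) K) :
    rootChar vL n chi (a⁻¹ * x * a) = rootChar vL n chi x := by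
  have key : ∀ {a : GL (Fin 2) K}, a ∈ levelBase vL n → ∀ {x : GL (Fin 2) K},
      (∃ v : GL (Fin 2) K, embGL K L v ∈ congZ vL n ∧
        ∃ s : Kˣ, v ^ 3 = Matrix.GeneralLinearGroup.scalar (Fin 2) s * x) →
      rootChar vL n chi (a⁻¹ * x * a) = rootChar vL n chi x := by
    rintro a ha x ⟨v, hv, s, hs⟩
    have hv' : embGL K L (a⁻¹ * v * a) ∈ congZ vL n := by
      rw [map_mul, map_mul, map_inv]; exact mul_mem (mul_mem (inv_mem ha) hv) ha
    rw [rootChar_eq h hcn hχ hv' (s := s) (x := a⁻¹ * x * a) (by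
        rw [conj_cube, hs, mul_scalar_mul, mul_assoc (Matrix.GeneralLinearGroup.scalar (Fin 2) s)]),
      rootChar_eq h hcn hχ hv hs, map_mul, map_mul, map_inv, hχ.map_conj (mem_levelBase.mp ha) hv]
  by_cases hx : ∃ v : GL (Fin 2) K, embGL K L v ∈ congZ vL n ∧
      ∃ s : Kˣ, v ^ 3 = Matrix.GeneralLinearGroup.scalar (Fin 2) s * x
  · exact key ha hx
  by_cases hx' : ∃ v : GL (Fin 2) K, embGL K L v ∈ congZ vL n ∧
      ∃ s : Kˣ, v ^ 3 = Matrix.GeneralLinearGroup.scalar (Fin 2) s * (a⁻¹ * x * a)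
  · have := key (inv_mem ha) hx'
    rw [inv_inv, show a * (a⁻¹ * x * a) * a⁻¹ = x by group] at this
    exact this.symm
  · rw [rootChar, rootChar, dif_neg hx', dif_neg hx]

/-- The weight is invariant under conjugation by the ground level. -/
theorem charWeight_conj {a : GL (Fin 2) K} (ha : a ∈ levelBase vL n) (x : GL (Fin 2) K) :
    charWeight vL σ n c chi (a⁻¹ * x * a) = charWeight vL σ n c chi x := by
  rw [charWeight, charWeight, rootChar_conj h hcn hχ ha, h.cubeWeight_conj hcn ha]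

/-- **Matching at level places, with the value of the character.** -/
theorem exists_charMatch [CharZero L] [Infinite K] {γ : GL (Fin 2) K}
    (hγ : Orbital.CubicAut.NonScalar (γ : Matrix (Fin 2) (Fin 2) K)) {δ : GL (Fin 2) L} {c₀ : Lˣ}
    (hδ : δ * sigmaGL σ δ * sigmaGL σ (sigmaGL σ δ) =
      Matrix.GeneralLinearGroup.scalar (Fin 2) c₀ * embGL K L γ) :
    ∃ pL : GL (Fin 2) L ⧸ congZ vL (n + c) →
        GL (Fin 2) K ⧸ (levelBase vL n : Subgroup (GL (Fin 2) K)),
      (∀ g : GL (Fin 2) K, g * γ = γ * g → ∀ x ∈ twistSet vL σ δ (n + c),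
        embGL K L g • x ∈ twistSet vL σ δ (n + c) ∧ pL (embGL K L g • x) = g • pL x) ∧
      ∀ y : GL (Fin 2) K, {x ∈ twistSet vL σ δ (n + c) | pL x = QuotientGroup.mk y}.Finite ∧
        ({x ∈ twistSet vL σ δ (n + c) | pL x = QuotientGroup.mk y}.ncard : ℂ) =
          cubeWeight vL σ n c (y⁻¹ * γ * y) ∧
        ∀ x ∈ twistSet vL σ δ (n + c), pL x = QuotientGroup.mk y →
          chi (x.out⁻¹ * δ * sigmaGL σ x.out) = rootChar vL n chi (y⁻¹ * γ * y) := by
  obtain ⟨pL, hL, hLs⟩ := h.exists_congMatch hcn hγ hδ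
  refine ⟨pL, hL, fun y => ⟨(hLs y).1, (hLs y).2.1, fun x hx hp => ?_⟩⟩
  obtain ⟨r, s, m, a, ha, hr, hr3, e⟩ := (hLs y).2.2 x hx hp
  have hσa := h.sigmaGL_mem_congZ ha
  rw [e, hχ.map_scalar_mul _ (mul_mem (mul_mem (inv_mem ha) hr) hσa), hχ.map_twist ha hσa hr,
    rootChar_eq h hcn hχ hr hr3]

variable {E : ℕ} (hE : n + c ≤ E) (heE : e ≤ E)
include hE heE

/-- The value at the root is invariant on the right under the deeper ground level. -/
theorem rootChar_mul {j : GL (Fin 2) K} (hj : j ∈ levelBase vL (E + c)) (x : GL (Fin 2) K) :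
    rootChar vL n chi (x * j) = rootChar vL n chi x := by
  have key : ∀ {j : GL (Fin 2) K}, j ∈ levelBase vL (E + c) → ∀ {x : GL (Fin 2) K},
      (∃ v : GL (Fin 2) K, embGL K L v ∈ congZ vL n ∧
        ∃ s : Kˣ, v ^ 3 = Matrix.GeneralLinearGroup.scalar (Fin 2) s * x) →
      rootChar vL n chi (x * j) = rootChar vL n chi x := by
    rintro j hj x ⟨v, hv, s, hs⟩
    obtain ⟨r, s', t, b, hr, hr3, hb, er⟩ := h.exists_root_mul hcn hE hj hv hs
    have hbn : b ∈ congZ vL n := congZ_le (by omega) hb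
    rw [rootChar_eq h hcn hχ hr hr3, rootChar_eq h hcn hχ hv hs, er,
      hχ.map_mul _ ((scalar_mul_mem_congZ_iff t).mpr hv) _ hbn, hχ.map_scalar_mul t hv,
      hχ.map_deep b hbn (congZ_le heE hb), mul_one]
  by_cases hx : ∃ v : GL (Fin 2) K, embGL K L v ∈ congZ vL n ∧
      ∃ s : Kˣ, v ^ 3 = Matrix.GeneralLinearGroup.scalar (Fin 2) s * x
  · exact key hj hx
  by_cases hx' : ∃ v : GL (Fin 2) K, embGL K L v ∈ congZ vL n ∧
      ∃ s : Kˣ, v ^ 3 = Matrix.GeneralLinearGroup.scalar (Fin 2) s * (x * j)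
  · have := key (inv_mem hj) hx'
    rw [mul_inv_cancel_right] at this
    exact this.symm
  · rw [rootChar, rootChar, dif_neg hx', dif_neg hx]

/-- The weight is invariant on the right under the deeper ground level. -/
theorem charWeight_mul {j : GL (Fin 2) K} (hj : j ∈ levelBase vL (E + c)) (x : GL (Fin 2) K) :
    charWeight vL σ n c chi (x * j) = charWeight vL σ n c chi x := by
  rw [charWeight, charWeight, rootChar_mul h hcn hχ hE heE hj,
    h.cubeWeight_mul hcn (mem_levelBase.mpr (congZ_le (by omega) (mem_levelBase.mp hj)))]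

/-- The weight is invariant on the left under the deeper ground level. -/
theorem charWeight_mul_left {j : GL (Fin 2) K} (hj : j ∈ levelBase vL (E + c))
    (x : GL (Fin 2) K) : charWeight vL σ n c chi (j * x) = charWeight vL σ n c chi x := by
  have hj' : j ∈ levelBase vL (n + c + c) :=
    mem_levelBase.mpr (congZ_le (by omega) (mem_levelBase.mp hj))
  rcases eq_or_ne (cubeWeight vL σ n c x) 0 with hx | hx
  · rw [charWeight, charWeight, h.cubeWeight_mul_left hcn hj', hx, mul_zero, mul_zero]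
  · rw [show j * x = x * (x⁻¹ * j * x) by group, charWeight_mul h hcn hχ hE heE]
    have := congZ_conj (congZ_le_vertexSubgroup (n + c)
      (h.mem_levelBase_of_cubeWeight hcn hx)) (mem_levelBase.mp hj)
    rw [mem_levelBase, map_mul, map_mul, map_inv]
    exact this

end Fermat.Agent.ResidualThree.Tree
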